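import Fermat.Prelude.Def_GaloisRep_ComplexConjugation
import Fermat.Agent.Density.CharpolyDetermines
import Fermat.Agent.Density.FrobeniusDensity
import Fermat.Agent.EC.Det.CyclotomicChar
import Mathlib.RingTheory.Filtration
import Mathlib.LinearAlgebra.Matrix.Charpoly.Coeff

/-!
# Determinant of a two-dimensional representation from a quadratic relation at Frobenius

A representation `ρ` of `Γ_ℚ` of rank two over a complete discrete valuation ring of residue
characteristic `p` with `ρ(σ)² - a_ℓ ρ(σ) + ℓ = 0` at Frobenius elements and `det ρ(c) = -1` at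
complex conjugation has characteristic polynomial `X² - a_ℓ X + ℓ` at those elements.  No pairing
is used: where the determinant differs from the cyclotomic character, `ρ` is scalar, and complex
conjugation is not scalar.
-/

set_option autoImplicit false

noncomputable section

open Polynomial

namespace Fermat.Agent.EichlerShimura

local notation "ℚ̄" => AlgebraicClosure ℚ
local notation "Γℚ" => (AlgebraicClosure ℚ ≃ₐ[ℚ] AlgebraicClosure ℚ)

/-- Complex conjugation inverts roots of unity. -/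
theorem cycloChar_complexConjugation (n : ℕ) [NeZero n] :
    (EC.cycloChar n complexConjugation : ZMod n) = -1 := by
  obtain ⟨ζ, hζ⟩ := EC.exists_primitiveRoot_qbar n
  have hn : n - 1 + 1 = n := Nat.sub_add_cancel (NeZero.pos n)
  have h : complexConjugation ζ = ζ ^ (n - 1) := by
    refine complexEmbedding.toRingHom.injective ?_
    show complexEmbedding (complexConjugation ζ) = complexEmbedding (ζ ^ (n - 1))
    set z := complexEmbedding ζ with hz
    have hzn : z ^ n = 1 := by rw [hz, ← map_pow, hζ.pow_eq_one, map_one]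
    rw [complexEmbedding_complexConjugation, map_pow, ← hz,
      ← Complex.inv_eq_conj (Complex.norm_eq_one_of_pow_eq_one hzn (NeZero.ne n))]
    refine inv_eq_of_mul_eq_one_right ?_
    rw [← pow_succ', hn, hzn]
  rw [EC.cycloChar_eq_of_apply_eq_pow n complexConjugation hζ h]
  have : ((n - 1 : ℕ) : ZMod n) + 1 = 0 := by
    rw [← Nat.cast_add_one, hn, ZMod.natCast_self]
  exact eq_neg_of_add_eq_zero_left this

section Matrix

variable {R : Type*} [CommRing R]

/-- The scalar matrices of size two, entrywise. -/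
def IsScalarTwo (M : Matrix (Fin 2) (Fin 2) R) : Prop :=
  M 0 1 = 0 ∧ M 1 0 = 0 ∧ M 0 0 = M 1 1

theorem IsScalarTwo.eq {M : Matrix (Fin 2) (Fin 2) R} (h : IsScalarTwo M) :
    M = M 0 0 • 1 := by
  obtain ⟨h01, h10, h11⟩ := h
  ext i j
  fin_cases i <;> fin_cases j <;> simp_all

theorem isScalarTwo_smul_one (r : R) : IsScalarTwo (r • (1 : Matrix (Fin 2) (Fin 2) R)) := by
  simp [IsScalarTwo]

/-- A matrix of size two which is not scalar has only one monic quadratic relation. -/
theorem eq_trace_and_eq_det_of_quadratic [IsDomain R] {M : Matrix (Fin 2) (Fin 2) R} {a d : R}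
    (h : M * M - a • M + d • 1 = 0) (hM : ¬ IsScalarTwo M) : a = M.trace ∧ d = M.det := by
  have h00 := congrFun (congrFun h 0) 0
  have h01 := congrFun (congrFun h 0) 1
  have h10 := congrFun (congrFun h 1) 0
  have h11 := congrFun (congrFun h 1) 1
  simp [Matrix.mul_apply, Fin.sum_univ_two] at h00 h01 h10 h11
  have key : a = M.trace := by
    by_contra hne
    have hne' : M 0 0 + M 1 1 - a ≠ 0 := by
      rwa [Matrix.trace_fin_two, ← Ne, ne_comm, ← sub_ne_zero] at hne
    refine hM ⟨?_, ?_, ?_⟩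
    · exact (mul_eq_zero.mp (by linear_combination h01 :
        (M 0 0 + M 1 1 - a) * M 0 1 = 0)).resolve_left hne'
    · exact (mul_eq_zero.mp (by linear_combination h10 :
        (M 0 0 + M 1 1 - a) * M 1 0 = 0)).resolve_left hne'
    · exact sub_eq_zero.mp ((mul_eq_zero.mp (by linear_combination h00 - h11 :
        (M 0 0 + M 1 1 - a) * (M 0 0 - M 1 1) = 0)).resolve_left hne')
  refine ⟨key, ?_⟩
  rw [Matrix.trace_fin_two] at key
  rw [Matrix.det_fin_two]
  linear_combination h00 + M 0 0 * key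

end Matrix

section Main

variable {O : Type} [CommRing O] [IsDomain O] [IsLocalRing O] [IsNoetherianRing O]

omit [IsDomain O] in
theorem eq_of_forall_sub_mem_pow {x y : O}
    (h : ∀ k : ℕ, x - y ∈ IsLocalRing.maximalIdeal O ^ k) : x = y := by
  refine sub_eq_zero.mp ?_
  have hbot := Ideal.iInf_pow_smul_eq_bot_of_isLocalRing (M := O)
    (IsLocalRing.maximalIdeal O) (Ideal.IsMaximal.ne_top inferInstance)
  have : x - y ∈ ⨅ k : ℕ, IsLocalRing.maximalIdeal O ^ k • (⊤ : Submodule O O) :=
    (Submodule.mem_iInf _).mpr fun k => by simpa [smul_eq_mul, Ideal.mul_top] using h k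
  rwa [hbot, Submodule.mem_bot] at this

variable [CharZero O]

/-- A representation of rank two with a quadratic relation `σ² - a_ℓ σ + ℓ = 0` at Frobenius
elements and determinant `-1` at complex conjugation has characteristic polynomial
`X² - a_ℓ X + ℓ` at those elements. -/
theorem charpoly_eq_of_quadratic (p : ℕ) [Fact p.Prime]
    (hpO : (p : O) ∈ IsLocalRing.maximalIdeal O) (ρ : GaloisRepAdic O)
    (S : Finset ℕ) (hpS : p ∈ S) (a : ℕ → O)
    (hrel : ∀ ℓ : ℕ, ℓ.Prime → ℓ ∉ S → ∀ A : ValuationSubring ℚ̄, A.LiesOverPrime ℓ →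
      ∀ σ : Γℚ, A.IsFrobeniusAt σ ℓ → ρ.ρ σ * ρ.ρ σ - a ℓ • ρ.ρ σ + (ℓ : O) • 1 = 0)
    (hc : LinearMap.det (ρ.ρ complexConjugation) = -1) :
    ∀ ℓ : ℕ, ℓ.Prime → ℓ ∉ S → ∀ A : ValuationSubring ℚ̄, A.LiesOverPrime ℓ →
      ∀ σ : Γℚ, A.IsFrobeniusAt σ ℓ →
        LinearMap.charpoly (ρ.ρ σ) = X ^ 2 - C (a ℓ) * X + C (ℓ : O) := by
  have hp : p.Prime := Fact.out
  let b := Module.finBasisOfFinrankEq O ρ.V ρ.finrank_eq
  let m : Γℚ →* Matrix (Fin 2) (Fin 2) O :=
    { toFun := fun σ => LinearMap.toMatrixAlgEquiv b (ρ.ρ σ)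
      map_one' := by rw [map_one, map_one]
      map_mul' := fun σ τ => by rw [map_mul, map_mul] }
  have hmdet : ∀ σ, (m σ).det = LinearMap.det (ρ.ρ σ) := fun σ => LinearMap.det_toMatrix b _
  have hmrel : ∀ ℓ : ℕ, ℓ.Prime → ℓ ∉ S → ∀ A : ValuationSubring ℚ̄, A.LiesOverPrime ℓ →
      ∀ σ : Γℚ, A.IsFrobeniusAt σ ℓ → m σ * m σ - a ℓ • m σ + (ℓ : O) • 1 = 0 := by
    intro ℓ hℓ hℓS A hA σ hσ
    have := congrArg (LinearMap.toMatrixAlgEquiv b) (hrel ℓ hℓ hℓS A hA σ hσ)
    simp only [map_add, map_sub, map_mul, map_smul, map_one, map_zero] at this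
    exact this
  -- reductions modulo `𝔪 ^ k`
  let I : ℕ → Ideal O := fun k => IsLocalRing.maximalIdeal O ^ k
  let q : ∀ k, O →+* O ⧸ I k := fun k => Ideal.Quotient.mk (I k)
  let red : ∀ k, Γℚ →* Matrix (Fin 2) (Fin 2) (O ⧸ I k) := fun k =>
    (q k).mapMatrix.toMonoidHom.comp m
  let δ : ∀ k, Γℚ →* O ⧸ I k := fun k => (q k).toMonoidHom.comp (LinearMap.det.comp ρ.ρ)
  have hchar : ∀ k, ringChar (O ⧸ I k) ∣ p ^ k := fun k => ringChar.dvd (by
    rw [← map_natCast (q k), Nat.cast_pow]
    exact Ideal.Quotient.eq_zero_iff_mem.mpr (Ideal.pow_mem_pow hpO k))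
  have : NeZero p := ⟨hp.ne_zero⟩
  let χ : ∀ k, Γℚ →* O ⧸ I k := fun k => (ZMod.castHom (hchar k) (O ⧸ I k)).toMonoidHom.comp
    ((Units.coeHom (ZMod (p ^ k))).comp (EC.cycloChar (p ^ k)))
  have hχfrob : ∀ k (ℓ : ℕ), ℓ.Prime → ℓ ≠ p → ∀ A : ValuationSubring ℚ̄, A.LiesOverPrime ℓ →
      ∀ σ : Γℚ, A.IsFrobeniusAt σ ℓ → χ k σ = q k (ℓ : O) := by
    intro k ℓ hℓ hℓp A hA σ hσ
    show ZMod.castHom (hchar k) (O ⧸ I k) (EC.cycloChar (p ^ k) σ : ZMod (p ^ k)) = q k (ℓ : O)
    rw [EC.cycloChar_eq_of_isFrobeniusAt hℓ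
      (fun hd => hℓp ((Nat.prime_dvd_prime_iff_eq hℓ hp).mp (hℓ.dvd_of_dvd_pow hd))) hA hσ,
      map_natCast, map_natCast]
  have hcδ : ∀ k, δ k complexConjugation = χ k complexConjugation := by
    intro k
    show q k (LinearMap.det (ρ.ρ complexConjugation)) = ZMod.castHom (hchar k) (O ⧸ I k)
      (EC.cycloChar (p ^ k) complexConjugation : ZMod (p ^ k))
    rw [hc, cycloChar_complexConjugation, map_neg, map_neg, map_one, map_one]
  -- where the determinant is not cyclotomic, `ρ` is scalar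
  have hscalar : ∀ g : Γℚ, ∀ k₀, δ k₀ g ≠ χ k₀ g → IsScalarTwo (m g) := by
    intro g k₀ hg
    have hmod : ∀ k, q k (m g 0 1) = 0 ∧ q k (m g 1 0) = 0 ∧ q k (m g 0 0) = q k (m g 1 1) := by
      intro k
      obtain ⟨L₁, hL₁, h₁⟩ := Density.adic_exists_level_map_mk ρ b k
      obtain ⟨L₂, hL₂, h₂⟩ := Density.adic_exists_level_map_mk ρ b k₀
      obtain ⟨L₃, hL₃, h₃⟩ := EC.cycloChar_factors (p ^ k₀)
      obtain ⟨ℓ, hℓ, hℓS, A, σ, hA, hσ, -, _, t, -, ht⟩ :=
        Density.exists_isFrobeniusAt_map_pow ((red k).prod ((δ k₀).prod (χ k₀)))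
          ⟨L₁ ⊔ L₂ ⊔ L₃, inferInstance, fun τ hτ => Prod.ext
            (h₁ τ fun x hx => hτ x (le_sup_left (b := L₃) (le_sup_left (b := L₂) hx)))
            (Prod.ext
              (by
                have := congrArg Matrix.det
                  (h₂ τ fun x hx => hτ x (le_sup_left (b := L₃) (le_sup_right (a := L₁) hx)))
                rw [← RingHom.mapMatrix_apply, ← RingHom.map_det, Matrix.det_one] at this
                exact (congrArg (q k₀) (hmdet τ).symm).trans this)
              (by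
                show ZMod.castHom (hchar k₀) (O ⧸ I k₀)
                  (EC.cycloChar (p ^ k₀) τ : ZMod (p ^ k₀)) = 1
                rw [h₃ τ fun x hx => hτ x (le_sup_right (a := L₁ ⊔ L₂) hx), Units.val_one,
                  map_one]))⟩ g S
      simp only [MonoidHom.prod_apply, Prod.pow_mk, Prod.mk.injEq] at ht
      obtain ⟨hgk, hgd, hgx⟩ := ht
      have hσs : IsScalarTwo (m σ) := by
        by_contra hns
        have hd := (eq_trace_and_eq_det_of_quadratic (hmrel ℓ hℓ hℓS A hA σ hσ) hns).2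
        refine hg ?_
        rw [hgd, hgx, hχfrob k₀ ℓ hℓ (fun h => hℓS (h ▸ hpS)) A hA σ hσ, hd, hmdet]
        rfl
      have hgs : red k g = (q k (m σ 0 0) ^ t) • 1 := by
        have hred : red k σ = (q k (m σ 0 0)) • 1 := by
          show (m σ).map (q k) = _
          ext i j
          rw [hσs.eq]
          fin_cases i <;> fin_cases j <;> simp
        rw [hgk, hred, _root_.smul_pow, one_pow]
      obtain ⟨e01, e10, e11⟩ := hgs.symm ▸ isScalarTwo_smul_one (q k (m σ 0 0) ^ t)
      exact ⟨e01, e10, e11⟩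
    refine ⟨eq_of_forall_sub_mem_pow fun k => ?_, eq_of_forall_sub_mem_pow fun k => ?_,
      eq_of_forall_sub_mem_pow fun k => Ideal.Quotient.eq.mp (hmod k).2.2⟩
    · rw [sub_zero]; exact Ideal.Quotient.eq_zero_iff_mem.mp (hmod k).1
    · rw [sub_zero]; exact Ideal.Quotient.eq_zero_iff_mem.mp (hmod k).2.1
  -- complex conjugation is not scalar, hence the determinant is cyclotomic
  have hdetχ : ∀ g k, δ k g = χ k g := by
    intro g k
    by_contra hg
    have hs := hscalar g k hg
    have hs' : IsScalarTwo (m (g * complexConjugation)) := hscalar _ k fun h => hg (by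
      rw [map_mul, map_mul, hcδ k] at h
      refine IsUnit.mul_right_cancel ?_ h
      exact (Group.isUnit complexConjugation).map (χ k))
    have hginv : IsScalarTwo (m g⁻¹) := by
      have h1 : m g * m g⁻¹ = 1 := by rw [← map_mul, mul_inv_cancel, map_one]
      rw [hs.eq, smul_mul_assoc, one_mul] at h1
      have hne : m g 0 0 ≠ 0 := fun h0 => by
        have := congrFun (congrFun h1 0) 0
        simp [h0] at this
      refine ⟨?_, ?_, ?_⟩
      · exact (mul_eq_zero.mp (by simpa using congrFun (congrFun h1 0) 1)).resolve_left hne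
      · exact (mul_eq_zero.mp (by simpa using congrFun (congrFun h1 1) 0)).resolve_left hne
      · refine mul_left_cancel₀ hne ?_
        simpa using (congrFun (congrFun h1 0) 0).trans (congrFun (congrFun h1 1) 1).symm
    have hcs : m complexConjugation = (m g⁻¹ 0 0 * m (g * complexConjugation) 0 0) • 1 := by
      rw [← inv_mul_cancel_left g complexConjugation, map_mul, hginv.eq, hs'.eq]
      simp [smul_smul]
      rw [mul_comm]
    set r := m g⁻¹ 0 0 * m (g * complexConjugation) 0 0 with hr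
    have hsq : m complexConjugation * m complexConjugation = 1 := by
      rw [← map_mul, complexConjugation_mul_self, map_one]
    have hd : (m complexConjugation).det = -1 := (hmdet _).trans hc
    rw [hcs] at hsq hd
    have h1 : r * r = 1 := by simpa using congrFun (congrFun hsq 0) 0
    have h2 : r * r = -1 := by simpa [sq] using hd
    have : (2 : O) = 0 := by linear_combination (h2.symm.trans h1).symm
    exact two_ne_zero this
  intro ℓ hℓ hℓS A hA σ hσ
  have hdet : LinearMap.det (ρ.ρ σ) = (ℓ : O) := eq_of_forall_sub_mem_pow fun k =>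
    Ideal.Quotient.eq.mp
      ((hdetχ σ k).trans (hχfrob k ℓ hℓ (fun h => hℓS (h ▸ hpS)) A hA σ hσ))
  have htr : (m σ).trace = a ℓ := by
    by_cases hs : IsScalarTwo (m σ)
    · have hrel' := congrFun (congrFun (hmrel ℓ hℓ hℓS A hA σ hσ) 0) 0
      obtain ⟨h01, h10, h11⟩ := hs
      simp [Matrix.mul_apply, Fin.sum_univ_two, h01, h10] at hrel'
      rw [← hmdet, Matrix.det_fin_two, h01, ← h11, zero_mul, sub_zero] at hdet
      rw [Matrix.trace_fin_two, ← h11]
      have hne : m σ 0 0 ≠ 0 := fun h0 => by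
        rw [h0, zero_mul] at hdet
        exact hℓ.ne_zero (by exact_mod_cast hdet.symm)
      refine mul_left_cancel₀ hne ?_
      linear_combination hrel' + hdet
    · exact (eq_trace_and_eq_det_of_quadratic (hmrel ℓ hℓ hℓS A hA σ hσ) hs).1.symm
  rw [← LinearMap.charpoly_toMatrix (ρ.ρ σ) b]
  show (m σ).charpoly = _
  rw [Matrix.charpoly_fin_two, htr, hmdet, hdet]

end Main

end Fermat.Agent.EichlerShimura
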