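import Fermat.Agent.Periods.CuspidalBasis
import Fermat.Agent.Periods.Hecke
import Mathlib.Data.Matrix.Mul

/-!
# Team GAL: coordinates on cuspidal homomorphisms and the integral Hecke matrices
-/

set_option autoImplicit false

noncomputable section

open CongruenceSubgroup ModularCurve ModularCurve.Period
open scoped MatrixGroups

namespace Fermat.Agent.EichlerShimura

variable (N : ℕ) [NeZero N]

/-- Rank of the cuspidal quotient of `Γ₀(N)`. -/
abbrev cuspRank : ℕ := 2 * Module.finrank ℂ (CuspForm (Gamma0 N) 2)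

/-- Chosen elements of `Γ₀(N)` giving a basis of the cuspidal quotient. -/
def cuspGen : Fin (cuspRank N) → Gamma0 N := (Periods.exists_cuspidalBasis.{0} N).choose

/-- The dual basis. -/
def cuspDual : Fin (cuspRank N) → (Additive (Gamma0 N) →+ ℤ) :=
  (Periods.exists_cuspidalBasis.{0} N).choose_spec.choose

theorem isCuspidalHom_cuspDual (i : Fin (cuspRank N)) : Periods.IsCuspidalHom (cuspDual N i) :=
  (Periods.exists_cuspidalBasis.{0} N).choose_spec.choose_spec.1 i

theorem cuspDual_cuspGen (i j : Fin (cuspRank N)) :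
    cuspDual N i (Additive.ofMul (cuspGen N j)) = if i = j then 1 else 0 :=
  (Periods.exists_cuspidalBasis.{0} N).choose_spec.choose_spec.2.1 i j

theorem cuspidal_expansion {A : Type} [AddCommGroup A] {φ : Additive (Gamma0 N) →+ A}
    (hφ : Periods.IsCuspidalHom φ) (g : Additive (Gamma0 N)) :
    φ g = ∑ i, cuspDual N i g • φ (Additive.ofMul (cuspGen N i)) :=
  (Periods.exists_cuspidalBasis.{0} N).choose_spec.choose_spec.2.2 A φ hφ g

section Coords

variable (A : Type) [AddCommGroup A]

/-- A homomorphism with prescribed values on the basis. -/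
def ofCoords (v : Fin (cuspRank N) → A) : Additive (Gamma0 N) →+ A :=
  ∑ i, (zmultiplesHom A (v i)).comp (cuspDual N i)

theorem ofCoords_apply (v : Fin (cuspRank N) → A) (g : Additive (Gamma0 N)) :
    ofCoords N A v g = ∑ i, cuspDual N i g • v i := by
  simp [ofCoords, zmultiplesHom_apply]

theorem isCuspidalHom_ofCoords (v : Fin (cuspRank N) → A) :
    Periods.IsCuspidalHom (ofCoords N A v) := fun γ hγ => by
  simp [ofCoords_apply, isCuspidalHom_cuspDual N _ γ hγ]

/-- Cuspidal homomorphisms are vectors of length `cuspRank N`. -/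
def cuspCoords : Periods.cuspidalHoms ℤ (Gamma0 N) A ≃+ (Fin (cuspRank N) → A) where
  toFun φ i := (φ : Additive (Gamma0 N) →+ A) (Additive.ofMul (cuspGen N i))
  invFun v := ⟨ofCoords N A v, isCuspidalHom_ofCoords N A v⟩
  left_inv φ := Subtype.ext <| AddMonoidHom.ext fun g => by
    rw [ofCoords_apply]
    exact (cuspidal_expansion N φ.2 g).symm
  right_inv v := funext fun j => by
    simp [ofCoords_apply, cuspDual_cuspGen]
  map_add' _ _ := rfl

theorem cuspCoords_apply (φ : Periods.cuspidalHoms ℤ (Gamma0 N) A) (i : Fin (cuspRank N)) :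
    cuspCoords N A φ i = (φ : Additive (Gamma0 N) →+ A) (Additive.ofMul (cuspGen N i)) :=
  rfl

end Coords

/-- The matrix of a natural operator on cuspidal homomorphisms. -/
def opMatrix (T : (Additive (Gamma0 N) →+ ℤ) → (Additive (Gamma0 N) →+ ℤ)) :
    Matrix (Fin (cuspRank N)) (Fin (cuspRank N)) ℤ :=
  Matrix.of fun i j => T (cuspDual N j) (Additive.ofMul (cuspGen N i))

/-- The matrix of the Hecke operator at a prime. -/
def heckeMatrix (ℓ : Nat.Primes) : Matrix (Fin (cuspRank N)) (Fin (cuspRank N)) ℤ :=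
  opMatrix N (Periods.heckeHom ℤ ℤ ℓ.2)

/-- The matrix of the involution induced by conjugation by `diag (-1, 1)`. -/
def involMatrix : Matrix (Fin (cuspRank N)) (Fin (cuspRank N)) ℤ :=
  opMatrix N (charInvolution N ℤ ℤ)

theorem linearMap_apply_cuspidal {A : Type} [AddCommGroup A] {R : Type} [Semiring R] [Module R A]
    (T : (Additive (Gamma0 N) →+ A) →ₗ[R] (Additive (Gamma0 N) →+ A))
    (T₀ : (Additive (Gamma0 N) →+ ℤ) → (Additive (Gamma0 N) →+ ℤ))
    (hnat : ∀ (f : ℤ →+ A) (ψ : Additive (Gamma0 N) →+ ℤ), T (f.comp ψ) = f.comp (T₀ ψ))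
    {φ : Additive (Gamma0 N) →+ A} (hφ : Periods.IsCuspidalHom φ) (i : Fin (cuspRank N)) :
    T φ (Additive.ofMul (cuspGen N i)) =
      ∑ j, opMatrix N T₀ i j • φ (Additive.ofMul (cuspGen N j)) := by
  have h : φ = ∑ j, (zmultiplesHom A (φ (Additive.ofMul (cuspGen N j)))).comp (cuspDual N j) :=
    AddMonoidHom.ext fun g => by
      simpa [zmultiplesHom_apply] using cuspidal_expansion N hφ g
  conv_lhs => rw [h, map_sum]
  simp [hnat, opMatrix, zmultiplesHom_apply]

theorem heckeHom_apply_cuspGen {A : Type} [AddCommGroup A] {R : Type} [Semiring R] [Module R A]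
    (ℓ : Nat.Primes) {φ : Additive (Gamma0 N) →+ A} (hφ : Periods.IsCuspidalHom φ)
    (i : Fin (cuspRank N)) :
    Periods.heckeHom R A ℓ.2 φ (Additive.ofMul (cuspGen N i)) =
      ∑ j, heckeMatrix N ℓ i j • φ (Additive.ofMul (cuspGen N j)) :=
  linearMap_apply_cuspidal N _ _ (fun f ψ => by
    ext γ
    obtain ⟨γ, rfl⟩ := Additive.ofMul.surjective γ
    simp [Periods.heckeHom_apply, map_sum]) hφ i

theorem charInvolution_apply_cuspGen {A : Type} [AddCommGroup A] {R : Type} [Semiring R]
    [Module R A] {φ : Additive (Gamma0 N) →+ A} (hφ : Periods.IsCuspidalHom φ)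
    (i : Fin (cuspRank N)) :
    charInvolution N R A φ (Additive.ofMul (cuspGen N i)) =
      ∑ j, involMatrix N i j • φ (Additive.ofMul (cuspGen N j)) :=
  linearMap_apply_cuspidal N _ _ (fun _ _ => rfl) hφ i

end Fermat.Agent.EichlerShimura
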