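import Fermat.Prelude.Def_ModularCurve_HeckeModule

/-!
# Galois equivariance of the Hecke operators on `JZero N`

A semilinear automorphism intertwining the two legs of a correspondence commutes with the
correspondence, on divisors and on `Pic⁰`.  Applied to the arithmetic Galois action this gives
`σ • T_ℓ x = T_ℓ (σ • x)` for every `x`, whether or not the inputs of `T_ℓ` hold.
-/

set_option autoImplicit false

noncomputable section

namespace Fermat.Agent.EichlerShimura

open AlgebraicCurve

section Along

variable {K F F' : Type*} [Field K] [Field F] [Field F'] [Algebra K F] [Algebra K F']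
  {φ : F →ₐ[K] F'} {g : SemilinearAut K F} {g' : SemilinearAut K F'}

theorem restrictAlong_semilinear_smul (h : SemilinearAut.IntertwinesAlong φ.toRingHom g g')
    (hφ : φ.toRingHom.IsIntegral) (w : Place K F') :
    (g' • w).restrictAlong φ hφ = g • w.restrictAlong φ hφ := by
  refine Place.ext (SetLike.ext fun f => ?_)
  change φ f ∈ (g' • w).toValuationSubring ↔ f ∈ (g • w.restrictAlong φ hφ).toValuationSubring
  rw [SemilinearAut.smul_toValuationSubring, SemilinearAut.smul_toValuationSubring,
    ValuationSubring.mem_pointwise_smul_iff_inv_smul_mem,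
    ValuationSubring.mem_pointwise_smul_iff_inv_smul_mem]
  have hi : g'⁻¹ • φ f = φ (g⁻¹ • f) := h.inv f
  rw [hi]
  exact Iff.rfl

theorem ramificationIndexAlong_semilinear_smul
    (h : SemilinearAut.IntertwinesAlong φ.toRingHom g g') (w : Place K F') :
    Place.ramificationIndexAlong φ (g' • w) = Place.ramificationIndexAlong φ w := by
  have key : ∀ f : F, (g' • w).ord (φ (g • f)) = w.ord (φ f) := by
    intro f
    have hh : φ (g • f) = g' • φ f := (h f).symm
    rw [hh]
    exact SemilinearAut.ord_smul g' w (φ f)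
  show sInf {n : ℕ | 0 < n ∧ ∃ f : F, f ≠ 0 ∧ (g' • w).ord (φ f) = n} =
    sInf {n : ℕ | 0 < n ∧ ∃ f : F, f ≠ 0 ∧ w.ord (φ f) = n}
  congr 1
  ext n
  refine and_congr_right fun _ => ⟨?_, ?_⟩
  · rintro ⟨f, hf, hn⟩
    refine ⟨g⁻¹ • f, (smul_ne_zero_iff_ne g⁻¹).mpr hf, ?_⟩
    rw [← key (g⁻¹ • f), smul_inv_smul]
    exact hn
  · rintro ⟨f, hf, hn⟩
    exact ⟨g • f, (smul_ne_zero_iff_ne g).mpr hf, by rw [key f]; exact hn⟩

theorem inertiaDegAlong_semilinear_smul
    (h : SemilinearAut.IntertwinesAlong φ.toRingHom g g')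
    (hφ : φ.toRingHom.IsIntegral) (w : Place K F') :
    Place.inertiaDegAlong φ hφ (g' • w) = Place.inertiaDegAlong φ hφ w := by
  letI := algebraAlong φ
  haveI := isScalarTower_along φ
  haveI := isIntegral_along φ hφ
  show (g' • w).inertiaDeg F = w.inertiaDeg F
  have hr : (g' • w).restrict F = g • w.restrict F := restrictAlong_semilinear_smul h hφ w
  let e₂ : w.ResidueField ≃+* (g' • w).ResidueField := SemilinearAut.smulResidueRingEquiv g' w
  let fwd : (w.restrict F).toValuationSubring ≃+* ((g' • w).restrict F).toValuationSubring :=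
    (SemilinearAut.smulValuationSubringEquiv g (w.restrict F).toValuationSubring).trans
      (RingEquiv.subringCongr (congrArg (fun v : Place K F => v.toValuationSubring.toSubring) hr.symm))
  let e₁ : (w.restrict F).ResidueField ≃+* ((g' • w).restrict F).ResidueField :=
    IsLocalRing.ResidueField.mapEquiv fwd
  refine (Algebra.finrank_eq_of_equiv_equiv e₁ e₂ ?_).symm
  refine RingHom.ext fun a => ?_
  obtain ⟨x, rfl⟩ := IsLocalRing.residue_surjective a
  show Place.restrictResidueMap F (g' • w)
      (IsLocalRing.ResidueField.mapEquiv fwd (IsLocalRing.residue _ x)) =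
    IsLocalRing.ResidueField.mapEquiv (SemilinearAut.smulValuationSubringEquiv g' w.toValuationSubring)
      (Place.restrictResidueMap F w (IsLocalRing.residue _ x))
  rw [IsLocalRing.ResidueField.mapEquiv_apply, IsLocalRing.ResidueField.mapEquiv_apply,
    IsLocalRing.ResidueField.map_residue, Place.restrictResidueMap_residue,
    Place.restrictResidueMap_residue, IsLocalRing.ResidueField.map_residue]
  refine congrArg _ (Subtype.ext ?_)
  exact (h (x : F)).symm

theorem pushforwardAlong_semilinear_smul
    (h : SemilinearAut.IntertwinesAlong φ.toRingHom g g')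
    (hφ : φ.toRingHom.IsIntegral) (D : Divisor K F') :
    Divisor.pushforwardAlong φ hφ (g' • D) = g • Divisor.pushforwardAlong φ hφ D := by
  induction D using Finsupp.induction with
  | zero => simp
  | single_add w n D _ _ ih =>
    rw [smul_add, map_add, map_add, smul_add, ih, SemilinearAut.smul_single,
      Divisor.pushforwardAlong_single, Divisor.pushforwardAlong_single, SemilinearAut.smul_single,
      restrictAlong_semilinear_smul h hφ, inertiaDegAlong_semilinear_smul h hφ]

theorem pullbackAlong_semilinear_smul [HasPrincipalDivisors K F']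
    (h : SemilinearAut.IntertwinesAlong φ.toRingHom g g')
    (hφ : φ.toRingHom.IsIntegral) (D : Divisor K F) :
    Divisor.pullbackAlong φ hφ (g • D) = g' • Divisor.pullbackAlong φ hφ D := by
  refine Finsupp.ext fun w => ?_
  obtain ⟨w₀, rfl⟩ : ∃ w₀ : Place K F', g' • w₀ = w := ⟨g'⁻¹ • w, smul_inv_smul g' w⟩
  rw [SemilinearAut.divisor_smul_apply_smul, Divisor.pullbackAlong_apply,
    Divisor.pullbackAlong_apply, restrictAlong_semilinear_smul h hφ,
    SemilinearAut.divisor_smul_apply_smul, ramificationIndexAlong_semilinear_smul h]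

theorem pic0_correspondence_semilinear_smul [HasPrincipalDivisors K F'] {ψ : F →ₐ[K] F'}
    (hgφ : SemilinearAut.IntertwinesAlong φ.toRingHom g g')
    (hgψ : SemilinearAut.IntertwinesAlong ψ.toRingHom g g')
    (hφ : φ.toRingHom.IsIntegral) (hψ : ψ.toRingHom.IsIntegral)
    (hFI : FundamentalIdentityAlong K φ hφ) (hfin : FiniteAlong K ψ)
    (hN : NormFormulaAlong K ψ hfin) (x : Pic0 K F) :
    g • Pic0.correspondence φ ψ hφ hψ hFI hfin hN x
      = Pic0.correspondence φ ψ hφ hψ hFI hfin hN (g • x) := by
  obtain ⟨D, rfl⟩ := Pic0.mk_surjective x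
  rw [Pic0.correspondence_mk, SemilinearAut.pic0_smul_mk, SemilinearAut.pic0_smul_mk,
    Pic0.correspondence_mk]
  refine congrArg Pic0.mk (Subtype.ext ?_)
  simp only [SemilinearAut.coe_degZeroSMulHom, Pic0.coe_degZeroCorrespondence,
    Divisor.correspondence_apply]
  rw [pullbackAlong_semilinear_smul hgφ hφ, pushforwardAlong_semilinear_smul hgψ hψ]

end Along

section Modular

open ModularCurve

variable {L : Type*} [Field L] [Algebra ℚ L] (N ℓ : ℕ) [NeZero N] [NeZero ℓ]

theorem coeffMap_qExpand_comm {R S : Type*} [CommRing R] [CommRing S] (f : R →+* S) (n : ℕ)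
    [NeZero n] (x : LaurentSeries R) :
    coeffMap f (qExpand R n x) = qExpand S n (coeffMap f x) := by
  ext k
  by_cases hk : (n : ℤ) ∣ k
  · obtain ⟨m, rfl⟩ := hk
    rw [coeffMap_coeff, qExpand_coeff_mul, qExpand_coeff_mul, coeffMap_coeff]
  · rw [coeffMap_coeff, qExpand_coeff_of_not_dvd n _ hk, qExpand_coeff_of_not_dvd n _ hk,
      map_zero]

theorem heckeAlphaBar_intertwines (σ : L ≃ₐ[ℚ] L) :
    SemilinearAut.IntertwinesAlong (heckeAlphaBar L N ℓ).toRingHom
      (arithmeticGalois (modularFunctionFieldFull N) σ)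
      (arithmeticGalois (modularFunctionFieldFull (N * ℓ)) σ) := fun x => by
  apply Subtype.ext
  show coeffMap (σ : L →+* L) ((heckeAlphaBar L N ℓ x : LaurentSeries L)) =
    ((heckeAlphaBar L N ℓ (arithmeticRingAut (modularFunctionFieldFull N) σ x) : LaurentSeries L))
  rw [coe_heckeAlphaBar, coe_heckeAlphaBar, coe_arithmeticRingAut_apply]

theorem heckeBetaBar_intertwines (σ : L ≃ₐ[ℚ] L) :
    SemilinearAut.IntertwinesAlong (heckeBetaBar L N ℓ).toRingHom
      (arithmeticGalois (modularFunctionFieldFull N) σ)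
      (arithmeticGalois (modularFunctionFieldFull (N * ℓ)) σ) := fun x => by
  apply Subtype.ext
  show coeffMap (σ : L →+* L) ((heckeBetaBar L N ℓ x : LaurentSeries L)) =
    ((heckeBetaBar L N ℓ (arithmeticRingAut (modularFunctionFieldFull N) σ x) : LaurentSeries L))
  rw [coe_heckeBetaBar, coe_heckeBetaBar, coe_arithmeticRingAut_apply, coeffMap_qExpand_comm]

/-- `T_ℓ` commutes with the arithmetic Galois action, unconditionally. -/
theorem galois_smul_heckeOperatorAlong (σ : L ≃ₐ[ℚ] L)
    (x : Pic0 L (laurentBaseChange L (modularFunctionFieldFull N))) :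
    σ • heckeOperatorAlong L N ℓ x = heckeOperatorAlong L N ℓ (σ • x) := by
  by_cases h : HeckeInputsAlong L N ℓ
  · obtain ⟨hα, hβ, hP, hfin, hFI, hN⟩ := h
    rw [heckeOperatorAlong_eq hα hβ hFI hfin hN, galois_smul_pic0_def, galois_smul_pic0_def]
    exact pic0_correspondence_semilinear_smul (heckeBetaBar_intertwines N ℓ σ)
      (heckeAlphaBar_intertwines N ℓ σ) hβ hα hFI hfin hN x
  · rw [heckeOperatorAlong_of_not h]
    simp

end Modular

section JZero

open ModularCurve

variable {N : ℕ} [NeZero N]

theorem galois_smul_heckeOperatorBar (ℓ : Nat.Primes)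
    (σ : AlgebraicClosure ℚ ≃ₐ[ℚ] AlgebraicClosure ℚ) (x : JZero N) :
    σ • heckeOperatorBar N ℓ x = heckeOperatorBar N ℓ (σ • x) := by
  haveI : NeZero (ℓ : ℕ) := ⟨ℓ.2.ne_zero⟩
  rw [heckeOperatorBar_apply, heckeOperatorBar_apply]
  exact galois_smul_heckeOperatorAlong N ℓ σ x

theorem galois_smul_heckeModuleBar (σ : AlgebraicClosure ℚ ≃ₐ[ℚ] AlgebraicClosure ℚ)
    (t : HeckeAlg) (x : JZero N) :
    (letI := heckeModuleBar N; σ • (t • x) = t • (σ • x)) := by
  letI := heckeModuleBar N
  show σ • (t • x) = t • (σ • x)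
  induction t using MvPolynomial.induction_on generalizing x with
  | C a =>
    rw [heckeModuleBar_C_smul, heckeModuleBar_C_smul]
    exact map_zsmul (DistribSMul.toAddMonoidHom (JZero N) σ) a x
  | add p q hp hq => rw [add_smul, add_smul, smul_add, hp, hq]
  | mul_X p ℓ hp =>
    rw [mul_smul, mul_smul, hp]
    congr 1
    show σ • (heckeGen ℓ • x) = heckeGen ℓ • σ • x
    by_cases hc : HeckeOperatorsCommuteBar N
    · rw [heckeModuleBar_heckeGen_smul hc, heckeModuleBar_heckeGen_smul hc,
        galois_smul_heckeOperatorBar]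
    · rw [heckeModuleBar_heckeGen_smul_of_not hc, heckeModuleBar_heckeGen_smul_of_not hc]
      exact map_zero (DistribSMul.toAddMonoidHom (JZero N) σ)

/-- The Galois action on `JZero N` commutes with `heckeModuleBar N`. -/
theorem smulCommClass_galois_heckeAlg (N : ℕ) [NeZero N] :
    letI := heckeModuleBar N
    SMulCommClass (AlgebraicClosure ℚ ≃ₐ[ℚ] AlgebraicClosure ℚ) HeckeAlg (JZero N) :=
  letI := heckeModuleBar N
  ⟨galois_smul_heckeModuleBar⟩

end JZero

end Fermat.Agent.EichlerShimura

end
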