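import Mathlib.NumberTheory.Padics.RingHoms
import Mathlib.Topology.Instances.AddCircle.Defs
import Mathlib.LinearAlgebra.Matrix.ToLin
import Mathlib.RingTheory.AdicCompletion.RingHom

/-!
# Team GAL: endomorphisms of `(ℚ/ℤ)^r` give `p`-adic matrices
-/

set_option autoImplicit false
set_option linter.unusedSectionVars false

noncomputable section

namespace Fermat.Agent.EichlerShimura

local notation "QQZ" => AddCircle (1 : ℚ)

variable (p : ℕ) [Fact p.Prime]

/-- The class of `1 / pᵏ`. -/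
def rootPow (k : ℕ) : QQZ := ((((p : ℚ) ^ k)⁻¹ : ℚ) : QQZ)

theorem p_cast_pow_ne_zero (k : ℕ) : ((p : ℚ) ^ k) ≠ 0 :=
  pow_ne_zero k (Nat.cast_ne_zero.mpr (Fact.out (p := p.Prime)).ne_zero)

theorem zsmul_rootPow (k : ℕ) (m : ℤ) :
    m • rootPow p k = ((((m : ℚ) / (p : ℚ) ^ k) : ℚ) : QQZ) := by
  rw [rootPow, ← AddCircle.coe_zsmul, zsmul_eq_mul, div_eq_mul_inv]

theorem zsmul_rootPow_eq_zero_iff (k : ℕ) (m : ℤ) :
    m • rootPow p k = 0 ↔ ((p ^ k : ℕ) : ℤ) ∣ m := by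
  have hp := p_cast_pow_ne_zero p k
  rw [zsmul_rootPow, AddCircle.coe_eq_zero_iff]
  constructor
  · rintro ⟨n, hn⟩
    rw [zsmul_one, eq_div_iff hp] at hn
    exact ⟨n, by rw [mul_comm]; exact_mod_cast hn.symm⟩
  · rintro ⟨n, rfl⟩
    refine ⟨n, ?_⟩
    rw [zsmul_one, eq_div_iff hp]
    push_cast
    ring

theorem exists_zsmul_rootPow {k : ℕ} {y : QQZ} (hy : p ^ k • y = 0) :
    ∃ m : ℤ, y = m • rootPow p k := by
  induction y using QuotientAddGroup.induction_on with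
  | _ q =>
    change p ^ k • ((q : ℚ) : QQZ) = 0 at hy
    rw [← AddCircle.coe_nsmul, AddCircle.coe_eq_zero_iff] at hy
    obtain ⟨z, hz⟩ := hy
    refine ⟨z, ?_⟩
    show ((q : ℚ) : QQZ) = z • rootPow p k
    rw [zsmul_rootPow]
    congr 1
    rw [eq_div_iff (p_cast_pow_ne_zero p k)]
    rw [zsmul_one, nsmul_eq_mul, Nat.cast_pow] at hz
    rw [hz, mul_comm]

theorem nsmul_rootPow_self (k : ℕ) : p ^ k • rootPow p k = 0 := by
  rw [← natCast_zsmul, zsmul_rootPow_eq_zero_iff]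

/-- `ℤ/pᵏ` as the `pᵏ`-torsion of `ℚ/ℤ`. -/
def rootHom (k : ℕ) : ZMod (p ^ k) →+ QQZ :=
  ZMod.lift (p ^ k) ⟨zmultiplesHom QQZ (rootPow p k), by
    rw [zmultiplesHom_apply, natCast_zsmul]; exact nsmul_rootPow_self p k⟩

theorem rootHom_intCast (k : ℕ) (m : ℤ) : rootHom p k (m : ZMod (p ^ k)) = m • rootPow p k := by
  simp [rootHom, zmultiplesHom_apply]

theorem rootHom_one (k : ℕ) : rootHom p k 1 = rootPow p k := by
  simpa using rootHom_intCast p k 1

theorem rootHom_injective (k : ℕ) : Function.Injective (rootHom p k) := by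
  refine (injective_iff_map_eq_zero _).mpr fun a ha => ?_
  obtain ⟨m, rfl⟩ := ZMod.intCast_surjective a
  rw [rootHom_intCast, zsmul_rootPow_eq_zero_iff] at ha
  exact (ZMod.intCast_zmod_eq_zero_iff_dvd _ _).mpr ha

theorem exists_rootHom_eq (φ : Module.End ℤ QQZ) (k : ℕ) :
    ∃ a : ZMod (p ^ k), rootHom p k a = φ (rootPow p k) := by
  have h : p ^ k • φ (rootPow p k) = 0 := by
    rw [← map_nsmul, nsmul_rootPow_self, map_zero]
  obtain ⟨m, hm⟩ := exists_zsmul_rootPow p h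
  exact ⟨m, by rw [rootHom_intCast, hm]⟩

/-- The scalar by which `φ` acts on the `pᵏ`-torsion. -/
def zmodOfEnd (φ : Module.End ℤ QQZ) (k : ℕ) : ZMod (p ^ k) :=
  (exists_rootHom_eq p φ k).choose

theorem rootHom_zmodOfEnd (φ : Module.End ℤ QQZ) (k : ℕ) :
    rootHom p k (zmodOfEnd p φ k) = φ (rootPow p k) :=
  (exists_rootHom_eq p φ k).choose_spec

theorem rootHom_zmodOfEnd_mul (φ : Module.End ℤ QQZ) (k : ℕ) (b : ZMod (p ^ k)) :
    φ (rootHom p k b) = rootHom p k (zmodOfEnd p φ k * b) := by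
  obtain ⟨z, rfl⟩ := ZMod.intCast_surjective b
  rw [rootHom_intCast, map_zsmul, ← rootHom_zmodOfEnd, ← map_zsmul, zsmul_eq_mul, mul_comm]

/-- The action of an endomorphism of `ℚ/ℤ` on the `pᵏ`-torsion. -/
def endToZMod (k : ℕ) : Module.End ℤ QQZ →+* ZMod (p ^ k) where
  toFun φ := zmodOfEnd p φ k
  map_one' := rootHom_injective p k <| by
    rw [rootHom_zmodOfEnd, rootHom_one, Module.End.one_apply]
  map_mul' φ ψ := rootHom_injective p k <| by
    rw [← rootHom_zmodOfEnd_mul, rootHom_zmodOfEnd, rootHom_zmodOfEnd, Module.End.mul_apply]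
  map_zero' := rootHom_injective p k <| by
    rw [rootHom_zmodOfEnd, map_zero, LinearMap.zero_apply]
  map_add' φ ψ := rootHom_injective p k <| by
    rw [map_add, rootHom_zmodOfEnd, rootHom_zmodOfEnd, rootHom_zmodOfEnd, LinearMap.add_apply]

theorem rootHom_endToZMod (φ : Module.End ℤ QQZ) (k : ℕ) :
    rootHom p k (endToZMod p k φ) = φ (rootPow p k) :=
  rootHom_zmodOfEnd p φ k

theorem endToZMod_compat : ∀ (k₁ k₂ : ℕ) (hk : k₁ ≤ k₂),
    (ZMod.castHom (pow_dvd_pow p hk) (ZMod (p ^ k₁))).comp (endToZMod p k₂) = endToZMod p k₁ := by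
  intro k₁ k₂ hk
  refine RingHom.ext fun φ => rootHom_injective p k₁ ?_
  obtain ⟨z, hz⟩ := ZMod.intCast_surjective (endToZMod p k₂ φ)
  have h1 : rootPow p k₁ = (p ^ (k₂ - k₁)) • rootPow p k₂ := by
    rw [← natCast_zsmul, zsmul_rootPow, rootPow]
    congr 1
    rw [eq_div_iff (p_cast_pow_ne_zero p k₂), inv_mul_eq_iff_eq_mul₀ (p_cast_pow_ne_zero p k₁)]
    push_cast
    rw [← pow_add, Nat.add_sub_cancel' hk]
  have h2 : φ (rootPow p k₂) = z • rootPow p k₂ := by
    rw [← rootHom_endToZMod, ← hz, rootHom_intCast]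
  rw [rootHom_endToZMod, RingHom.comp_apply, ← hz, map_intCast, rootHom_intCast, h1, map_nsmul,
    h2, smul_comm]

/-- An endomorphism of `ℚ/ℤ` acts on its `p`-primary part by a `p`-adic integer. -/
def endToPadic : Module.End ℤ QQZ →+* ℤ_[p] := PadicInt.lift (endToZMod_compat p)

theorem toZModPow_endToPadic (φ : Module.End ℤ QQZ) (k : ℕ) :
    PadicInt.toZModPow k (endToPadic p φ) = endToZMod p k φ :=
  RingHom.congr_fun (PadicInt.lift_spec (endToZMod_compat p) k) φ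

/-- Endomorphisms of `(ℚ/ℤ)^r` give `p`-adic matrices. -/
def endToMatrix (r : ℕ) :
    Module.End ℤ (Fin r → QQZ) →+* Matrix (Fin r) (Fin r) ℤ_[p] :=
  (endToPadic p).mapMatrix.comp (endVecRingEquivMatrixEnd (Fin r) ℤ QQZ).toRingHom

theorem endToMatrix_apply {r : ℕ} (Φ : Module.End ℤ (Fin r → QQZ)) (i j : Fin r) :
    endToMatrix p r Φ i j = endToPadic p (endVecRingEquivMatrixEnd (Fin r) ℤ QQZ Φ i j) :=
  rfl

theorem toZModPow_endToMatrix_eq_zero {r : ℕ} {Φ : Module.End ℤ (Fin r → QQZ)} {k : ℕ}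
    (h : ∀ j, Φ (Pi.single j (rootPow p k)) = 0) (i j : Fin r) :
    PadicInt.toZModPow k (endToMatrix p r Φ i j) = 0 := by
  refine rootHom_injective p k ?_
  rw [endToMatrix_apply, toZModPow_endToPadic, rootHom_endToZMod, map_zero]
  exact congrFun (h j) i

theorem endToMatrix_eq_zero {r : ℕ} {Φ : Module.End ℤ (Fin r → QQZ)}
    (h : ∀ (k : ℕ) (v : Fin r → QQZ), p ^ k • v = 0 → Φ v = 0) : endToMatrix p r Φ = 0 := by
  ext i j : 1
  refine PadicInt.ext_of_toZModPow.mp fun k => ?_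
  rw [Matrix.zero_apply, map_zero, toZModPow_endToMatrix_eq_zero p (k := k) ?_ i j]
  intro j'
  refine h k _ ?_
  rw [← Pi.single_smul, nsmul_rootPow_self, Pi.single_zero]

/-- The endomorphism of `(ℚ/ℤ)^r` given by an integer matrix. -/
def matrixEnd {r : ℕ} (H : Matrix (Fin r) (Fin r) ℤ) : Module.End ℤ (Fin r → QQZ) :=
  (endVecRingEquivMatrixEnd (Fin r) ℤ QQZ).symm (H.map (Int.castRingHom (Module.End ℤ QQZ)))

theorem matrixEnd_apply {r : ℕ} (H : Matrix (Fin r) (Fin r) ℤ) (v : Fin r → QQZ) (i : Fin r) :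
    matrixEnd H v i = ∑ j, H i j • v j := by
  simp [matrixEnd, endVecRingEquivMatrixEnd]

theorem endToMatrix_matrixEnd {r : ℕ} (H : Matrix (Fin r) (Fin r) ℤ) :
    endToMatrix p r (matrixEnd H) = H.map (Int.castRingHom ℤ_[p]) := by
  rw [endToMatrix, RingHom.comp_apply, matrixEnd, RingEquiv.toRingHom_eq_coe, RingHom.coe_coe,
    RingEquiv.apply_symm_apply]
  ext i j : 1
  simp

section Base

variable (O : Type) [CommRing O] [IsLocalRing O] [IsAdicComplete (IsLocalRing.maximalIdeal O) O]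

open IsLocalRing

variable {p} {O}

theorem natCast_pow_mem_pow (hpO : (p : O) ∈ maximalIdeal O) (n : ℕ) :
    ((p ^ n : ℕ) : O) ∈ maximalIdeal O ^ n := by
  rw [Nat.cast_pow]
  exact Ideal.pow_mem_pow hpO n

theorem ringChar_quotient_dvd (hpO : (p : O) ∈ maximalIdeal O) (n : ℕ) :
    ringChar (O ⧸ maximalIdeal O ^ n) ∣ p ^ n := by
  refine ringChar.dvd ?_
  rw [← map_natCast (Ideal.Quotient.mk (maximalIdeal O ^ n)), Ideal.Quotient.eq_zero_iff_mem]
  exact natCast_pow_mem_pow hpO n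

/-- The reduction `ℤ_p → O/mⁿ`. -/
def padicLevel (hpO : (p : O) ∈ maximalIdeal O) (n : ℕ) : ℤ_[p] →+* O ⧸ maximalIdeal O ^ n :=
  haveI : CharP (O ⧸ maximalIdeal O ^ n) (ringChar (O ⧸ maximalIdeal O ^ n)) := ringChar.charP _
  (ZMod.castHom dvd_rfl (O ⧸ maximalIdeal O ^ n)).comp
    ((ZMod.castHom (ringChar_quotient_dvd hpO n) (ZMod (ringChar (O ⧸ maximalIdeal O ^ n)))).comp
      (PadicInt.toZModPow n))

theorem padicLevel_intCast_toZModPow (hpO : (p : O) ∈ maximalIdeal O) {n : ℕ} {x : ℤ_[p]} {z : ℤ}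
    (hz : PadicInt.toZModPow n x = z) : padicLevel hpO n x = z := by
  rw [padicLevel, RingHom.comp_apply, RingHom.comp_apply, hz, map_intCast, map_intCast]

theorem padicLevel_compat (hpO : (p : O) ∈ maximalIdeal O) {m n : ℕ} (hle : m ≤ n) :
    (Ideal.Quotient.factorPow (maximalIdeal O) hle).comp (padicLevel hpO n) =
      padicLevel hpO m := by
  refine RingHom.ext fun x => ?_
  obtain ⟨z, hz⟩ := ZMod.intCast_surjective (PadicInt.toZModPow n x)
  have hm : PadicInt.toZModPow m x = z := by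
    rw [← PadicInt.cast_toZModPow m n hle x, ← hz]
    exact ZMod.cast_intCast (pow_dvd_pow p hle) z
  rw [RingHom.comp_apply, padicLevel_intCast_toZModPow hpO hz.symm,
    padicLevel_intCast_toZModPow hpO hm, map_intCast]

/-- The structure map `ℤ_p → O`. -/
def padicToRing (hpO : (p : O) ∈ maximalIdeal O) : ℤ_[p] →+* O :=
  IsAdicComplete.liftRingHom (maximalIdeal O) (padicLevel hpO) (padicLevel_compat hpO)

theorem padicToRing_mem_pow (hpO : (p : O) ∈ maximalIdeal O) {n : ℕ} {x : ℤ_[p]}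
    (hx : PadicInt.toZModPow n x = 0) : padicToRing hpO x ∈ maximalIdeal O ^ n := by
  rw [← Ideal.Quotient.eq_zero_iff_mem, padicToRing, IsAdicComplete.mk_liftRingHom,
    padicLevel_intCast_toZModPow hpO (z := 0) (by rw [hx, Int.cast_zero]), Int.cast_zero]

end Base

end Fermat.Agent.EichlerShimura
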