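import Fermat.Agent.EichlerShimura.Interface
import Fermat.Agent.EichlerShimura.GaloisHecke
import Fermat.Agent.EichlerShimura.CuspBasis
import Fermat.Agent.EichlerShimura.PadicEnd

/-!
# Team GAL: the Galois action on torsion as matrices over a complete local ring
-/

set_option autoImplicit false
set_option linter.unusedSectionVars false

noncomputable section

open CongruenceSubgroup ModularCurve ModularCurve.Period IsLocalRing
open scoped MatrixGroups

namespace Fermat.Agent.EichlerShimura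

local notation "ℚ̄" => AlgebraicClosure ℚ
local notation "Γℚ" => (AlgebraicClosure ℚ ≃ₐ[ℚ] AlgebraicClosure ℚ)

variable {N : ℕ} [NeZero N] (e : torsionPts N ≃+ Periods.cuspidalHoms ℤ (Gamma0 N) QZ)

/-- Torsion points as vectors over `ℚ/ℤ`. -/
def torsionCoords : torsionPts N ≃+ (Fin (cuspRank N) → QZ) :=
  e.trans (cuspCoords N QZ)

/-- An endomorphism of the torsion as an endomorphism of vectors. -/
def coordEnd (f : torsionPts N →+ torsionPts N) : Module.End ℤ (Fin (cuspRank N) → QZ) :=
  ((torsionCoords e).toAddMonoidHom.comp (f.comp (torsionCoords e).symm.toAddMonoidHom)).toIntLinearMap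

theorem coordEnd_apply (f : torsionPts N →+ torsionPts N) (v : Fin (cuspRank N) → QZ) :
    coordEnd e f v = torsionCoords e (f ((torsionCoords e).symm v)) :=
  rfl

/-- The Galois action on vectors. -/
def galEnd : Γℚ →* Module.End ℤ (Fin (cuspRank N) → QZ) where
  toFun σ := coordEnd e (torsionGalois σ)
  map_one' := LinearMap.ext fun v => by
    rw [coordEnd_apply, Module.End.one_apply]
    have : torsionGalois 1 ((torsionCoords e).symm v) = (torsionCoords e).symm v :=
      Subtype.ext (by rw [coe_torsionGalois, one_smul])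
    rw [this, AddEquiv.apply_symm_apply]
  map_mul' σ τ := LinearMap.ext fun v => by
    rw [coordEnd_apply, Module.End.mul_apply, coordEnd_apply, coordEnd_apply,
      AddEquiv.symm_apply_apply]
    congr 1
    exact Subtype.ext (by simp [mul_smul])

theorem galEnd_apply (σ : Γℚ) (v : Fin (cuspRank N) → QZ) :
    galEnd e σ v = torsionCoords e (torsionGalois σ ((torsionCoords e).symm v)) :=
  rfl

theorem coordEnd_hecke (ℓ : Nat.Primes) (f : JZero N →+ JZero N)
    (hf : ∀ x, (e (torsionMap f x) : Additive (Gamma0 N) →+ QZ) =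
      Periods.heckeHom ℤ QZ ℓ.2 (e x : Additive (Gamma0 N) →+ QZ)) :
    coordEnd e (torsionMap f) = matrixEnd (heckeMatrix N ℓ) := by
  refine LinearMap.ext fun v => funext fun i => ?_
  obtain ⟨x, rfl⟩ := (torsionCoords e).surjective v
  rw [coordEnd_apply, AddEquiv.symm_apply_apply, matrixEnd_apply]
  show (e (torsionMap f x) : Additive (Gamma0 N) →+ QZ) (Additive.ofMul (cuspGen N i)) = _
  rw [hf x, heckeHom_apply_cuspGen N ℓ (e x).2 i]
  rfl

theorem galEnd_complexConjugation
    (hc : ∀ x, (e (torsionGalois complexConjugation x) : Additive (Gamma0 N) →+ QZ) =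
      - charInvolution N ℤ QZ (e x : Additive (Gamma0 N) →+ QZ)) :
    galEnd e complexConjugation = - matrixEnd (involMatrix N) := by
  refine LinearMap.ext fun v => funext fun i => ?_
  obtain ⟨x, rfl⟩ := (torsionCoords e).surjective v
  rw [galEnd_apply, AddEquiv.symm_apply_apply, LinearMap.neg_apply, Pi.neg_apply, matrixEnd_apply]
  show (e (torsionGalois complexConjugation x) : Additive (Gamma0 N) →+ QZ)
    (Additive.ofMul (cuspGen N i)) = _
  rw [hc x, AddMonoidHom.neg_apply, charInvolution_apply_cuspGen N (R := ℤ) (e x).2 i]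
  rfl

theorem galEnd_comm (σ : Γℚ) (f : JZero N →+ JZero N)
    (hf : ∀ (τ : Γℚ) (x : JZero N), τ • f x = f (τ • x)) :
    galEnd e σ * coordEnd e (torsionMap f) = coordEnd e (torsionMap f) * galEnd e σ := by
  refine LinearMap.ext fun v => ?_
  simp only [Module.End.mul_apply, galEnd_apply, coordEnd_apply, AddEquiv.symm_apply_apply]
  congr 1
  exact Subtype.ext (by simp [hf])

theorem nsmul_coe_symm_eq_zero {p k : ℕ} {v : Fin (cuspRank N) → QZ} (hv : p ^ k • v = 0) :
    p ^ k • (((torsionCoords e).symm v : torsionPts N) : JZero N) = 0 := by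
  rw [← AddSubgroupClass.coe_nsmul, ← map_nsmul, hv, map_zero]
  rfl

section Ring

variable (p : ℕ) [Fact p.Prime] {O : Type} [CommRing O] [IsLocalRing O]
  [IsAdicComplete (maximalIdeal O) O] (hpO : (p : O) ∈ maximalIdeal O)

/-- Endomorphisms of vectors over `ℚ/ℤ` as matrices over `O`, through the `p`-primary part. -/
def endToRingMatrix (r : ℕ) :
    Module.End ℤ (Fin r → QZ) →+* Matrix (Fin r) (Fin r) O :=
  ((padicToRing hpO).mapMatrix).comp (endToMatrix p r)

theorem endToRingMatrix_matrixEnd {r : ℕ} (H : Matrix (Fin r) (Fin r) ℤ) :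
    endToRingMatrix p hpO r (matrixEnd H) = H.map (Int.castRingHom O) := by
  rw [endToRingMatrix, RingHom.comp_apply, endToMatrix_matrixEnd]
  ext i j
  simp

theorem endToRingMatrix_eq_zero {r : ℕ} {Φ : Module.End ℤ (Fin r → QZ)}
    (h : ∀ (k : ℕ) (v : Fin r → QZ), p ^ k • v = 0 → Φ v = 0) :
    endToRingMatrix p hpO r Φ = 0 := by
  rw [endToRingMatrix, RingHom.comp_apply, endToMatrix_eq_zero p h, map_zero]

/-- The Galois action as matrices over `O`. -/
def galMatrix : Γℚ →* Matrix (Fin (cuspRank N)) (Fin (cuspRank N)) O :=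
  (endToRingMatrix p hpO (cuspRank N) : _ →* _).comp (galEnd e)

theorem galMatrix_apply (σ : Γℚ) :
    galMatrix e p hpO σ = endToRingMatrix p hpO (cuspRank N) (galEnd e σ) :=
  rfl

theorem galMatrix_continuous (hL : GaloisFiniteLevel N) (n : ℕ) :
    ∃ L : IntermediateField ℚ ℚ̄, FiniteDimensional ℚ L ∧ ∀ σ : Γℚ, (∀ x ∈ L, σ x = x) →
      ∀ i j, (galMatrix e p hpO σ - 1) i j ∈ maximalIdeal O ^ n := by
  classical
  choose L hLfin hLfix using fun j : Fin (cuspRank N) =>
    hL ((((torsionCoords e).symm (Pi.single j (rootPow p n))) : torsionPts N) : JZero N)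
  haveI := hLfin
  refine ⟨⨆ j, L j, IntermediateField.finiteDimensional_iSup_of_finite, fun σ hσ i j => ?_⟩
  have h1 : galMatrix e p hpO σ - 1 = endToRingMatrix p hpO _ (galEnd e σ - 1) := by
    rw [map_sub, map_one, galMatrix_apply]
  rw [h1, endToRingMatrix, RingHom.comp_apply, RingHom.mapMatrix_apply, Matrix.map_apply]
  refine padicToRing_mem_pow hpO (toZModPow_endToMatrix_eq_zero p (fun j' => ?_) i j)
  rw [LinearMap.sub_apply, Module.End.one_apply, galEnd_apply, sub_eq_zero]
  refine (congrArg (torsionCoords e) (Subtype.ext ?_)).trans ((torsionCoords e).apply_symm_apply _)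
  rw [coe_torsionGalois]
  exact hLfix j' σ fun a ha => hσ a (le_iSup L j' ha)

variable {p}

theorem galMatrix_eq_one_of_mem_inertia (hF : FrobeniusOnTorsion N p) {ℓ : ℕ} (hℓ : ℓ.Prime)
    (hℓN : ¬ ℓ ∣ N * p) {A : ValuationSubring ℚ̄} (hA : A.LiesOverPrime ℓ) {σ : Γℚ}
    (hσ : σ ∈ A.inertiaSubgroupIn ℚ) : galMatrix e p hpO σ = 1 := by
  rw [← sub_eq_zero, galMatrix_apply, ← map_one (endToRingMatrix p hpO (cuspRank N)), ← map_sub]
  refine endToRingMatrix_eq_zero p hpO fun k v hv => ?_
  rw [LinearMap.sub_apply, Module.End.one_apply, galEnd_apply, sub_eq_zero]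
  refine (congrArg (torsionCoords e) (Subtype.ext ?_)).trans ((torsionCoords e).apply_symm_apply _)
  rw [coe_torsionGalois]
  exact (hF ℓ hℓ hℓN A hA).1 σ hσ _ ⟨k, nsmul_coe_symm_eq_zero e hv⟩

theorem galMatrix_frobenius (hF : FrobeniusOnTorsion N p) {ℓ : ℕ} (hℓ : ℓ.Prime)
    (hℓN : ¬ ℓ ∣ N * p) {A : ValuationSubring ℚ̄} (hA : A.LiesOverPrime ℓ) {σ : Γℚ}
    (hσ : A.IsFrobeniusAt σ ℓ)
    (hH : ∀ x, (e (torsionMap (heckeOperatorBar N ⟨ℓ, hℓ⟩).toAddMonoidHom x) :
        Additive (Gamma0 N) →+ QZ) =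
      Periods.heckeHom ℤ QZ hℓ (e x : Additive (Gamma0 N) →+ QZ)) :
    galMatrix e p hpO σ * galMatrix e p hpO σ -
      (heckeMatrix N ⟨ℓ, hℓ⟩).map (Int.castRingHom O) * galMatrix e p hpO σ + (ℓ : O) • 1 = 0 := by
  set T := (heckeOperatorBar N ⟨ℓ, hℓ⟩).toAddMonoidHom
  have hT := coordEnd_hecke e ⟨ℓ, hℓ⟩ T hH
  rw [← endToRingMatrix_matrixEnd p hpO, ← hT, galMatrix_apply,
    ← map_mul (endToRingMatrix p hpO _), ← map_mul (endToRingMatrix p hpO _), ← map_sub,
    Nat.cast_smul_eq_nsmul, ← map_one (endToRingMatrix p hpO (cuspRank N)), ← map_nsmul, ← map_add]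
  refine endToRingMatrix_eq_zero p hpO fun k v hv => ?_
  simp only [LinearMap.add_apply, LinearMap.sub_apply, Module.End.mul_apply, LinearMap.smul_apply,
    Module.End.one_apply, galEnd_apply, coordEnd_apply, AddEquiv.symm_apply_apply]
  set x := (torsionCoords e).symm v with hx
  have hv' : v = torsionCoords e x := ((torsionCoords e).apply_symm_apply v).symm
  rw [hv', ← map_nsmul, ← map_sub, ← map_add]
  refine (congrArg (torsionCoords e) (Subtype.ext ?_)).trans (map_zero _)
  simp only [AddSubgroup.coe_add, AddSubgroup.coe_sub, AddSubgroupClass.coe_nsmul,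
    coe_torsionMap, coe_torsionGalois, ZeroMemClass.coe_zero]
  exact (hF ℓ hℓ hℓN A hA).2 σ hσ _ ⟨k, nsmul_coe_symm_eq_zero e hv⟩

end Ring

end Fermat.Agent.EichlerShimura
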