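import Fermat.Prelude.Def_ModularCurve_HeckeModule
import Fermat.Prelude.Def_GaloisRep_ComplexConjugation
import Fermat.Agent.Periods.Hecke
import Mathlib.Topology.Instances.AddCircle.Defs
import Mathlib.GroupTheory.Torsion
import Mathlib.Analysis.SpecialFunctions.Complex.Circle

/-!
# Team GAL: contracts between the parts of the Eichler–Shimura construction

* `QZ` is `ℚ/ℤ`, `qzExp t = exp (2πi t)`.
* `HasKummerIso N`: the torsion of `J₀(N)(ℚ̄)` is `cuspidalHoms (Γ₀ N) (ℚ/ℤ)`, compatibly with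
  the Hecke operators and with complex conjugation. The character attached to a class `[D]` with
  `n • D = div f` is `φ` with `g (γ z) = qzExp (φ γ) * g z`, where `gⁿ` is the function on `ℍ`
  attached to `f` through `complexEmbedding`.
* `FrobeniusOnTorsion N p`: good reduction and the congruence relation on `p`-power torsion.
* `GaloisFiniteLevel N`: every point of `J₀(N)(ℚ̄)` is fixed by an open subgroup.
-/

set_option autoImplicit false

noncomputable section

open CongruenceSubgroup ModularCurve ModularCurve.Period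
open scoped MatrixGroups

namespace Fermat.Agent.EichlerShimura

local notation "ℚ̄" => AlgebraicClosure ℚ
local notation "Γℚ" => (AlgebraicClosure ℚ ≃ₐ[ℚ] AlgebraicClosure ℚ)

/-- The group `ℚ/ℤ`. -/
abbrev QZ : Type := AddCircle (1 : ℚ)

theorem periodic_exp_two_pi_mul_I :
    Function.Periodic (fun t : ℚ => Complex.exp (2 * Real.pi * Complex.I * (t : ℂ))) 1 := by
  intro t
  simp only
  rw [Rat.cast_add, Rat.cast_one, mul_add, mul_one, Complex.exp_add, Complex.exp_two_pi_mul_I,
    mul_one]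

/-- `t ↦ exp (2πi t)` on `ℚ/ℤ`. -/
def qzExp (t : QZ) : ℂ :=
  periodic_exp_two_pi_mul_I.lift t

theorem qzExp_coe (t : ℚ) :
    qzExp (t : QZ) = Complex.exp (2 * Real.pi * Complex.I * (t : ℂ)) :=
  Function.Periodic.lift_coe _ t

theorem qzExp_add (s t : QZ) : qzExp (s + t) = qzExp s * qzExp t := by
  induction s using QuotientAddGroup.induction_on with
  | _ s =>
    induction t using QuotientAddGroup.induction_on with
    | _ t =>
      rw [← QuotientAddGroup.mk_add]
      show qzExp ((s + t : ℚ) : QZ) = qzExp ((s : ℚ) : QZ) * qzExp ((t : ℚ) : QZ)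
      rw [qzExp_coe, qzExp_coe, qzExp_coe, ← Complex.exp_add]
      push_cast
      ring_nf

variable (N : ℕ)

/-- The torsion points of `J₀(N)(ℚ̄)`. -/
abbrev torsionPts : AddSubgroup (JZero N) := AddCommGroup.torsion (JZero N)

variable {N}

/-- An additive map, restricted to torsion points. -/
def torsionMap (f : JZero N →+ JZero N) : torsionPts N →+ torsionPts N where
  toFun x := ⟨f x, f.isOfFinAddOrder x.2⟩
  map_zero' := Subtype.ext (map_zero f)
  map_add' x y := Subtype.ext (map_add f (x : JZero N) (y : JZero N))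

@[simp]
theorem coe_torsionMap (f : JZero N →+ JZero N) (x : torsionPts N) :
    (torsionMap f x : JZero N) = f x :=
  rfl

/-- The Galois action on torsion points. -/
def torsionGalois (σ : Γℚ) : torsionPts N →+ torsionPts N :=
  torsionMap (DistribSMul.toAddMonoidHom (JZero N) σ)

@[simp]
theorem coe_torsionGalois (σ : Γℚ) (x : torsionPts N) :
    (torsionGalois σ x : JZero N) = σ • (x : JZero N) :=
  rfl

variable (N) [NeZero N]

/-- The Abel–Jacobi–Kummer description of the torsion of `J₀(N)(ℚ̄)`. The operator `U` for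
`q ∣ N` is the transposed correspondence `β_* α^*`; only the properties stated here are used. -/
def HasKummerIso : Prop :=
  ∃ e : torsionPts N ≃+ Periods.cuspidalHoms ℤ (Gamma0 N) QZ,
    (∀ (ℓ : Nat.Primes), ¬ (ℓ : ℕ) ∣ N → ∀ x,
      (e (torsionMap (heckeOperatorBar N ℓ).toAddMonoidHom x) : Additive (Gamma0 N) →+ QZ) =
        Periods.heckeHom ℤ QZ ℓ.2 (e x : Additive (Gamma0 N) →+ QZ)) ∧
    (∀ (q : Nat.Primes), (q : ℕ) ∣ N → ∃ U : JZero N →+ JZero N,
      (∀ (σ : Γℚ) (x : JZero N), σ • U x = U (σ • x)) ∧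
      ∀ x, (e (torsionMap U x) : Additive (Gamma0 N) →+ QZ) =
        Periods.heckeHom ℤ QZ q.2 (e x : Additive (Gamma0 N) →+ QZ)) ∧
    ∀ x, (e (torsionGalois complexConjugation x) : Additive (Gamma0 N) →+ QZ) =
      - charInvolution N ℤ QZ (e x : Additive (Gamma0 N) →+ QZ)

/-- Inertia and Frobenius at a prime of good reduction, on `p`-power torsion. -/
def FrobeniusOnTorsion (p : ℕ) : Prop :=
  ∀ (ℓ : ℕ) (hℓ : ℓ.Prime), ¬ ℓ ∣ N * p →
    ∀ A : ValuationSubring ℚ̄, A.LiesOverPrime ℓ →
      (∀ σ ∈ A.inertiaSubgroupIn ℚ, ∀ x : JZero N, (∃ k : ℕ, p ^ k • x = 0) → σ • x = x) ∧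
      ∀ σ : Γℚ, A.IsFrobeniusAt σ ℓ → ∀ x : JZero N, (∃ k : ℕ, p ^ k • x = 0) →
        σ • σ • x - heckeOperatorBar N ⟨ℓ, hℓ⟩ (σ • x) + ℓ • x = 0

/-- Every point of `J₀(N)(ℚ̄)` is fixed by the Galois group of a finite extension. -/
def GaloisFiniteLevel : Prop :=
  ∀ x : JZero N, ∃ L : IntermediateField ℚ ℚ̄, FiniteDimensional ℚ L ∧
    ∀ σ : Γℚ, (∀ a ∈ L, σ a = a) → σ • x = x

end Fermat.Agent.EichlerShimura
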