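import Fermat.Prelude.Def_GaloisRep_Adic
import Fermat.Prelude.Def_GaloisRep_ComplexConjugation
import Mathlib.LinearAlgebra.FreeModule.PID
import Mathlib.RingTheory.Localization.Module
import Mathlib.LinearAlgebra.Matrix.ToLinearEquiv

/-!
# The lattice cut out by commuting matrices

A continuous action of `Γ_ℚ` on `O ^ r` by matrices commuting with a family `F` restricts to the
joint kernel of `F`, a saturated lattice.  When both eigenspaces of `J = -M(c)` on that kernel are
lines over the fraction field, this is a representation of rank two with determinant `-1` at `c`.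
-/

set_option autoImplicit false

noncomputable section

namespace Fermat.Agent.EichlerShimura

local notation "ℚ̄" => AlgebraicClosure ℚ
local notation "Γℚ" => (AlgebraicClosure ℚ ≃ₐ[ℚ] AlgebraicClosure ℚ)

/-- The joint kernel of a family of square matrices. -/
def matrixJointKer {R : Type*} [CommRing R] {n : Type*} [Fintype n] {κ : Type*}
    (F : κ → Matrix n n R) : Submodule R (n → R) :=
  ⨅ k, LinearMap.ker (F k).mulVecLin

theorem mem_matrixJointKer {R : Type*} [CommRing R] {n : Type*} [Fintype n] {κ : Type*}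
    (F : κ → Matrix n n R) (v : n → R) : v ∈ matrixJointKer F ↔ ∀ k, (F k).mulVec v = 0 := by
  simp [matrixJointKer, Submodule.mem_iInf]

theorem det_eq_neg_one_of_sq_eq_one {R : Type*} [CommRing R] [IsDomain R] [CharZero R]
    {A : Matrix (Fin 2) (Fin 2) R} {v w : Fin 2 → R} (hv : v ≠ 0) (hw : w ≠ 0)
    (hAv : A.mulVec v = v) (hAw : A.mulVec w = -w) : A.det = -1 := by
  have h1 : (A - 1).det = 0 := Matrix.exists_mulVec_eq_zero_iff.mp
    ⟨v, hv, by rw [Matrix.sub_mulVec, Matrix.one_mulVec, hAv, sub_self]⟩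
  have h2 : (A + 1).det = 0 := Matrix.exists_mulVec_eq_zero_iff.mp
    ⟨w, hw, by rw [Matrix.add_mulVec, Matrix.one_mulVec, hAw, neg_add_cancel]⟩
  simp [Matrix.det_fin_two] at h1 h2 ⊢
  have h3 : (2 : R) * (A 0 0 * A 1 1 - A 0 1 * A 1 0 + 1) = 0 := by linear_combination h1 + h2
  exact eq_neg_of_add_eq_zero_left ((mul_eq_zero.mp h3).resolve_left two_ne_zero)

section Main

variable {O : Type} [CommRing O] [IsDomain O] [IsDiscreteValuationRing O] [CharZero O]

/-- The representation on the joint kernel of `F` in `O ^ r`, with its saturated embedding. -/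
theorem exists_galoisRepAdic_jointKer_lattice {r : ℕ} {κ : Type*}
    (F : κ → Matrix (Fin r) (Fin r) O) (J : Matrix (Fin r) (Fin r) O)
    (M : Γℚ →* Matrix (Fin r) (Fin r) O) (hMF : ∀ k σ, F k * M σ = M σ * F k)
    (cont : ∀ n : ℕ, ∃ L : IntermediateField ℚ ℚ̄, FiniteDimensional ℚ L ∧
      ∀ σ : Γℚ, (∀ x ∈ L, σ x = x) →
        ∀ i j, (M σ - 1) i j ∈ IsLocalRing.maximalIdeal O ^ n)
    (hc : M complexConjugation = -J)
    (hplus : Module.finrank (FractionRing O)
      ↥(matrixJointKer (fun k => (F k).map (algebraMap O (FractionRing O))) ⊓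
        LinearMap.ker ((J - 1).map (algebraMap O (FractionRing O))).mulVecLin) = 1)
    (hminus : Module.finrank (FractionRing O)
      ↥(matrixJointKer (fun k => (F k).map (algebraMap O (FractionRing O))) ⊓
        LinearMap.ker ((J + 1).map (algebraMap O (FractionRing O))).mulVecLin) = 1) :
    ∃ ρ : GaloisRepAdic O, LinearMap.det (ρ.ρ complexConjugation) = -1 ∧
      (∀ σ, M σ = 1 → ρ.ρ σ = 1) ∧
      (∃ ι : ρ.V →ₗ[O] (Fin r → O), Function.Injective ι ∧
        (∀ σ v, ι (ρ.ρ σ v) = (M σ).mulVec (ι v)) ∧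
        (∀ v k, (F k).mulVec (ι v) = 0) ∧
        (∀ (a : O) (w : Fin r → O), a ≠ 0 → a • w ∈ LinearMap.range ι → w ∈ LinearMap.range ι) ∧
        ∀ w : Fin r → O, (∀ k, (F k).mulVec w = 0) → w ∈ LinearMap.range ι) ∧
      ∀ σ (G : Matrix (Fin r) (Fin r) O) (a b : O),
        (∀ v : Fin r → O, (∀ k, (F k).mulVec v = 0) → G.mulVec v = a • v) →
        M σ * M σ - G * M σ + b • 1 = 0 →
        ρ.ρ σ * ρ.ρ σ - a • ρ.ρ σ + b • 1 = 0 := by
  set K := FractionRing O
  set i : O →+* K := algebraMap O K with hi_def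
  set W : Submodule O (Fin r → O) := matrixJointKer F with hW
  set FK : κ → Matrix (Fin r) (Fin r) K := fun k => (F k).map i with hFK
  set WK : Submodule K (Fin r → K) := matrixJointKer FK with hWK
  have hi : Function.Injective i := IsFractionRing.injective O K
  have hmap : ∀ (A : Matrix (Fin r) (Fin r) O) (v : Fin r → O),
      (A.map i).mulVec (i ∘ v) = i ∘ (A.mulVec v) := fun A v => by
    funext j; exact (RingHom.map_mulVec i A v j).symm
  have hmemK : ∀ v : Fin r → O, i ∘ v ∈ WK ↔ v ∈ W := by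
    intro v
    rw [hW, hWK, mem_matrixJointKer, mem_matrixJointKer]
    refine forall_congr' fun k => ?_
    rw [hFK, hmap]
    exact ⟨fun h => funext fun j => hi (by simpa using congrFun h j), fun h => by
      funext j; simp [h]⟩
  -- an eigenvector in the lattice for each sign
  have hvec : ∀ (D : Matrix (Fin r) (Fin r) O),
      Module.finrank K ↥(WK ⊓ LinearMap.ker (D.map i).mulVecLin) = 1 →
      ∃ v ∈ W, v ≠ 0 ∧ D.mulVec v = 0 := by
    intro D hD
    obtain ⟨⟨x, hx⟩, hx0⟩ := Module.finrank_pos_iff_exists_ne_zero.mp (hD ▸ one_pos :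
      0 < Module.finrank K ↥(WK ⊓ LinearMap.ker (D.map i).mulVecLin))
    obtain ⟨s, hs⟩ := IsLocalization.exist_integer_multiples_of_finite (nonZeroDivisors O) x
    choose v hv using hs
    have hvx : i ∘ v = i (s : O) • x := by
      funext j
      rw [Function.comp_apply, hi_def, hv, Pi.smul_apply, smul_eq_mul, Algebra.smul_def]
    have hmem := Submodule.smul_mem _ (i (s : O)) hx
    rw [← hvx, Submodule.mem_inf, LinearMap.mem_ker, Matrix.mulVecLin_apply, hmap] at hmem
    refine ⟨v, (hmemK v).mp hmem.1, fun h0 => ?_, funext fun j => hi (by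
      simpa using congrFun hmem.2 j)⟩
    have hs0 : i (s : O) ≠ 0 :=
      (map_ne_zero_iff i hi).mpr (nonZeroDivisors.coe_ne_zero s)
    have : i (s : O) • x = 0 := by rw [← hvx, h0]; funext j; simp
    exact hx0 (Subtype.ext ((smul_eq_zero.mp this).resolve_left hs0))
  obtain ⟨vp, hvpW, hvp0, hvp⟩ := hvec (J - 1) hplus
  obtain ⟨vm, hvmW, hvm0, hvm⟩ := hvec (J + 1) hminus
  rw [Matrix.sub_mulVec, Matrix.one_mulVec, sub_eq_zero] at hvp
  rw [Matrix.add_mulVec, Matrix.one_mulVec, add_eq_zero_iff_eq_neg] at hvm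
  -- the rank
  have hJJ : J * J = 1 := by
    have h := congrArg M complexConjugation_mul_self
    rwa [map_mul, map_one, hc, neg_mul_neg] at h
  have hFJ : ∀ k, F k * J = J * F k := fun k => by
    have h := hMF k complexConjugation
    rwa [hc, mul_neg, neg_mul, neg_inj] at h
  have hWKle : WK ≤ (WK ⊓ LinearMap.ker ((J - 1).map i).mulVecLin) ⊔
      (WK ⊓ LinearMap.ker ((J + 1).map i).mulVecLin) := by
    intro w hw
    have hJw : (J.map i).mulVec w ∈ WK := by
      rw [hWK, mem_matrixJointKer] at hw ⊢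
      intro k
      rw [hFK, Matrix.mulVec_mulVec, ← Matrix.map_mul, hFJ, Matrix.map_mul,
        ← Matrix.mulVec_mulVec, hw k, Matrix.mulVec_zero]
    have hsq : (J.map i).mulVec ((J.map i).mulVec w) = w := by
      rw [Matrix.mulVec_mulVec, ← Matrix.map_mul, hJJ, Matrix.map_one _ (map_zero i) (map_one i),
        Matrix.one_mulVec]
    have hm1 : (J - 1).map i = J.map i - 1 := by
      rw [Matrix.map_sub _ (map_sub i), Matrix.map_one _ (map_zero i) (map_one i)]
    have hp1 : (J + 1).map i = J.map i + 1 := by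
      rw [Matrix.map_add _ (map_add i), Matrix.map_one _ (map_zero i) (map_one i)]
    have h2 : (2 : K) ≠ 0 := two_ne_zero
    refine Submodule.mem_sup.mpr ⟨(2 : K)⁻¹ • (w + (J.map i).mulVec w), ⟨?_, ?_⟩,
      (2 : K)⁻¹ • (w - (J.map i).mulVec w), ⟨?_, ?_⟩, ?_⟩
    · exact WK.smul_mem _ (WK.add_mem hw hJw)
    · show ((J - 1).map i).mulVec _ = 0
      rw [hm1, Matrix.mulVec_smul, Matrix.sub_mulVec, Matrix.one_mulVec, Matrix.mulVec_add, hsq,
        add_comm w, sub_self, smul_zero]
    · exact WK.smul_mem _ (WK.sub_mem hw hJw)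
    · show ((J + 1).map i).mulVec _ = 0
      rw [hp1, Matrix.mulVec_smul, Matrix.add_mulVec, Matrix.one_mulVec, Matrix.mulVec_sub, hsq,
        sub_add_sub_cancel, sub_self, smul_zero]
    · rw [← smul_add, add_add_sub_cancel, ← two_smul K w, smul_smul, inv_mul_cancel₀ h2, one_smul]
  have hWK2 : Module.finrank K WK ≤ 2 :=
    (Submodule.finrank_mono hWKle).trans ((Submodule.finrank_add_le_finrank_add_finrank _ _).trans
      (by rw [hplus, hminus]))
  have hfr : Module.finrank O W = 2 := by
    refine le_antisymm ?_ ?_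
    · let b := Module.finBasis O W
      let iL : (Fin r → O) →ₗ[O] (Fin r → K) :=
        LinearMap.compLeft (Algebra.linearMap O K) (Fin r)
      have h1 : LinearIndependent O (fun t => iL (b t : Fin r → O)) :=
        (b.linearIndependent.map' W.subtype W.ker_subtype).map' iL
          (LinearMap.ker_eq_bot.mpr fun x y h => funext fun j => hi (congrFun h j))
      rw [LinearIndependent.iff_fractionRing O K] at h1
      have h2 : LinearIndependent K (fun t => (⟨iL (b t : Fin r → O), (hmemK _).mpr (b t).2⟩ :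
          WK)) := LinearIndependent.of_comp WK.subtype h1
      simpa using h2.fintype_card_le_finrank.trans hWK2
    · have h1 : LinearIndependent O ![(⟨vp, hvpW⟩ : W), ⟨vm, hvmW⟩] := by
        rw [LinearIndependent.pair_iff]
        intro s t hst
        have hst' : s • vp + t • vm = 0 := congrArg Subtype.val hst
        have hJ' : s • vp - t • vm = 0 := by
          have := congrArg J.mulVec hst'
          rwa [Matrix.mulVec_add, Matrix.mulVec_smul, Matrix.mulVec_smul, hvp, hvm, smul_neg,
            Matrix.mulVec_zero, ← sub_eq_add_neg] at this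
        have h2s : ((2 : O) * s) • vp = 0 := by
          rw [mul_smul, two_smul]
          linear_combination (norm := module) hst' + hJ'
        have hs : s = 0 :=
          (mul_eq_zero.mp ((smul_eq_zero.mp h2s).resolve_right hvp0)).resolve_left two_ne_zero
        rw [hs, zero_smul, zero_add] at hst'
        exact ⟨hs, (smul_eq_zero.mp hst').resolve_right hvm0⟩
      simpa using h1.fintype_card_le_finrank
  -- the action
  have hinv : ∀ σ, ∀ v ∈ W, (M σ).mulVecLin v ∈ W := by
    intro σ v hv
    rw [hW, mem_matrixJointKer] at hv ⊢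
    intro k
    rw [Matrix.mulVecLin_apply, Matrix.mulVec_mulVec, hMF, ← Matrix.mulVec_mulVec, hv k,
      Matrix.mulVec_zero]
  let ρ₀ : Γℚ →* Module.End O W :=
    { toFun := fun σ => ((M σ).mulVecLin).restrict (hinv σ)
      map_one' := by
        refine LinearMap.ext fun v => Subtype.ext ?_
        show (M 1).mulVec (v : Fin r → O) = v
        rw [map_one, Matrix.one_mulVec]
      map_mul' := fun σ τ => by
        refine LinearMap.ext fun v => Subtype.ext ?_
        show (M (σ * τ)).mulVec (v : Fin r → O) = (M σ).mulVec ((M τ).mulVec (v : Fin r → O))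
        rw [map_mul, Matrix.mulVec_mulVec] }
  have hcont : GaloisActionIsAdicContinuous O ρ₀ := by
    intro n
    obtain ⟨L, hL, hk⟩ := cont n
    refine ⟨L, hL, fun σ hσ v => ?_⟩
    obtain ⟨ϖ, hϖ⟩ := IsDiscreteValuationRing.exists_irreducible O
    have hm : IsLocalRing.maximalIdeal O ^ n = Ideal.span {ϖ ^ n} := by
      rw [Irreducible.maximalIdeal_eq hϖ, Ideal.span_singleton_pow]
    have hu : ∀ j, ∃ u : O, ((M σ - 1).mulVec (v : Fin r → O)) j = ϖ ^ n * u := by
      intro j
      have hmem : ((M σ - 1).mulVec (v : Fin r → O)) j ∈ IsLocalRing.maximalIdeal O ^ n := by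
        simp only [Matrix.mulVec, dotProduct]
        exact Ideal.sum_mem _ fun t _ => Ideal.mul_mem_right _ _ (hk σ hσ j t)
      rw [hm, Ideal.mem_span_singleton] at hmem
      exact hmem
    choose u hu using hu
    have hdiff : ((ρ₀ σ v - v : W) : Fin r → O) = ϖ ^ n • u := by
      funext j
      rw [Pi.smul_apply, smul_eq_mul, ← hu, Matrix.sub_mulVec, Matrix.one_mulVec]
      rfl
    have huW : u ∈ W := by
      have h := (ρ₀ σ v - v : W).2
      rw [hdiff, hW, mem_matrixJointKer] at h
      rw [hW, mem_matrixJointKer]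
      intro k
      have := h k
      rw [Matrix.mulVec_smul] at this
      exact (smul_eq_zero.mp this).resolve_left (pow_ne_zero _ hϖ.ne_zero)
    rw [show ρ₀ σ v - v = ϖ ^ n • (⟨u, huW⟩ : W) from Subtype.ext hdiff]
    refine Submodule.smul_mem_smul ?_ Submodule.mem_top
    rw [hm]
    exact Ideal.mem_span_singleton_self _
  refine ⟨{ V := W, finrank_eq := hfr, ρ := ρ₀, isAdicContinuous := hcont }, ?_, ?_,
    ⟨W.subtype, W.injective_subtype, fun σ v => rfl,
      fun v => (mem_matrixJointKer F _).mp v.2, ?_,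
      fun w hw => ⟨⟨w, (mem_matrixJointKer F w).mpr hw⟩, rfl⟩⟩, ?_⟩
  · let b := Module.finBasisOfFinrankEq O W hfr
    show LinearMap.det (ρ₀ complexConjugation) = -1
    rw [← LinearMap.det_toMatrix b]
    have hcp : ρ₀ complexConjugation ⟨vm, hvmW⟩ = ⟨vm, hvmW⟩ := Subtype.ext (by
      show (M complexConjugation).mulVec vm = vm
      rw [hc, Matrix.neg_mulVec, hvm, neg_neg])
    have hcm : ρ₀ complexConjugation ⟨vp, hvpW⟩ = -⟨vp, hvpW⟩ := Subtype.ext (by
      show (M complexConjugation).mulVec vp = -vp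
      rw [hc, Matrix.neg_mulVec, hvp])
    refine det_eq_neg_one_of_sq_eq_one (v := b.repr ⟨vm, hvmW⟩) (w := b.repr ⟨vp, hvpW⟩)
      ?_ ?_ ?_ ?_
    · simpa using hvm0
    · simpa using hvp0
    · rw [LinearMap.toMatrix_mulVec_repr, hcp]
    · rw [LinearMap.toMatrix_mulVec_repr, hcm, map_neg]; rfl
  · intro σ hσ
    refine LinearMap.ext fun v => Subtype.ext ?_
    show (M σ).mulVec (v : Fin r → O) = v
    rw [hσ, Matrix.one_mulVec]
  · rintro a w ha ⟨v, hv⟩
    refine ⟨⟨w, ?_⟩, rfl⟩
    rw [hW, mem_matrixJointKer]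
    intro k
    have h := (mem_matrixJointKer F _).mp (show a • w ∈ matrixJointKer F from hv ▸ v.2) k
    rw [Matrix.mulVec_smul] at h
    exact (smul_eq_zero.mp h).resolve_left ha
  · intro σ G a b hG hrel
    refine LinearMap.ext fun v => Subtype.ext ?_
    have hv : ∀ k, (F k).mulVec (v : Fin r → O) = 0 := (mem_matrixJointKer F _).mp v.2
    have hMv : ∀ k, (F k).mulVec ((M σ).mulVec (v : Fin r → O)) = 0 :=
      (mem_matrixJointKer F _).mp (hinv σ _ v.2)
    have h := congrArg (fun A : Matrix (Fin r) (Fin r) O => A.mulVec (v : Fin r → O)) hrel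
    simp only [Matrix.add_mulVec, Matrix.sub_mulVec, ← Matrix.mulVec_mulVec, Matrix.zero_mulVec,
      Matrix.smul_mulVec, Matrix.one_mulVec, hG _ hMv] at h
    exact h

/-- The representation on the joint kernel of `F` in `O ^ r`. -/
theorem exists_galoisRepAdic_jointKer {r : ℕ} {κ : Type*}
    (F : κ → Matrix (Fin r) (Fin r) O) (J : Matrix (Fin r) (Fin r) O)
    (M : Γℚ →* Matrix (Fin r) (Fin r) O) (hMF : ∀ k σ, F k * M σ = M σ * F k)
    (cont : ∀ n : ℕ, ∃ L : IntermediateField ℚ ℚ̄, FiniteDimensional ℚ L ∧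
      ∀ σ : Γℚ, (∀ x ∈ L, σ x = x) →
        ∀ i j, (M σ - 1) i j ∈ IsLocalRing.maximalIdeal O ^ n)
    (hc : M complexConjugation = -J)
    (hplus : Module.finrank (FractionRing O)
      ↥(matrixJointKer (fun k => (F k).map (algebraMap O (FractionRing O))) ⊓
        LinearMap.ker ((J - 1).map (algebraMap O (FractionRing O))).mulVecLin) = 1)
    (hminus : Module.finrank (FractionRing O)
      ↥(matrixJointKer (fun k => (F k).map (algebraMap O (FractionRing O))) ⊓
        LinearMap.ker ((J + 1).map (algebraMap O (FractionRing O))).mulVecLin) = 1) :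
    ∃ ρ : GaloisRepAdic O, LinearMap.det (ρ.ρ complexConjugation) = -1 ∧
      (∀ σ, M σ = 1 → ρ.ρ σ = 1) ∧
      ∀ σ (G : Matrix (Fin r) (Fin r) O) (a b : O),
        (∀ v : Fin r → O, (∀ k, (F k).mulVec v = 0) → G.mulVec v = a • v) →
        M σ * M σ - G * M σ + b • 1 = 0 →
        ρ.ρ σ * ρ.ρ σ - a • ρ.ρ σ + b • 1 = 0 := by
  obtain ⟨ρ, h1, h2, -, h3⟩ :=
    exists_galoisRepAdic_jointKer_lattice F J M hMF cont hc hplus hminus
  exact ⟨ρ, h1, h2, h3⟩

end Main

end Fermat.Agent.EichlerShimura
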