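import Mathlib.LinearAlgebra.Trace
import Mathlib.LinearAlgebra.Basis.VectorSpace
import Mathlib.LinearAlgebra.Matrix.ToLin
import Mathlib.RingTheory.Localization.FractionRing

/-!
# Team GAL: the dimension of a joint kernel does not depend on the field
-/

set_option autoImplicit false

noncomputable section

open Matrix Module

namespace Fermat.Agent.EichlerShimura

variable {r : ℕ} {κ : Type*}

/-- The joint kernel of a family of square matrices. -/
def jointKer {K : Type*} [CommRing K] (F : κ → Matrix (Fin r) (Fin r) K) :
    Submodule K (Fin r → K) :=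
  ⨅ k, LinearMap.ker (toLin' (F k))

theorem mem_jointKer {K : Type*} [CommRing K] {F : κ → Matrix (Fin r) (Fin r) K}
    {v : Fin r → K} : v ∈ jointKer F ↔ ∀ k, F k *ᵥ v = 0 := by
  simp [jointKer]

theorem finrank_jointKer_map {K₀ K : Type*} [Field K₀] [Field K] [CharZero K] (g : K₀ →+* K)
    (F : κ → Matrix (Fin r) (Fin r) K₀) :
    finrank K (jointKer fun k => (F k).map g) = finrank K₀ (jointKer F) := by
  classical
  letI : Algebra K₀ K := g.toAlgebra
  set W := jointKer F with hW
  obtain ⟨q, hq⟩ := Submodule.exists_isCompl W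
  set P : (Fin r → K₀) →ₗ[K₀] (Fin r → K₀) := W.projection q hq with hPdef
  have hP : LinearMap.IsProj W P :=
    ⟨fun x => W.projection_apply_mem hq x,
      fun x hx => Submodule.projection_apply_left hq ⟨x, hx⟩⟩
  set Q : Matrix (Fin r) (Fin r) K₀ := LinearMap.toMatrix' P with hQ
  set Q' := Q.map g
  -- coordinates of a vector over `K₀`
  set b := Module.Free.chooseBasis K₀ K
  have hcoord : ∀ (A : Matrix (Fin r) (Fin r) K₀) (v : Fin r → K) (α),
      (fun i => b.repr ((A.map g *ᵥ v) i) α) = A *ᵥ fun i => b.repr (v i) α := by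
    intro A v α
    funext i
    simp only [mulVec, dotProduct, Matrix.map_apply, map_sum, Finsupp.coe_finsetSum,
      Finset.sum_apply]
    refine Finset.sum_congr rfl fun j _ => ?_
    rw [show g (A i j) * v j = A i j • v j from (Algebra.smul_def (A i j) (v j)).symm, map_smul,
      Finsupp.smul_apply, smul_eq_mul]
  have hzero : ∀ v : Fin r → K, (∀ α, (fun i => b.repr (v i) α) = 0) → v = 0 := by
    intro v hv
    funext i
    apply b.repr.injective
    ext α
    simpa using congrFun (hv α) i
  have hfix : ∀ v ∈ jointKer (fun k => (F k).map g), Q' *ᵥ v = v := by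
    intro v hv
    refine sub_eq_zero.mp (hzero _ fun α => ?_)
    have hw : (fun i => b.repr (v i) α) ∈ W := mem_jointKer.mpr fun k => by
      rw [← hcoord, mem_jointKer.mp hv k]
      funext i; simp
    funext i
    have := congrFun (hcoord Q v α) i
    rw [hQ, LinearMap.toMatrix'_mulVec, hP.map_id _ hw] at this
    simp [Q', hQ, this]
  have hkill : ∀ k, F k * Q = 0 := by
    intro k
    apply toLin'.injective
    refine LinearMap.ext fun w => ?_
    rw [toLin'_mul, LinearMap.comp_apply, hQ, toLin'_toMatrix', toLin'_apply,
      mem_jointKer.mp (hP.map_mem w) k]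
    simp
  have hP' : LinearMap.IsProj (jointKer fun k => (F k).map g) (toLin' Q') :=
    ⟨fun v => mem_jointKer.mpr fun k => by
      rw [toLin'_apply, mulVec_mulVec, ← Matrix.map_mul, hkill]; simp,
      fun v hv => by rw [toLin'_apply]; exact hfix v hv⟩
  have h1 := hP'.trace
  have h2 := hP.trace
  rw [trace_toLin'_eq] at h1
  rw [← toLin'_toMatrix' P, trace_toLin'_eq, ← hQ] at h2
  have h3 : Q'.trace = g Q.trace := by simp [Q', Matrix.trace, map_sum]
  rw [h3, h2, map_natCast] at h1
  exact (Nat.cast_injective h1).symm

theorem map_fractionRing_lift {R K : Type*} [CommRing R] [IsDomain R] [Field K] {f : R →+* K}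
    (hf : Function.Injective f) (A : Matrix (Fin r) (Fin r) R) :
    (A.map (algebraMap R (FractionRing R))).map (IsFractionRing.lift hf) = A.map f := by
  ext i j
  simp [IsFractionRing.lift_algebraMap]

theorem finrank_jointKer_congr {R K₁ K₂ : Type*} [CommRing R] [IsDomain R] [Field K₁] [Field K₂]
    [CharZero K₁] [CharZero K₂] {f₁ : R →+* K₁} {f₂ : R →+* K₂} (h₁ : Function.Injective f₁)
    (h₂ : Function.Injective f₂) (F : κ → Matrix (Fin r) (Fin r) R) :
    finrank K₁ (jointKer fun k => (F k).map f₁) = finrank K₂ (jointKer fun k => (F k).map f₂) := by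
  have e₁ := finrank_jointKer_map (IsFractionRing.lift (K := FractionRing R) h₁)
    (fun k => (F k).map (algebraMap R (FractionRing R)))
  have e₂ := finrank_jointKer_map (IsFractionRing.lift (K := FractionRing R) h₂)
    (fun k => (F k).map (algebraMap R (FractionRing R)))
  have c₁ : (fun k => (F k).map f₁) = fun k =>
      ((F k).map (algebraMap R (FractionRing R))).map
        (IsFractionRing.lift (K := FractionRing R) h₁) :=
    funext fun k => (map_fractionRing_lift h₁ (F k)).symm
  have c₂ : (fun k => (F k).map f₂) = fun k =>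
      ((F k).map (algebraMap R (FractionRing R))).map
        (IsFractionRing.lift (K := FractionRing R) h₂) :=
    funext fun k => (map_fractionRing_lift h₂ (F k)).symm
  rw [c₁, c₂]
  exact e₁.trans e₂.symm

end Fermat.Agent.EichlerShimura
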