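import Fermat.Agent.EichlerShimura.CuspBasis
import Fermat.Agent.EichlerShimura.KernelTransfer
import Fermat.Agent.Periods.EigenSpace
import Fermat.Agent.Hecke.EigenformOfChar
import Fermat.Agent.HeckeFinite.Finite

/-!
# Team GAL: the eigen-plane of a full Hecke eigensystem
-/

set_option autoImplicit false

noncomputable section

open CongruenceSubgroup ModularCurve ModularCurve.Period Matrix Module ModularFormClass
open scoped MatrixGroups

namespace Fermat.Agent.EichlerShimura

variable (N : ℕ) [NeZero N]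

/-- A parabolic homomorphism into a torsion-free group is cuspidal. -/
theorem isCuspidalHom_of_parabolic {A : Type*} [AddCommGroup A] [IsAddTorsionFree A]
    {φ : Additive (Gamma0 N) →+ A}
    (hφ : φ ∈ parabolicHoms ℤ (Gamma0 N) A) : Periods.IsCuspidalHom φ := by
  intro γ hγ
  set A₀ : Matrix (Fin 2) (Fin 2) ℤ := ((γ : SL(2, ℤ)) : Matrix (Fin 2) (Fin 2) ℤ) with hA₀
  set t := A₀.trace with ht
  rcases eq_or_lt_of_le hγ with h | h
  · exact hφ γ h
  have hdet : A₀ 0 0 * A₀ 1 1 - A₀ 0 1 * A₀ 1 0 = 1 := by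
    rw [← Matrix.det_fin_two]; exact (γ : SL(2, ℤ)).2
  have hsq : A₀ * A₀ = t • A₀ - 1 := by
    ext i j
    rw [Matrix.sub_apply, Matrix.smul_apply, smul_eq_mul, Matrix.one_apply, Matrix.mul_apply,
      Fin.sum_univ_two, ht, Matrix.trace_fin_two]
    fin_cases i <;> fin_cases j <;> simp <;>
      first
        | linear_combination (-1 : ℤ) * hdet
        | ring
  have ht1 : t = 0 ∨ t = 1 ∨ t = -1 := by
    have h1 : -2 < t := by nlinarith
    have h2 : t < 2 := by nlinarith
    omega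
  have h12 : A₀ ^ 12 = 1 := by
    rcases ht1 with h0 | h0 | h0 <;> rw [h0] at hsq
    · have e : A₀ * A₀ = -1 := by simpa using hsq
      rw [show A₀ ^ 12 = (A₀ * A₀) ^ 6 by rw [← sq, ← pow_mul], e]
      simp [Even.neg_one_pow (show Even 6 by decide)]
    · have e : A₀ * A₀ * A₀ = -1 := by
        rw [hsq, one_smul, sub_mul, hsq, one_mul, one_smul]; abel
      rw [show A₀ ^ 12 = (A₀ * A₀ * A₀) ^ 4 by rw [← sq, ← pow_succ, ← pow_mul], e]
      simp [Even.neg_one_pow (show Even 4 by decide)]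
    · have e : A₀ * A₀ * A₀ = 1 := by
        rw [hsq, neg_one_smul, sub_mul, neg_mul, hsq, one_mul, neg_one_smul]; abel
      rw [show A₀ ^ 12 = (A₀ * A₀ * A₀) ^ 4 by rw [← sq, ← pow_succ, ← pow_mul], e, one_pow]
  have hγ12 : γ ^ 12 = 1 := by
    apply Subtype.ext
    apply Subtype.ext
    show ((((γ : SL(2, ℤ)) ^ 12 : SL(2, ℤ))) : Matrix (Fin 2) (Fin 2) ℤ) = 1
    rw [Matrix.SpecialLinearGroup.coe_pow]
    exact h12
  have : (12 : ℕ) • φ (Additive.ofMul γ) = 0 := by
    rw [← map_nsmul, ← ofMul_pow, hγ12, ofMul_one, map_zero]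
  exact (smul_eq_zero.mp this).resolve_left (by norm_num)

/-- `T_ℓ` for `ℓ ∤ N`, `U_ℓ` for `ℓ ∣ N`, in the full Hecke algebra. -/
def heckeTU (ℓ : Nat.Primes) : CuspForm.heckeAlgebra N 2 (∅ : Set ℕ) :=
  if h : (ℓ : ℕ) ∣ N then CuspForm.heckeAlgebra.U ℓ.2 h (Set.notMem_empty _)
  else CuspForm.heckeAlgebra.T ℓ.2 h (Set.notMem_empty _)

/-- The equations of the eigen-plane and of one of its lines. -/
def planeMatrices {R : Type*} [CommRing R] (c : Nat.Primes → R) (ε : R) :
    Option Nat.Primes → Matrix (Fin (cuspRank N)) (Fin (cuspRank N)) R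
  | some ℓ => (heckeMatrix N ℓ).map (Int.castRingHom R) - c ℓ • 1
  | none => (involMatrix N).map (Int.castRingHom R) - ε • 1

theorem planeMatrices_map {R S : Type*} [CommRing R] [CommRing S] (f : R →+* S)
    (c : Nat.Primes → R) (ε : R) (k : Option Nat.Primes) :
    (planeMatrices N c ε k).map f = planeMatrices N (fun ℓ => f (c ℓ)) (f ε) k := by
  cases k <;> ext i j <;> by_cases h : i = j <;>
    simp [planeMatrices, Matrix.one_apply, h]

theorem mulVec_intMatrix {R : Type*} [CommRing R] {r : ℕ} (H : Matrix (Fin r) (Fin r) ℤ)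
    (v : Fin r → R) (i : Fin r) :
    (H.map (Int.castRingHom R) *ᵥ v) i = ∑ j, H i j • v j := by
  simp [mulVec, dotProduct]

theorem mem_jointKer_planeMatrices {c : Nat.Primes → ℂ} {ε : ℂ}
    {φ : Additive (Gamma0 N) →+ ℂ} (hφ : φ ∈ parabolicHoms ℂ (Gamma0 N) ℂ) :
    (fun i => φ (Additive.ofMul (cuspGen N i))) ∈ jointKer (planeMatrices N c ε) ↔
      (∀ ℓ : Nat.Primes, Periods.heckeHom ℂ ℂ ℓ.2 φ = c ℓ • φ) ∧
        charInvolution N ℂ ℂ φ = ε • φ := by
  have hcusp : ∀ ψ ∈ parabolicHoms ℂ (Gamma0 N) ℂ, Periods.IsCuspidalHom ψ :=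
    fun ψ hψ => isCuspidalHom_of_parabolic N hψ
  have hext : ∀ ψ ∈ parabolicHoms ℂ (Gamma0 N) ℂ, ∀ ψ' ∈ parabolicHoms ℂ (Gamma0 N) ℂ,
      (∀ i, ψ (Additive.ofMul (cuspGen N i)) = ψ' (Additive.ofMul (cuspGen N i))) → ψ = ψ' := by
    intro ψ hψ ψ' hψ' h
    refine AddMonoidHom.ext fun g => ?_
    rw [cuspidal_expansion N (hcusp ψ hψ) g, cuspidal_expansion N (hcusp ψ' hψ') g]
    exact Finset.sum_congr rfl fun i _ => by rw [h i]
  rw [mem_jointKer]
  constructor
  · refine fun h => ⟨fun ℓ => hext _ (Periods.heckeHom_mem_parabolicHoms ℓ.2 hφ) _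
      (Submodule.smul_mem _ _ hφ) fun i => ?_, hext _ (charInvolution_mem_parabolicHoms N ℂ ℂ hφ) _
      (Submodule.smul_mem _ _ hφ) fun i => ?_⟩
    · have := congrFun (h (some ℓ)) i
      rw [planeMatrices, sub_mulVec, Pi.sub_apply, mulVec_intMatrix, smul_mulVec, one_mulVec,
        Pi.zero_apply, sub_eq_zero] at this
      rw [heckeHom_apply_cuspGen N ℓ (hcusp φ hφ) i, this]
      rfl
    · have := congrFun (h none) i
      rw [planeMatrices, sub_mulVec, Pi.sub_apply, mulVec_intMatrix, smul_mulVec, one_mulVec,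
        Pi.zero_apply, sub_eq_zero] at this
      rw [charInvolution_apply_cuspGen N (hcusp φ hφ) i, this]
      rfl
  · rintro ⟨hT, hJ⟩ (_ | ℓ) <;> funext i <;>
      rw [planeMatrices, sub_mulVec, Pi.sub_apply, mulVec_intMatrix, smul_mulVec, one_mulVec,
        Pi.zero_apply, sub_eq_zero]
    · rw [← charInvolution_apply_cuspGen N (R := ℂ) (hcusp φ hφ) i, hJ]; rfl
    · rw [← heckeHom_apply_cuspGen N (R := ℂ) ℓ (hcusp φ hφ) i, hT ℓ]; rfl

theorem charInvolution_periodHomPair (f g : CuspForm (Gamma0 N) 2) :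
    charInvolution N ℂ ℂ (periodHomPair N (f, g)) = periodHomPair N (f, -g) := by
  have hneg : periodMap N (-g) = - periodMap N g := by
    obtain ⟨pml, hpml⟩ := Periods.existsPeriodMapLinear N
    rw [← hpml, ← hpml, map_neg]
  simp only [Periods.periodHomPair_apply, map_add, map_sub, map_neg, hneg,
    charInvolution_charInvolution]
  abel

/-- Over `ℂ` each sign gives a line. -/
theorem finrank_plane_complex {f : CuspForm (Gamma0 N) 2} (hf : f.IsNormalizedEigenform) {ε : ℂ}
    (hε : ε = 1 ∨ ε = -1) :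
    finrank ℂ (jointKer (planeMatrices N (fun ℓ => qCoeff f ℓ) ε)) = 1 := by
  have hE := Periods.isEigen_of_isNormalizedEigenform hf
  set w : CuspForm (Gamma0 N) 2 × CuspForm (Gamma0 N) 2 := if ε = 1 then (f, 0) else (0, f) with hw
  have hmem : ∀ x, periodHomPair N x ∈ parabolicHoms ℂ (Gamma0 N) ℂ := fun x => by
    rw [← Periods.range_periodHomPair N]; exact LinearMap.mem_range_self _ x
  set v : Fin (cuspRank N) → ℂ := fun i => periodHomPair N w (Additive.ofMul (cuspGen N i))
  have hf0 : f ≠ 0 := fun h => by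
    have := hf.qCoeff_one
    rw [h, show qCoeff (⇑(0 : CuspForm (Gamma0 N) 2)) 1 = 0 from
      map_zero (Periods.qCoeffLin N 1)] at this
    exact zero_ne_one this
  have hne1 : ¬ (-1 : ℂ) = 1 := by norm_num
  have hinv : charInvolution N ℂ ℂ (periodHomPair N w) = ε • periodHomPair N w := by
    rcases hε with rfl | rfl
    · simp [hw, charInvolution_periodHomPair]
    · rw [← map_smul]
      simp [hw, hne1, charInvolution_periodHomPair]
  have hweig : periodHomPair N w ∈ Periods.eigenHoms N fun p => qCoeff f p := by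
    rw [Periods.periodHomPair_mem_eigenHoms_iff]
    have h0 : Periods.IsEigen (0 : CuspForm (Gamma0 N) 2) (fun p => qCoeff f p) :=
      ⟨fun p hp hpN => by simp, fun p hpN hp => by simp⟩
    rcases hε with rfl | rfl
    · simp only [hw, if_true]; exact ⟨hE, h0⟩
    · simp only [hw, if_neg hne1]; exact ⟨h0, hE⟩
  have hvK : v ∈ jointKer (planeMatrices N (fun ℓ => qCoeff f ℓ) ε) :=
    (mem_jointKer_planeMatrices N (hmem w)).mpr ⟨fun ℓ => hweig.2 ℓ ℓ.2, hinv⟩
  refine (finrank_eq_one_iff_of_nonzero' ⟨v, hvK⟩ ?_).mpr ?_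
  · intro h0
    have hv0 : v = 0 := congrArg Subtype.val h0
    have : periodHomPair N w = 0 := by
      refine AddMonoidHom.ext fun g => ?_
      rw [cuspidal_expansion N (isCuspidalHom_of_parabolic N (hmem w)) g]
      simp [show ∀ i, periodHomPair N w (Additive.ofMul (cuspGen N i)) = 0 from congrFun hv0]
    have hw0 := Periods.periodHomPair_injective N (this.trans (map_zero _).symm)
    rcases hε with rfl | rfl
    · simp [hw, hf0] at hw0
    · simp [hw, hne1, hf0] at hw0
  · rintro ⟨u, hu⟩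
    set φ : Additive (Gamma0 N) →+ ℂ := ofCoords N ℂ u
    have hφ : φ ∈ parabolicHoms ℂ (Gamma0 N) ℂ :=
      fun γ hγ => isCuspidalHom_ofCoords N ℂ u γ hγ.le
    have hu' : (fun i => φ (Additive.ofMul (cuspGen N i))) = u :=
      funext fun j => by simp [φ, ofCoords_apply, cuspDual_cuspGen]
    obtain ⟨hT, hJ⟩ := (mem_jointKer_planeMatrices N hφ).mp (hu'.symm ▸ hu)
    obtain ⟨⟨x₁, x₂⟩, hx⟩ : φ ∈ LinearMap.range (periodHomPair N) := by
      rw [Periods.range_periodHomPair N]; exact hφ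
    have hxe : periodHomPair N (x₁, x₂) ∈ Periods.eigenHoms N fun p => qCoeff f p :=
      ⟨hmem _, fun p hp => by rw [hx]; exact hT ⟨p, hp⟩⟩
    obtain ⟨h1, h2⟩ := Periods.periodHomPair_mem_eigenHoms_iff.mp hxe
    have e1 := hE.eq_smul h1 hf.qCoeff_one
    have e2 := hE.eq_smul h2 hf.qCoeff_one
    have hJ' : periodHomPair N (x₁, -x₂) = periodHomPair N (ε • x₁, ε • x₂) := by
      rw [← charInvolution_periodHomPair, hx, hJ, ← hx, ← map_smul]; rfl
    obtain ⟨e3, e4⟩ := Prod.ext_iff.mp (Periods.periodHomPair_injective N hJ')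
    have key : ∃ c : ℂ, periodHomPair N (x₁, x₂) = c • periodHomPair N w := by
      rcases hε with rfl | rfl
      · refine ⟨qCoeff x₁ 1, ?_⟩
        have h20 : x₂ = 0 := by
          have h' : -x₂ = x₂ := by simpa using e4
          have : (2 : ℂ) • x₂ = 0 := by rw [two_smul]; nth_rw 1 [← h']; exact neg_add_cancel x₂
          exact (smul_eq_zero.mp this).resolve_left two_ne_zero
        rw [← map_smul, hw, if_pos rfl, Prod.smul_mk, smul_zero, h20, ← e1]
      · refine ⟨qCoeff x₂ 1, ?_⟩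
        have h10 : x₁ = 0 := by
          have h' : x₁ = -x₁ := by simpa using e3
          have : (2 : ℂ) • x₁ = 0 := by rw [two_smul]; nth_rw 1 [h']; exact neg_add_cancel x₁
          exact (smul_eq_zero.mp this).resolve_left two_ne_zero
        rw [← map_smul, hw, if_neg hne1, Prod.smul_mk, smul_zero, h10, ← e2]
    obtain ⟨c, hc⟩ := key
    refine ⟨c, Subtype.ext ?_⟩
    show c • v = u
    rw [← hu', ← hx, hc]
    rfl

/-- A full eigensystem with values in a domain of characteristic zero is that of a normalised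
eigenform. -/
theorem exists_eigenform_ker_eq {O : Type} [CommRing O] [IsDomain O] [CharZero O]
    (χ : CuspForm.heckeAlgebra N 2 (∅ : Set ℕ) →+* O) :
    ∃ (φ : CuspForm.heckeAlgebra N 2 (∅ : Set ℕ) →+* ℂ) (f : CuspForm (Gamma0 N) 2),
      RingHom.ker φ = RingHom.ker χ ∧ f.IsNormalizedEigenform ∧
        ∀ ℓ : Nat.Primes, qCoeff f ℓ = φ (heckeTU N ℓ) := by
  haveI := Periods.finite_cuspForm_two N
  haveI : Module.Finite ℤ (CuspForm.heckeAlgebra N 2 (∅ : Set ℕ)) :=
    HeckeFinite.moduleFinite_heckeAlgebra N 2 ∅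
  haveI := RingHom.ker_isPrime χ
  obtain ⟨φ, f, hle, hf, -, hT, hU⟩ :=
    Hecke.exists_normalizedEigenform_ker_le (RingHom.ker χ)
  refine ⟨φ, f, le_antisymm hle fun x hx => ?_, hf, fun ℓ => ?_⟩
  · by_contra hφx
    rw [RingHom.mem_ker] at hx hφx
    obtain ⟨q, hq, hqx⟩ : IsIntegral ℤ (φ x) :=
      (Algebra.IsIntegral.isIntegral (R := ℤ) x).map φ.toIntAlgHom
    have hint : IsIntegral ℤ (φ x) := ⟨q, hq, hqx⟩
    have hc : (minpoly ℤ (φ x)).coeff 0 ≠ 0 := fun h0 => by
      have hass : Associated (Polynomial.X : Polynomial ℤ) (minpoly ℤ (φ x)) :=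
        Polynomial.irreducible_X.associated_of_dvd (minpoly.irreducible hint)
          (Polynomial.X_dvd_iff.mpr h0)
      obtain ⟨u, hu⟩ := hass
      have h1 := congrArg (Polynomial.aeval (φ x)) hu
      rw [minpoly.aeval, map_mul, Polynomial.aeval_X] at h1
      exact hφx ((mul_eq_zero.mp h1).resolve_right (u.isUnit.map _).ne_zero)
    have hmem : Polynomial.aeval x (minpoly ℤ (φ x)) ∈ RingHom.ker φ := by
      rw [RingHom.mem_ker]
      have := Polynomial.aeval_algHom_apply φ.toIntAlgHom x (minpoly ℤ (φ x))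
      simp only [RingHom.toIntAlgHom_apply] at this
      rw [← this, minpoly.aeval]
    have := RingHom.mem_ker.mp (hle hmem)
    have h2 := Polynomial.aeval_algHom_apply χ.toIntAlgHom x (minpoly ℤ (φ x))
    simp only [RingHom.toIntAlgHom_apply] at h2
    rw [← h2, hx, Polynomial.aeval_def, Polynomial.eval₂_at_zero] at this
    exact hc (Int.cast_eq_zero.mp ((by simpa using this) : (((minpoly ℤ (φ x)).coeff 0 : ℤ) : O) = 0))
  · unfold heckeTU
    split
    · next h => exact hU ℓ ℓ.2 h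
    · next h => exact hT ℓ ℓ.2 h

/-- The two lines of the eigen-plane of `χ`, over the fraction field. -/
theorem finrank_plane {O : Type} [CommRing O] [IsDomain O] [CharZero O]
    (χ : CuspForm.heckeAlgebra N 2 (∅ : Set ℕ) →+* O) {ε : ℤ} (hε : ε = 1 ∨ ε = -1) :
    finrank (FractionRing O)
      (jointKer (planeMatrices N (fun ℓ => algebraMap O (FractionRing O) (χ (heckeTU N ℓ)))
        (ε : FractionRing O))) = 1 := by
  obtain ⟨φ, f, hker, hf, hcoef⟩ := exists_eigenform_ker_eq N χ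
  haveI := RingHom.ker_isPrime χ
  let f₁ : _ ⧸ RingHom.ker χ →+* ℂ :=
    Ideal.Quotient.lift (RingHom.ker χ) φ fun a ha => RingHom.mem_ker.mp (hker.symm ▸ ha)
  let f₂ : _ ⧸ RingHom.ker χ →+* FractionRing O :=
    Ideal.Quotient.lift (RingHom.ker χ) ((algebraMap O (FractionRing O)).comp χ) fun a ha => by
      rw [RingHom.comp_apply, RingHom.mem_ker.mp ha, map_zero]
  have h₁ : Function.Injective f₁ := RingHom.lift_injective_of_ker_le_ideal _ _ hker.le
  have h₂ : Function.Injective f₂ := RingHom.lift_injective_of_ker_le_ideal _ _ fun a ha => by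
    rw [RingHom.mem_ker, RingHom.comp_apply] at ha
    exact (IsFractionRing.injective O (FractionRing O)) (ha.trans (map_zero _).symm)
  set c₀ := fun ℓ => Ideal.Quotient.mk (RingHom.ker χ) (heckeTU N ℓ) with hc₀
  have := finrank_jointKer_congr h₁ h₂ (planeMatrices N c₀ (ε : _ ⧸ RingHom.ker χ))
  have m₁ : (fun k => (planeMatrices N c₀ (ε : _ ⧸ RingHom.ker χ) k).map f₁) =
      planeMatrices N (fun ℓ => qCoeff f ℓ) (ε : ℂ) := by
    funext k
    refine (planeMatrices_map N f₁ c₀ _ k).trans ?_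
    rw [map_intCast]
    congr 1
    funext ℓ
    rw [hcoef]
    exact Ideal.Quotient.lift_mk _ _ _
  have m₂ : (fun k => (planeMatrices N c₀ (ε : _ ⧸ RingHom.ker χ) k).map f₂) =
      planeMatrices N (fun ℓ => algebraMap O (FractionRing O) (χ (heckeTU N ℓ)))
        (ε : FractionRing O) := by
    funext k
    refine (planeMatrices_map N f₂ c₀ _ k).trans ?_
    rw [map_intCast]
    congr 1
  rw [m₁, m₂] at this
  rw [← this, finrank_plane_complex N hf]
  rcases hε with rfl | rfl <;> simp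

end Fermat.Agent.EichlerShimura
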