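import Fermat.Agent.EichlerShimura.GaloisMatrices
import Mathlib.Algebra.Module.CharacterModule
import Mathlib.RingTheory.LocalRing.Quotient

/-!
# Team GAL / S32: a lattice in `O ^ r` reduced modulo `pⁿ` sits in a power of `J₀(N)`

A vector `x` of `(O/pⁿ)^r` and a character `φ : O/pⁿ → ℚ/ℤ` give the torsion point with
coordinates `φ (x i)`. Over all `φ` these points determine `x`, and the matrix action of
`galMatrix` becomes the Galois action.
-/

set_option autoImplicit false

noncomputable section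

open CongruenceSubgroup ModularCurve ModularCurve.Period IsLocalRing

namespace Fermat.Agent.EichlerShimura

local notation "ℚ̄" => AlgebraicClosure ℚ
local notation "Γℚ" => (AlgebraicClosure ℚ ≃ₐ[ℚ] AlgebraicClosure ℚ)

/-- The elements of `ℚ/ℤ` killed by `pⁿ` form a finite set. -/
theorem finite_torsion_QZ (p : ℕ) [Fact p.Prime] (n : ℕ) :
    {y : QZ | p ^ n • y = 0}.Finite := by
  refine (Set.finite_range (rootHom p n)).subset fun y hy => ?_
  obtain ⟨m, rfl⟩ := exists_zsmul_rootPow p hy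
  exact ⟨m, rootHom_intCast p n m⟩

/-- An endomorphism of `ℚ/ℤ` acts on `pⁿ`-torsion through any integer congruent to its
`p`-adic scalar. -/
theorem end_apply_torsion (p : ℕ) [Fact p.Prime] (n : ℕ) (φ : Module.End ℤ QZ) {m : ℤ}
    (hm : PadicInt.toZModPow n (endToPadic p φ) = m) {y : QZ} (hy : p ^ n • y = 0) :
    φ y = m • y := by
  obtain ⟨z, rfl⟩ := exists_zsmul_rootPow p hy
  rw [← rootHom_intCast, rootHom_zmodOfEnd_mul]
  rw [toZModPow_endToPadic] at hm
  change rootHom p n (endToZMod p n φ * (z : ZMod (p ^ n))) = _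
  rw [hm, ← Int.cast_mul, rootHom_intCast, rootHom_intCast, smul_smul]

/-- The image in `O` of a `p`-adic integer is congruent to an integer modulo `pⁿ`. -/
theorem padicToRing_sub_intCast_mem {p : ℕ} [Fact p.Prime] {O : Type} [CommRing O] [IsLocalRing O]
    [IsAdicComplete (maximalIdeal O) O] (hpO : (p : O) ∈ maximalIdeal O) {n : ℕ} {x : ℤ_[p]}
    {m : ℤ} (hm : PadicInt.toZModPow n x = m) :
    padicToRing hpO x - (m : O) ∈ Ideal.span {(p : O) ^ n} := by
  have h : x - (m : ℤ_[p]) ∈ RingHom.ker (PadicInt.toZModPow (p := p) n) := by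
    rw [RingHom.mem_ker, map_sub, hm, map_intCast, sub_self]
  rw [PadicInt.ker_toZModPow, Ideal.mem_span_singleton] at h
  obtain ⟨y, hy⟩ := h
  rw [Ideal.mem_span_singleton]
  refine ⟨padicToRing hpO y, ?_⟩
  rw [← map_intCast (padicToRing hpO) m, ← map_sub, hy, map_mul, map_pow, map_natCast]

variable {N : ℕ} [NeZero N] (e : torsionPts N ≃+ Periods.cuspidalHoms ℤ (Gamma0 N) QZ)
  (p : ℕ) [Fact p.Prime] {O : Type} [CommRing O] [IsDomain O] [IsDiscreteValuationRing O]
  [IsAdicComplete (maximalIdeal O) O] [Finite (ResidueField O)] [CharZero O]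
  (hpO : (p : O) ∈ maximalIdeal O)

include hpO in
/-- A saturated `O`-lattice in `O ^ r`, stable under `galMatrix`, reduced modulo `pⁿ`, embeds
equivariantly in a power of `J₀(N)`. -/
theorem exists_reduction_map {V : Type} [AddCommGroup V] [Module O V]
    (ι : V →ₗ[O] (Fin (cuspRank N) → O)) (hι : Function.Injective ι)
    (hsat : ∀ (a : O) (w : Fin (cuspRank N) → O), a ≠ 0 → a • w ∈ LinearMap.range ι →
      w ∈ LinearMap.range ι)
    (g : Γℚ → V → V) (hg : ∀ σ v, ι (g σ v) = (galMatrix e p hpO σ).mulVec (ι v)) (n : ℕ) :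
    ∃ (m : ℕ) (f : V →+ (Fin m → JZero N)),
      (∀ v, f v = 0 ↔ ∃ w, v = ((p : O) ^ n) • w) ∧
      (∀ v i, p ^ n • f v i = 0) ∧
      ∀ σ v i, f (g σ v) i = σ • f v i := by
  classical
  have hp0 : (p : O) ≠ 0 := Nat.cast_ne_zero.mpr (Fact.out (p := p.Prime)).ne_zero
  set I : Ideal O := Ideal.span {(p : O) ^ n} with hI
  have hfinO : Finite (O ⧸ I) := by
    obtain ⟨ϖ, hϖ⟩ := IsDiscreteValuationRing.exists_irreducible O
    obtain ⟨k, hk⟩ := IsDiscreteValuationRing.ideal_eq_span_pow_irreducible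
      (show I ≠ ⊥ from fun h => pow_ne_zero n hp0
        (by rwa [hI, Ideal.span_singleton_eq_bot] at h)) hϖ
    refine IsLocalRing.finite_quotient_iff.mpr ⟨k, ?_⟩
    rw [hk, hϖ.maximalIdeal_eq, Ideal.span_singleton_pow]
  have hkill : ∀ x : O ⧸ I, p ^ n • x = 0 := by
    intro x
    obtain ⟨y, rfl⟩ := Ideal.Quotient.mk_surjective x
    rw [← map_nsmul, Ideal.Quotient.eq_zero_iff_mem, nsmul_eq_mul, Nat.cast_pow]
    exact Ideal.mul_mem_right _ _ (Ideal.mem_span_singleton_self _)
  have hval : ∀ (φ : O ⧸ I →+ QZ) (x : O ⧸ I), p ^ n • φ x = 0 := fun φ x => by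
    rw [← map_nsmul, hkill, map_zero]
  have : Finite {y : QZ | p ^ n • y = 0} := (finite_torsion_QZ p n).to_subtype
  have : Finite (O ⧸ I →+ QZ) :=
    Finite.of_injective (fun φ x => (⟨φ x, hval φ x⟩ : {y : QZ | p ^ n • y = 0}))
      fun φ ψ h => AddMonoidHom.ext fun x => congrArg Subtype.val (congrFun h x)
  obtain ⟨m, ⟨en⟩⟩ := Finite.exists_equiv_fin (O ⧸ I →+ QZ)
  let pt : (O ⧸ I →+ QZ) → V →+ JZero N := fun φ =>
    (torsionPts N).subtype.comp ((torsionCoords e).symm.toAddMonoidHom.comp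
      (AddMonoidHom.mk' (fun v => fun i => φ (Ideal.Quotient.mk I (ι v i)))
        fun v w => funext fun i => by simp))
  have hpt : ∀ φ v, pt φ v =
      ((torsionCoords e).symm fun i => φ (Ideal.Quotient.mk I (ι v i)) : JZero N) := fun _ _ => rfl
  refine ⟨m, AddMonoidHom.mk' (fun v k => pt (en.symm k) v)
    (fun v w => funext fun k => map_add _ v w), fun v => ?_, fun v k => ?_, fun σ v k => ?_⟩
  · constructor
    · intro hv
      have hdiv : ∀ i, ∃ c, ι v i = (p : O) ^ n * c := by
        intro i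
        by_contra hne
        have hx : Ideal.Quotient.mk I (ι v i) ≠ 0 := by
          rwa [Ne, Ideal.Quotient.eq_zero_iff_mem, hI, Ideal.mem_span_singleton]
        obtain ⟨c, hc⟩ : ∃ c : O ⧸ I →+ QZ, c (Ideal.Quotient.mk I (ι v i)) ≠ 0 :=
          CharacterModule.exists_character_apply_ne_zero_of_ne_zero hx
        have h := congrFun hv (en c)
        simp only [AddMonoidHom.mk'_apply, Pi.zero_apply, hpt,
          ZeroMemClass.coe_eq_zero, EmbeddingLike.map_eq_zero_iff] at h
        rw [Equiv.symm_apply_apply] at h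
        exact hc (congrFun h i)
      choose c hc using hdiv
      have hw : (p : O) ^ n • c ∈ LinearMap.range ι := ⟨v, funext hc⟩
      obtain ⟨w, hw⟩ := hsat _ c (pow_ne_zero n hp0) hw
      exact ⟨w, hι (by rw [map_smul, hw]; exact funext hc)⟩
    · rintro ⟨w, rfl⟩
      funext k
      simp only [AddMonoidHom.mk'_apply, Pi.zero_apply, hpt, ZeroMemClass.coe_eq_zero,
        EmbeddingLike.map_eq_zero_iff]
      funext i
      rw [map_smul, Pi.smul_apply, smul_eq_mul, map_mul,
        Ideal.Quotient.eq_zero_iff_mem.mpr (Ideal.mem_span_singleton_self _), zero_mul, map_zero,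
        Pi.zero_apply]
  · simp only [AddMonoidHom.mk'_apply, hpt, ← AddSubgroupClass.coe_nsmul, ← map_nsmul,
      ZeroMemClass.coe_eq_zero, EmbeddingLike.map_eq_zero_iff]
    funext i
    exact hval _ _
  · simp only [AddMonoidHom.mk'_apply, hpt]
    set φ := en.symm k
    rw [← coe_torsionGalois]
    congr 1
    rw [AddEquiv.symm_apply_eq, ← galEnd_apply]
    funext i
    set E := endVecRingEquivMatrixEnd (Fin (cuspRank N)) ℤ QZ (galEnd e σ) with hE
    have hEnd : ∀ x : Fin (cuspRank N) → QZ, galEnd e σ x i = ∑ j, E i j (x j) := by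
      intro x
      conv_lhs => rw [← (endVecRingEquivMatrixEnd (Fin (cuspRank N)) ℤ QZ).symm_apply_apply
        (galEnd e σ)]
      rfl
    rw [hEnd, hg, Matrix.mulVec, dotProduct, map_sum, map_sum]
    refine Finset.sum_congr rfl fun j _ => ?_
    obtain ⟨z, hz⟩ := ZMod.intCast_surjective (PadicInt.toZModPow n (endToPadic p (E i j)))
    rw [end_apply_torsion p n (E i j) hz.symm (hval φ _), ← map_zsmul]
    congr 1
    rw [← map_zsmul, Ideal.Quotient.eq, zsmul_eq_mul, ← sub_mul]
    exact Ideal.mul_mem_right _ _ (padicToRing_sub_intCast_mem hpO hz.symm)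

end Fermat.Agent.EichlerShimura
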