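import Fermat.Prelude.Def_CuspForm_HeckeGaloisRepDatum
import Fermat.Agent.EichlerShimura.Interface
import Fermat.Agent.EichlerShimura.GaloisMatrices
import Fermat.Agent.EichlerShimura.Plane
import Fermat.Agent.EichlerShimura.DetArgument
import Fermat.Agent.EichlerShimura.JointKernel
import Fermat.Agent.EichlerShimura.TateReduction

/-!
# Team GAL: the `λ`-adic representation of a full Hecke eigensystem of weight two

Contract consumed by `S29`, `S30`, `S31`, `S42`.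
-/

set_option autoImplicit false

noncomputable section

open Polynomial

namespace Fermat.Agent.EichlerShimura

open CongruenceSubgroup ModularCurve ModularCurve.Period Matrix

/-- The equations of the Hecke eigen-plane over a ring. -/
theorem matrixJointKer_inf_eq {N : ℕ} [NeZero N] {O K : Type} [CommRing O] [CommRing K]
    (i : O →+* K) (c : Nat.Primes → O) (ε : ℤ) :
    matrixJointKer (fun ℓ : Nat.Primes =>
        ((heckeMatrix N ℓ).map (Int.castRingHom O) - c ℓ • 1).map i) ⊓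
      LinearMap.ker (((involMatrix N).map (Int.castRingHom O) - (ε : O) • 1).map i).mulVecLin =
      jointKer (planeMatrices N (fun ℓ => i (c ℓ)) (ε : K)) := by
  have hsome : ∀ ℓ, ((heckeMatrix N ℓ).map (Int.castRingHom O) - c ℓ • 1).map i =
      planeMatrices N (fun ℓ => i (c ℓ)) (ε : K) (some ℓ) := fun ℓ => by
    rw [← map_intCast i]; exact planeMatrices_map N i c ε (some ℓ)
  have hnone : ((involMatrix N).map (Int.castRingHom O) - (ε : O) • 1).map i =
      planeMatrices N (fun ℓ => i (c ℓ)) (ε : K) none := by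
    rw [← map_intCast i]; exact planeMatrices_map N i c ε none
  ext v
  simp only [Submodule.mem_inf, mem_matrixJointKer, mem_jointKer, LinearMap.mem_ker,
    Matrix.mulVecLin_apply, hsome, hnone]
  exact ⟨fun h k => Option.rec h.2 h.1 k, fun h => ⟨fun ℓ => h (some ℓ), h none⟩⟩

/-- The representation on the saturated joint eigen-lattice of a full eigensystem, in the
coordinates of a given Kummer isomorphism; the lattice is the whole joint eigenspace. -/
theorem exists_galoisRepAdic_of_kummerIso_lattice (N : ℕ) [NeZero N] (p : ℕ) [Fact p.Prime]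
    (e : torsionPts N ≃+ Periods.cuspidalHoms ℤ (Gamma0 N) QZ)
    (hT : ∀ (ℓ : Nat.Primes), ¬ (ℓ : ℕ) ∣ N → ∀ x,
      (e (torsionMap (heckeOperatorBar N ℓ).toAddMonoidHom x) : Additive (Gamma0 N) →+ QZ) =
        Periods.heckeHom ℤ QZ ℓ.2 (e x : Additive (Gamma0 N) →+ QZ))
    (hU : ∀ (q : Nat.Primes), (q : ℕ) ∣ N → ∃ U : JZero N →+ JZero N,
      (∀ (σ : AlgebraicClosure ℚ ≃ₐ[ℚ] AlgebraicClosure ℚ) (x : JZero N), σ • U x = U (σ • x)) ∧
      ∀ x, (e (torsionMap U x) : Additive (Gamma0 N) →+ QZ) =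
        Periods.heckeHom ℤ QZ q.2 (e x : Additive (Gamma0 N) →+ QZ))
    (hc : ∀ x, (e (torsionGalois complexConjugation x) : Additive (Gamma0 N) →+ QZ) =
      - charInvolution N ℤ QZ (e x : Additive (Gamma0 N) →+ QZ))
    (hF : FrobeniusOnTorsion N p) (hL : GaloisFiniteLevel N)
    (O : Type) [CommRing O] [IsDomain O] [IsDiscreteValuationRing O]
    [IsAdicComplete (IsLocalRing.maximalIdeal O) O] [Finite (IsLocalRing.ResidueField O)]
    [CharZero O] (hpO : (p : O) ∈ IsLocalRing.maximalIdeal O)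
    (χ : CuspForm.heckeAlgebra N 2 (∅ : Set ℕ) →+* O) :
    ∃ ρ : GaloisRepAdic O,
      (∀ (ℓ : ℕ) (hℓ : ℓ.Prime) (hℓN : ¬ ℓ ∣ N), ℓ ≠ p →
        ∀ A : ValuationSubring (AlgebraicClosure ℚ), A.LiesOverPrime ℓ →
          ∀ σ : AlgebraicClosure ℚ ≃ₐ[ℚ] AlgebraicClosure ℚ, A.IsFrobeniusAt σ ℓ →
            LinearMap.charpoly (ρ.ρ σ) =
              X ^ 2 - C (χ (CuspForm.heckeAlgebra.T hℓ hℓN (Set.notMem_empty ℓ))) * X
                + C (ℓ : O)) ∧
      (∀ q : ℕ, q.Prime → ¬ q ∣ N → q ≠ p → ρ.IsUnramifiedAt q) ∧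
      ∃ ι : ρ.V →ₗ[O] (Fin (cuspRank N) → O), Function.Injective ι ∧
        (∀ σ v, ι (ρ.ρ σ v) = (galMatrix e p hpO σ).mulVec (ι v)) ∧
        (∀ v (ℓ : Nat.Primes), ((heckeMatrix N ℓ).map (Int.castRingHom O)).mulVec (ι v) =
          χ (heckeTU N ℓ) • ι v) ∧
        (∀ (a : O) (w : Fin (cuspRank N) → O), a ≠ 0 → a • w ∈ LinearMap.range ι →
          w ∈ LinearMap.range ι) ∧
        ∀ w : Fin (cuspRank N) → O, (∀ ℓ : Nat.Primes,
          ((heckeMatrix N ℓ).map (Int.castRingHom O)).mulVec w = χ (heckeTU N ℓ) • w) →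
          w ∈ LinearMap.range ι := by
  classical
  set c : Nat.Primes → O := fun ℓ => χ (heckeTU N ℓ) with hcdef
  set F : Nat.Primes → Matrix (Fin (cuspRank N)) (Fin (cuspRank N)) O :=
    fun ℓ => (heckeMatrix N ℓ).map (Int.castRingHom O) - c ℓ • 1 with hFdef
  set J : Matrix (Fin (cuspRank N)) (Fin (cuspRank N)) O :=
    (involMatrix N).map (Int.castRingHom O) with hJdef
  have hMF : ∀ ℓ σ, F ℓ * galMatrix e p hpO σ = galMatrix e p hpO σ * F ℓ := by
    intro ℓ σ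
    have key : ∃ T : JZero N →+ JZero N, (∀ (τ : AlgebraicClosure ℚ ≃ₐ[ℚ] AlgebraicClosure ℚ) (x : JZero N), τ • T x = T (τ • x)) ∧
        ∀ x, (e (torsionMap T x) : Additive (Gamma0 N) →+ QZ) =
          Periods.heckeHom ℤ QZ ℓ.2 (e x : Additive (Gamma0 N) →+ QZ) := by
      by_cases h : (ℓ : ℕ) ∣ N
      · exact hU ℓ h
      · exact ⟨(heckeOperatorBar N ℓ).toAddMonoidHom,
          fun τ x => galois_smul_heckeOperatorBar ℓ τ x, hT ℓ h⟩
    obtain ⟨T, hTc, hTe⟩ := key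
    have hcomm := congrArg (endToRingMatrix p hpO (cuspRank N)) (galEnd_comm e σ T hTc)
    rw [map_mul, map_mul, ← galMatrix_apply, coordEnd_hecke e ℓ T hTe,
      endToRingMatrix_matrixEnd p hpO] at hcomm
    rw [hFdef]
    simp only [sub_mul, mul_sub, smul_mul_assoc, mul_smul_comm, one_mul, mul_one, hcomm]
  have hconj : galMatrix e p hpO complexConjugation = -J := by
    rw [galMatrix_apply, galEnd_complexConjugation e hc, map_neg, endToRingMatrix_matrixEnd p hpO]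
  have hline : ∀ ε : ℤ, (ε = 1 ∨ ε = -1) → Module.finrank (FractionRing O)
      ↥(matrixJointKer (fun ℓ => (F ℓ).map (algebraMap O (FractionRing O))) ⊓
        LinearMap.ker ((J - (ε : O) • 1).map (algebraMap O (FractionRing O))).mulVecLin) = 1 := by
    intro ε hε
    rw [hFdef, hJdef, matrixJointKer_inf_eq]
    exact finrank_plane N χ hε
  have hplus := hline 1 (Or.inl rfl)
  have hminus := hline (-1) (Or.inr rfl)
  rw [Int.cast_one, one_smul] at hplus
  rw [Int.cast_neg, Int.cast_one, neg_one_smul, sub_neg_eq_add] at hminus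
  obtain ⟨ρ, hdet, hone, ⟨ι, hι, hιg, hιF, hιsat, hιmax⟩, hquad⟩ := exists_galoisRepAdic_jointKer_lattice F J (galMatrix e p hpO) hMF
    (galMatrix_continuous e p hpO hL) hconj hplus hminus
  have hNp : ∀ ℓ : ℕ, ℓ.Prime → ¬ ℓ ∣ N → ℓ ≠ p → ¬ ℓ ∣ N * p := fun ℓ hℓ hℓN hℓp h => by
    rcases (Nat.Prime.dvd_mul hℓ).mp h with h | h
    · exact hℓN h
    · exact hℓp ((Nat.prime_dvd_prime_iff_eq hℓ Fact.out).mp h)
  have hp : p.Prime := Fact.out
  set a : ℕ → O := fun ℓ => if h : ℓ.Prime then c ⟨ℓ, h⟩ else 0 with hadef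
  have hrel : ∀ ℓ : ℕ, ℓ.Prime → ℓ ∉ insert p N.primeFactors →
      ∀ A : ValuationSubring (AlgebraicClosure ℚ), A.LiesOverPrime ℓ →
      ∀ σ : AlgebraicClosure ℚ ≃ₐ[ℚ] AlgebraicClosure ℚ, A.IsFrobeniusAt σ ℓ →
        ρ.ρ σ * ρ.ρ σ - a ℓ • ρ.ρ σ + (ℓ : O) • 1 = 0 := by
    intro ℓ hℓ hℓS A hA σ hσ
    rw [Finset.mem_insert, not_or, Nat.mem_primeFactors] at hℓS
    have hℓN : ¬ ℓ ∣ N := fun h => hℓS.2 ⟨hℓ, h, NeZero.ne N⟩
    refine hquad σ ((heckeMatrix N ⟨ℓ, hℓ⟩).map (Int.castRingHom O)) _ _ (fun v hv => ?_)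
      (galMatrix_frobenius e hpO hF hℓ (hNp ℓ hℓ hℓN hℓS.1) hA hσ (hT ⟨ℓ, hℓ⟩ hℓN))
    have := hv ⟨ℓ, hℓ⟩
    rw [hFdef, Matrix.sub_mulVec, Matrix.smul_mulVec, Matrix.one_mulVec, sub_eq_zero] at this
    rw [this, hadef]
    simp only [dif_pos hℓ]
  refine ⟨ρ, fun ℓ hℓ hℓN hℓp A hA σ hσ => ?_, fun q hq hqN hqp A hA σ hσ =>
    hone σ (galMatrix_eq_one_of_mem_inertia e hpO hF hq (hNp q hq hqN hqp) hA hσ),
    ι, hι, hιg, fun v ℓ => ?_, hιsat, fun w hw => hιmax w fun ℓ => ?_⟩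
  rotate_left
  · have h := hιF v ℓ
    rw [hFdef, Matrix.sub_mulVec, Matrix.smul_mulVec, Matrix.one_mulVec, sub_eq_zero] at h
    exact h
  · rw [hFdef, Matrix.sub_mulVec, Matrix.smul_mulVec, Matrix.one_mulVec, sub_eq_zero]
    exact hw ℓ
  have hℓS : ℓ ∉ insert p N.primeFactors := by
    rw [Finset.mem_insert, not_or, Nat.mem_primeFactors]
    exact ⟨hℓp, fun h => hℓN h.2.1⟩
  rw [charpoly_eq_of_quadratic p hpO ρ _ (Finset.mem_insert_self p _) a hrel hdet ℓ hℓ hℓS A hA σ hσ]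
  simp only [hadef, dif_pos hℓ, hcdef, heckeTU, dif_neg hℓN]

/-- A homomorphism from the full Hecke algebra of level `N` to a complete discrete valuation
ring of residue characteristic `p` has an attached representation over the same ring, realised
on the saturated joint eigen-lattice in `O ^ r` of the Tate module, for one Kummer isomorphism `e`. -/
theorem exists_galoisRepAdic_of_eigensystem_lattice (N : ℕ) [NeZero N] (p : ℕ) [Fact p.Prime]
    (hK : HasKummerIso N) (hF : FrobeniusOnTorsion N p) (hL : GaloisFiniteLevel N)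
    (O : Type) [CommRing O] [IsDomain O] [IsDiscreteValuationRing O]
    [IsAdicComplete (IsLocalRing.maximalIdeal O) O] [Finite (IsLocalRing.ResidueField O)]
    [CharZero O] (hpO : (p : O) ∈ IsLocalRing.maximalIdeal O)
    (χ : CuspForm.heckeAlgebra N 2 (∅ : Set ℕ) →+* O) :
    ∃ (e : torsionPts N ≃+ Periods.cuspidalHoms ℤ (Gamma0 N) QZ) (ρ : GaloisRepAdic O),
      (∀ (ℓ : ℕ) (hℓ : ℓ.Prime) (hℓN : ¬ ℓ ∣ N), ℓ ≠ p →
        ∀ A : ValuationSubring (AlgebraicClosure ℚ), A.LiesOverPrime ℓ →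
          ∀ σ : AlgebraicClosure ℚ ≃ₐ[ℚ] AlgebraicClosure ℚ, A.IsFrobeniusAt σ ℓ →
            LinearMap.charpoly (ρ.ρ σ) =
              X ^ 2 - C (χ (CuspForm.heckeAlgebra.T hℓ hℓN (Set.notMem_empty ℓ))) * X
                + C (ℓ : O)) ∧
      (∀ q : ℕ, q.Prime → ¬ q ∣ N → q ≠ p → ρ.IsUnramifiedAt q) ∧
      ∃ ι : ρ.V →ₗ[O] (Fin (cuspRank N) → O), Function.Injective ι ∧
        (∀ σ v, ι (ρ.ρ σ v) = (galMatrix e p hpO σ).mulVec (ι v)) ∧
        (∀ v (ℓ : Nat.Primes), ((heckeMatrix N ℓ).map (Int.castRingHom O)).mulVec (ι v) =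
          χ (heckeTU N ℓ) • ι v) ∧
        ∀ (a : O) (w : Fin (cuspRank N) → O), a ≠ 0 → a • w ∈ LinearMap.range ι →
          w ∈ LinearMap.range ι := by
  obtain ⟨e, hT, hU, hc⟩ := hK
  obtain ⟨ρ, h1, h2, ι, hι, hιg, hιF, hιsat, -⟩ :=
    exists_galoisRepAdic_of_kummerIso_lattice N p e hT hU hc hF hL O hpO χ
  exact ⟨e, ρ, h1, h2, ι, hι, hιg, hιF, hιsat⟩

/-- A homomorphism from the full Hecke algebra of level `N` to a complete discrete valuation
ring of residue characteristic `p` has an attached representation over the same ring, whose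
reductions modulo `pⁿ` sit equivariantly in powers of `J₀(N)`. -/
theorem exists_galoisRepAdic_of_eigensystem_tate (N : ℕ) [NeZero N] (p : ℕ) [Fact p.Prime]
    (hK : HasKummerIso N) (hF : FrobeniusOnTorsion N p) (hL : GaloisFiniteLevel N)
    (O : Type) [CommRing O] [IsDomain O] [IsDiscreteValuationRing O]
    [IsAdicComplete (IsLocalRing.maximalIdeal O) O] [Finite (IsLocalRing.ResidueField O)]
    [CharZero O] (hpO : (p : O) ∈ IsLocalRing.maximalIdeal O)
    (χ : CuspForm.heckeAlgebra N 2 (∅ : Set ℕ) →+* O) :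
    ∃ ρ : GaloisRepAdic O,
      (∀ (ℓ : ℕ) (hℓ : ℓ.Prime) (hℓN : ¬ ℓ ∣ N), ℓ ≠ p →
        ∀ A : ValuationSubring (AlgebraicClosure ℚ), A.LiesOverPrime ℓ →
          ∀ σ : AlgebraicClosure ℚ ≃ₐ[ℚ] AlgebraicClosure ℚ, A.IsFrobeniusAt σ ℓ →
            LinearMap.charpoly (ρ.ρ σ) =
              X ^ 2 - C (χ (CuspForm.heckeAlgebra.T hℓ hℓN (Set.notMem_empty ℓ))) * X
                + C (ℓ : O)) ∧
      (∀ q : ℕ, q.Prime → ¬ q ∣ N → q ≠ p → ρ.IsUnramifiedAt q) ∧
      ∀ n : ℕ, ∃ (m : ℕ) (f : ρ.V →+ (Fin m → JZero N)),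
        (∀ v, f v = 0 ↔ ∃ w, v = ((p : O) ^ n) • w) ∧ (∀ v i, p ^ n • f v i = 0) ∧
        ∀ σ v i, f (ρ.ρ σ v) i = σ • f v i := by
  obtain ⟨e, ρ, h1, h2, ι, hι, hιg, -, hιsat⟩ :=
    exists_galoisRepAdic_of_eigensystem_lattice N p hK hF hL O hpO χ
  exact ⟨ρ, h1, h2, exists_reduction_map e p hpO ι hι hιsat (fun σ v => ρ.ρ σ v) hιg⟩

/-- A homomorphism from the full Hecke algebra of level `N` to a complete discrete valuation
ring of residue characteristic `p` has an attached representation over the same ring. -/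
theorem exists_galoisRepAdic_of_eigensystem (N : ℕ) [NeZero N] (p : ℕ) [Fact p.Prime]
    (hK : HasKummerIso N) (hF : FrobeniusOnTorsion N p) (hL : GaloisFiniteLevel N)
    (O : Type) [CommRing O] [IsDomain O] [IsDiscreteValuationRing O]
    [IsAdicComplete (IsLocalRing.maximalIdeal O) O] [Finite (IsLocalRing.ResidueField O)]
    [CharZero O] (hpO : (p : O) ∈ IsLocalRing.maximalIdeal O)
    (χ : CuspForm.heckeAlgebra N 2 (∅ : Set ℕ) →+* O) :
    ∃ ρ : GaloisRepAdic O,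
      (∀ (ℓ : ℕ) (hℓ : ℓ.Prime) (hℓN : ¬ ℓ ∣ N), ℓ ≠ p →
        ∀ A : ValuationSubring (AlgebraicClosure ℚ), A.LiesOverPrime ℓ →
          ∀ σ : AlgebraicClosure ℚ ≃ₐ[ℚ] AlgebraicClosure ℚ, A.IsFrobeniusAt σ ℓ →
            LinearMap.charpoly (ρ.ρ σ) =
              X ^ 2 - C (χ (CuspForm.heckeAlgebra.T hℓ hℓN (Set.notMem_empty ℓ))) * X
                + C (ℓ : O)) ∧
      ∀ q : ℕ, q.Prime → ¬ q ∣ N → q ≠ p → ρ.IsUnramifiedAt q := by
  obtain ⟨ρ, h1, h2, -⟩ := exists_galoisRepAdic_of_eigensystem_tate N p hK hF hL O hpO χ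
  exact ⟨ρ, h1, h2⟩

end Fermat.Agent.EichlerShimura
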