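import Mathlib
import Fermat.Prelude.Thm_Algebra_finite_maximalSpectrum_and_bijective_localization_of_module_finite
import Fermat.Prelude.Thm_IsLocalRing_isAdicComplete_of_module_finite

/-!
# Complete discrete valuation rings finite over a given one
-/

noncomputable section

set_option autoImplicit false
set_option linter.style.haveILetI false

namespace Fermat.Agent.EichlerShimura

open IsLocalRing

/-- A domain which is finite over a complete Noetherian local ring is local. -/
theorem isLocalRing_of_isDomain_of_module_finite
    (O : Type) [CommRing O] [IsLocalRing O] [IsNoetherianRing O]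
    [IsAdicComplete (maximalIdeal O) O]
    (A : Type) [CommRing A] [IsDomain A] [Algebra O A] [Module.Finite O A] : IsLocalRing A := by
  classical
  obtain ⟨-, hbij, -, -⟩ :=
    Algebra.finite_maximalSpectrum_and_bijective_localization_of_module_finite (𝒪 := O) A
  set φ : A →+* ∀ I : MaximalSpectrum A, Localization.AtPrime I.asIdeal :=
    RingHom.pi fun I : MaximalSpectrum A => algebraMap A (Localization.AtPrime I.asIdeal) with hφ
  obtain ⟨M, hM⟩ := Ideal.exists_maximal A
  refine IsLocalRing.of_unique_max_ideal ⟨M, hM, fun M' hM' => ?_⟩
  by_contra hne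
  let P : MaximalSpectrum A := ⟨M, hM⟩
  let P' : MaximalSpectrum A := ⟨M', hM'⟩
  have hP : P' ≠ P := fun h => hne (congrArg MaximalSpectrum.asIdeal h)
  obtain ⟨e, he⟩ := hbij.2 (Pi.single P 1)
  have hidem : e * e = e := by
    apply hbij.1
    show φ (e * e) = φ e
    have he' : φ e = Pi.single P 1 := he
    rw [map_mul, he', ← Pi.single_mul, mul_one]
  have he' : φ e = Pi.single P 1 := he
  rcases mul_eq_zero.mp (show e * (e - 1) = 0 by rw [mul_sub, hidem, mul_one, sub_self]) with h | h
  · have := congrFun he' P
    rw [h, map_zero, Pi.zero_apply, Pi.single_eq_same] at this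
    exact zero_ne_one this
  · have := congrFun he' P'
    rw [sub_eq_zero.mp h, map_one, Pi.one_apply, Pi.single_eq_of_ne hP] at this
    exact one_ne_zero this

/-- A prime of a finite algebra over a complete discrete valuation ring which meets the base in
`0` is the kernel of a homomorphism to a finite extension discrete valuation ring. -/
theorem exists_finiteDVR_extension
    (O : Type) [CommRing O] [IsDomain O] [IsDiscreteValuationRing O]
    [IsAdicComplete (maximalIdeal O) O] [Finite (ResidueField O)] [CharZero O]
    (R : Type) [CommRing R] [Algebra O R] [Module.Finite O R]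
    (P : Ideal R) [P.IsPrime] (hP : ∀ a : O, algebraMap O R a ∈ P → a = 0) :
    ∃ (O' : Type) (_ : CommRing O') (_ : IsDomain O') (_ : IsDiscreteValuationRing O')
      (_ : IsAdicComplete (maximalIdeal O') O')
      (_ : Finite (ResidueField O')) (_ : CharZero O')
      (_ : Algebra O O') (_ : Module.Finite O O') (_ : IsLocalHom (algebraMap O O')),
      Function.Injective (algebraMap O O') ∧ ∃ f : R →ₐ[O] O', RingHom.ker f = P := by
  have hDinj : Function.Injective (algebraMap O (R ⧸ P)) := by
    refine (injective_iff_map_eq_zero _).mpr fun a ha => hP a ?_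
    rwa [← Ideal.Quotient.eq_zero_iff_mem]
  haveI : FaithfulSMul O (R ⧸ P) := (faithfulSMul_iff_algebraMap_injective O (R ⧸ P)).mpr hDinj
  let L := FractionRing (R ⧸ P)
  have hLinj : Function.Injective (algebraMap O L) := by
    rw [IsScalarTower.algebraMap_eq O (R ⧸ P) L]
    exact (IsFractionRing.injective (R ⧸ P) L).comp hDinj
  haveI : FaithfulSMul O L := (faithfulSMul_iff_algebraMap_injective O L).mpr hLinj
  letI : Algebra (FractionRing O) L := FractionRing.liftAlgebra O L
  haveI : FiniteDimensional (FractionRing O) L := by
    obtain ⟨s, hs⟩ := (inferInstance : Module.Finite O (R ⧸ P)).fg_top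
    set E := IntermediateField.adjoin (FractionRing O) ((algebraMap (R ⧸ P) L) '' ↑s) with hE
    haveI : FiniteDimensional (FractionRing O) E := by
      haveI : Finite ((algebraMap (R ⧸ P) L) '' ↑s) := (s.finite_toSet.image _).to_subtype
      refine IntermediateField.finiteDimensional_adjoin fun x hx => ?_
      obtain ⟨d, -, rfl⟩ := hx
      exact ((Algebra.IsIntegral.isIntegral (R := O) d).map
        (IsScalarTower.toAlgHom O (R ⧸ P) L)).tower_top
    have hmem : ∀ d : R ⧸ P, algebraMap (R ⧸ P) L d ∈ E := by
      intro d
      have hd : d ∈ Submodule.span O (↑s : Set (R ⧸ P)) := hs ▸ Submodule.mem_top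
      induction hd using Submodule.span_induction with
      | mem x hx => exact IntermediateField.subset_adjoin _ _ ⟨x, hx, rfl⟩
      | zero => rw [map_zero]; exact E.zero_mem
      | add x y _ _ hx hy => rw [map_add]; exact E.add_mem hx hy
      | smul a x _ hx =>
        rw [Algebra.smul_def, map_mul, ← IsScalarTower.algebraMap_apply,
          IsScalarTower.algebraMap_apply O (FractionRing O) L]
        exact E.mul_mem (E.algebraMap_mem _) hx
    have htop : E = ⊤ := top_le_iff.mp fun x _ => by
      obtain ⟨a, b, -, rfl⟩ := IsFractionRing.div_surjective (R ⧸ P) x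
      exact E.div_mem (hmem a) (hmem b)
    exact Module.Finite.equiv
      ((IntermediateField.equivOfEq htop).trans IntermediateField.topEquiv).toLinearEquiv
  haveI : CharZero (FractionRing O) :=
    charZero_of_injective_algebraMap (IsFractionRing.injective O (FractionRing O))
  haveI : Algebra.IsSeparable (FractionRing O) L := Algebra.IsSeparable.of_integral _ _
  let O' := integralClosure O L
  haveI : Module.Finite O O' := IsIntegralClosure.finite O (FractionRing O) L O'
  haveI : IsDedekindDomain O' := integralClosure.isDedekindDomain O (FractionRing O) L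
  haveI : IsLocalRing O' := isLocalRing_of_isDomain_of_module_finite O O'
  have hinj : Function.Injective (algebraMap O O') := fun a b h => hLinj <| by
    rw [IsScalarTower.algebraMap_apply O O' L, IsScalarTower.algebraMap_apply O O' L, h]
  haveI : FaithfulSMul O O' := (faithfulSMul_iff_algebraMap_injective O O').mpr hinj
  haveI hloc : IsLocalHom (algebraMap O O') := Algebra.IsIntegral.isLocalHom O O'
  haveI : CharZero O' := charZero_of_injective_algebraMap hinj
  haveI : IsAdicComplete (maximalIdeal O') O' :=
    IsLocalRing.isAdicComplete_of_module_finite (𝒪 := O)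
  have hnf : ¬ IsField O' := fun h =>
    IsDiscreteValuationRing.not_isField O
      ((Algebra.IsIntegral.isField_iff_isField (R := O) (S := O') hinj).mpr h)
  haveI : IsDiscreteValuationRing O' :=
    ((IsDiscreteValuationRing.TFAE O' hnf).out 0 2).mpr (inferInstance : IsDedekindDomain O')
  haveI : Finite (ResidueField O') :=
    Module.finite_of_finite (ResidueField O)
  let g : (R ⧸ P) →ₐ[O] O' :=
    AlgHom.codRestrict (IsScalarTower.toAlgHom O (R ⧸ P) L) O' fun x =>
      (Algebra.IsIntegral.isIntegral (R := O) x).map (IsScalarTower.toAlgHom O (R ⧸ P) L)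
  refine ⟨O', inferInstance, inferInstance, inferInstance, inferInstance, inferInstance,
    inferInstance, inferInstance, inferInstance, hloc, hinj, g.comp (Ideal.Quotient.mkₐ O P), ?_⟩
  ext x
  rw [RingHom.mem_ker, ← Ideal.Quotient.eq_zero_iff_mem (I := P)]
  change g (Ideal.Quotient.mk P x) = 0 ↔ _
  rw [← Subtype.coe_inj]
  change algebraMap (R ⧸ P) L (Ideal.Quotient.mk P x) = 0 ↔ _
  exact map_eq_zero_iff _ (IsFractionRing.injective (R ⧸ P) L)

end Fermat.Agent.EichlerShimura
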