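import Mathlib
import Fermat.Agent.EichlerShimura.Eigensystem
import Fermat.Agent.EichlerShimura.FiniteDVR
import Fermat.Agent.HeckeFinite.Finite

/-!
# Extension of eigensystems away from `S` to full eigensystems, and statement S30
-/

noncomputable section

set_option autoImplicit false
set_option linter.style.haveILetI false

open Polynomial IsLocalRing

namespace Fermat.Agent.EichlerShimura

/-- A homomorphism to an algebraically closed field extends along an injective integral map. -/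
theorem exists_ringHom_extension {A B Ω : Type} [CommRing A] [CommRing B] [Field Ω]
    [IsAlgClosed Ω] (ι : A →+* B) (hι : Function.Injective ι) (hint : ι.IsIntegral)
    (χ : A →+* Ω) : ∃ χ' : B →+* Ω, ∀ a, χ' (ι a) = χ a := by
  letI : Algebra A B := ι.toAlgebra
  haveI : Algebra.IsIntegral A B := ⟨hint⟩
  let P : Ideal A := RingHom.ker χ
  haveI : P.IsPrime := RingHom.ker_isPrime χ
  obtain ⟨Q, -, hQp, hQ⟩ := Ideal.exists_ideal_over_prime_of_isIntegral (S := B) P ⊥ (fun a ha => by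
    rw [Ideal.mem_comap, Ideal.mem_bot] at ha
    rw [hι (ha.trans (map_zero ι).symm)]
    exact P.zero_mem)
  haveI := hQp
  haveI : Q.LiesOver P := ⟨hQ.symm⟩
  letI : Algebra (A ⧸ P) Ω := (Ideal.Quotient.lift P χ fun _ h => h).toAlgebra
  haveI : FaithfulSMul (A ⧸ P) Ω := (faithfulSMul_iff_algebraMap_injective _ _).mpr
    (RingHom.lift_injective_of_ker_le_ideal P (fun _ h => h) le_rfl)
  haveI : Algebra.IsIntegral (A ⧸ P) (B ⧸ Q) := inferInstance
  haveI : IsDomain (A ⧸ P) := Ideal.Quotient.isDomain P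
  haveI : IsDomain (B ⧸ Q) := Ideal.Quotient.isDomain Q
  haveI : FaithfulSMul (A ⧸ P) (B ⧸ Q) := (faithfulSMul_iff_algebraMap_injective _ _).mpr
    ((injective_iff_map_eq_zero _).mpr fun x hx => by
      obtain ⟨a, rfl⟩ := Ideal.Quotient.mk_surjective x
      rw [Ideal.Quotient.eq_zero_iff_mem, ← hQ, Ideal.mem_comap, ← Ideal.Quotient.eq_zero_iff_mem]
      exact hx)
  haveI : Module.IsTorsionFree (A ⧸ P) (B ⧸ Q) :=
    Module.isTorsionFree_iff_faithfulSMul.mpr ‹_›
  haveI : Module.IsTorsionFree (A ⧸ P) Ω := Module.isTorsionFree_iff_faithfulSMul.mpr ‹_›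
  let f : (B ⧸ Q) →ₐ[A ⧸ P] Ω := IsAlgClosed.lift
  refine ⟨f.toRingHom.comp (Ideal.Quotient.mk Q), fun a => ?_⟩
  change f (algebraMap (A ⧸ P) (B ⧸ Q) (Ideal.Quotient.mk P a)) = χ a
  rw [AlgHom.commutes]
  rfl

/-- A homomorphism to a complete discrete valuation ring from a subring of a finite `ℤ`-algebra
extends to the whole algebra after a finite extension. -/
theorem exists_finiteDVR_ringHom_extension (A B : Type) [CommRing A] [CommRing B]
    [Module.Finite ℤ B] (ι : A →+* B) (hι : Function.Injective ι)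
    (O : Type) [CommRing O] [IsDomain O] [IsDiscreteValuationRing O]
    [IsAdicComplete (maximalIdeal O) O] [Finite (ResidueField O)] [CharZero O] (χ : A →+* O) :
    ∃ (O' : Type) (_ : CommRing O') (_ : IsDomain O') (_ : IsDiscreteValuationRing O')
      (_ : IsAdicComplete (maximalIdeal O') O')
      (_ : Finite (ResidueField O')) (_ : CharZero O')
      (_ : Algebra O O') (_ : Module.Finite O O') (_ : IsLocalHom (algebraMap O O')),
      Function.Injective (algebraMap O O') ∧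
        ∃ χ' : B →+* O', ∀ a, χ' (ι a) = algebraMap O O' (χ a) := by
  let Ω := AlgebraicClosure (FractionRing O)
  have hΩ : Function.Injective (algebraMap O Ω) := by
    rw [IsScalarTower.algebraMap_eq O (FractionRing O) Ω]
    exact (algebraMap (FractionRing O) Ω).injective.comp (IsFractionRing.injective O _)
  have hint : ι.IsIntegral := by
    intro b
    obtain ⟨q, hqm, hq⟩ := Algebra.IsIntegral.isIntegral (R := ℤ) b
    refine ⟨q.map (Int.castRingHom A), hqm.map _, ?_⟩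
    rw [Polynomial.eval₂_map,
      Subsingleton.elim (ι.comp (Int.castRingHom A)) (algebraMap ℤ B)]
    exact hq
  obtain ⟨χ₁, hχ₁⟩ := exists_ringHom_extension ι hι hint ((algebraMap O Ω).comp χ)
  obtain ⟨s, hs⟩ := (inferInstance : Module.Finite ℤ B).fg_top
  let D : Subalgebra O Ω := Algebra.adjoin O (χ₁ '' ↑s)
  haveI : Module.Finite O D := Module.Finite.iff_fg.mpr <|
    fg_adjoin_of_finite (s.finite_toSet.image _) fun x hx => by
      obtain ⟨b, -, rfl⟩ := hx
      obtain ⟨q, hqm, hq⟩ := Algebra.IsIntegral.isIntegral (R := ℤ) b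
      refine ⟨q.map (Int.castRingHom O), hqm.map _, ?_⟩
      rw [Polynomial.eval₂_map]
      rw [Subsingleton.elim ((algebraMap O Ω).comp (Int.castRingHom O))
        (χ₁.comp (algebraMap ℤ B)), ← Polynomial.hom_eval₂, hq, map_zero]
  have hmem : ∀ b, χ₁ b ∈ D := by
    intro b
    have hb : b ∈ Submodule.span ℤ (↑s : Set B) := hs ▸ Submodule.mem_top
    induction hb using Submodule.span_induction with
    | mem x hx => exact Algebra.subset_adjoin ⟨x, hx, rfl⟩
    | zero => rw [map_zero]; exact D.zero_mem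
    | add x y _ _ hx hy => rw [map_add]; exact D.add_mem hx hy
    | smul a x _ hx => rw [map_zsmul]; exact D.zsmul_mem hx a
  haveI : (⊥ : Ideal D).IsPrime := Ideal.isPrime_bot
  obtain ⟨O', i1, i2, i3, i4, i5, i6, i7, i8, i9, hinj, f, -⟩ :=
    exists_finiteDVR_extension O D ⊥ (fun a ha => hΩ <| by
      rw [Ideal.mem_bot] at ha
      simpa using congrArg Subtype.val ha)
  refine ⟨O', i1, i2, i3, i4, i5, i6, i7, i8, i9, hinj,
    f.toRingHom.comp (χ₁.codRestrict D hmem), fun a => ?_⟩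
  change f ⟨χ₁ (ι a), _⟩ = _
  rw [← f.commutes]
  congr 1
  exact Subtype.ext (hχ₁ a)

/-- Statement S30, given the three Eichler–Shimura inputs. -/
theorem exists_galoisRep_of_point_of (p : ℕ) [Fact p.Prime] (N : ℕ) [NeZero N] (S : Finset ℕ)
    (hK : HasKummerIso N) (hF : FrobeniusOnTorsion N p) (hL : GaloisFiniteLevel N)
    (hpS : p ∈ S)
    (𝒪' : Type) [CommRing 𝒪'] [IsDomain 𝒪'] [IsDiscreteValuationRing 𝒪']
    [IsAdicComplete (maximalIdeal 𝒪') 𝒪'] [Finite (ResidueField 𝒪')]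
    [CharZero 𝒪'] (hp𝒪' : (p : 𝒪') ∈ maximalIdeal 𝒪')
    (χ : CuspForm.heckeAlgebra N 2 (↑S : Set ℕ) →+* 𝒪') :
    ∃ (𝒪'' : Type) (_ : CommRing 𝒪'') (_ : IsDomain 𝒪'') (_ : IsDiscreteValuationRing 𝒪'')
      (_ : IsAdicComplete (maximalIdeal 𝒪'') 𝒪'')
      (_ : Finite (ResidueField 𝒪'')) (_ : CharZero 𝒪'')
      (_ : Algebra 𝒪' 𝒪'') (_ : Module.Finite 𝒪' 𝒪'') (_ : IsLocalHom (algebraMap 𝒪' 𝒪'')),
    Function.Injective (algebraMap 𝒪' 𝒪'') ∧
    ∃ ρ : GaloisRepAdic 𝒪'',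
      (∀ (ℓ : ℕ) (hℓ : ℓ.Prime) (hℓN : ¬ ℓ ∣ N) (hℓS : ℓ ∉ (↑S : Set ℕ)),
        ∀ A : ValuationSubring (AlgebraicClosure ℚ), A.LiesOverPrime ℓ →
          ∀ σ : AlgebraicClosure ℚ ≃ₐ[ℚ] AlgebraicClosure ℚ, A.IsFrobeniusAt σ ℓ →
            LinearMap.charpoly (ρ.ρ σ) =
              X ^ 2 - C (algebraMap 𝒪' 𝒪'' (χ (CuspForm.heckeAlgebra.T hℓ hℓN hℓS))) * X
                + C ((ℓ : 𝒪''))) ∧
      (∀ q : ℕ, q.Prime → ¬ q ∣ N → q ≠ p → ρ.IsUnramifiedAt q) := by
  haveI := HeckeFinite.moduleFinite_heckeAlgebra N 2 (∅ : Set ℕ)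
  let ι : CuspForm.heckeAlgebra N 2 (↑S : Set ℕ) →ₐ[ℤ] CuspForm.heckeAlgebra N 2 (∅ : Set ℕ) :=
    Subalgebra.inclusion (CuspForm.heckeAlgebra_mono (Set.empty_subset _))
  obtain ⟨O'', i1, i2, i3, i4, i5, i6, i7, i8, i9, hinj, χ'', hχ''⟩ :=
    exists_finiteDVR_ringHom_extension _ _ ι.toRingHom (Subalgebra.inclusion_injective _) 𝒪' χ
  letI := i1; letI := i7
  have hpO : (p : O'') ∈ maximalIdeal O'' := by
    rw [← map_natCast (algebraMap 𝒪' O'') p]
    exact map_nonunit (algebraMap 𝒪' O'') _ hp𝒪'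
  obtain ⟨ρ, hρ, hur⟩ := exists_galoisRepAdic_of_eigensystem N p hK hF hL O'' hpO χ''
  refine ⟨O'', i1, i2, i3, i4, i5, i6, i7, i8, i9, hinj, ρ, ?_, hur⟩
  intro ℓ hℓ hℓN hℓS A hA σ hσ
  rw [hρ ℓ hℓ hℓN (fun h => hℓS (h ▸ hpS)) A hA σ hσ, ← hχ'']
  rfl

end Fermat.Agent.EichlerShimura
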