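import Mathlib
import Fermat.Agent.EichlerShimura.FiniteDVR

/-!
# `p`-adic separation of a reduced finite `ℤ`-algebra by its points
-/

noncomputable section

set_option autoImplicit false
set_option linter.style.haveILetI false

namespace Fermat.Agent.EichlerShimura

open IsLocalRing TensorProduct

/-- Artin–Rees, for an injective map into a finite module. -/
theorem exists_pow_divisible_of_injective {O : Type*} [CommRing O] [IsNoetherianRing O]
    {R M : Type*} [AddCommGroup R] [Module O R] [AddCommGroup M] [Module O M] [Module.Finite O M]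
    (Φ : R →ₗ[O] M) (hΦ : Function.Injective Φ) (a : O) (n : ℕ) :
    ∃ k, ∀ x, (∃ z, Φ x = a ^ k • z) → ∃ y, x = a ^ n • y := by
  obtain ⟨c, hc⟩ := Ideal.exists_pow_inf_eq_pow_smul (Ideal.span {a}) (LinearMap.range Φ)
  refine ⟨n + c, fun x ⟨z, hz⟩ => ?_⟩
  have hmem : Φ x ∈ (Ideal.span {a} ^ (n + c) • ⊤ : Submodule O M) ⊓ LinearMap.range Φ := by
    refine ⟨?_, x, rfl⟩
    rw [hz, Ideal.span_singleton_pow]
    exact Submodule.smul_mem_smul (Ideal.mem_span_singleton_self _) Submodule.mem_top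
  rw [hc (n + c) (Nat.le_add_left c n), Nat.add_sub_cancel] at hmem
  have h2 : Φ x ∈ Submodule.map Φ (Ideal.span {a} ^ n • ⊤ : Submodule O R) := by
    rw [Submodule.map_smul'', Submodule.map_top]
    exact Submodule.smul_mono le_rfl inf_le_right hmem
  obtain ⟨x', hx', hxx'⟩ := h2
  obtain rfl := hΦ hxx'
  rw [Ideal.span_singleton_pow, Submodule.ideal_span_singleton_smul] at hx'
  obtain ⟨y, -, hy⟩ := (Submodule.mem_smul_pointwise_iff_exists _ _ _).mp hx'
  exact ⟨y, hy.symm⟩

/-- Base change of a reduced finite torsion-free `ℤ`-algebra to a field of characteristic zero is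
étale. -/
theorem formallyUnramified_field_tensor (K : Type) [Field K] [CharZero K] (R : Type) [CommRing R]
    [Module.Finite ℤ R] [Module.Free ℤ R] [IsReduced R] :
    Algebra.FormallyUnramified K (K ⊗[ℤ] R) := by
  classical
  haveI hQ : IsReduced (ℚ ⊗[ℤ] R) := by
    refine ⟨fun x hx => ?_⟩
    obtain ⟨m, hm0, y, hy⟩ :
        ∃ m : ℤ, m ≠ 0 ∧ ∃ y : R, (m : ℚ) • x = (1 : ℚ) ⊗ₜ[ℤ] y := by
      clear hx
      induction x using TensorProduct.induction_on with
      | zero => exact ⟨1, one_ne_zero, 0, by simp⟩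
      | tmul r y =>
        refine ⟨(r.den : ℤ), by exact_mod_cast r.den_ne_zero, r.num • y, ?_⟩
        rw [TensorProduct.smul_tmul', ← TensorProduct.smul_tmul r.num (1 : ℚ) y]
        congr 1
        simp only [smul_eq_mul, zsmul_eq_mul, mul_one, Int.cast_natCast]
        rw [mul_comm]
        exact_mod_cast Rat.mul_den_eq_num r
      | add u v hu hv =>
        obtain ⟨m₁, h₁, y₁, e₁⟩ := hu
        obtain ⟨m₂, h₂, y₂, e₂⟩ := hv
        refine ⟨m₁ * m₂, mul_ne_zero h₁ h₂, m₂ • y₁ + m₁ • y₂, ?_⟩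
        rw [TensorProduct.tmul_add, TensorProduct.tmul_smul, TensorProduct.tmul_smul,
          ← e₁, ← e₂, ← Int.cast_smul_eq_zsmul ℚ, ← Int.cast_smul_eq_zsmul ℚ m₁]
        push_cast
        module
    have hy0 : IsNilpotent ((1 : ℚ) ⊗ₜ[ℤ] y) := hy ▸ hx.smul (m : ℚ)
    have hinj : Function.Injective
        (Algebra.TensorProduct.includeRight : R →ₐ[ℤ] ℚ ⊗[ℤ] R) :=
      Algebra.TensorProduct.includeRight_injective (fun a b h => by simpa using h)
    have : y = 0 := (hy0 : IsNilpotent (Algebra.TensorProduct.includeRight y)) |>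
      (IsNilpotent.map_iff hinj).mp |>.eq_zero
    rw [this, TensorProduct.tmul_zero, smul_eq_zero] at hy
    exact hy.resolve_left (Int.cast_ne_zero.mpr hm0)
  haveI : IsArtinianRing (ℚ ⊗[ℤ] R) := IsArtinianRing.of_finite ℚ _
  haveI : Algebra.FormallyEtale ℚ (ℚ ⊗[ℤ] R) := by
    letI := fun I : MaximalSpectrum (ℚ ⊗[ℤ] R) => Ideal.Quotient.field I.asIdeal
    exact (Algebra.FormallyEtale.iff_exists_algEquiv_prod ℚ (ℚ ⊗[ℤ] R)).mpr
      ⟨MaximalSpectrum (ℚ ⊗[ℤ] R), inferInstance, fun I => (ℚ ⊗[ℤ] R) ⧸ I.asIdeal,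
        inferInstance, inferInstance, (IsArtinianRing.equivPi _).restrictScalars ℚ,
        fun I => Algebra.IsSeparable.of_integral _ _⟩
  exact Algebra.FormallyUnramified.of_equiv (Algebra.TensorProduct.cancelBaseChange ℤ ℚ K K R)

/-- Base change of a reduced finite torsion-free `ℤ`-algebra to `ℤ_[p]` stays reduced. -/
theorem isReduced_padicInt_tensor (p : ℕ) [Fact p.Prime] (R : Type) [CommRing R]
    [Module.Finite ℤ R] [Module.Free ℤ R] [IsReduced R] : IsReduced (ℤ_[p] ⊗[ℤ] R) := by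
  haveI := formallyUnramified_field_tensor ℚ_[p] R
  haveI : IsReduced (ℚ_[p] ⊗[ℤ] R) :=
    Algebra.FormallyUnramified.isReduced_of_field ℚ_[p] (ℚ_[p] ⊗[ℤ] R)
  exact isReduced_of_injective
    (Algebra.TensorProduct.map (PadicInt.Coe.ringHom (p := p)).toIntAlgHom (AlgHom.id ℤ R))
    (Module.Flat.rTensor_preserves_injective_linearMap _ Subtype.coe_injective)

/-- An element of a finite free `ℤ`-module divisible by `p ^ n` over `ℤ_[p]` is divisible by
`p ^ n`. -/
theorem exists_eq_zsmul_of_tmul_eq (p : ℕ) [Fact p.Prime] {R : Type} [AddCommGroup R]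
    [Module.Free ℤ R] (n : ℕ) (x : R) (z : ℤ_[p] ⊗[ℤ] R)
    (h : (1 : ℤ_[p]) ⊗ₜ[ℤ] x = (p : ℤ_[p]) ^ n • z) : ∃ y, x = ((p : ℤ) ^ n) • y := by
  classical
  let b := Module.Free.chooseBasis ℤ R
  let B := Algebra.TensorProduct.basis ℤ_[p] b
  have hdvd : ∀ i, ((p : ℤ) ^ n) ∣ b.repr x i := by
    intro i
    have hi := congrArg (fun w => B.repr w i) h
    simp only [B, Algebra.TensorProduct.basis_repr_tmul, map_smul, Finsupp.smul_apply,
      Finsupp.mapRange_apply, one_mul, smul_eq_mul] at hi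
    rw [← PadicInt.norm_int_le_pow_iff_dvd, PadicInt.norm_le_pow_iff_mem_span_pow,
      Ideal.mem_span_singleton]
    exact ⟨(Algebra.TensorProduct.basis ℤ_[p] b).repr z i, by simpa using hi⟩
  choose c hc using hdvd
  refine ⟨∑ i ∈ (b.repr x).support, c i • b i, ?_⟩
  conv_lhs => rw [← b.linearCombination_repr x, Finsupp.linearCombination_apply, Finsupp.sum]
  rw [Finset.smul_sum]
  exact Finset.sum_congr rfl fun i _ => by rw [smul_smul, ← hc i]

end Fermat.Agent.EichlerShimura
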