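import Mathlib
import Fermat.Prelude.Def_CuspForm_HeckeGaloisRepDatum
import Fermat.Agent.EichlerShimura.S30Of
import Fermat.Agent.EichlerShimura.Separation
import Fermat.Agent.Density.CharpolyDetermines
import Fermat.Agent.Hecke.GoodSemisimple
import Fermat.Agent.HeckeFinite.Finite

/-!
# Points of a Hecke–Galois datum in characteristic zero
-/

noncomputable section

set_option autoImplicit false
set_option linter.style.haveILetI false

open Polynomial IsLocalRing TensorProduct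

namespace Fermat.Agent.EichlerShimura

/-- A free algebra generated by the image of a reduced finite free `ℤ`-algebra over a domain of
characteristic zero is reduced. -/
theorem isReduced_of_generated {O : Type} [CommRing O] (K : Type) [Field K] [CharZero K]
    [Algebra O K] (hK : Function.Injective (algebraMap O K))
    {T : Type} [CommRing T] [Algebra O T] [Module.Free O T] [Module.Finite O T]
    (h : Type) [CommRing h] [Module.Finite ℤ h] [Module.Free ℤ h] [IsReduced h]
    (π : h →+* T) (hπ : Algebra.adjoin O (Set.range π) = ⊤) : IsReduced T := by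
  haveI := formallyUnramified_field_tensor K h
  let ι : T →ₐ[O] K ⊗[O] T := Algebra.TensorProduct.includeRight
  let φ : h →ₐ[ℤ] K ⊗[O] T := (ι.toRingHom.comp π).toIntAlgHom
  let Φ : K ⊗[ℤ] h →ₐ[K] K ⊗[O] T :=
    Algebra.TensorProduct.lift (Algebra.ofId K (K ⊗[O] T)) φ fun _ _ => Commute.all _ _
  have hall : ∀ t : T, ι t ∈ Φ.range := by
    intro t
    have ht : t ∈ Algebra.adjoin O (Set.range π) := hπ ▸ Algebra.mem_top
    have hle : Algebra.adjoin O (Set.range π) ≤ (Φ.range.restrictScalars O).comap ι := by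
      refine Algebra.adjoin_le ?_
      rintro _ ⟨x, rfl⟩
      exact ⟨(1 : K) ⊗ₜ[ℤ] x, (Algebra.TensorProduct.lift_tmul _ _ _ _ _).trans (by
        rw [map_one, one_mul]; rfl)⟩
    exact hle ht
  have hΦ : Function.Surjective Φ := by
    intro z
    suffices hz : z ∈ Φ.range from hz
    induction z using TensorProduct.induction_on with
    | zero => exact Φ.range.zero_mem
    | tmul a t =>
      have : a ⊗ₜ[O] t = a • ι t := by
        rw [Algebra.TensorProduct.includeRight_apply, TensorProduct.smul_tmul', smul_eq_mul,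
          mul_one]
      rw [this]
      exact Φ.range.smul_mem (hall t) a
    | add x y hx hy => exact Φ.range.add_mem hx hy
  haveI : Algebra.FormallyUnramified K (K ⊗[O] T) := Algebra.FormallyUnramified.of_surjective Φ hΦ
  haveI : IsReduced (K ⊗[O] T) := Algebra.FormallyUnramified.isReduced_of_field K _
  exact isReduced_of_injective ι (Algebra.TensorProduct.includeRight_injective hK)

variable {p N : ℕ} [Fact p.Prime] [NeZero N] {S : Finset ℕ}
  {𝒪 : Type} [CommRing 𝒪] [IsDomain 𝒪] [IsDiscreteValuationRing 𝒪]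
  [IsAdicComplete (maximalIdeal 𝒪) 𝒪]
  {θ : CuspForm.heckeAlgebra N 2 (↑S : Set ℕ) →+* ResidueField 𝒪}
  {T : Type} [CommRing T] [IsLocalRing T] [IsNoetherianRing T]
  [IsAdicComplete (maximalIdeal T) T] [Algebra 𝒪 T] [IsLocalHom (algebraMap 𝒪 T)]
  [Module.Finite 𝒪 T] [Module.Free 𝒪 T]

omit [Fact p.Prime] in
/-- In characteristic zero the coefficient ring of a Hecke–Galois datum is reduced. -/
theorem isReduced_of_datum [CharZero 𝒪] (hNS : ∀ q : ℕ, q.Prime → q ∣ N → q ∈ S)
    (H : CuspForm.HeckeGaloisRepDatum N (↑S : Set ℕ) 𝒪 θ T) : IsReduced T := by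
  haveI := HeckeFinite.moduleFinite_heckeAlgebra N 2 (↑S : Set ℕ)
  haveI : Module.Free ℤ (CuspForm.heckeAlgebra N 2 (↑S : Set ℕ)) :=
    Module.free_of_finite_type_torsion_free'
  haveI : IsReduced (CuspForm.heckeAlgebra N 2 (↑S : Set ℕ)) :=
    Hecke.isReduced_heckeAlgebra N 2 (↑S : Set ℕ) hNS
  haveI : CharZero (FractionRing 𝒪) :=
    charZero_of_injective_algebraMap (IsFractionRing.injective 𝒪 (FractionRing 𝒪))
  exact isReduced_of_generated (FractionRing 𝒪) (IsFractionRing.injective 𝒪 (FractionRing 𝒪))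
    (CuspForm.heckeAlgebra N 2 (↑S : Set ℕ)) H.π H.adjoin_range_π

/-- Every minimal prime of the coefficient ring of a Hecke–Galois datum is the kernel of a point
in a finite extension, along which the representation is equivalent to the one of a full
eigensystem. -/
theorem exists_point_of_minimalPrime [CharZero 𝒪] [Finite (ResidueField 𝒪)]
    (hK : HasKummerIso N) (hF : FrobeniusOnTorsion N p) (hL : GaloisFiniteLevel N)
    (hp𝒪 : (p : 𝒪) ∈ maximalIdeal 𝒪) (hpS : p ∈ S)
    (H : CuspForm.HeckeGaloisRepDatum N (↑S : Set ℕ) 𝒪 θ T)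
    (Q : Ideal T) (hQ : Q ∈ minimalPrimes T) :
    ∃ (O : Type) (_ : CommRing O) (_ : IsDomain O) (_ : IsDiscreteValuationRing O)
      (_ : IsAdicComplete (maximalIdeal O) O) (_ : Finite (ResidueField O)) (_ : CharZero O)
      (_ : Algebra 𝒪 O) (_ : Module.Finite 𝒪 O) (_ : IsLocalHom (algebraMap 𝒪 O))
      (ψ : T →ₐ[𝒪] O) (hψ : IsLocalHom ψ.toRingHom)
      (χ : CuspForm.heckeAlgebra N 2 (∅ : Set ℕ) →+* O) (ρ : GaloisRepAdic O),
      RingHom.ker ψ = Q ∧
      (∀ t, χ (Subalgebra.inclusion (CuspForm.heckeAlgebra_mono (Set.empty_subset _)) t) =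
        ψ (H.π t)) ∧
      (∀ (ℓ : ℕ) (hℓ : ℓ.Prime) (hℓN : ¬ ℓ ∣ N), ℓ ≠ p →
        ∀ A : ValuationSubring (AlgebraicClosure ℚ), A.LiesOverPrime ℓ →
          ∀ σ : AlgebraicClosure ℚ ≃ₐ[ℚ] AlgebraicClosure ℚ, A.IsFrobeniusAt σ ℓ →
            LinearMap.charpoly (ρ.ρ σ) =
              X ^ 2 - C (χ (CuspForm.heckeAlgebra.T hℓ hℓN (Set.notMem_empty ℓ))) * X
                + C (ℓ : O)) ∧
      (∀ q : ℕ, q.Prime → ¬ q ∣ N → q ≠ p → ρ.IsUnramifiedAt q) ∧
      ∀ g, LinearMap.charpoly ((H.ρ.baseChangeAlong ψ.toRingHom hψ).ρ g) =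
        LinearMap.charpoly (ρ.ρ g) := by
  haveI := HeckeFinite.moduleFinite_heckeAlgebra N 2 (∅ : Set ℕ)
  haveI : Q.IsPrime := hQ.1.1
  have hQ0 : ∀ a : 𝒪, algebraMap 𝒪 T a ∈ Q → a = 0 := by
    intro a ha
    by_contra ha0
    refine Set.disjoint_left.mp (Ideal.disjoint_nonZeroDivisors_of_mem_minimalPrimes hQ) ha ?_
    refine mem_nonZeroDivisors_iff_right.mpr fun x hx => ?_
    rw [mul_comm, ← Algebra.smul_def] at hx
    exact (smul_eq_zero.mp hx).resolve_left ha0
  obtain ⟨O₁, _, _, _, _, _, _, _, _, hloc₁, hinj₁, ψ₁, hψ₁⟩ :=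
    exists_finiteDVR_extension 𝒪 T Q hQ0
  let ι : CuspForm.heckeAlgebra N 2 (↑S : Set ℕ) →ₐ[ℤ] CuspForm.heckeAlgebra N 2 (∅ : Set ℕ) :=
    Subalgebra.inclusion (CuspForm.heckeAlgebra_mono (Set.empty_subset _))
  obtain ⟨O, i1, i2, i3, i4, i5, i6, _, _, hloc, hinj, χ, hχ⟩ :=
    exists_finiteDVR_ringHom_extension _ _ ι.toRingHom (Subalgebra.inclusion_injective _) O₁
      (ψ₁.toRingHom.comp H.π)
  letI : Algebra 𝒪 O := ((algebraMap O₁ O).comp (algebraMap 𝒪 O₁)).toAlgebra
  haveI : IsScalarTower 𝒪 O₁ O := IsScalarTower.of_algebraMap_eq' rfl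
  haveI : Module.Finite 𝒪 O := Module.Finite.trans O₁ O
  haveI hloc' : IsLocalHom (algebraMap 𝒪 O) :=
    ⟨fun a ha => hloc₁.map_nonunit a (hloc.map_nonunit _ ha)⟩
  let ψ : T →ₐ[𝒪] O := (IsScalarTower.toAlgHom 𝒪 O₁ O).comp ψ₁
  have hker : RingHom.ker ψ = Q := by
    ext x
    rw [← hψ₁, RingHom.mem_ker, RingHom.mem_ker]
    exact map_eq_zero_iff (algebraMap O₁ O) hinj
  have hψloc : IsLocalHom ψ.toRingHom := by
    refine ⟨fun t ht => ?_⟩
    obtain ⟨c, hc⟩ := H.residue_surjective (residue T t)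
    have hsub : t - algebraMap 𝒪 T c ∈ maximalIdeal T := by
      rw [← residue_eq_zero_iff, map_sub]
      exact sub_eq_zero.mpr hc.symm
    by_contra htu
    have hcm : c ∈ maximalIdeal 𝒪 := by
      rw [mem_maximalIdeal, mem_nonunits_iff]
      intro hu
      refine htu (residue_ne_zero_iff_isUnit t |>.mp ?_)
      rw [← hc]
      exact ((hu.map (algebraMap 𝒪 T)).map (residue T)).ne_zero
    -- the kernel of `T → ResidueField O` is a maximal ideal, so it is the maximal ideal
    haveI : ((maximalIdeal O).comap ψ.toRingHom).IsPrime := inferInstance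
    have hmax : ((maximalIdeal O).comap ψ.toRingHom).IsMaximal := by
      refine Ideal.isMaximal_of_isIntegral_of_isMaximal_comap (R := 𝒪) _ ?_
      rw [Ideal.comap_comap, show ψ.toRingHom.comp (algebraMap 𝒪 T) = algebraMap 𝒪 O from
        RingHom.ext fun a => ψ.commutes a, IsLocalRing.maximalIdeal_comap]
      infer_instance
    have hmem : t ∈ (maximalIdeal O).comap ψ.toRingHom := by
      rw [eq_maximalIdeal hmax]
      exact (mem_maximalIdeal t).mpr htu
    exact (mem_maximalIdeal _).mp hmem ht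
  have hpO : (p : O) ∈ maximalIdeal O := by
    rw [← map_natCast (algebraMap 𝒪 O) p]
    exact map_nonunit (algebraMap 𝒪 O) _ hp𝒪
  obtain ⟨ρ, hρ, hur⟩ := exists_galoisRepAdic_of_eigensystem N p hK hF hL O hpO χ
  refine ⟨O, i1, i2, i3, i4, i5, i6, inferInstance, inferInstance, hloc', ψ, hψloc, χ, ρ, hker,
    hχ, hρ, hur, fun g => Density.adic_charpoly_eq_of_frobenius _ _ (S ∪ N.primeFactors) ?_ g⟩
  intro ℓ hℓ hℓS A hA σ hσ
  rw [Finset.mem_union, not_or, Nat.mem_primeFactors] at hℓS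
  have hℓN : ¬ ℓ ∣ N := fun h => hℓS.2 ⟨hℓ, h, NeZero.ne N⟩
  have hℓS' : ℓ ∉ (↑S : Set ℕ) := Finset.mem_coe.not.mpr hℓS.1
  letI : Algebra T O := ψ.toRingHom.toAlgebra
  change LinearMap.charpoly ((H.ρ.ρ σ).baseChange O) = _
  rw [LinearMap.charpoly_baseChange, H.charpoly_frob ℓ hℓ hℓN hℓS' A hA σ hσ,
    hρ ℓ hℓ hℓN (fun h => hℓS.1 (h ▸ hpS)) A hA σ hσ]
  simp only [Polynomial.map_add, Polynomial.map_sub, Polynomial.map_pow, Polynomial.map_mul,
    Polynomial.map_X, Polynomial.map_C, map_natCast, Polynomial.map_natCast]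
  congr 4
  exact (hχ _).symm

end Fermat.Agent.EichlerShimura
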