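import Fermat.Prelude.Def_AlgebraicCurve_Correspondence

/-!
# Commutation of correspondences on divisors from an identity of norms

If `N₁ φ₁ N₂ φ₂ = N₂ φ₂ N₁ φ₁` on functions, the two correspondences commute on every principal
divisor; by weak approximation they commute on every divisor.
-/

set_option autoImplicit false

noncomputable section

namespace Fermat.Agent.EichlerShimura

open AlgebraicCurve

variable {K F F₁ F₂ : Type*} [Field K] [Field F] [Field F₁] [Field F₂]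
  [Algebra K F] [Algebra K F₁] [Algebra K F₂]

/-- The norm along `ψ`. -/
def normAlong (ψ : F →ₐ[K] F₁) : F₁ →* F :=
  letI := algebraAlong ψ
  Algebra.norm F

theorem normAlong_ne_zero {ψ : F →ₐ[K] F₁} (hfin : FiniteAlong K ψ) {g : F₁} (hg : g ≠ 0) :
    normAlong ψ g ≠ 0 := by
  letI := algebraAlong ψ
  haveI : Module.Finite F F₁ := hfin
  exact Algebra.norm_ne_zero_iff.mpr hg

theorem pushforwardAlong_eq_ord {ψ : F →ₐ[K] F₁} (hψ : ψ.toRingHom.IsIntegral)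
    (hfin : FiniteAlong K ψ) (hN : NormFormulaAlong K ψ hfin) {g : F₁} (hg : g ≠ 0)
    {D : Divisor K F₁} (hD : ∀ w, D w = w.ord g) (v : Place K F) :
    Divisor.pushforwardAlong ψ hψ D v = v.ord (normAlong ψ g) := by
  letI := algebraAlong ψ
  haveI := isScalarTower_along ψ
  haveI := isIntegral_along ψ hψ
  haveI : Module.Finite F F₁ := hfin
  exact hN g hg D hD v

variable [HasPrincipalDivisors K F₁] [HasPrincipalDivisors K F₂]

theorem correspondence_apply_eq_ord {φ ψ : F →ₐ[K] F₁} (hφ : φ.toRingHom.IsIntegral)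
    (hψ : ψ.toRingHom.IsIntegral) (hfin : FiniteAlong K ψ) (hN : NormFormulaAlong K ψ hfin)
    {f : F} (hf : f ≠ 0) {D : Divisor K F} (hD : ∀ v, D v = v.ord f) (v : Place K F) :
    Divisor.correspondence φ ψ hφ hψ D v = v.ord (normAlong ψ (φ f)) := by
  refine pushforwardAlong_eq_ord hψ hfin hN ((map_ne_zero φ).mpr hf) (fun w => ?_) v
  rw [Divisor.pullbackAlong_apply, hD, Place.ord_restrictAlong]

/-- The places whose image under the correspondence can meet `Q`. -/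
def sources [DecidableEq (Place K F)] (φ ψ : F →ₐ[K] F₁) (hφ : φ.toRingHom.IsIntegral)
    (hψ : ψ.toRingHom.IsIntegral) (Q : Place K F) : Finset (Place K F) :=
  (Place.fiberAlong ψ hψ Q).image fun w => w.restrictAlong φ hφ

theorem correspondence_apply_eq_zero [DecidableEq (Place K F)] {φ ψ : F →ₐ[K] F₁}
    {hφ : φ.toRingHom.IsIntegral} {hψ : ψ.toRingHom.IsIntegral} {D : Divisor K F} {Q : Place K F}
    (h : ∀ P ∈ sources φ ψ hφ hψ Q, D P = 0) :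
    Divisor.correspondence φ ψ hφ hψ D Q = 0 := by
  set E := Divisor.pullbackAlong φ hφ D with hE
  show Divisor.pushforwardAlong ψ hψ E Q = 0
  rw [← Finsupp.sum_single E, map_finsuppSum, Finsupp.sum_apply]
  refine Finset.sum_eq_zero fun w hw => ?_
  simp only [Divisor.pushforwardAlong_single]
  by_cases hQ : w.restrictAlong ψ hψ = Q
  · have hw0 : E w = 0 := by
      rw [hE, Divisor.pullbackAlong_apply,
        h _ (Finset.mem_image_of_mem _ (Place.mem_fiberAlong.mpr hQ)), mul_zero]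
    simp [hw0]
  · exact Finsupp.single_eq_of_ne' hQ

variable [HasPrincipalDivisors K F]

/-- Two correspondences commute once the norms of their compositions agree. -/
theorem correspondence_comm
    (happrox : ∀ (S : Finset (Place K F)) (n : Place K F → ℤ),
      ∃ f : F, f ≠ 0 ∧ ∀ v ∈ S, v.ord f = n v)
    {φ₁ ψ₁ : F →ₐ[K] F₁} {φ₂ ψ₂ : F →ₐ[K] F₂}
    (hφ₁ : φ₁.toRingHom.IsIntegral) (hψ₁ : ψ₁.toRingHom.IsIntegral)
    (hφ₂ : φ₂.toRingHom.IsIntegral) (hψ₂ : ψ₂.toRingHom.IsIntegral)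
    (hfin₁ : FiniteAlong K ψ₁) (hN₁ : NormFormulaAlong K ψ₁ hfin₁)
    (hfin₂ : FiniteAlong K ψ₂) (hN₂ : NormFormulaAlong K ψ₂ hfin₂)
    (hnorm : ∀ f : F, f ≠ 0 → normAlong ψ₁ (φ₁ (normAlong ψ₂ (φ₂ f))) =
      normAlong ψ₂ (φ₂ (normAlong ψ₁ (φ₁ f))))
    (D : Divisor K F) :
    Divisor.correspondence φ₁ ψ₁ hφ₁ hψ₁ (Divisor.correspondence φ₂ ψ₂ hφ₂ hψ₂ D) =
      Divisor.correspondence φ₂ ψ₂ hφ₂ hψ₂ (Divisor.correspondence φ₁ ψ₁ hφ₁ hψ₁ D) := by
  classical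
  set T₁ := Divisor.correspondence φ₁ ψ₁ hφ₁ hψ₁ with hT₁
  set T₂ := Divisor.correspondence φ₂ ψ₂ hφ₂ hψ₂ with hT₂
  suffices key : T₁.comp T₂ = T₂.comp T₁ from DFunLike.congr_fun key D
  refine Finsupp.addHom_ext fun P m => ?_
  refine Finsupp.ext fun Q => ?_
  set S : Finset (Place K F) :=
    (sources φ₁ ψ₁ hφ₁ hψ₁ Q).biUnion (sources φ₂ ψ₂ hφ₂ hψ₂) ∪
      (sources φ₂ ψ₂ hφ₂ hψ₂ Q).biUnion (sources φ₁ ψ₁ hφ₁ hψ₁) with hS
  obtain ⟨f, hf, hord⟩ := happrox S (Finsupp.single P m)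
  obtain ⟨E, hE, -⟩ := HasPrincipalDivisors.exists_divisor (K := K) f hf
  have hvanish : ∀ v ∈ S, (Finsupp.single P m - E) v = 0 := fun v hv => by
    rw [Finsupp.sub_apply, hE, hord v hv, sub_self]
  have h12 : T₁ (T₂ (Finsupp.single P m - E)) Q = 0 :=
    correspondence_apply_eq_zero fun v hv => correspondence_apply_eq_zero fun u hu =>
      hvanish u (Finset.mem_union_left _ (Finset.mem_biUnion.mpr ⟨v, hv, hu⟩))
  have h21 : T₂ (T₁ (Finsupp.single P m - E)) Q = 0 :=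
    correspondence_apply_eq_zero fun v hv => correspondence_apply_eq_zero fun u hu =>
      hvanish u (Finset.mem_union_right _ (Finset.mem_biUnion.mpr ⟨v, hv, hu⟩))
  have hprinc : T₁ (T₂ E) Q = T₂ (T₁ E) Q := by
    rw [hT₁, hT₂,
      correspondence_apply_eq_ord hφ₁ hψ₁ hfin₁ hN₁
        (normAlong_ne_zero hfin₂ ((map_ne_zero φ₂).mpr hf))
        (correspondence_apply_eq_ord hφ₂ hψ₂ hfin₂ hN₂ hf hE) Q,
      correspondence_apply_eq_ord hφ₂ hψ₂ hfin₂ hN₂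
        (normAlong_ne_zero hfin₁ ((map_ne_zero φ₁).mpr hf))
        (correspondence_apply_eq_ord hφ₁ hψ₁ hfin₁ hN₁ hf hE) Q,
      hnorm f hf]
  rw [map_sub, map_sub, Finsupp.sub_apply, sub_eq_zero] at h12 h21
  rw [AddMonoidHom.comp_apply, AddMonoidHom.comp_apply, h12, h21, hprinc]

/-- The induced maps on `Pic⁰` commute. -/
theorem pic0_correspondence_comm
    (happrox : ∀ (S : Finset (Place K F)) (n : Place K F → ℤ),
      ∃ f : F, f ≠ 0 ∧ ∀ v ∈ S, v.ord f = n v)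
    {φ₁ ψ₁ : F →ₐ[K] F₁} {φ₂ ψ₂ : F →ₐ[K] F₂}
    (hφ₁ : φ₁.toRingHom.IsIntegral) (hψ₁ : ψ₁.toRingHom.IsIntegral)
    (hφ₂ : φ₂.toRingHom.IsIntegral) (hψ₂ : ψ₂.toRingHom.IsIntegral)
    (hFI₁ : FundamentalIdentityAlong K φ₁ hφ₁) (hFI₂ : FundamentalIdentityAlong K φ₂ hφ₂)
    (hfin₁ : FiniteAlong K ψ₁) (hN₁ : NormFormulaAlong K ψ₁ hfin₁)
    (hfin₂ : FiniteAlong K ψ₂) (hN₂ : NormFormulaAlong K ψ₂ hfin₂)
    (hnorm : ∀ f : F, f ≠ 0 → normAlong ψ₁ (φ₁ (normAlong ψ₂ (φ₂ f))) =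
      normAlong ψ₂ (φ₂ (normAlong ψ₁ (φ₁ f))))
    (x : Pic0 K F) :
    Pic0.correspondence φ₁ ψ₁ hφ₁ hψ₁ hFI₁ hfin₁ hN₁
        (Pic0.correspondence φ₂ ψ₂ hφ₂ hψ₂ hFI₂ hfin₂ hN₂ x) =
      Pic0.correspondence φ₂ ψ₂ hφ₂ hψ₂ hFI₂ hfin₂ hN₂
        (Pic0.correspondence φ₁ ψ₁ hφ₁ hψ₁ hFI₁ hfin₁ hN₁ x) := by
  obtain ⟨D, rfl⟩ := Pic0.mk_surjective x
  simp only [Pic0.correspondence_mk]
  refine congrArg Pic0.mk (Subtype.ext ?_)
  simp only [Pic0.coe_degZeroCorrespondence]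
  exact correspondence_comm happrox hφ₁ hψ₁ hφ₂ hψ₂ hfin₁ hN₁ hfin₂ hN₂ hnorm D

end Fermat.Agent.EichlerShimura

end
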