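import Fermat.Agent.EichlerShimura.LevelDegree
import Fermat.Agent.Modular.Degree
import Fermat.Agent.Curve.Fibre
import Fermat.Agent.Curve.Approximation
import Fermat.Prelude.Def_ModularCurve_HeckeModule

/-!
# The inputs of the Hecke correspondences, and their commutation

`HeckeInputsAlong` holds at every level and index, the operator is the correspondence, and
`HeckeOperatorsCommuteBar N` holds for every `N`.
-/

set_option autoImplicit false
set_option linter.style.haveILetI false

noncomputable section

open CongruenceSubgroup ModularCurve AlgebraicCurve IntermediateField Fermat.Agent.Modular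

namespace Fermat.Agent.EichlerShimura

open Fermat.Agent.Curve

section General

variable {L : Type*} [Field L] [Algebra ℚ L]

theorem isFunctionField1_level (ι : L →+* ℂ) (N : ℕ) [NeZero N] : IsFunctionField1 L (FL N L) :=
  IsFunctionField1.of_finite_adjoin (transcendental_jL N ι) (finiteDimensional_FL N ι)

theorem heckeInputsAlong (ι : L →+* ℂ) (N ℓ : ℕ) [NeZero N] [NeZero ℓ] :
    HeckeInputsAlong L N ℓ := by
  haveI : NeZero (N * ℓ) := ⟨Nat.mul_ne_zero (NeZero.ne N) (NeZero.ne ℓ)⟩
  haveI := isFunctionField1_level ι N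
  haveI := isFunctionField1_level ι (N * ℓ)
  exact heckeInputsAlong_intro (isIntegralAlong _) (isIntegralAlong _)
    (fundamentalIdentityAlong _ _) (finiteAlong _) (normFormulaAlong _ _)

theorem heckeOperatorAlong_comm (ι : L →+* ℂ) (N : ℕ) [NeZero N] {p q : ℕ} [NeZero p] [NeZero q]
    (hp : p.Prime) (hq : q.Prime) (x : Pic0 L (FL N L)) :
    heckeOperatorAlong L N p (heckeOperatorAlong L N q x) =
      heckeOperatorAlong L N q (heckeOperatorAlong L N p x) := by
  rcases eq_or_ne p q with rfl | hpq
  · rfl
  haveI : NeZero (N * p) := ⟨Nat.mul_ne_zero (NeZero.ne N) (NeZero.ne p)⟩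
  haveI : NeZero (N * q) := ⟨Nat.mul_ne_zero (NeZero.ne N) (NeZero.ne q)⟩
  haveI := isFunctionField1_level ι N
  haveI := isFunctionField1_level ι (N * p)
  haveI := isFunctionField1_level ι (N * q)
  rw [heckeOperatorAlong_eq (ℓ := p) (isIntegralAlong _) (isIntegralAlong _)
      (fundamentalIdentityAlong _ _) (finiteAlong _) (normFormulaAlong _ _),
    heckeOperatorAlong_eq (ℓ := q) (isIntegralAlong _) (isIntegralAlong _)
      (fundamentalIdentityAlong _ _) (finiteAlong _) (normFormulaAlong _ _)]
  exact pic0_correspondence_comm exists_forall_ord_eq (isIntegralAlong _) (isIntegralAlong _)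
    (isIntegralAlong _) (isIntegralAlong _) (fundamentalIdentityAlong _ _)
    (fundamentalIdentityAlong _ _) (finiteAlong _) (normFormulaAlong _ _) (finiteAlong _)
    (normFormulaAlong _ _)
    (fun f _ => normAlong_heckeBeta_comm (fun M _ => finrank_FL M ι)
      (fun M _ => functionFieldGeneration M) N hp hq hpq f) x

end General

theorem heckeInputsAlong_qbar (N ℓ : ℕ) [NeZero N] [NeZero ℓ] :
    HeckeInputsAlong (AlgebraicClosure ℚ) N ℓ :=
  heckeInputsAlong (complexEmbedding : AlgebraicClosure ℚ →+* ℂ) N ℓ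

/-- The Hecke operators on `J₀(N)(ℚ̄)` commute. -/
theorem heckeOperatorsCommuteBar (N : ℕ) [NeZero N] : HeckeOperatorsCommuteBar N := by
  intro ℓ ℓ'
  haveI : NeZero (ℓ : ℕ) := ⟨ℓ.2.ne_zero⟩
  haveI : NeZero (ℓ' : ℕ) := ⟨ℓ'.2.ne_zero⟩
  refine LinearMap.ext fun x => ?_
  rw [Module.End.mul_apply, Module.End.mul_apply, heckeOperatorBar_apply, heckeOperatorBar_apply,
    heckeOperatorBar_apply, heckeOperatorBar_apply]
  exact heckeOperatorAlong_comm (complexEmbedding : AlgebraicClosure ℚ →+* ℂ) N ℓ.2 ℓ'.2 x

end Fermat.Agent.EichlerShimura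

end
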