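import Fermat.Prelude.Def_ModularCurve_LaurentCoeff
import Mathlib.LinearAlgebra.Basis.VectorSpace
import Mathlib.LinearAlgebra.Dual.Lemmas

/-!
Linear disjointness of `K((q))` and `L` inside `L((q))`: a series with coefficients in `K`
lying in the compositum of `L` and a subfield `F` of `K((q))` lies in `F`.
-/

set_option autoImplicit false

noncomputable section

open HahnSeries ModularCurve

namespace Fermat.Agent.EichlerShimura

variable {K L : Type*} [Field K] [Field L]

/-- Apply an additive map to each coefficient. -/
def coeffApply {A B : Type*} [AddCommMonoid A] [AddCommMonoid B] (φ : A →+ B)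
    (x : HahnSeries ℤ A) : HahnSeries ℤ B := x.map φ

theorem coeffApply_coeff {A B : Type*} [AddCommMonoid A] [AddCommMonoid B] (φ : A →+ B)
    (x : HahnSeries ℤ A) (n : ℤ) : (coeffApply φ x).coeff n = φ (x.coeff n) := rfl

theorem coeffApply_add {A B : Type*} [AddCommMonoid A] [AddCommMonoid B] (φ : A →+ B)
    (x y : HahnSeries ℤ A) : coeffApply φ (x + y) = coeffApply φ x + coeffApply φ y := by
  ext n
  simp [coeffApply_coeff]

theorem coeffApply_coeffMap_mul (ι : K →+* L) (φ : L →+ K)
    (hφ : ∀ (k : K) (l : L), φ (ι k * l) = k * φ l) (y : LaurentSeries K) (w : LaurentSeries L) :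
    coeffApply φ (coeffMap ι y * w) = y * coeffApply φ w := by
  ext n
  have hsupp : (coeffMap ι y).support = y.support := by
    ext m
    simp [ι.injective.eq_iff' (map_zero ι)]
  have hw : (coeffApply φ w).support ⊆ w.support := by
    intro m
    simp only [HahnSeries.mem_support, coeffApply_coeff]
    intro h h0
    exact h (by rw [h0, map_zero])
  rw [coeffApply_coeff, HahnSeries.coeff_mul,
    HahnSeries.coeff_mul_right' w.isPWO_support hw, map_sum]
  refine Finset.sum_congr (Finset.ext fun ij => ?_) (fun ij _ => ?_)
  · simp only [Finset.mem_addAntidiagonal, hsupp]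
  · rw [coeffMap_coeff, coeffApply_coeff, hφ]

theorem constant_mul_eq (c : L) (x : LaurentSeries L) :
    algebraMap L (LaurentSeries L) c * x = c • x := by
  rw [algebraMap_laurentSeries_eq_single]
  exact HahnSeries.single_zero_mul_eq_smul

theorem mem_span_of_mem_subringClosure (ι : K →+* L) (F : Subfield (LaurentSeries K))
    {x : LaurentSeries L}
    (hx : x ∈ Subring.closure (Set.range (algebraMap L (LaurentSeries L)) ∪
      coeffMap ι '' (F : Set (LaurentSeries K)))) :
    x ∈ Submodule.span L (coeffMap ι '' (F : Set (LaurentSeries K))) := by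
  have hmul : ∀ a b : LaurentSeries L,
      a ∈ Submodule.span L (coeffMap ι '' (F : Set (LaurentSeries K))) →
      b ∈ Submodule.span L (coeffMap ι '' (F : Set (LaurentSeries K))) →
      a * b ∈ Submodule.span L (coeffMap ι '' (F : Set (LaurentSeries K))) := by
    intro a b ha hb
    induction ha using Submodule.span_induction with
    | zero => simp
    | add u v _ _ hu hv => rw [add_mul]; exact add_mem hu hv
    | smul c u _ hu =>
      rw [← constant_mul_eq, mul_assoc, constant_mul_eq]
      exact Submodule.smul_mem _ _ hu
    | mem u hu =>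
      induction hb using Submodule.span_induction with
      | zero => simp
      | add v w _ _ hv hw => rw [mul_add]; exact add_mem hv hw
      | smul c v _ hv =>
        rw [← constant_mul_eq, mul_left_comm, constant_mul_eq]
        exact Submodule.smul_mem _ _ hv
      | mem v hv =>
        obtain ⟨u', hu', rfl⟩ := hu
        obtain ⟨v', hv', rfl⟩ := hv
        exact Submodule.subset_span ⟨u' * v', mul_mem hu' hv', map_mul _ _ _⟩
  have hone : (1 : LaurentSeries L) ∈
      Submodule.span L (coeffMap ι '' (F : Set (LaurentSeries K))) :=
    Submodule.subset_span ⟨1, one_mem F, map_one _⟩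
  induction hx using Subring.closure_induction with
  | mem z hz =>
    rcases hz with ⟨c, rfl⟩ | hz
    · rw [← mul_one (algebraMap L (LaurentSeries L) c), constant_mul_eq]
      exact Submodule.smul_mem _ _ hone
    · exact Submodule.subset_span hz
  | zero => simp
  | one => exact hone
  | add a b _ _ ha hb => exact add_mem ha hb
  | neg a _ ha => exact neg_mem ha
  | mul a b _ _ ha hb => exact hmul a b ha hb

/-- Linear disjointness descent. -/
theorem mem_of_coeffMap_mem_closure (ι : K →+* L) (F : Subfield (LaurentSeries K))
    (hF : ∀ c : K, algebraMap K (LaurentSeries K) c ∈ F) {y : LaurentSeries K}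
    (hy : coeffMap ι y ∈ Subfield.closure (Set.range (algebraMap L (LaurentSeries L)) ∪
      coeffMap ι '' (F : Set (LaurentSeries K)))) :
    y ∈ F := by
  classical
  let := ι.toAlgebra
  obtain ⟨a, ha, b, hb, hab⟩ := Subfield.mem_closure_iff.mp hy
  replace ha := mem_span_of_mem_subringClosure ι F ha
  replace hb := mem_span_of_mem_subringClosure ι F hb
  by_cases hb0 : b = 0
  · have : coeffMap ι y = 0 := by rw [← hab, hb0, div_zero]
    have hy0 : y = 0 := by
      ext n
      have h := congrArg (fun z => HahnSeries.coeff z n) this
      simpa [ι.injective.eq_iff' (map_zero ι)] using h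
    rw [hy0]
    exact zero_mem F
  obtain ⟨n, hn⟩ : ∃ n, b.coeff n ≠ 0 := by
    by_contra h
    push Not at h
    exact hb0 (HahnSeries.ext (funext fun n => by simpa using h n))
  obtain ⟨φ, hφ⟩ : ∃ φ : L →ₗ[K] K, φ (b.coeff n) ≠ 0 := by
    by_contra h
    push Not at h
    exact hn ((Module.forall_dual_apply_eq_zero_iff K _).mp h)
  let Λ := coeffApply φ.toAddMonoidHom
  have hspan : ∀ x ∈ Submodule.span L (coeffMap ι '' (F : Set (LaurentSeries K))),
      ∀ c : L, Λ (c • x) ∈ F := by
    intro x hx
    induction hx using Submodule.span_induction with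
    | zero =>
      intro c
      rw [smul_zero]
      convert zero_mem F using 1
      ext m
      simp [Λ, coeffApply_coeff]
    | add u v _ _ hu hv =>
      intro c
      rw [smul_add]
      simp only [Λ, coeffApply_add]
      exact add_mem (hu c) (hv c)
    | smul d u _ hu => intro c; rw [smul_smul]; exact hu _
    | mem u hu =>
      intro c
      obtain ⟨v, hv, rfl⟩ := hu
      have : Λ (c • coeffMap ι v) = algebraMap K (LaurentSeries K) (φ c) * v := by
        ext m
        rw [algebraMap_laurentSeries_eq_single, HahnSeries.single_zero_mul_eq_smul]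
        show φ (c * ι (v.coeff m)) = φ c * v.coeff m
        rw [mul_comm, show ι (v.coeff m) * c = (v.coeff m) • c from rfl, map_smul, smul_eq_mul,
          mul_comm]
      rw [this]
      exact mul_mem (hF _) hv
  have hΛb : Λ b ≠ 0 := fun h => hφ (by
    have := congrArg (fun z => HahnSeries.coeff z n) h
    simpa [Λ, coeffApply_coeff] using this)
  have hmain : Λ a = y * Λ b := by
    have : a = coeffMap ι y * b := by rw [← hab, div_mul_cancel₀ a hb0]
    rw [this]
    refine coeffApply_coeffMap_mul ι _ (fun k l => ?_) y b
    show φ (k • l) = k * φ l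
    rw [map_smul, smul_eq_mul]
  have hy' : y = Λ a / Λ b := by rw [hmain, mul_div_cancel_right₀ y hΛb]
  rw [hy']
  have h1 := hspan a ha 1
  have h2 := hspan b hb 1
  rw [one_smul] at h1 h2
  exact div_mem h1 h2

end Fermat.Agent.EichlerShimura
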