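import Fermat.Agent.EichlerShimura.FiniteLevel
import Fermat.Agent.Modular.Degree
import Fermat.Agent.Curve.Degree

/-!
# `GaloisFiniteLevel N`, unconditionally
-/

set_option autoImplicit false

noncomputable section

open ModularCurve

namespace Fermat.Agent.EichlerShimura

theorem isFunctionField1_modularFunctionFieldBar (N : ℕ) [NeZero N] :
    Curve.IsFunctionField1 (AlgebraicClosure ℚ) (modularFunctionFieldBar N) := by
  obtain ⟨ι⟩ : Nonempty (AlgebraicClosure ℚ →+* ℂ) :=
    haveI : Algebra.IsAlgebraic ℚ (AlgebraicClosure ℚ) := AlgebraicClosure.isAlgebraic ℚ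
    ⟨(IsAlgClosed.lift (R := ℚ) (S := AlgebraicClosure ℚ) (M := ℂ)).toRingHom⟩
  exact Curve.IsFunctionField1.of_finite_adjoin (Modular.transcendental_jL N ι)
    (Modular.finiteDimensional_FL N ι)

/-- Every point of `J₀(N)(ℚ̄)` is fixed by an open subgroup. -/
theorem galoisFiniteLevel_x0 (N : ℕ) [NeZero N] : GaloisFiniteLevel N := by
  have := isFunctionField1_modularFunctionFieldBar N
  exact galoisFiniteLevel N

end Fermat.Agent.EichlerShimura
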