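import Fermat.Prelude.Def_CuspForm_HeckeAlgebra
import Fermat.Agent.Periods.HeckeCoeff
import Fermat.Agent.HeckeFinite.Finite
import Mathlib.RingTheory.IntegralClosure.Algebra.Basic

/-!
# The character of the full Hecke algebra attached to a normalised eigenform
-/

set_option autoImplicit false

noncomputable section

open ModularFormClass

namespace Fermat.Agent.EichlerShimura

variable {N : ℕ} [NeZero N]

/-- The ring homomorphism `t ↦ a₁(t f)` from the full Hecke algebra to the algebraic integers. -/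
theorem exists_eigenCharacter {g : CuspForm (CongruenceSubgroup.Gamma0 N) 2}
    (hg : g.IsNormalizedEigenform) :
    ∃ χ : CuspForm.heckeAlgebra N 2 (∅ : Set ℕ) →+* integralClosure ℤ ℂ,
      ∀ (ℓ : ℕ) (hℓ : ℓ.Prime) (hℓN : ¬ ℓ ∣ N),
        (χ (CuspForm.heckeAlgebra.T hℓ hℓN (Set.notMem_empty ℓ)) : ℂ) = qCoeff g ℓ := by
  have heig := Periods.isEigen_of_isNormalizedEigenform hg
  have hscal : ∀ t ∈ CuspForm.heckeAlgebra N 2 (∅ : Set ℕ), ∃ c : ℂ, t g = c • g := by
    intro t ht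
    induction ht using Algebra.adjoin_induction with
    | mem T hT =>
      rcases hT with ⟨ℓ, hℓ, hℓN, -, rfl⟩ | ⟨q, hqN, hq, -, rfl⟩
      · exact ⟨_, heig.1 ℓ hℓ hℓN⟩
      · exact ⟨_, heig.2 q hqN hq⟩
    | algebraMap n => exact ⟨n, by simp [Int.cast_smul_eq_zsmul]⟩
    | add x y _ _ hx hy =>
      obtain ⟨a, ha⟩ := hx
      obtain ⟨b, hb⟩ := hy
      exact ⟨a + b, by rw [LinearMap.add_apply, ha, hb, add_smul]⟩
    | mul x y _ _ hx hy =>
      obtain ⟨a, ha⟩ := hx
      obtain ⟨b, hb⟩ := hy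
      exact ⟨a * b, by rw [Module.End.mul_apply, hb, map_smul, ha, smul_smul, mul_comm b]⟩
  let c : CuspForm.heckeAlgebra N 2 (∅ : Set ℕ) → ℂ :=
    fun t => qCoeff (⇑((t : Module.End ℂ _) g)) 1
  have hc : ∀ t : CuspForm.heckeAlgebra N 2 (∅ : Set ℕ), (t : Module.End ℂ _) g = c t • g := by
    intro t
    obtain ⟨a, ha⟩ := hscal _ t.2
    have : c t = a := by
      show qCoeff (⇑((t : Module.End ℂ _) g)) 1 = a
      rw [ha, Periods.qCoeff_smul, hg.qCoeff_one, mul_one]
    rw [this, ha]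
  have huniq : ∀ (t : CuspForm.heckeAlgebra N 2 (∅ : Set ℕ)) (a : ℂ),
      (t : Module.End ℂ _) g = a • g → c t = a := by
    intro t a ha
    show qCoeff (⇑((t : Module.End ℂ _) g)) 1 = a
    rw [ha, Periods.qCoeff_smul, hg.qCoeff_one, mul_one]
  let χ₀ : CuspForm.heckeAlgebra N 2 (∅ : Set ℕ) →+* ℂ :=
    { toFun := c
      map_one' := huniq 1 1 (by simp)
      map_mul' := fun s t => huniq _ _ (by
        rw [MulMemClass.coe_mul, Module.End.mul_apply, hc t, map_smul, hc s, smul_smul, mul_comm])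
      map_zero' := huniq 0 0 (by simp)
      map_add' := fun s t => huniq _ _ (by
        rw [AddMemClass.coe_add, LinearMap.add_apply, hc s, hc t, add_smul]) }
  have := HeckeFinite.moduleFinite_heckeAlgebra N 2 (∅ : Set ℕ)
  have hint : ∀ t, χ₀ t ∈ integralClosure ℤ ℂ := fun t => by
    have ht : IsIntegral ℤ t := Algebra.IsIntegral.isIntegral t
    exact ht.map χ₀.toIntAlgHom
  refine ⟨χ₀.codRestrict (integralClosure ℤ ℂ).toSubring hint, fun ℓ hℓ hℓN => ?_⟩
  exact huniq _ _ (heig.1 ℓ hℓ hℓN)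

end Fermat.Agent.EichlerShimura
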