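import Mathlib.FieldTheory.IsAlgClosed.Basic
import Mathlib.RingTheory.Ideal.GoingUp
import Mathlib.RingTheory.IntegralClosure.IntegralRestrict
import Mathlib.Analysis.Complex.Polynomial.Basic
import Mathlib.RingTheory.Polynomial.Basic
import Mathlib.RingTheory.Int.Basic
import Mathlib.RingTheory.PrincipalIdealDomain

/-!
# Residue fields of the ring of all algebraic integers in `ℂ`
-/

set_option autoImplicit false

noncomputable section

open Polynomial

namespace Fermat.Agent.EichlerShimura

/-- A map from the algebraic integers to a field of characteristic `p` has maximal kernel. -/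
theorem isMaximal_ker_of_charP {p : ℕ} (hp : p.Prime) {k : Type*} [Field k] [CharP k p]
    (φ : integralClosure ℤ ℂ →+* k) : (RingHom.ker φ).IsMaximal := by
  have : (RingHom.ker φ).IsPrime := RingHom.ker_isPrime φ
  refine Ideal.isMaximal_of_isIntegral_of_isMaximal_comap (R := ℤ) _ ?_
  have h : (Ideal.span {(p : ℤ)}).IsMaximal :=
    PrincipalIdealRing.isMaximal_of_irreducible ((Nat.prime_iff_prime_int).mp hp).irreducible
  have hle : Ideal.span {(p : ℤ)} ≤
      (RingHom.ker φ).comap (algebraMap ℤ (integralClosure ℤ ℂ)) := by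
    rw [Ideal.span_singleton_le_iff_mem, Ideal.mem_comap, RingHom.mem_ker, map_natCast,
      map_natCast, CharP.cast_eq_zero]
  rwa [← h.eq_of_le (fun ht => (inferInstance : (RingHom.ker φ).IsPrime).ne_top
    ((Ideal.eq_top_iff_one _).mpr (by
      simpa using (Ideal.eq_top_iff_one _).mp ht))) hle]

/-- The residue fields of the algebraic integers are algebraically closed. -/
theorem exists_root_quotient_integers (I : Ideal (integralClosure ℤ ℂ)) [I.IsMaximal]
    (f : (integralClosure ℤ ℂ ⧸ I)[X]) (hf : f.Monic) (hdeg : f.degree ≠ 0) :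
    ∃ x, f.eval x = 0 := by
  obtain ⟨F, hFf, hFdeg, hFm⟩ := lifts_and_degree_eq_and_monic
    ((mem_lifts f).mpr (map_surjective (Ideal.Quotient.mk I) Ideal.Quotient.mk_surjective f)) hf
  obtain ⟨z, hz⟩ := IsAlgClosed.exists_root (F.map (algebraMap (integralClosure ℤ ℂ) ℂ)) (by
    rw [degree_map_eq_of_injective Subtype.val_injective, hFdeg]
    exact hdeg)
  have hint : IsIntegral (integralClosure ℤ ℂ) z :=
    ⟨F, hFm, by rwa [IsRoot, eval_map] at hz⟩
  refine ⟨Ideal.Quotient.mk I ⟨z, isIntegral_trans (R := ℤ) z hint⟩, ?_⟩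
  rw [← hFf, eval_map, eval₂_at_apply]
  have : F.eval (⟨z, isIntegral_trans (R := ℤ) z hint⟩ : integralClosure ℤ ℂ) = 0 := by
    apply Subtype.val_injective
    show algebraMap (integralClosure ℤ ℂ) ℂ (F.eval _) = 0
    rw [← eval₂_at_apply, ← eval_map]
    exact hz
  rw [this, map_zero]

end Fermat.Agent.EichlerShimura
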