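import Fermat.Agent.EichlerShimura.FiniteDVR
import Mathlib.NumberTheory.Padics.RingHoms
import Mathlib.RingTheory.Ideal.GoingDown
import Mathlib.RingTheory.TensorProduct.Free
import Mathlib.RingTheory.LocalRing.ResidueField.Basic

/-!
# Lifting a character with values in a field of characteristic `p` to a `p`-adic ring
-/

set_option autoImplicit false

noncomputable section

open scoped TensorProduct
open IsLocalRing

namespace Fermat.Agent.EichlerShimura

/-- A character of a finite free `ℤ`-algebra with values in an algebraically closed field of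
characteristic `p` lifts to a complete discrete valuation ring of characteristic zero. -/
theorem exists_padic_lift (p : ℕ) [Fact p.Prime] (T : Type) [CommRing T] [Module.Finite ℤ T]
    [Module.Free ℤ T] (k : Type) [Field k] [CharP k p] [IsAlgClosed k] (ψ : T →+* k) :
    ∃ (O : Type) (_ : CommRing O) (_ : IsDomain O) (_ : IsDiscreteValuationRing O)
      (_ : IsAdicComplete (maximalIdeal O) O) (_ : Finite (ResidueField O)) (_ : CharZero O),
      (p : O) ∈ maximalIdeal O ∧
      ∃ (χ : T →+* O) (j : ResidueField O →+* k), ∀ t, j (residue O (χ t)) = ψ t := by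
  have hp : p.Prime := Fact.out
  let _ : Algebra ℤ_[p] k := ((ZMod.castHom dvd_rfl k).comp PadicInt.toZMod).toAlgebra
  let R := ℤ_[p] ⊗[ℤ] T
  let Ψ : R →ₐ[ℤ_[p]] k :=
    Algebra.TensorProduct.lift (Algebra.ofId ℤ_[p] k) ψ.toIntAlgHom fun _ _ => Commute.all _ _
  let Q : Ideal R := RingHom.ker Ψ
  have : Q.IsPrime := RingHom.ker_isPrime Ψ
  have hQ : Q.LiesOver (maximalIdeal ℤ_[p]) := ⟨by
    refine ((IsLocalRing.maximalIdeal.isMaximal ℤ_[p]).eq_of_le
      (Ideal.IsPrime.ne_top inferInstance) fun x hx => ?_)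
    show Ψ (algebraMap ℤ_[p] R x) = 0
    rw [AlgHom.commutes]
    show ZMod.castHom dvd_rfl k (PadicInt.toZMod x) = 0
    rw [← PadicInt.ker_toZMod, RingHom.mem_ker] at hx
    rw [hx, map_zero]⟩
  obtain ⟨P, hPQ, hP, hP0⟩ :=
    Ideal.exists_ideal_le_liesOver_of_le (p := (⊥ : Ideal ℤ_[p])) (q := maximalIdeal ℤ_[p]) Q bot_le
  have : Finite (ResidueField ℤ_[p]) := Finite.of_equiv _ PadicInt.residueField.toEquiv.symm
  obtain ⟨O, i1, i2, i3, i4, i5, i6, i7, i8, i9, hinj, f, hf⟩ :=
    exists_finiteDVR_extension ℤ_[p] R P fun a ha => by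
      have h : a ∈ P.under ℤ_[p] := ha
      rwa [← hP0.over, Ideal.mem_bot] at h
  refine ⟨O, i1, i2, i3, i4, i5, i6, ?_, ?_⟩
  · have h := (IsLocalRing.mem_maximalIdeal _).mp (PadicInt.maximalIdeal_eq_span_p (p := p) ▸
      Ideal.mem_span_singleton_self (p : ℤ_[p]))
    rw [IsLocalRing.mem_maximalIdeal]
    intro hu
    exact h ((isUnit_map_iff (algebraMap ℤ_[p] O) (p : ℤ_[p])).mp (by rwa [map_natCast]))
  -- the kernel of `R → O → κ` is `Q`
  let g : R →+* ResidueField O := (residue O).comp f.toRingHom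
  have hgQ : RingHom.ker g = Q := by
    have : IsLocalRing (R ⧸ P) := isLocalRing_of_isDomain_of_module_finite ℤ_[p] (R ⧸ P)
    have hmax : ∀ J : Ideal R, P ≤ J → J.IsMaximal →
        J = (maximalIdeal (R ⧸ P)).comap (Ideal.Quotient.mk P) := by
      intro J hPJ hJ
      have h1 : (J.map (Ideal.Quotient.mk P)).IsMaximal :=
        hJ.map_of_surjective_of_ker_le Ideal.Quotient.mk_surjective (by rwa [Ideal.mk_ker])
      rw [← IsLocalRing.eq_maximalIdeal h1,
        Ideal.comap_map_of_surjective' _ Ideal.Quotient.mk_surjective, Ideal.mk_ker,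
        sup_eq_left.mpr hPJ]
    have hQmax : Q.IsMaximal := Ideal.isMaximal_of_isIntegral_of_isMaximal_comap Q (by
      rw [show Q.comap (algebraMap ℤ_[p] R) = Q.under ℤ_[p] from rfl, ← hQ.over]
      infer_instance)
    have : (RingHom.ker g).IsPrime := RingHom.ker_isPrime g
    have hgmax : (RingHom.ker g).IsMaximal := by
      refine Ideal.isMaximal_of_isIntegral_of_isMaximal_comap (R := ℤ_[p]) _ ?_
      have : (RingHom.ker g).comap (algebraMap ℤ_[p] R) = maximalIdeal ℤ_[p] := by
        ext x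
        rw [Ideal.mem_comap, RingHom.mem_ker]
        show residue O (f (algebraMap ℤ_[p] R x)) = 0 ↔ _
        rw [f.commutes, residue_eq_zero_iff, IsLocalRing.mem_maximalIdeal,
          IsLocalRing.mem_maximalIdeal, mem_nonunits_iff, mem_nonunits_iff, isUnit_map_iff]
      rw [this]
      infer_instance
    have hPg : P ≤ RingHom.ker g := fun x hx => by
      rw [← hf, RingHom.mem_ker] at hx
      rw [RingHom.mem_ker]
      show residue O (f x) = 0
      rw [hx, map_zero]
    rw [hmax _ hPg hgmax, hmax Q hPQ hQmax]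
  let _ : Algebra (R ⧸ Q) k := (RingHom.kerLift Ψ.toRingHom).toAlgebra
  let _ : Algebra (R ⧸ Q) (ResidueField O) :=
    ((RingHom.kerLift g).comp (Ideal.quotEquivOfEq hgQ.symm).toRingHom).toAlgebra
  have : Q.IsMaximal := by
    refine Ideal.isMaximal_of_isIntegral_of_isMaximal_comap (R := ℤ_[p]) Q ?_
    rw [show Q.comap (algebraMap ℤ_[p] R) = Q.under ℤ_[p] from rfl, ← hQ.over]
    infer_instance
  let _ : Field (R ⧸ Q) := Ideal.Quotient.field Q
  have : Module.Finite (R ⧸ Q) (ResidueField O) := Module.Finite.of_finite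
  let j : ResidueField O →ₐ[R ⧸ Q] k := IsAlgClosed.lift
  refine ⟨f.toRingHom.comp Algebra.TensorProduct.includeRight.toRingHom, j.toRingHom, fun t => ?_⟩
  have h1 : algebraMap (R ⧸ Q) (ResidueField O) (Ideal.Quotient.mk Q (1 ⊗ₜ t)) =
      residue O (f (1 ⊗ₜ t)) := by
    rw [RingHom.algebraMap_toAlgebra]
    rfl
  show j (residue O (f (1 ⊗ₜ t))) = ψ t
  rw [← h1, j.commutes]
  show Ψ (1 ⊗ₜ t) = ψ t
  exact (Algebra.TensorProduct.lift_tmul _ _ _ _ _).trans (by rw [map_one, one_mul]; rfl)

end Fermat.Agent.EichlerShimura
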