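import Fermat.Agent.EichlerShimura.Eigensystem
import Fermat.Agent.EichlerShimura.EigenCharacter
import Fermat.Agent.EichlerShimura.IntegersResidue
import Fermat.Agent.EichlerShimura.ResidualCharacter

/-!
# Residual representations of eigenforms, from the `λ`-adic representations of eigensystems
-/

set_option autoImplicit false

noncomputable section

open Polynomial

namespace Fermat.Agent.EichlerShimura

local notation "ℚ̄" => AlgebraicClosure ℚ
local notation "Γℚ" => (AlgebraicClosure ℚ ≃ₐ[ℚ] AlgebraicClosure ℚ)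

/-- The trivial residual representation. -/
def trivialResidualRep (k : Type) [Field k] : ResidualGaloisRep k where
  V := Fin 2 → k
  finrank_eq := by simp
  ρ := 1
  factorsThroughFiniteLevel := ⟨⊥, inferInstance, fun _ _ => rfl⟩

/-- S29 from the Kummer description of the torsion and the congruence relation. -/
theorem exists_residualGaloisRep_isAttachedTo_of
    (hK : ∀ (N : ℕ) [NeZero N], HasKummerIso N)
    (hF : ∀ (N : ℕ) [NeZero N] (p : ℕ) [Fact p.Prime], FrobeniusOnTorsion N p)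
    (hL : ∀ (N : ℕ) [NeZero N], GaloisFiniteLevel N)
    {N : ℕ} {g : CuspForm (CongruenceSubgroup.Gamma0 N) 2} (hg : g.IsNormalizedEigenform)
    {p : ℕ} (hp : p.Prime) {k : Type} [Field k] [CharP k p]
    (φ : integralClosure ℤ ℂ →+* k) :
    ∃ ρ : ResidualGaloisRep k, ρ.IsAttachedTo g φ ∧
      ∀ ℓ : ℕ, ℓ.Prime → ¬ ℓ ∣ N * p → ρ.IsUnramifiedAt ℓ := by
  rcases eq_or_ne N 0 with rfl | hN
  · exact ⟨trivialResidualRep k, fun ℓ _ hℓN => absurd (dvd_zero ℓ) hℓN,
      fun ℓ _ hℓN => absurd (by simp) hℓN⟩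
  have : NeZero N := ⟨hN⟩
  have : Fact p.Prime := ⟨hp⟩
  obtain ⟨χ, hχ⟩ := exists_eigenCharacter hg
  have : (RingHom.ker φ).IsMaximal := isMaximal_ker_of_charP hp φ
  let k₀ := integralClosure ℤ ℂ ⧸ RingHom.ker φ
  let _ : Field k₀ := Ideal.Quotient.field _
  have : IsAlgClosed k₀ := IsAlgClosed.of_exists_root k₀ fun f hf hirr =>
    exists_root_quotient_integers _ f hf (ne_of_gt (degree_pos_of_irreducible hirr))
  let ι : k₀ →+* k := RingHom.kerLift φ
  have : CharP k₀ p := (RingHom.charP_iff ι (RingHom.injective ι) p).mpr inferInstance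
  have := HeckeFinite.moduleFinite_heckeAlgebra N 2 (∅ : Set ℕ)
  have : Module.Free ℤ (CuspForm.heckeAlgebra N 2 (∅ : Set ℕ)) :=
    Module.free_of_finite_type_torsion_free'
  obtain ⟨O, _, _, _, _, _, _, hpO, χ', j, hj⟩ := exists_padic_lift p
    (CuspForm.heckeAlgebra N 2 (∅ : Set ℕ)) k₀ ((Ideal.Quotient.mk (RingHom.ker φ)).comp χ)
  obtain ⟨ρ, hchar, hunr⟩ :=
    exists_galoisRepAdic_of_eigensystem N p (hK N) (hF N p) (hL N) O hpO χ'
  refine ⟨ρ.residual.baseChangeAlong (ι.comp j), ?_, ?_⟩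
  · intro ℓ hℓ hℓN hℓk A hA σ hσ
    refine ⟨χ (CuspForm.heckeAlgebra.T hℓ hℓN (Set.notMem_empty ℓ)), hχ ℓ hℓ hℓN, ?_⟩
    have hℓp : ℓ ≠ p := fun h => hℓk (by rw [h, CharP.cast_eq_zero])
    let _ : Algebra (IsLocalRing.ResidueField O) k := (ι.comp j).toAlgebra
    show LinearMap.charpoly (((ρ.ρ σ).baseChange (IsLocalRing.ResidueField O)).baseChange k) = _
    rw [LinearMap.charpoly_baseChange, LinearMap.charpoly_baseChange,
      hchar ℓ hℓ hℓN hℓp A hA σ hσ, Polynomial.map_map]
    have key : ∀ t, (algebraMap (IsLocalRing.ResidueField O) k)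
        (IsLocalRing.residue O (χ' t)) = φ (χ t) := by
      intro t
      show ι (j (IsLocalRing.residue O (χ' t))) = φ (χ t)
      rw [hj t]
      rfl
    simp only [Polynomial.map_add, Polynomial.map_sub, Polynomial.map_mul, Polynomial.map_pow,
      map_X, map_C, RingHom.comp_apply, IsLocalRing.ResidueField.algebraMap_eq, key, map_natCast,
      Polynomial.map_natCast]
  · intro ℓ hℓ hℓNp A hA σ hσ
    let _ : Algebra (IsLocalRing.ResidueField O) k := (ι.comp j).toAlgebra
    show ((ρ.ρ σ).baseChange (IsLocalRing.ResidueField O)).baseChange k = 1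
    rw [hunr ℓ hℓ (fun h => hℓNp (h.mul_right p))
      (fun h => hℓNp (h ▸ Dvd.intro_left N rfl)) A hA σ hσ,
      LinearMap.baseChange_one, LinearMap.baseChange_one]

end Fermat.Agent.EichlerShimura
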