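import Fermat.Agent.EichlerShimura.CharTransfer
import Fermat.Agent.Periods.Hecke
import Mathlib.RingTheory.Coprime.Lemmas

/-!
# The Fricke involution and the operators on characters

`jacTransfer N ℓ` (the operator of the correspondence `α_* β^*`) is the conjugate of the period
operator `heckeHom` by the Fricke involution.  The Fricke involution commutes with
`charInvolution` and preserves parabolic and cuspidal homomorphisms.
-/

set_option autoImplicit false

noncomputable section

open CongruenceSubgroup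
open scoped MatrixGroups

namespace Fermat.Agent.EichlerShimura

open Fermat.Agent.Periods ModularCurve.Period

variable (N : ℕ) [NeZero N]

/-- The matrix `(0, -1; N, 0)`. -/
def frickeMat : Matrix (Fin 2) (Fin 2) ℤ := !![0, -1; (N : ℤ), 0]

/-- Conjugation by `frickeMat` on integral matrices with lower left entry divisible by `N`. -/
def frickeConjMat (A : Matrix (Fin 2) (Fin 2) ℤ) : Matrix (Fin 2) (Fin 2) ℤ :=
  !![A 1 1, -(A 1 0 / (N : ℤ)); -((N : ℤ) * A 0 1), A 0 0]

omit [NeZero N] in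
theorem frickeConjMat_spec {A : Matrix (Fin 2) (Fin 2) ℤ} (h : (N : ℤ) ∣ A 1 0) :
    frickeConjMat N A * frickeMat N = frickeMat N * A := by
  ext i j
  fin_cases i <;> fin_cases j <;>
    simp [frickeConjMat, frickeMat, Matrix.mul_apply, Fin.sum_univ_two, Int.mul_ediv_cancel' h,
      mul_comm]

theorem frickeConjMat_eq_of_spec {A B : Matrix (Fin 2) (Fin 2) ℤ} (h : (N : ℤ) ∣ A 1 0)
    (hB : B * frickeMat N = frickeMat N * A) : B = frickeConjMat N A := by
  have key : B * frickeMat N = frickeConjMat N A * frickeMat N := by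
    rw [hB, frickeConjMat_spec N h]
  ext i j
  have h0 := congrFun (congrFun key i) 0
  have h1 := congrFun (congrFun key i) 1
  fin_cases j
  · simpa [frickeMat, Matrix.mul_apply, Fin.sum_univ_two] using h1
  · simpa [frickeMat, Matrix.mul_apply, Fin.sum_univ_two, NeZero.ne N] using h0

theorem frickeConjMat_det {A : Matrix (Fin 2) (Fin 2) ℤ} (h : (N : ℤ) ∣ A 1 0) :
    (frickeConjMat N A).det = A.det := by
  have h1 := congrArg Matrix.det (frickeConjMat_spec N h)
  rw [Matrix.det_mul, Matrix.det_mul, mul_comm] at h1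
  exact mul_left_cancel₀ (by simp [frickeMat, Matrix.det_fin_two, NeZero.ne N]) h1

theorem frickeConjMat_mul {A B : Matrix (Fin 2) (Fin 2) ℤ} (hA : (N : ℤ) ∣ A 1 0)
    (hB : (N : ℤ) ∣ B 1 0) :
    frickeConjMat N (A * B) = frickeConjMat N A * frickeConjMat N B := by
  refine (frickeConjMat_eq_of_spec N ?_ ?_).symm
  · simpa [Matrix.mul_apply, Fin.sum_univ_two] using
      dvd_add (hA.mul_right (B 0 0)) (hB.mul_left (A 1 1))
  · rw [Matrix.mul_assoc, frickeConjMat_spec N hB, ← Matrix.mul_assoc, frickeConjMat_spec N hA,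
      Matrix.mul_assoc]

omit [NeZero N] in
theorem level_dvd_lower_left (γ : Gamma0 N) : (N : ℤ) ∣ (γ : SL(2, ℤ)) 1 0 :=
  (ZMod.intCast_zmod_eq_zero_iff_dvd _ _).mp (Gamma0_mem.mp γ.2)

/-- Conjugation by the Fricke involution as a homomorphism of `Γ₀(N)`. -/
def frickeConj : Gamma0 N →* Gamma0 N where
  toFun γ := ⟨⟨frickeConjMat N (γ : SL(2, ℤ)).1, by
      rw [frickeConjMat_det N (level_dvd_lower_left N γ)]; exact (γ : SL(2, ℤ)).2⟩, by
    rw [Gamma0_mem, ZMod.intCast_zmod_eq_zero_iff_dvd]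
    show (N : ℤ) ∣ frickeConjMat N (γ : SL(2, ℤ)).1 1 0
    simp [frickeConjMat]⟩
  map_one' := by
    refine Subtype.ext (Subtype.ext ?_)
    show frickeConjMat N (1 : Matrix (Fin 2) (Fin 2) ℤ) = 1
    ext i j
    fin_cases i <;> fin_cases j <;> simp [frickeConjMat]
  map_mul' γ δ := Subtype.ext (Subtype.ext
    (frickeConjMat_mul N (level_dvd_lower_left N γ) (level_dvd_lower_left N δ)))

theorem coe_frickeConj (γ : Gamma0 N) :
    ((frickeConj N γ : Gamma0 N) : SL(2, ℤ)).1 = frickeConjMat N (γ : SL(2, ℤ)).1 := rfl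

theorem frickeConj_frickeConj (γ : Gamma0 N) : frickeConj N (frickeConj N γ) = γ := by
  refine Subtype.ext (Subtype.ext ?_)
  rw [coe_frickeConj, coe_frickeConj]
  have h := level_dvd_lower_left N γ
  ext i j
  fin_cases i <;> fin_cases j <;>
    simp [frickeConjMat, Int.mul_ediv_cancel' h, Int.neg_ediv_of_dvd, NeZero.ne N]

theorem frickeConj_jConjGamma0 (γ : Gamma0 N) :
    frickeConj N (jConjGamma0 N γ) = jConjGamma0 N (frickeConj N γ) := by
  refine Subtype.ext (Subtype.ext ?_)
  show frickeConjMat N (jConjMat (γ : SL(2, ℤ)).1) = jConjMat (frickeConjMat N (γ : SL(2, ℤ)).1)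
  have h := level_dvd_lower_left N γ
  ext i j
  fin_cases i <;> fin_cases j <;> simp [frickeConjMat, jConjMat, Int.neg_ediv_of_dvd h]

variable (R : Type*) [Semiring R] (A : Type*) [AddCommGroup A] [Module R A]

/-- The Fricke involution on homomorphisms `Γ₀(N) → A`. -/
def frickeHom : (Additive (Gamma0 N) →+ A) →ₗ[R] (Additive (Gamma0 N) →+ A) where
  toFun φ := φ.comp (MonoidHom.toAdditive (frickeConj N))
  map_add' _ _ := rfl
  map_smul' _ _ := rfl

theorem frickeHom_apply (φ : Additive (Gamma0 N) →+ A) (γ : Gamma0 N) :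
    frickeHom N R A φ (Additive.ofMul γ) = φ (Additive.ofMul (frickeConj N γ)) := rfl

theorem frickeHom_frickeHom (φ : Additive (Gamma0 N) →+ A) :
    frickeHom N R A (frickeHom N R A φ) = φ := by
  refine AddMonoidHom.ext fun γ => ?_
  rw [← ofMul_toMul γ, frickeHom_apply, frickeHom_apply, frickeConj_frickeConj]

theorem frickeHom_charInvolution (φ : Additive (Gamma0 N) →+ A) :
    frickeHom N R A (charInvolution N R A φ) = charInvolution N R A (frickeHom N R A φ) := by
  refine AddMonoidHom.ext fun γ => ?_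
  rw [← ofMul_toMul γ, frickeHom_apply, charInvolution_apply, charInvolution_apply, frickeHom_apply,
    toMul_ofMul, toMul_ofMul, frickeConj_jConjGamma0]

theorem frickeHom_mem_cuspidalHoms {φ : Additive (Gamma0 N) →+ A}
    (hφ : φ ∈ cuspidalHoms R (Gamma0 N) A) :
    frickeHom N R A φ ∈ cuspidalHoms R (Gamma0 N) A := by
  intro γ hγ
  refine hφ (frickeConj N γ) ?_
  rw [coe_frickeConj]
  simpa [frickeConjMat, Matrix.trace_fin_two, add_comm] using hγ

theorem frickeHom_mem_parabolicHoms {φ : Additive (Gamma0 N) →+ A}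
    (hφ : φ ∈ parabolicHoms R (Gamma0 N) A) :
    frickeHom N R A φ ∈ parabolicHoms R (Gamma0 N) A := by
  intro γ hγ
  refine hφ (frickeConj N γ) ?_
  rw [coe_frickeConj]
  simpa [frickeConjMat, Matrix.trace_fin_two, add_comm] using hγ

section Bridge

variable {N} {p : ℕ} [NeZero p]

/-- The diagonal matrix `(p, 0; 0, 1)`. -/
def scaleMat (p : ℕ) : Matrix (Fin 2) (Fin 2) ℤ := !![(p : ℤ), 0; 0, 1]

/-- The conjugate by the Fricke involution of a Hecke representative, decomposed as `u D s`. -/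
theorem exists_decomp_heckeMat (hp : p.Prime) (i : HeckeIdx N p) :
    ∃ (u s : Gamma0 N), frickeMat N * heckeMat N p i =
      (u : SL(2, ℤ)).1 * scaleMat p * (s : SL(2, ℤ)).1 * frickeMat N := by
  obtain ⟨_ | j, h⟩ := i
  · obtain ⟨x, y, hxy⟩ : IsCoprime (p : ℤ) (N : ℤ) :=
      Nat.isCoprime_iff_coprime.mpr ((hp.coprime_iff_not_dvd).mpr (h rfl))
    let u : SL(2, ℤ) := ⟨!![x, y; -(N : ℤ), (p : ℤ)], by
      rw [Matrix.det_fin_two_of]; linear_combination hxy⟩
    let s : SL(2, ℤ) := ⟨!![1, -y; (N : ℤ), (p : ℤ) * x], by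
      rw [Matrix.det_fin_two_of]; linear_combination hxy⟩
    refine ⟨⟨u, by simp [u, Gamma0_mem]⟩, ⟨s, by simp [s, Gamma0_mem]⟩, ?_⟩
    have h1 : u.1 * scaleMat p * s.1 = !![1, 0; 0, (p : ℤ)] := by
      ext a b
      fin_cases a <;> fin_cases b <;>
        simp [u, s, scaleMat, Matrix.mul_apply, Fin.sum_univ_two] <;>
        first | linear_combination hxy | linear_combination (p : ℤ) * hxy | ring
    rw [h1]
    ext a b
    fin_cases a <;> fin_cases b <;>
      simp [frickeMat, heckeMat, Matrix.mul_apply, Fin.sum_univ_two, mul_comm]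
  · let s : SL(2, ℤ) := ⟨!![1, 0; -((N : ℤ) * (j : ℤ)), 1], by simp [Matrix.det_fin_two_of]⟩
    refine ⟨1, ⟨s, by simp [s, Gamma0_mem]⟩, ?_⟩
    ext a b
    fin_cases a <;> fin_cases b <;>
      simp [s, scaleMat, frickeMat, heckeMat, Matrix.mul_apply, Fin.sum_univ_two, mul_comm]

/-- The left factor of the conjugated representative. -/
def repU (hp : p.Prime) (i : HeckeIdx N p) : Gamma0 N := (exists_decomp_heckeMat hp i).choose

/-- The right factor of the conjugated representative. -/
def repS (hp : p.Prime) (i : HeckeIdx N p) : Gamma0 N :=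
  (exists_decomp_heckeMat hp i).choose_spec.choose

theorem rep_spec (hp : p.Prime) (i : HeckeIdx N p) : frickeMat N * heckeMat N p i =
    (repU hp i : SL(2, ℤ)).1 * scaleMat p * (repS hp i : SL(2, ℤ)).1 * frickeMat N :=
  (exists_decomp_heckeMat hp i).choose_spec.choose_spec

theorem frickeMat_mul_right_cancel {X Y : Matrix (Fin 2) (Fin 2) ℤ}
    (h : X * frickeMat N = Y * frickeMat N) : X = Y := by
  ext i j
  have h0 := congrFun (congrFun h i) 0
  have h1 := congrFun (congrFun h i) 1
  fin_cases j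
  · simpa [frickeMat, Matrix.mul_apply, Fin.sum_univ_two] using h1
  · simpa [frickeMat, Matrix.mul_apply, Fin.sum_univ_two, NeZero.ne N] using h0

theorem frickeMat_mul_left_cancel {X Y : Matrix (Fin 2) (Fin 2) ℤ}
    (h : frickeMat N * X = frickeMat N * Y) : X = Y := by
  ext i j
  have h0 := congrFun (congrFun h 0) j
  have h1 := congrFun (congrFun h 1) j
  fin_cases i
  · simpa [frickeMat, Matrix.mul_apply, Fin.sum_univ_two, NeZero.ne N] using h1
  · simpa [frickeMat, Matrix.mul_apply, Fin.sum_univ_two] using h0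

/-- An element `h` of `Γ₀(N)` with `u D h = v D` lies in `Γ₀(Np)`, and its image is `u⁻¹ v`. -/
theorem mem_levelSubgroup_of_scaleMat {h v : Gamma0 N}
    (e : scaleMat p * (h : SL(2, ℤ)).1 = (v : SL(2, ℤ)).1 * scaleMat p) :
    ∃ hh : h ∈ levelSubgroup N p, scaleConj N p ⟨h, hh⟩ = v := by
  have e10 : (h : SL(2, ℤ)) 1 0 = (v : SL(2, ℤ)) 1 0 * (p : ℤ) := by
    simpa [scaleMat, Matrix.mul_apply, Fin.sum_univ_two] using congrFun (congrFun e 1) 0
  have hh : h ∈ levelSubgroup N p := by
    rw [levelSubgroup, Subgroup.mem_subgroupOf, Gamma0_mem, ZMod.intCast_zmod_eq_zero_iff_dvd, e10,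
      Nat.cast_mul]
    exact mul_dvd_mul_right (level_dvd_lower_left N v) _
  refine ⟨hh, Subtype.ext (Subtype.ext ?_)⟩
  rw [coe_scaleConj]
  have k1 : scaleConjMat p (h : SL(2, ℤ)).1 * scaleMat p = (v : SL(2, ℤ)).1 * scaleMat p := by
    rw [← e]
    exact scaleConjMat_spec p (ell_dvd_lower_left N p ⟨h, hh⟩)
  ext a b
  have k := congrFun (congrFun k1 a) b
  fin_cases b <;> simp [scaleMat, Matrix.mul_apply, Fin.sum_univ_two, NeZero.ne p] at k ⊢ <;> exact k

/-- The coset attached to a Hecke representative. -/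
def repCoset (hp : p.Prime) (i : HeckeIdx N p) : Gamma0 N ⧸ levelSubgroup N p :=
  QuotientGroup.mk (repS hp i)⁻¹

/-- The transformation law of the decomposed representatives. -/
theorem repS_mul_mem (hp : p.Prime) {γ g : Gamma0 N} {i j : HeckeIdx N p}
    (h : heckeMat N p i * (γ : SL(2, ℤ)).1 = (g : SL(2, ℤ)).1 * heckeMat N p j) :
    ∃ hh : repS hp i * frickeConj N γ * (repS hp j)⁻¹ ∈ levelSubgroup N p,
      scaleConj N p ⟨_, hh⟩ = (repU hp i)⁻¹ * frickeConj N g * repU hp j := by
  refine mem_levelSubgroup_of_scaleMat ?_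
  have a : (repU hp i : SL(2, ℤ)).1 * scaleMat p * (repS hp i : SL(2, ℤ)).1 *
      (frickeConj N γ : SL(2, ℤ)).1 * frickeMat N =
      (frickeConj N g : SL(2, ℤ)).1 * ((repU hp j : SL(2, ℤ)).1 * scaleMat p *
        (repS hp j : SL(2, ℤ)).1) * frickeMat N := by
    rw [Matrix.mul_assoc _ (frickeConj N γ : SL(2, ℤ)).1, coe_frickeConj,
      frickeConjMat_spec N (level_dvd_lower_left N γ), ← Matrix.mul_assoc, ← rep_spec hp i,
      Matrix.mul_assoc, h, ← Matrix.mul_assoc, coe_frickeConj,
      ← frickeConjMat_spec N (level_dvd_lower_left N g), Matrix.mul_assoc _ (frickeMat N),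
      rep_spec hp j]
    simp only [Matrix.mul_assoc]
  have b := frickeMat_mul_right_cancel a
  calc scaleMat p * ((repS hp i * frickeConj N γ * (repS hp j)⁻¹ : Gamma0 N) : SL(2, ℤ)).1
      = (((repU hp i)⁻¹ : Gamma0 N) : SL(2, ℤ)).1 *
          ((repU hp i : SL(2, ℤ)).1 * scaleMat p * (repS hp i : SL(2, ℤ)).1 *
            (frickeConj N γ : SL(2, ℤ)).1) * (((repS hp j)⁻¹ : Gamma0 N) : SL(2, ℤ)).1 := by
        simp only [Subgroup.coe_mul, Matrix.SpecialLinearGroup.coe_mul, ← Matrix.mul_assoc]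
        rw [← Matrix.SpecialLinearGroup.coe_mul, ← Subgroup.coe_mul, inv_mul_cancel]
        simp
    _ = (((repU hp i)⁻¹ * frickeConj N g * repU hp j : Gamma0 N) : SL(2, ℤ)).1 * scaleMat p := by
        rw [b]
        simp only [Subgroup.coe_mul, Matrix.SpecialLinearGroup.coe_mul, Matrix.mul_assoc]
        rw [← Matrix.SpecialLinearGroup.coe_mul (repS hp j : SL(2, ℤ)), ← Subgroup.coe_mul,
          mul_inv_cancel]
        simp

theorem smul_repCoset (hp : p.Prime) {γ g : Gamma0 N} {i j : HeckeIdx N p}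
    (h : heckeMat N p i * (γ : SL(2, ℤ)).1 = (g : SL(2, ℤ)).1 * heckeMat N p j) :
    frickeConj N γ • repCoset hp j = repCoset hp i := by
  obtain ⟨hh, -⟩ := repS_mul_mem hp h
  rw [repCoset, repCoset, MulAction.Quotient.smul_coe, smul_eq_mul, QuotientGroup.eq]
  have e : (frickeConj N γ * (repS hp j)⁻¹)⁻¹ * (repS hp i)⁻¹ =
      (repS hp i * frickeConj N γ * (repS hp j)⁻¹)⁻¹ := by group
  rw [e]
  exact inv_mem hh

theorem repCoset_bijective (hp : p.Prime) : Function.Bijective (repCoset (N := N) hp) := by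
  constructor
  · intro i j hij
    rw [repCoset, repCoset, QuotientGroup.eq, inv_inv] at hij
    have hs : scaleMat p * (repS hp i * (repS hp j)⁻¹ : Gamma0 N).1.1 =
        (scaleConj N p ⟨_, hij⟩ : SL(2, ℤ)).1 * scaleMat p := by
      rw [coe_scaleConj]
      exact (scaleConjMat_spec p (ell_dvd_lower_left N p ⟨_, hij⟩)).symm
    set v : Gamma0 N := repU hp i * scaleConj N p ⟨_, hij⟩ * (repU hp j)⁻¹ with hv
    refine (transfer_unique hp (g := frickeConj N v) ?_).1
    refine frickeMat_mul_left_cancel (N := N) ?_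
    rw [← Matrix.mul_assoc, coe_frickeConj,
      ← frickeConjMat_spec N (A := frickeConjMat N (v : SL(2, ℤ)).1)
        (level_dvd_lower_left N (frickeConj N v)),
      ← coe_frickeConj, ← coe_frickeConj, frickeConj_frickeConj, Matrix.mul_assoc, rep_spec hp i,
      rep_spec hp j, ← Matrix.mul_assoc]
    congr 1
    calc (repU hp i : SL(2, ℤ)).1 * scaleMat p * (repS hp i : SL(2, ℤ)).1
        = (repU hp i : SL(2, ℤ)).1 * (scaleMat p * (repS hp i * (repS hp j)⁻¹ : Gamma0 N).1.1) *
            (repS hp j : SL(2, ℤ)).1 := by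
          simp only [Subgroup.coe_mul, Matrix.SpecialLinearGroup.coe_mul, Matrix.mul_assoc]
          rw [← Matrix.SpecialLinearGroup.coe_mul (((repS hp j)⁻¹ : Gamma0 N) : SL(2, ℤ)),
            ← Subgroup.coe_mul, inv_mul_cancel]
          simp
      _ = (v : SL(2, ℤ)).1 *
            ((repU hp j : SL(2, ℤ)).1 * scaleMat p * (repS hp j : SL(2, ℤ)).1) := by
          rw [hs, hv]
          simp only [Subgroup.coe_mul, Matrix.SpecialLinearGroup.coe_mul, ← Matrix.mul_assoc]
          simp only [Matrix.mul_assoc]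
          rw [← Matrix.mul_assoc (((repU hp j)⁻¹ : Gamma0 N) : SL(2, ℤ)).1,
            ← Matrix.SpecialLinearGroup.coe_mul, ← Subgroup.coe_mul, inv_mul_cancel]
          simp
  · intro q
    let i₀ : HeckeIdx N p := ⟨some ⟨0, hp.pos⟩, by simp⟩
    refine ⟨(exists_transfer hp (frickeConj N ((repS hp i₀)⁻¹ * q.out⁻¹)) i₀).choose, ?_⟩
    have h := smul_repCoset hp
      (exists_transfer hp (frickeConj N ((repS hp i₀)⁻¹ * q.out⁻¹)) i₀).choose_spec.choose_spec
    rw [frickeConj_frickeConj, eq_comm, ← inv_smul_eq_iff] at h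
    rw [← h, repCoset, MulAction.Quotient.smul_coe, smul_eq_mul, mul_inv_rev, inv_inv, inv_inv,
      mul_inv_cancel_right]
    exact q.out_eq'

/-- `jacTransfer` is the Fricke conjugate of the period Hecke operator. -/
theorem frickeHom_jacTransfer (hp : p.Prime) (φ : Additive (Gamma0 N) →+ A) :
    frickeHom N R A (jacTransfer N p A φ) = heckeHom R A hp (frickeHom N R A φ) := by
  haveI : Fintype (Gamma0 N ⧸ levelSubgroup N p) := Subgroup.fintypeQuotientOfFiniteIndex
  refine AddMonoidHom.ext fun g' => ?_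
  obtain ⟨γ, rfl⟩ := Additive.ofMul.surjective g'
  let e := Equiv.ofBijective _ (repCoset_bijective (N := N) hp)
  have ht : ∀ q, QuotientGroup.mk ((repS hp (e.symm q))⁻¹) = q := fun q => e.apply_symm_apply q
  rw [frickeHom_apply, jacTransfer_apply N p A φ (fun q => (repS hp (e.symm q))⁻¹) ht,
    heckeHom_apply]
  simp only [frickeHom_apply]
  -- reindex the cosets by the target index `σ i`
  let σ := Equiv.ofBijective _ (transferIdx_bijective (N := N) hp γ)
  rw [← (σ.trans e).sum_comp]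
  have key : ∀ i, φ (Additive.ofMul (scaleConj N p
      ⟨((repS hp (e.symm (frickeConj N γ • (σ.trans e) i)))⁻¹)⁻¹ * frickeConj N γ *
        (repS hp (e.symm ((σ.trans e) i)))⁻¹,
        rep_mul_rep_mem (fun q => (repS hp (e.symm q))⁻¹) ht (frickeConj N γ) ((σ.trans e) i)⟩)) =
      φ (Additive.ofMul (frickeConj N (transferElt hp γ i))) +
        (φ (Additive.ofMul (repU hp (transferIdx hp γ i))) - φ (Additive.ofMul (repU hp i))) := by
    intro i
    obtain ⟨hh, hv⟩ := repS_mul_mem hp (transfer_spec hp γ i)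
    have h1 : e.symm ((σ.trans e) i) = transferIdx hp γ i := e.symm_apply_apply _
    have h2 : e.symm (frickeConj N γ • (σ.trans e) i) = i := by
      rw [Equiv.symm_apply_eq]
      exact smul_repCoset hp (transfer_spec hp γ i)
    have h3 : (⟨((repS hp (e.symm (frickeConj N γ • (σ.trans e) i)))⁻¹)⁻¹ * frickeConj N γ *
        (repS hp (e.symm ((σ.trans e) i)))⁻¹,
        rep_mul_rep_mem (fun q => (repS hp (e.symm q))⁻¹) ht (frickeConj N γ) ((σ.trans e) i)⟩ :
        levelSubgroup N p) = ⟨_, hh⟩ := by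
      refine Subtype.ext ?_
      show ((repS hp (e.symm (frickeConj N γ • (σ.trans e) i)))⁻¹)⁻¹ * frickeConj N γ *
        (repS hp (e.symm ((σ.trans e) i)))⁻¹ = repS hp i * frickeConj N γ * (repS hp (transferIdx hp γ i))⁻¹
      rw [h1, h2, inv_inv]
    rw [h3, hv, ofMul_mul, ofMul_mul, map_add, map_add, ofMul_inv, map_neg]
    abel
  rw [Finset.sum_congr rfl fun i _ => key i, Finset.sum_add_distrib, Finset.sum_sub_distrib,
    Function.Bijective.sum_comp (transferIdx_bijective hp γ)
      fun i => φ (Additive.ofMul (repU hp i)), sub_self, add_zero]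

end Bridge

end Fermat.Agent.EichlerShimura

end
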