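import Fermat.Agent.EichlerShimura.KummerChar
import Fermat.Prelude.Def_ModularCurve_PeriodHomPair

/-!
# Complex conjugation and the Kummer character

If `G ^ n` is the function of `f`, then `z ↦ conj (G (-z̄))` is an `n`-th root of the function of
the conjugate of `f`, with multiplier `γ ↦ -φ (jγj)`.
-/

set_option autoImplicit false

noncomputable section

open CongruenceSubgroup AlgebraicCurve ModularCurve ModularCurve.Period
open Fermat.Agent.Modular
open scoped MatrixGroups

namespace Fermat.Agent.EichlerShimura

variable {N : ℕ} [NeZero N]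

theorem conj_qzExp (t : QZ) : (starRingEnd ℂ) (qzExp t) = qzExp (-t) := by
  induction t using QuotientAddGroup.induction_on with
  | _ q =>
    rw [← QuotientAddGroup.mk_neg, qzExp_coe, qzExp_coe, ← Complex.exp_conj]
    congr 1
    simp [map_ofNat]

omit [NeZero N] in
/-- The multiplier of `z ↦ conj (G (-z̄))`. -/
theorem HasMultiplier.conjMero {G : Mero} {φ : Additive (Gamma0 N) →+ QZ}
    (h : HasMultiplier G φ) :
    HasMultiplier (EichlerShimura.conjMero G) (-charInvolution N ℤ QZ φ) := fun γ => by
  have e : jConjSL (γ : SL(2, ℤ))⁻¹ = ((jConjGamma0 N γ : Gamma0 N) : SL(2, ℤ))⁻¹ := by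
    rw [map_inv]
    rfl
  rw [translate_conjMero, e, h (jConjGamma0 N γ), map_mul, conjMero_const, conj_qzExp,
    AddMonoidHom.neg_apply, charInvolution_apply, toMul_ofMul]

/-- Complex conjugation sends the character `φ` to `-φ (j · j)`. -/
theorem isKummerChar_complexConjugation {x : JZero N} {φ : Additive (Gamma0 N) →+ QZ}
    (h : IsKummerChar N x φ) :
    IsKummerChar N (complexConjugation • x) (-charInvolution N ℤ QZ φ) := by
  obtain ⟨n, D, f, G, rfl, hD, hG⟩ := h
  set g := arithmeticGalois (modularFunctionFieldFull N) complexConjugation with hg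
  refine ⟨n, SemilinearAut.degZeroSMulHom g D, g • f, EichlerShimura.conjMero G, ?_,
    ⟨hD.n_ne, (smul_ne_zero_iff_ne g).mpr hD.f_ne, fun v => ?_, ?_⟩, hG.conjMero⟩
  · rw [galois_smul_pic0_def, SemilinearAut.pic0_smul_mk]
  · rw [SemilinearAut.coe_degZeroSMulHom, SemilinearAut.divisor_smul_apply, hD.divisor]
    conv_rhs => rw [← smul_inv_smul g v]
    exact (SemilinearAut.ord_smul g _ f).symm
  · rw [← map_pow, hD.root]
    exact (evalL_arithmeticGalois_conj (complexEmbedding : AlgebraicClosure ℚ →+* ℂ) N
      complexConjugation complexEmbedding_complexConjugation f).symm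

end Fermat.Agent.EichlerShimura
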