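import Fermat.Agent.EichlerShimura.LevelDegree
import Fermat.Agent.Modular.Degree
import Mathlib.FieldTheory.PrimitiveElement
import Mathlib.FieldTheory.IsAlgClosed.AlgebraicClosure

/-!
# The norm along `α` is the product of the translates

For `z ∈ F_L(Nℓ)` the function of `N_α z ∈ F_L(N)` is the product of the translates of the
function of `z` over `Γ₀(N) / Γ₀(Nℓ)`.
-/

set_option autoImplicit false
set_option linter.style.haveILetI false

noncomputable section

open CongruenceSubgroup ModularCurve AlgebraicCurve IntermediateField Fermat.Agent.Modular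
open scoped MatrixGroups

namespace Fermat.Agent.EichlerShimura

variable {L : Type*} [Field L] [Algebra ℚ L]

theorem evalL_normAlong (ι : L →+* ℂ) (N ℓ : ℕ) [NeZero N] [NeZero ℓ]
    [Fintype (Gamma0 N ⧸ levelSubgroup N ℓ)]
    (t : Gamma0 N ⧸ levelSubgroup N ℓ → Gamma0 N)
    (ht : ∀ q, (t q : Gamma0 N ⧸ levelSubgroup N ℓ) = q) (z : FL (N * ℓ) L) :
    evalL ι N (normAlong (heckeAlphaBar L N ℓ) z) =
      ∏ q, translate ((t q : Gamma0 N) : SL(2, ℤ)) (evalL ι (N * ℓ) z) := by
  classical
  haveI : NeZero (N * ℓ) := ⟨Nat.mul_ne_zero (NeZero.ne N) (NeZero.ne ℓ)⟩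
  set α := heckeAlphaBar L N ℓ with hα
  letI := algebraAlong α
  let Ω := AlgebraicClosure Mero
  letI : Algebra (FL N L) Ω := ((algebraMap Mero Ω).comp (evalL ι N)).toAlgebra
  have hαincl : α = levelIncl (dvd_mul_right N ℓ) := heckeAlphaBar_eq_levelIncl N ℓ
  have hdeg : ∀ (M : ℕ) [NeZero M], Module.finrank L⟮jL M L⟯ (FL M L) = dedekindPsi M :=
    fun M _ => finrank_FL M ι
  haveI : Module.Finite (FL N L) (FL (N * ℓ) L) := by
    have h := finiteAlong_levelIncl (L := L) hdeg (dvd_mul_right N ℓ)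
    rwa [← hαincl] at h
  haveI : CharZero (FL N L) :=
    charZero_of_injective_ringHom
      (f := (algebraMap L (FL N L)).comp (algebraMap ℚ L)) (RingHom.injective _)
  haveI : PerfectField (FL N L) := PerfectField.ofCharZero
  have hrank : Module.finrank (FL N L) (FL (N * ℓ) L) =
      Fintype.card (Gamma0 N ⧸ levelSubgroup N ℓ) := by
    have h := finrankAlong_levelIncl_mul (L := L) hdeg (dvd_mul_right N ℓ)
    rw [← hαincl, ← dedekindPsi_mul_index N ℓ, mul_comm] at h
    rw [← Nat.card_eq_fintype_card, ← Subgroup.index_eq_card]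
    exact Nat.eq_of_mul_eq_mul_right (dedekindPsi_pos N) h
  let emb : Gamma0 N ⧸ levelSubgroup N ℓ → (FL (N * ℓ) L →ₐ[FL N L] Ω) := fun q =>
    { (algebraMap Mero Ω).comp ((translate ((t q : Gamma0 N) : SL(2, ℤ))).toRingHom.comp
        (evalL ι (N * ℓ))) with
      commutes' := fun y => by
        show algebraMap Mero Ω (translate _ (evalL ι (N * ℓ) (heckeAlphaBar L N ℓ y))) =
          algebraMap Mero Ω (evalL ι N y)
        rw [evalL_heckeAlphaBar, translate_evalL ι N (t q).2] }
  have hinj : Function.Injective emb := by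
    intro q q' h
    have h1 : sigmaCoset (N * ℓ) ι (L := L) (((t q : Gamma0 N) : SL(2, ℤ)) : SL(2, ℤ) ⧸ Gamma0 (N * ℓ))
        = sigmaCoset (N * ℓ) ι (((t q' : Gamma0 N) : SL(2, ℤ)) : SL(2, ℤ) ⧸ Gamma0 (N * ℓ)) := by
      refine RingHom.ext fun y => ?_
      rw [sigmaCoset_mk, sigmaCoset_mk, sigma_apply, sigma_apply]
      exact (algebraMap Mero Ω).injective (congrArg (fun f : FL (N * ℓ) L →ₐ[FL N L] Ω => f y) h)
    have h2 := sigmaCoset_injective (N * ℓ) ι h1
    rw [QuotientGroup.eq] at h2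
    rw [← ht q, ← ht q', QuotientGroup.eq]
    exact Subgroup.mem_subgroupOf.mpr h2
  have hbij : Function.Bijective emb := by
    rw [Fintype.bijective_iff_injective_and_card]
    exact ⟨hinj, by rw [AlgHom.card (FL N L) (FL (N * ℓ) L) Ω, hrank]⟩
  refine (algebraMap Mero Ω).injective ?_
  rw [map_prod]
  show algebraMap (FL N L) Ω (Algebra.norm (FL N L) z) = _
  rw [Algebra.norm_eq_prod_embeddings (FL N L) Ω z, ← hbij.prod_comp fun σ => σ z]
  rfl

end Fermat.Agent.EichlerShimura

end
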