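import Fermat.Agent.EichlerShimura.KummerChar
import Fermat.Agent.EichlerShimura.NormTranslates
import Fermat.Agent.EichlerShimura.Commute

/-!
# Equivariance of the Kummer character

The character of `T_ℓ x` is `jacTransfer` of the character of `x`.
-/

set_option autoImplicit false
set_option linter.style.haveILetI false

noncomputable section

open CongruenceSubgroup AlgebraicCurve ModularCurve ModularCurve.Period
open Fermat.Agent.Modular
open scoped MatrixGroups ComplexConjugate

namespace Fermat.Agent.EichlerShimura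

/-- `qzExp` as a multiplicative map into constants of `Mero`. -/
def qzConst : Multiplicative QZ →* Mero where
  toFun a := algebraMap ℂ Mero (qzExp a.toAdd)
  map_one' := by rw [toAdd_one, qzExp_zero', map_one]
  map_mul' a b := by rw [toAdd_mul, qzExp_add, map_mul]

variable {L : Type*} [Field L] [Algebra ℚ L] {N : ℕ} [NeZero N] {ι : L →+* ℂ}

theorem HasMultiplier.translate_eq {G : Mero} {φ : Additive (Gamma0 N) →+ QZ}
    (hG : HasMultiplier G φ) (g : Gamma0 N) :
    translate (g : SL(2, ℤ)) G = algebraMap ℂ Mero (qzExp (-φ (Additive.ofMul g))) * G := by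
  have h := hG g⁻¹
  rwa [Subgroup.coe_inv, inv_inv, ofMul_inv, map_neg] at h

/-- The multiplier of the product of the translates of `G (ℓ z)`. -/
theorem HasMultiplier.prod_translates {G : Mero} {φ : Additive (Gamma0 N) →+ QZ}
    (hG : HasMultiplier G φ) (ℓ : ℕ) [NeZero ℓ] [Fintype (Gamma0 N ⧸ levelSubgroup N ℓ)]
    (t : Gamma0 N ⧸ levelSubgroup N ℓ → Gamma0 N)
    (ht : ∀ q, (t q : Gamma0 N ⧸ levelSubgroup N ℓ) = q) :
    HasMultiplier (∏ q, translate (t q : SL(2, ℤ)) (scaleMero ℓ G))
      (jacTransfer N ℓ QZ φ) := by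
  letI : MulDistribMulAction (Gamma0 N) Mero :=
    { smul := fun g x => translate (g : SL(2, ℤ)) x
      one_smul := fun x => by show translate ((1 : Gamma0 N) : SL(2, ℤ)) x = x; simp
      mul_smul := fun g h x => translate_mul (g : SL(2, ℤ)) h x
      smul_mul := fun g x y => map_mul (translate (g : SL(2, ℤ))) x y
      smul_one := fun g => map_one (translate (g : SL(2, ℤ))) }
  intro γ
  have key := smul_prod_translates (H := levelSubgroup N ℓ) (M := Mero) (scaleConj N ℓ)
    (scaleMero ℓ).toMonoidHom (fun h x => translate_scaleMero ℓ h x) qzConst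
    (fun a => scaleMero_const ℓ _) (fun g a => translate_const _ _)
    (AddMonoidHom.toMultiplicativeRight (-φ)) (F := G) (fun g => hG.translate_eq g) t ht γ⁻¹
  refine key.trans ?_
  congr 1
  show algebraMap ℂ Mero (qzExp (jacTransfer N ℓ QZ (-φ) (Additive.ofMul γ⁻¹))) = _
  rw [map_neg, ofMul_inv, map_neg, AddMonoidHom.neg_apply, neg_neg]


/-- Hecke equivariance of the Kummer character. -/
theorem IsKummerCharOver.hecke {x : Pic0 L (FL N L)} {φ : Additive (Gamma0 N) →+ QZ}
    (hx : IsKummerCharOver ι x φ) (ℓ : ℕ) [NeZero ℓ] :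
    IsKummerCharOver ι (heckeOperatorAlong L N ℓ x) (jacTransfer N ℓ QZ φ) := by
  obtain ⟨n, D, f, G, rfl, hD, hG⟩ := hx
  haveI : NeZero (N * ℓ) := ⟨Nat.mul_ne_zero (NeZero.ne N) (NeZero.ne ℓ)⟩
  haveI := isFunctionField1_level ι N
  haveI := isFunctionField1_level ι (N * ℓ)
  haveI : Fintype (Gamma0 N ⧸ levelSubgroup N ℓ) := Subgroup.fintypeQuotientOfFiniteIndex
  rw [heckeOperatorAlong_eq (Curve.isIntegralAlong _) (Curve.isIntegralAlong _)
    (Curve.fundamentalIdentityAlong _ _) (Curve.finiteAlong _) (Curve.normFormulaAlong _ _)]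
  have hfin := Curve.finiteAlong (heckeAlphaBar L N ℓ)
  have hN := Curve.normFormulaAlong (heckeAlphaBar L N ℓ) hfin
  unfold heckePic0Bar
  rw [Pic0.correspondence_mk]
  set D' := Pic0.degZeroCorrespondence (heckeBetaBar L N ℓ) (heckeAlphaBar L N ℓ)
    (Curve.isIntegralAlong _) (Curve.isIntegralAlong _) (Curve.fundamentalIdentityAlong _ _) D
    with hD'
  set f' := normAlong (heckeAlphaBar L N ℓ) (heckeBetaBar L N ℓ f) with hf'
  have hmul := hG.prod_translates ℓ Quotient.out fun q => q.out_eq'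
  have hf0 : f' ≠ 0 := normAlong_ne_zero hfin ((map_ne_zero _).mpr hD.f_ne)
  have hdiv : ∀ v : Place L (FL N L), (n : ℤ) * (D' : Divisor L (FL N L)) v = v.ord f' := by
    intro v
    rw [hD', Pic0.coe_degZeroCorrespondence, ← nsmul_eq_mul, ← Finsupp.smul_apply]
    refine Eq.trans (DFunLike.congr_fun (map_nsmul _ n (D : Divisor L (FL N L))).symm v) ?_
    refine correspondence_apply_eq_ord _ _ hfin hN hD.f_ne (fun w => ?_) v
    rw [Finsupp.smul_apply, nsmul_eq_mul, hD.divisor]
  have hroot : (∏ q : Gamma0 N ⧸ levelSubgroup N ℓ, translate ((q.out : Gamma0 N) : SL(2, ℤ)) (scaleMero ℓ G)) ^ n =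
      evalL ι N f' := by
    rw [← Finset.prod_pow, hf', evalL_normAlong ι N ℓ Quotient.out (fun q => q.out_eq'),
      evalL_heckeBetaBar, ← hD.root]
    simp only [map_pow]
  exact ⟨n, D', f', _, rfl, ⟨hD.n_ne, hf0, hdiv, hroot⟩, hmul⟩

end Fermat.Agent.EichlerShimura

end
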