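import Fermat.Agent.EichlerShimura.AbelJacobi
import Fermat.Agent.EichlerShimura.KummerHecke
import Fermat.Agent.EichlerShimura.KummerConj
import Fermat.Agent.EichlerShimura.GaloisHecke
import Fermat.Agent.EichlerShimura.Fricke
import Fermat.Agent.EichlerShimura.Interface

/-!
# `HasKummerIso N`

The isomorphism is the Fricke conjugate of the Abel–Jacobi–Kummer one, which turns every
`heckeOperatorBar N ℓ` into `Periods.heckeHom`.
-/

set_option autoImplicit false
set_option linter.style.haveILetI false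

noncomputable section

open CongruenceSubgroup ModularCurve ModularCurve.Period
open scoped MatrixGroups

namespace Fermat.Agent.EichlerShimura

variable (N : ℕ) [NeZero N]

/-- The Fricke involution on cuspidal homomorphisms into `ℚ/ℤ`. -/
def frickeCuspidal :
    Periods.cuspidalHoms ℤ (Gamma0 N) QZ ≃+ Periods.cuspidalHoms ℤ (Gamma0 N) QZ where
  toFun φ := ⟨frickeHom N ℤ QZ φ, frickeHom_mem_cuspidalHoms N ℤ QZ φ.2⟩
  invFun φ := ⟨frickeHom N ℤ QZ φ, frickeHom_mem_cuspidalHoms N ℤ QZ φ.2⟩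
  left_inv φ := Subtype.ext (frickeHom_frickeHom N ℤ QZ _)
  right_inv φ := Subtype.ext (frickeHom_frickeHom N ℤ QZ _)
  map_add' φ ψ := Subtype.ext (map_add (frickeHom N ℤ QZ) _ _)

variable {N}

theorem kummerEquiv_heckeOperatorBar (ℓ : Nat.Primes) (x : torsionPts N) :
    haveI : NeZero (ℓ : ℕ) := ⟨ℓ.2.ne_zero⟩
    (kummerEquiv N (torsionMap (heckeOperatorBar N ℓ).toAddMonoidHom x) :
        Additive (Gamma0 N) →+ QZ) =
      jacTransfer N ℓ QZ (kummerEquiv N x : Additive (Gamma0 N) →+ QZ) := by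
  haveI : NeZero (ℓ : ℕ) := ⟨ℓ.2.ne_zero⟩
  exact IsKummerCharOver.unique (isKummerChar_kummerEquiv _)
    ((isKummerChar_kummerEquiv x).hecke (ℓ : ℕ))

theorem kummerEquiv_complexConjugation (x : torsionPts N) :
    (kummerEquiv N (torsionGalois complexConjugation x) : Additive (Gamma0 N) →+ QZ) =
      - charInvolution N ℤ QZ (kummerEquiv N x : Additive (Gamma0 N) →+ QZ) :=
  IsKummerCharOver.unique (isKummerChar_kummerEquiv _)
    (isKummerChar_complexConjugation (isKummerChar_kummerEquiv x))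

/-- The Abel–Jacobi–Kummer description of the torsion of `J₀(N)(ℚ̄)`. -/
theorem hasKummerIso (N : ℕ) [NeZero N] : HasKummerIso N := by
  refine ⟨(kummerEquiv N).trans (frickeCuspidal N), fun ℓ _ x => ?_, fun q _ =>
    ⟨(heckeOperatorBar N q).toAddMonoidHom, galois_smul_heckeOperatorBar q, fun x => ?_⟩,
    fun x => ?_⟩
  · haveI : NeZero (ℓ : ℕ) := ⟨ℓ.2.ne_zero⟩
    show frickeHom N ℤ QZ (kummerEquiv N _ : Additive (Gamma0 N) →+ QZ) =
      Periods.heckeHom ℤ QZ ℓ.2 (frickeHom N ℤ QZ (kummerEquiv N x : Additive (Gamma0 N) →+ QZ))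
    rw [kummerEquiv_heckeOperatorBar ℓ x, frickeHom_jacTransfer]
  · haveI : NeZero (q : ℕ) := ⟨q.2.ne_zero⟩
    show frickeHom N ℤ QZ (kummerEquiv N _ : Additive (Gamma0 N) →+ QZ) =
      Periods.heckeHom ℤ QZ q.2 (frickeHom N ℤ QZ (kummerEquiv N x : Additive (Gamma0 N) →+ QZ))
    rw [kummerEquiv_heckeOperatorBar q x, frickeHom_jacTransfer]
  · show frickeHom N ℤ QZ (kummerEquiv N (torsionGalois complexConjugation x) :
        Additive (Gamma0 N) →+ QZ) =
      - charInvolution N ℤ QZ (frickeHom N ℤ QZ (kummerEquiv N x : Additive (Gamma0 N) →+ QZ))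
    rw [kummerEquiv_complexConjugation, map_neg, frickeHom_charInvolution]

end Fermat.Agent.EichlerShimura

end
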