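import Fermat.Agent.Modular.PlacesOfEmbeddings
import Fermat.Prelude.Def_AlgebraicCurve_BaseChangeGalois

/-!
A divisor class becomes represented by a unique effective divisor after subtracting a maximal
multiple of a rational place, so an invariant class has an invariant representative.
-/

set_option autoImplicit false

noncomputable section

open AlgebraicCurve
open Fermat.Agent.Modular (placeOrd_nonneg_iff placeOrd_algebraMap)

namespace Fermat.Agent.EichlerShimura

variable {K F : Type*} [Field K] [Field F] [Algebra K F]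

theorem place_min_ord_le_add (v : Place K F) {f g : F} (hf : f ≠ 0) (hg : g ≠ 0)
    (hfg : f + g ≠ 0) : min (v.ord f) (v.ord g) ≤ v.ord (f + g) := by
  wlog h : v.ord f ≤ v.ord g generalizing f g
  · have := this hg hf (by rwa [add_comm]) (le_of_lt (not_le.mp h))
    rwa [min_comm, add_comm] at this
  rw [min_eq_left h]
  have hq : g / f ∈ v.toValuationSubring := by
    refine (placeOrd_nonneg_iff v (div_ne_zero hg hf)).mp ?_
    rw [div_eq_mul_inv, v.ord_mul hg (inv_ne_zero hf), v.ord_inv]
    omega
  have h1 : 1 + g / f ∈ v.toValuationSubring := add_mem (one_mem _) hq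
  have hne : 1 + g / f ≠ 0 := by
    intro h0
    refine hfg ?_
    have : f + g = f * (1 + g / f) := by field_simp
    rw [this, h0, mul_zero]
  have h2 := (placeOrd_nonneg_iff v hne).mpr h1
  have : f + g = f * (1 + g / f) := by field_simp
  rw [this, v.ord_mul hf hne]
  omega

theorem place_ord_div (v : Place K F) {f g : F} (hf : f ≠ 0) (hg : g ≠ 0) :
    v.ord (f / g) = v.ord f - v.ord g := by
  rw [div_eq_mul_inv, v.ord_mul hf (inv_ne_zero hg), v.ord_inv]
  ring

theorem place_ord_smul_const (v : Place K F) {c : K} (hc : c ≠ 0) {f : F} (hf : f ≠ 0) :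
    v.ord (algebraMap K F c * f) = v.ord f := by
  rw [v.ord_mul (by simpa using hc) hf, placeOrd_algebraMap, zero_add]

/-- `f` is a non-zero function with `D + div f ≥ 0`. -/
def InRiemannRoch (D : Divisor K F) (f : F) : Prop :=
  f ≠ 0 ∧ ∀ v : Place K F, 0 ≤ D v + v.ord f

theorem degree_nonneg_of_nonneg {E : Divisor K F} (hE : ∀ v, 0 ≤ E v) :
    0 ≤ Divisor.degree E := by
  rw [← Finsupp.sum_single E, Finsupp.sum, map_sum]
  refine Finset.sum_nonneg fun v _ => ?_
  rw [Divisor.degree_single]
  exact mul_nonneg (hE v) (Int.natCast_nonneg _)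

theorem degree_nonneg_of_inRiemannRoch [h : HasPrincipalDivisors K F] {D : Divisor K F} {f : F}
    (hf : InRiemannRoch D f) : 0 ≤ Divisor.degree D := by
  obtain ⟨E, hE, hdeg⟩ := h.exists_divisor f hf.1
  have := degree_nonneg_of_nonneg (E := D + E) fun v => by
    rw [Finsupp.add_apply, hE]; exact hf.2 v
  rwa [map_add, hdeg, add_zero] at this

/-- The rationality of a place, in the form used below. -/
def HasRationalResidue (P : Place K F) : Prop :=
  P.deg ≠ 0 ∧ ∀ f : F, f ≠ 0 → P.ord f = 0 →
    ∃ c : K, f - algebraMap K F c = 0 ∨ 0 < P.ord (f - algebraMap K F c)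

theorem exists_max_shift [HasPrincipalDivisors K F] {P : Place K F} (hP : HasRationalResidue P)
    {D : Divisor K F} {f₀ : F} (hf₀ : InRiemannRoch D f₀) :
    ∃ (m : ℕ) (f : F), InRiemannRoch (D - Finsupp.single P (m : ℤ)) f ∧
      ∀ g, InRiemannRoch (D - Finsupp.single P (m : ℤ)) g →
        ∃ c : K, c ≠ 0 ∧ g = algebraMap K F c * f := by
  classical
  set p : ℕ → Prop := fun m => ∃ f, InRiemannRoch (D - Finsupp.single P (m : ℤ)) f with hp
  have h0 : p 0 := ⟨f₀, by simpa using hf₀⟩
  set B := (Divisor.degree D).toNat with hB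
  have hbound : ∀ m, p m → m ≤ B := by
    rintro m ⟨f, hf⟩
    have := degree_nonneg_of_inRiemannRoch hf
    rw [map_sub, Divisor.degree_single] at this
    have h1 : (1 : ℤ) ≤ (P.deg : ℤ) := by
      have := Nat.pos_of_ne_zero hP.1
      omega
    have h2 : (m : ℤ) ≤ (m : ℤ) * (P.deg : ℤ) := le_mul_of_one_le_right (Int.natCast_nonneg m) h1
    have h3 : (m : ℤ) ≤ Divisor.degree D := by linarith
    omega
  set M := Nat.findGreatest p B with hM
  obtain ⟨f, hf⟩ : p M := Nat.findGreatest_spec (hbound 0 h0) h0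
  refine ⟨M, f, hf, fun g hg => ?_⟩
  have hnot : ¬ p (M + 1) := fun h => by
    have := Nat.le_findGreatest (hbound _ h) h
    omega
  have hexact : ∀ g, InRiemannRoch (D - Finsupp.single P (M : ℤ)) g →
      P.ord g = (M : ℤ) - D P := by
    intro g hg
    by_contra hne
    refine hnot ⟨g, hg.1, fun v => ?_⟩
    have hv := hg.2 v
    simp only [Finsupp.sub_apply, Finsupp.single_apply, Nat.cast_add, Nat.cast_one] at hv ⊢
    rcases eq_or_ne P v with rfl | hPv
    · rw [if_pos rfl] at hv ⊢
      omega
    · rw [if_neg hPv] at hv ⊢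
      exact hv
  have hq : P.ord (g / f) = 0 := by
    rw [place_ord_div P hg.1 hf.1, hexact g hg, hexact f hf, sub_self]
  obtain ⟨c, hc⟩ := hP.2 (g / f) (div_ne_zero hg.1 hf.1) hq
  have hc0 : c ≠ 0 := by
    rintro rfl
    rcases hc with hc | hc
    · exact div_ne_zero hg.1 hf.1 (by simpa using hc)
    · simp [hq] at hc
  refine ⟨c, hc0, ?_⟩
  rcases hc with hc | hc
  · rw [sub_eq_zero, div_eq_iff hf.1] at hc
    exact hc
  · by_contra hne
    have hh : g + -(algebraMap K F c * f) ≠ 0 := by rwa [← sub_eq_add_neg, sub_ne_zero]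
    refine hnot ⟨g + -(algebraMap K F c * f), hh, fun v => ?_⟩
    have hcf : algebraMap K F c * f ≠ 0 := mul_ne_zero (by simpa using hc0) hf.1
    have hneg : ∀ w : Place K F, w.ord (-(algebraMap K F c * f)) = w.ord f := fun w => by
      rw [show -(algebraMap K F c * f) = algebraMap K F (-c) * f by rw [map_neg, neg_mul],
        place_ord_smul_const w (neg_ne_zero.mpr hc0) hf.1]
    simp only [Finsupp.sub_apply, Finsupp.single_apply, Nat.cast_add, Nat.cast_one]
    rcases eq_or_ne P v with rfl | hPv
    · rw [if_pos rfl]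
      have hval : P.ord (g + -(algebraMap K F c * f))
          = P.ord (g / f - algebraMap K F c) + P.ord f := by
        rw [← P.ord_mul (fun h => by simp [h] at hc) hf.1]
        congr 1
        rw [sub_mul, div_mul_cancel₀ g hf.1, sub_eq_add_neg]
      have := hexact f hf
      omega
    · rw [if_neg hPv]
      have h1 := hg.2 v
      have h2 := hf.2 v
      simp only [Finsupp.sub_apply, Finsupp.single_apply, if_neg hPv] at h1 h2
      have := place_min_ord_le_add v hg.1 (neg_ne_zero.mpr hcf) hh
      rw [hneg] at this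
      rcases le_total (v.ord g) (v.ord f) with h | h
      · rw [min_eq_left h] at this; linarith
      · rw [min_eq_right h] at this; linarith

/-- Descent of invariant classes to invariant effective divisors: if `σ D - D` is principal for
every `σ` in `G`, and some `D + div f` is effective, then for some `m` the class of `D - m P`
contains an effective divisor fixed by `G`. -/
theorem exists_invariant_effective [HasPrincipalDivisors K F] {P : Place K F}
    (hP : HasRationalResidue P) {D : Divisor K F} {f₀ : F} (hf₀ : InRiemannRoch D f₀)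
    (G : Set (SemilinearAut K F)) (hPG : ∀ σ ∈ G, σ • P = P)
    (hDG : ∀ σ ∈ G, σ • D - D ∈ Divisor.principal (K := K) (F := F)) :
    ∃ (m : ℕ) (E : Divisor K F), (∀ v, 0 ≤ E v) ∧ (∀ σ ∈ G, σ • E = E) ∧
      E - (D - Finsupp.single P (m : ℤ)) ∈ Divisor.principal (K := K) (F := F) := by
  obtain ⟨m, f, hf, huniq⟩ := exists_max_shift hP hf₀
  obtain ⟨Z, hZ, -⟩ := HasPrincipalDivisors.exists_divisor (K := K) f hf.1
  set D' := D - Finsupp.single P (m : ℤ) with hD'
  refine ⟨m, D' + Z, fun v => ?_, fun σ hσ => ?_, ⟨f, hf.1, fun v => by simp [hD', hZ]⟩⟩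
  · rw [Finsupp.add_apply, hZ]
    exact hf.2 v
  obtain ⟨u, hu, huv⟩ := hDG σ hσ
  have hσf : σ • f ≠ 0 := by
    rw [SemilinearAut.smul_def]
    exact fun h => hf.1 ((map_eq_zero_iff _ (SemilinearAut.toRingAut σ).injective).mp h)
  have hσD' : ∀ v, (σ • D') v = D' v + v.ord u := fun v => by
    have := huv v
    simp only [hD', smul_sub, SemilinearAut.smul_single, hPG σ hσ, Finsupp.sub_apply] at this ⊢
    omega
  have hσv : ∀ v, (σ • (D' + Z)) v = D' v + v.ord (u * σ • f) := fun v => by
    rw [smul_add, Finsupp.add_apply, hσD', v.ord_mul hu hσf]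
    have h1 : v.ord (σ • f) = (σ • Z) v := by
      rw [SemilinearAut.divisor_smul_apply, hZ]
      have := SemilinearAut.ord_smul σ (σ⁻¹ • v) f
      rwa [smul_inv_smul] at this
    rw [h1]
    ring
  have hmem : InRiemannRoch D' (u * σ • f) := by
    refine ⟨mul_ne_zero hu hσf, fun v => ?_⟩
    rw [← hσv, SemilinearAut.divisor_smul_apply, Finsupp.add_apply, hZ]
    exact hf.2 _
  obtain ⟨c, hc, hcf⟩ := huniq _ hmem
  refine Finsupp.ext fun v => ?_
  rw [hσv, hcf, place_ord_smul_const v hc hf.1, Finsupp.add_apply, hZ]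

end Fermat.Agent.EichlerShimura
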