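import Fermat.Prelude.Def_ModularCurve_ArithmeticGalois
import Fermat.Agent.EichlerShimura.Interface
import Mathlib.FieldTheory.IntermediateField.Adjoin.Basic
import Mathlib.RingTheory.Algebraic.Integral
import Mathlib.FieldTheory.IsAlgClosed.AlgebraicClosure

/-!
# Every divisor class on `X₀(N)` over `ℚ̄` is fixed by an open subgroup of the Galois group

Generic in the field of definition `F₀ ⊆ ℚ((q))`; the only input about the curve is
`HasPrincipalDivisors`.
-/

set_option autoImplicit false

noncomputable section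

open AlgebraicCurve ModularCurve
open scoped Pointwise

namespace Fermat.Agent.EichlerShimura

local notation "ℚ̄" => AlgebraicClosure ℚ
local instance : Algebra.IsAlgebraic ℚ (AlgebraicClosure ℚ) := AlgebraicClosure.isAlgebraic ℚ

local notation "Γℚ" => (AlgebraicClosure ℚ ≃ₐ[ℚ] AlgebraicClosure ℚ)

variable (F₀ : IntermediateField ℚ (LaurentSeries ℚ))

/-- `σ` fixes `M` pointwise. -/
abbrev FixesField (M : IntermediateField ℚ ℚ̄) (σ : Γℚ) : Prop := ∀ a ∈ M, σ a = a

/-- A property of `σ` which holds as soon as `σ` fixes a suitable finite extension of `ℚ`. -/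
def HasFiniteLevel (P : Γℚ → Prop) : Prop :=
  ∃ M : IntermediateField ℚ ℚ̄, FiniteDimensional ℚ M ∧ ∀ σ, FixesField M σ → P σ

variable {P Q : Γℚ → Prop}

theorem HasFiniteLevel.mono (h : HasFiniteLevel P) (hPQ : ∀ σ, P σ → Q σ) : HasFiniteLevel Q :=
  let ⟨M, hM, hP⟩ := h
  ⟨M, hM, fun σ hσ => hPQ σ (hP σ hσ)⟩

theorem HasFiniteLevel.of_forall (h : ∀ σ, P σ) : HasFiniteLevel P :=
  ⟨⊥, inferInstance, fun σ _ => h σ⟩

theorem HasFiniteLevel.and (hP : HasFiniteLevel P) (hQ : HasFiniteLevel Q) :
    HasFiniteLevel fun σ => P σ ∧ Q σ := by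
  obtain ⟨M, hM, hP⟩ := hP
  obtain ⟨M', hM', hQ⟩ := hQ
  exact ⟨M ⊔ M', IntermediateField.finiteDimensional_sup M M', fun σ hσ =>
    ⟨hP σ fun a ha => hσ a (le_sup_left (a := M) ha), hQ σ fun a ha => hσ a (le_sup_right (b := M') ha)⟩⟩

theorem HasFiniteLevel.forall_finset {ι : Type*} (s : Finset ι) {R : ι → Γℚ → Prop}
    (h : ∀ i ∈ s, HasFiniteLevel (R i)) : HasFiniteLevel fun σ => ∀ i ∈ s, R i σ := by
  classical
  induction s using Finset.induction with
  | empty => exact .of_forall fun σ => by simp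
  | insert a s ha ih =>
    refine ((h a (Finset.mem_insert_self a s)).and
      (ih fun i hi => h i (Finset.mem_insert_of_mem hi))).mono fun σ hσ i hi => ?_
    rcases Finset.mem_insert.mp hi with rfl | hi
    · exact hσ.1
    · exact hσ.2 i hi

theorem hasFiniteLevel_apply (a : ℚ̄) : HasFiniteLevel fun σ => σ a = a :=
  ⟨IntermediateField.adjoin ℚ {a},
    IntermediateField.adjoin.finiteDimensional (Algebra.IsAlgebraic.isAlgebraic a).isIntegral,
    fun _ hσ => hσ a (IntermediateField.mem_adjoin_simple_self ℚ a)⟩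

/-- Every function is defined over a number field. -/
theorem hasFiniteLevel_fun (f : laurentBaseChange ℚ̄ F₀) :
    HasFiniteLevel fun σ => arithmeticGalois F₀ σ • f = f := by
  obtain ⟨x, hx⟩ := f
  suffices h : HasFiniteLevel fun σ => coeffMap (σ : ℚ̄ →+* ℚ̄) x = x from
    h.mono fun σ hσ => Subtype.ext hσ
  have hf := mem_laurentBaseChange_iff.mp hx
  clear hx
  induction hf using Subfield.closure_induction with
  | mem y hy =>
      rcases hy with ⟨a, rfl⟩ | ⟨z, hz, rfl⟩
      · exact (hasFiniteLevel_apply a).mono fun σ hσ =>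
          (coeffMap_algebraMap (σ : ℚ̄ →+* ℚ̄) a).trans (congrArg _ hσ)
      · exact .of_forall fun σ => coeffMap_coeffEmb σ z
  | one => exact .of_forall fun σ => map_one _
  | add x y _ _ hx hy =>
      exact (hx.and hy).mono fun σ hσ => by rw [map_add, hσ.1, hσ.2]
  | neg x _ hx => exact hx.mono fun σ hσ => by rw [map_neg, hσ]
  | inv x _ hx => exact hx.mono fun σ hσ => by rw [map_inv₀, hσ]
  | mul x y _ _ hx hy =>
      exact (hx.and hy).mono fun σ hσ => by rw [map_mul, hσ.1, hσ.2]

/-- A uniformiser at a place. -/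
theorem exists_ord_eq_one (v : Place ℚ̄ (laurentBaseChange ℚ̄ F₀)) :
    ∃ f : laurentBaseChange ℚ̄ F₀, f ≠ 0 ∧ v.ord f = 1 := by
  obtain ⟨π, hπ⟩ := IsDiscreteValuationRing.exists_irreducible v.toValuationSubring
  exact ⟨π, fun h => hπ.ne_zero (Subtype.ext h), v.ord_coe_irreducible hπ⟩

variable [HasPrincipalDivisors ℚ̄ (laurentBaseChange ℚ̄ F₀)]

/-- Every place is defined over a number field. -/
theorem hasFiniteLevel_place (v : Place ℚ̄ (laurentBaseChange ℚ̄ F₀)) :
    HasFiniteLevel fun σ => arithmeticGalois F₀ σ • v = v := by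
  classical
  obtain ⟨f, hf, hord⟩ := exists_ord_eq_one F₀ v
  obtain ⟨D, hD, -⟩ := HasPrincipalDivisors.exists_divisor (K := ℚ̄) f hf
  have hsep : ∀ w ∈ D.support, HasFiniteLevel
      fun σ => arithmeticGalois F₀ σ • v = w → v = w := by
    intro w _
    by_cases hvw : v = w
    · exact .of_forall fun _ _ => hvw
    obtain ⟨s, hs⟩ : ∃ s, ¬ (s ∈ v.toValuationSubring ↔ s ∈ w.toValuationSubring) := by
      by_contra! h
      exact hvw (Place.ext (SetLike.ext h))
    refine (hasFiniteLevel_fun F₀ s).mono fun σ hσ h => (hs ?_).elim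
    rw [← h, SemilinearAut.smul_toValuationSubring,
      ValuationSubring.mem_pointwise_smul_iff_inv_smul_mem,
      inv_smul_eq_iff.mpr hσ.symm]
  refine ((hasFiniteLevel_fun F₀ f).and (HasFiniteLevel.forall_finset D.support hsep)).mono
    fun σ hσ => ?_
  have h := SemilinearAut.ord_smul (arithmeticGalois F₀ σ) v f
  rw [hσ.1, hord, ← hD] at h
  exact (hσ.2 _ (Finsupp.mem_support_iff.mpr (by rw [h]; exact one_ne_zero)) rfl).symm

/-- Every divisor is defined over a number field. -/
theorem hasFiniteLevel_divisor (D : Divisor ℚ̄ (laurentBaseChange ℚ̄ F₀)) :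
    HasFiniteLevel fun σ => arithmeticGalois F₀ σ • D = D := by
  refine (HasFiniteLevel.forall_finset D.support fun v _ => hasFiniteLevel_place F₀ v).mono
    fun σ hσ => ?_
  rw [SemilinearAut.divisor_smul_def, Finsupp.mapDomain_congr (g := id) hσ, Finsupp.mapDomain_id]

/-- Every divisor class is defined over a number field. -/
theorem hasFiniteLevel_pic0 (x : Pic0 ℚ̄ (laurentBaseChange ℚ̄ F₀)) :
    HasFiniteLevel fun σ => σ • x = x := by
  obtain ⟨D, rfl⟩ := Pic0.mk_surjective x
  refine (hasFiniteLevel_divisor F₀ (D : Divisor ℚ̄ (laurentBaseChange ℚ̄ F₀))).mono fun σ hσ => ?_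
  rw [galois_smul_pic0_def, SemilinearAut.pic0_smul_mk]
  exact congrArg Pic0.mk (Subtype.ext hσ)

/-- `GaloisFiniteLevel` holds as soon as the function field of `X₀(N)` has principal divisors. -/
theorem galoisFiniteLevel (N : ℕ) [NeZero N]
    [HasPrincipalDivisors ℚ̄ (modularFunctionFieldBar N)] : GaloisFiniteLevel N :=
  fun x => hasFiniteLevel_pic0 (modularFunctionFieldFull N) x

end Fermat.Agent.EichlerShimura
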