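import Fermat.Agent.EichlerShimura.BaseChange
import Fermat.Agent.Curve.Basic

/-!
Constant field extensions of Laurent series function fields preserve the degree over `K(x)`.
-/

set_option autoImplicit false

noncomputable section

open HahnSeries ModularCurve IntermediateField Polynomial

namespace Fermat.Agent.EichlerShimura

theorem linearIndependent_of_aeval {K M : Type*} [Field K] [Field M] [Algebra K M] {ι : Type*}
    [Fintype ι] {x : M} {b : ι → M} (hx : Transcendental K x)
    (h : ∀ p : ι → K[X], ∑ i, aeval x (p i) * b i = 0 → ∀ i, p i = 0) :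
    LinearIndependent K⟮x⟯ b := by
  classical
  rw [Fintype.linearIndependent_iff]
  intro g hg i
  have hrep : ∀ j, ∃ r s : K[X], s ≠ 0 ∧ (g j : M) = aeval x r / aeval x s := fun j => by
    obtain ⟨r, s, hrs⟩ := (IntermediateField.mem_adjoin_simple_iff K (g j : M)).mp (g j).2
    rcases eq_or_ne s 0 with rfl | hs
    · exact ⟨0, 1, one_ne_zero, by simpa using hrs⟩
    · exact ⟨r, s, hs, hrs⟩
  choose r s hs hrs using hrep
  have hs' : ∀ j, aeval x (s j) ≠ 0 := fun j h0 => hs j (transcendental_iff.mp hx _ h0)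
  have hsum : ∑ j, aeval x (r j * ∏ k ∈ Finset.univ.erase j, s k) * b j = 0 := by
    have h1 := congrArg (aeval x (∏ k, s k) * ·) hg
    simp only [mul_zero, Finset.mul_sum] at h1
    rw [← h1]
    refine Finset.sum_congr rfl fun j _ => ?_
    show _ = aeval x (∏ k, s k) * ((g j : M) * b j)
    rw [← Finset.mul_prod_erase Finset.univ s (Finset.mem_univ j), map_mul, map_mul, hrs j]
    have := hs' j
    field_simp
  have hri : r i = 0 := by
    rcases mul_eq_zero.mp (h _ hsum i) with h0 | h0
    · exact h0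
    · obtain ⟨k, -, hk⟩ := Finset.prod_eq_zero_iff.mp h0
      exact absurd hk (hs k)
  refine Subtype.ext ?_
  rw [hrs i, hri, map_zero, zero_div]
  rfl

variable {k L : Type*} [Field k] [Field L] [Algebra ℚ k] [Algebra ℚ L]
variable (F₀ : IntermediateField ℚ (LaurentSeries ℚ)) (ι : k →ₐ[ℚ] L)

/-- Coefficientwise application of a linear functional. -/
def coeffFunctional (φ : L →+ k) : laurentBaseChange L F₀ →+ LaurentSeries k where
  toFun x := coeffApply φ (x : LaurentSeries L)
  map_zero' := HahnSeries.ext (funext fun n => by simp [coeffApply_coeff])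
  map_add' x y := coeffApply_add φ (x : LaurentSeries L) (y : LaurentSeries L)

theorem coeffFunctional_mul_bcHom {φ : L →+ k}
    (hφ : ∀ (a : k) (l : L), φ (ι a * l) = a * φ l) (c : L) (f : laurentBaseChange k F₀) :
    coeffFunctional F₀ φ (algebraMap L _ c * bcHom F₀ ι f)
      = algebraMap k (LaurentSeries k) (φ c) * (f : LaurentSeries k) := by
  show coeffApply φ (algebraMap L (LaurentSeries L) c * coeffMap (ι : k →+* L) (f : LaurentSeries k))
    = _
  rw [mul_comm, coeffApply_coeffMap_mul (ι : k →+* L) φ hφ, mul_comm]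
  congr 1
  ext n
  rw [coeffApply_coeff, algebraMap_laurentSeries_eq_single, algebraMap_laurentSeries_eq_single]
  rcases eq_or_ne n 0 with rfl | hn
  · simp
  · simp [HahnSeries.coeff_single_of_ne hn]

theorem exists_functional {c : L} (hc : c ≠ 0) :
    ∃ φ : L →+ k, (∀ (a : k) (l : L), φ (ι a * l) = a * φ l) ∧ φ c = 1 := by
  let := (ι : k →+* L).toAlgebra
  obtain ⟨φ, hφ⟩ : ∃ φ : L →ₗ[k] k, φ c ≠ 0 := by
    by_contra h
    push Not at h
    exact hc ((Module.forall_dual_apply_eq_zero_iff k _).mp h)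
  refine ⟨((φ c)⁻¹ • φ).toAddMonoidHom, fun a l => ?_, inv_mul_cancel₀ hφ⟩
  show (φ c)⁻¹ * φ (a • l) = a * ((φ c)⁻¹ * φ l)
  rw [map_smul, smul_eq_mul]
  ring

theorem aeval_bcHom_eq_zero {ι' : Type*} [Fintype ι'] {x : laurentBaseChange k F₀}
    (b : ι' → laurentBaseChange k F₀)
    (h : ∀ q : ι' → k[X], ∑ i, aeval x (q i) * b i = 0 → ∀ i, q i = 0)
    (p : ι' → L[X]) (hp : ∑ i, aeval (bcHom F₀ ι x) (p i) * bcHom F₀ ι (b i) = 0) (i₀ : ι') :
    p i₀ = 0 := by
  classical
  by_contra hne
  obtain ⟨m, hm⟩ : ∃ m, (p i₀).coeff m ≠ 0 := by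
    by_contra h0
    push Not at h0
    exact hne (Polynomial.ext (by simpa using h0))
  obtain ⟨φ, hφ, hφm⟩ := exists_functional ι hm
  let q : ι' → k[X] := fun i => ∑ n ∈ (p i).support, Polynomial.monomial n (φ ((p i).coeff n))
  have hq0 : ∑ i, aeval x (q i) * b i = 0 := by
    apply Subtype.ext
    have h1 := congrArg (coeffFunctional F₀ φ) hp
    rw [map_zero, map_sum] at h1
    refine Eq.trans ?_ h1
    rw [AddSubmonoidClass.coe_finsetSum]
    refine Finset.sum_congr rfl fun i _ => ?_
    conv_rhs => rw [aeval_eq_sum_range, Finset.sum_mul, map_sum]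
    simp only [q, map_sum, Finset.sum_mul, AddSubmonoidClass.coe_finsetSum]
    refine Finset.sum_subset_zero_on_sdiff (fun n hn => Finset.mem_range.mpr
      (Nat.lt_succ_of_le (le_natDegree_of_mem_supp n hn))) (fun n hn => ?_) (fun n _ => ?_)
    · rw [Algebra.smul_def, mul_assoc, ← map_pow, ← map_mul, coeffFunctional_mul_bcHom F₀ ι hφ,
        Polynomial.notMem_support_iff.mp (Finset.mem_sdiff.mp hn).2]
      simp
    · rw [Algebra.smul_def, mul_assoc, ← map_pow, ← map_mul, coeffFunctional_mul_bcHom F₀ ι hφ,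
        aeval_monomial]
      show algebraMap k (LaurentSeries k) _ * _ * _ = _
      rw [mul_assoc]
      rfl
  have := congrArg (fun r => Polynomial.coeff r m) (h q hq0 i₀)
  simp [q, Polynomial.coeff_monomial, hm, hφm] at this

theorem transcendental_bcHom {x : laurentBaseChange k F₀} (hx : Transcendental k x) :
    Transcendental L (bcHom F₀ ι x) := by
  rw [transcendental_iff]
  intro p hp
  refine aeval_bcHom_eq_zero F₀ ι (ι' := Unit) (fun _ => (1 : laurentBaseChange k F₀))
    (x := x) (fun q hq i => transcendental_iff.mp hx _ (by simpa using hq)) (fun _ => p)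
    (by simpa using hp) ()

theorem linearIndependent_bcHom {x : laurentBaseChange k F₀} (hx : Transcendental k x)
    {ι' : Type*} [Fintype ι'] {b : ι' → laurentBaseChange k F₀}
    (hb : LinearIndependent k⟮x⟯ b) :
    LinearIndependent L⟮bcHom F₀ ι x⟯ (bcHom F₀ ι ∘ b) := by
  refine linearIndependent_of_aeval (transcendental_bcHom F₀ ι hx)
    (fun p hp i => aeval_bcHom_eq_zero F₀ ι b (fun q hq j => ?_) p hp i)
  let g : ι' → k⟮x⟯ := fun j => ⟨aeval x (q j),
    IntermediateField.algebra_adjoin_le_adjoin k _ (Polynomial.aeval_mem_adjoin_singleton k x)⟩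
  have := Fintype.linearIndependent_iff.mp hb g hq j
  exact transcendental_iff.mp hx _ (congrArg Subtype.val this)

theorem bcHom_mem_adjoin {x y : laurentBaseChange k F₀} (hy : y ∈ k⟮x⟯) :
    bcHom F₀ ι y ∈ L⟮bcHom F₀ ι x⟯ := by
  induction hy using IntermediateField.adjoin_induction with
  | mem z hz =>
    rw [Set.mem_singleton_iff.mp hz]
    exact IntermediateField.mem_adjoin_simple_self L _
  | algebraMap a => rw [bcHom_algebraMap]; exact IntermediateField.algebraMap_mem _ _
  | add a b _ _ ha hb => rw [map_add]; exact add_mem ha hb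
  | inv a _ ha => rw [map_inv₀]; exact inv_mem ha
  | mul a b _ _ ha hb => rw [map_mul]; exact mul_mem ha hb

theorem exists_intermediateField_le_span {E M : Type*} [Field E] [Field M] [Algebra E M] {ι : Type*}
    [Finite ι] (b : ι → M) {H : Type*} [MulOneClass H] (f : H →* M)
    (hf : ∀ y, f y ∈ Submodule.span E (Set.range b)) :
    ∃ K' : IntermediateField E M, (∀ y, f y ∈ K') ∧
      ∀ z ∈ K', z ∈ Submodule.span E (Set.range b) := by
  let S : Subalgebra E M := Algebra.adjoin E (Set.range f)
  have hS : Subalgebra.toSubmodule S ≤ Submodule.span E (Set.range b) := by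
    rw [Algebra.adjoin_eq_span]
    refine Submodule.span_le.mpr fun z hz => ?_
    obtain ⟨y, rfl⟩ : z ∈ Set.range f :=
      Submonoid.closure_le (S := MonoidHom.mrange f).mpr (fun w hw => hw) hz
    exact hf y
  have : FiniteDimensional E (Submodule.span E (Set.range b)) :=
    FiniteDimensional.span_of_finite E (Set.finite_range _)
  have : Module.Finite E S := Submodule.finiteDimensional_of_le hS
  have : Algebra.IsIntegral E S := Algebra.IsIntegral.of_finite E S
  exact ⟨S.toIntermediateField' (isField_of_isIntegral_of_isField' (Field.toIsField E)),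
    fun y => Algebra.subset_adjoin ⟨y, rfl⟩, fun z hz => hS hz⟩

theorem finrank_eq_card_of_linearIndependent {E M : Type*} [Field E] [Field M] [Algebra E M]
    {ι : Type*} [Fintype ι] {b : ι → M} (hb : LinearIndependent E b)
    (h : ∀ z, z ∈ Submodule.span E (Set.range b)) :
    FiniteDimensional E M ∧ Module.finrank E M = Fintype.card ι := by
  let B := Module.Basis.mk hb (fun z _ => h z)
  exact ⟨B.finiteDimensional_of_finite, Module.finrank_eq_card_basis B⟩

/-- Constant field extension preserves the degree over `K(x)`. -/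
theorem finrank_bcHom {x : laurentBaseChange k F₀} (hx : Transcendental k x)
    [FiniteDimensional k⟮x⟯ (laurentBaseChange k F₀)] :
    FiniteDimensional L⟮bcHom F₀ ι x⟯ (laurentBaseChange L F₀) ∧
      Module.finrank L⟮bcHom F₀ ι x⟯ (laurentBaseChange L F₀)
        = Module.finrank k⟮x⟯ (laurentBaseChange k F₀) := by
  classical
  let b := Module.finBasis k⟮x⟯ (laurentBaseChange k F₀)
  have himg : ∀ y, bcHom F₀ ι y ∈ Submodule.span L⟮bcHom F₀ ι x⟯ (Set.range (bcHom F₀ ι ∘ b)) := by
    intro y
    rw [← b.sum_repr y, map_sum]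
    refine sum_mem fun i _ => ?_
    have : bcHom F₀ ι (b.repr y i • b i)
        = (⟨_, bcHom_mem_adjoin F₀ ι (b.repr y i).2⟩ : L⟮bcHom F₀ ι x⟯) • (bcHom F₀ ι ∘ b) i :=
      map_mul (bcHom F₀ ι) _ _
    rw [this]
    exact Submodule.smul_mem _ _ (Submodule.subset_span ⟨i, rfl⟩)
  obtain ⟨K', hK', hle⟩ :=
    exists_intermediateField_le_span (E := L⟮bcHom F₀ ι x⟯) _ (bcHom F₀ ι).toMonoidHom himg
  let T : Subfield (LaurentSeries L) :=
    K'.toSubfield.map (algebraMap (laurentBaseChange L F₀) (LaurentSeries L))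
  have hspan : ∀ z : laurentBaseChange L F₀,
      z ∈ Submodule.span L⟮bcHom F₀ ι x⟯ (Set.range (bcHom F₀ ι ∘ b)) := by
    intro z
    obtain ⟨y, hy, hyz⟩ : (z : LaurentSeries L) ∈ T := by
      refine Subfield.closure_le.mpr ?_ (mem_laurentBaseChange_iff.mp z.2)
      rintro _ (⟨a, rfl⟩ | ⟨w', hw', rfl⟩)
      · exact ⟨algebraMap L (laurentBaseChange L F₀) a, K'.algebraMap_mem (⟨algebraMap L
          (laurentBaseChange L F₀) a, IntermediateField.algebraMap_mem _ a⟩ : L⟮bcHom F₀ ι x⟯), rfl⟩
      · exact ⟨bcHom F₀ ι ⟨coeffEmb k w', coeffEmb_mem_laurentBaseChange k hw'⟩, hK' _,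
          coeffMap_coeffEmb_base ι w'⟩
    obtain rfl : y = z := Subtype.ext hyz
    exact hle y hy
  have hli := linearIndependent_bcHom F₀ ι hx b.linearIndependent
  obtain ⟨h1, h2⟩ := finrank_eq_card_of_linearIndependent hli hspan
  exact ⟨h1, h2.trans (Module.finrank_eq_card_basis b).symm⟩

theorem isFunctionField1_laurentBaseChange (ι : k →ₐ[ℚ] L)
    [Curve.IsFunctionField1 k (laurentBaseChange k F₀)] :
    Curve.IsFunctionField1 L (laurentBaseChange L F₀) := by
  obtain ⟨x, hx, hfd⟩ :=
    Curve.IsFunctionField1.exists_transcendental' (K := k) (F := laurentBaseChange k F₀)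
  exact .of_finite_adjoin (transcendental_bcHom F₀ ι hx) (finrank_bcHom F₀ ι hx).1

end Fermat.Agent.EichlerShimura
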