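import Fermat.Agent.EichlerShimura.ComplexAut
import Fermat.Agent.EichlerShimura.LaurentDescent
import Fermat.Agent.EichlerShimura.UniqueEffective
import Fermat.Prelude.Def_ModularCurve_ArithmeticGalois
import Mathlib.RingTheory.HahnSeries.Valuation

/-!
Base change of Laurent series function fields along `ι : k → L`, descent of functions, and the
`q`-adic place.
-/

set_option autoImplicit false

noncomputable section

open HahnSeries ModularCurve AlgebraicCurve

namespace Fermat.Agent.EichlerShimura

variable {k L : Type*} [Field k] [Field L] [Algebra ℚ k] [Algebra ℚ L]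
variable (F₀ : IntermediateField ℚ (LaurentSeries ℚ))

theorem coeffMap_coeffEmb_base (ι : k →ₐ[ℚ] L) (x : LaurentSeries ℚ) :
    coeffMap (ι : k →+* L) (coeffEmb k x) = coeffEmb L x := by
  rw [coeffEmb, coeffEmb, coeffMap_coeffMap]
  exact coeffMap_congr (RingHom.ext fun c => ι.commutes c) x

omit [Algebra ℚ k] [Algebra ℚ L] in
theorem coeffMap_constant (f : k →+* L) (c : k) :
    coeffMap f (algebraMap k (LaurentSeries k) c) = algebraMap L (LaurentSeries L) (f c) := by
  rw [algebraMap_laurentSeries_eq_single, algebraMap_laurentSeries_eq_single, coeffMap_single]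

variable {F₀} in
theorem coeffMap_mem_baseChange (ι : k →ₐ[ℚ] L) {x : LaurentSeries k}
    (hx : x ∈ laurentBaseChange k F₀) :
    coeffMap (ι : k →+* L) x ∈ laurentBaseChange L F₀ := by
  rw [mem_laurentBaseChange_iff] at hx
  induction hx using Subfield.closure_induction with
  | mem y hy =>
    rcases hy with ⟨a, rfl⟩ | ⟨z, hz, rfl⟩
    · rw [coeffMap_constant]
      exact (laurentBaseChange L F₀).algebraMap_mem _
    · rw [coeffMap_coeffEmb_base]
      exact coeffEmb_mem_laurentBaseChange L hz
  | one => simp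
  | add _ _ _ _ hx hy => simpa using add_mem hx hy
  | neg x _ hx => simpa using neg_mem hx
  | inv x _ hx => simpa using inv_mem hx
  | mul _ _ _ _ hx hy => simpa using mul_mem hx hy

/-- Base change of function fields along `ι`. -/
def bcHom (ι : k →ₐ[ℚ] L) : laurentBaseChange k F₀ →+* laurentBaseChange L F₀ where
  toFun x := ⟨coeffMap (ι : k →+* L) (x : LaurentSeries k), coeffMap_mem_baseChange ι x.2⟩
  map_one' := Subtype.ext (map_one (coeffMap (ι : k →+* L)))
  map_mul' x y := Subtype.ext (map_mul (coeffMap (ι : k →+* L)) _ _)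
  map_zero' := Subtype.ext (map_zero (coeffMap (ι : k →+* L)))
  map_add' x y := Subtype.ext (map_add (coeffMap (ι : k →+* L)) _ _)

@[simp]
theorem coe_bcHom (ι : k →ₐ[ℚ] L) (x : laurentBaseChange k F₀) :
    (bcHom F₀ ι x : LaurentSeries L) = coeffMap (ι : k →+* L) (x : LaurentSeries k) := rfl

theorem bcHom_injective (ι : k →ₐ[ℚ] L) : Function.Injective (bcHom F₀ ι) := RingHom.injective _

theorem bcHom_algebraMap (ι : k →ₐ[ℚ] L) (c : k) :
    bcHom F₀ ι (algebraMap k _ c) = algebraMap L _ (ι c) :=
  Subtype.ext (coeffMap_constant _ c)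

/-- A series over `k` which lies in the field over `L` lies in the field over `k`. -/
theorem mem_of_coeffMap_mem (ι : k →ₐ[ℚ] L) {y : LaurentSeries k}
    (hy : coeffMap (ι : k →+* L) y ∈ laurentBaseChange L F₀) : y ∈ laurentBaseChange k F₀ := by
  refine mem_of_coeffMap_mem_closure (ι : k →+* L) (laurentBaseChange k F₀).toSubfield
    (fun c => (laurentBaseChange k F₀).algebraMap_mem c) ?_
  rw [mem_laurentBaseChange_iff] at hy
  refine Subfield.closure_mono ?_ hy
  rintro _ (h | ⟨z, hz, rfl⟩)
  · exact Or.inl h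
  · exact Or.inr ⟨coeffEmb k z, coeffEmb_mem_laurentBaseChange k hz, coeffMap_coeffEmb_base ι z⟩

/-- The automorphisms of `L` fixing the image of `k`. -/
def fixingAuts (ι : k →ₐ[ℚ] L) : Subgroup (L ≃ₐ[ℚ] L) where
  carrier := {σ | ∀ a, σ (ι a) = ι a}
  one_mem' a := rfl
  mul_mem' := fun {σ τ} hσ hτ a => by rw [AlgEquiv.mul_apply, hτ a, hσ a]
  inv_mem' := fun {σ} hσ a => by
    conv_lhs => rw [← hσ a]
    exact σ.symm_apply_apply _

theorem arithmeticGalois_bcHom (ι : k →ₐ[ℚ] L) {σ : L ≃ₐ[ℚ] L} (hσ : σ ∈ fixingAuts ι)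
    (x : laurentBaseChange k F₀) :
    arithmeticGalois F₀ σ • bcHom F₀ ι x = bcHom F₀ ι x := by
  refine Subtype.ext ?_
  rw [coe_arithmeticGalois_smul, coe_bcHom, coeffMap_coeffMap]
  exact coeffMap_congr (RingHom.ext fun a => hσ a) _

/-- An element of `L` with finite orbit under a finite index subgroup of the fixing group comes
from `k`. -/
theorem mem_range_of_finite_orbit [IsAlgClosed k] [IsAlgClosed L] [CharZero k] (ι : k →ₐ[ℚ] L)
    {H : Subgroup (fixingAuts ι)} (hH : H.index ≠ 0) {x : L}
    (hfin : (Set.range fun σ : H => ((σ : fixingAuts ι) : L ≃ₐ[ℚ] L) x).Finite) :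
    x ∈ Set.range ι := by
  let := (ι : k →+* L).toAlgebra
  let e : (L ≃ₐ[k] L) →* fixingAuts ι :=
    { toFun := fun τ => ⟨AlgEquiv.ofRingEquiv (f := (τ : L ≃+* L)) (fun q => by
          rw [show algebraMap ℚ L q = ι (algebraMap ℚ k q) from (ι.commutes q).symm]
          exact τ.commutes (algebraMap ℚ k q)), fun a => τ.commutes a⟩
      map_one' := Subtype.ext (AlgEquiv.ext fun _ => rfl)
      map_mul' := fun _ _ => Subtype.ext (AlgEquiv.ext fun _ => rfl) }
  have hidx : (H.comap e).index ≠ 0 := by
    intro h0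
    rw [Subgroup.index_comap] at h0
    exact hH (by simpa [Subgroup.relIndex_top_right] using
      Subgroup.relIndex_eq_zero_of_le_right le_top h0)
  refine mem_range_algebraMap_of_finite_orbit (K := k) hidx (hfin.subset ?_)
  rintro _ ⟨τ, rfl⟩
  exact ⟨⟨e τ.1, τ.2⟩, rfl⟩

/-- A function over `L` fixed by all automorphisms over `k` is defined over `k`. -/
theorem mem_range_bcHom_of_fixed [IsAlgClosed k] [IsAlgClosed L] [CharZero k] (ι : k →ₐ[ℚ] L)
    (y : laurentBaseChange L F₀)
    (hy : ∀ σ ∈ fixingAuts ι, arithmeticGalois F₀ σ • y = y) : y ∈ Set.range (bcHom F₀ ι) := by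
  have hcoef : ∀ n, (y : LaurentSeries L).coeff n ∈ Set.range ι := by
    intro n
    refine mem_range_of_finite_orbit ι (H := ⊤) (by simp)
      ((Set.finite_singleton ((y : LaurentSeries L).coeff n)).subset ?_)
    rintro _ ⟨σ, rfl⟩
    have := congrArg (fun z : laurentBaseChange L F₀ => (z : LaurentSeries L).coeff n)
      (hy _ (σ : fixingAuts ι).2)
    simpa [coe_arithmeticGalois_smul] using this
  choose c hc using hcoef
  let x : LaurentSeries k :=
    { coeff := c
      isPWO_support' := (y : LaurentSeries L).isPWO_support.mono fun n hn h0 => hn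
        (ι.injective ((hc n).trans (h0.trans (map_zero ι).symm))) }
  have hx : coeffMap (ι : k →+* L) x = (y : LaurentSeries L) := HahnSeries.ext (funext hc)
  exact ⟨⟨x, mem_of_coeffMap_mem F₀ ι (hx ▸ y.2)⟩, Subtype.ext hx⟩

section Cusp

variable (L) in
/-- The `q`-adic valuation. -/
def qVal : AddValuation (LaurentSeries L) (WithTop ℤ) := HahnSeries.addVal ℤ L

omit [Algebra ℚ L] in
theorem qVal_eq (x : LaurentSeries L) (hx : x ≠ 0) : qVal L x = (x.order : WithTop ℤ) :=
  HahnSeries.addVal_apply_of_ne hx

variable [Fact (jq ∈ F₀)]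

variable (L) in
/-- The element `j` of the function field. -/
def jElt : laurentBaseChange L F₀ :=
  ⟨coeffEmb L jq, coeffEmb_mem_laurentBaseChange L Fact.out⟩

theorem coe_jElt : (jElt L F₀ : LaurentSeries L) = coeffEmb L jq := rfl

theorem jElt_ne_zero : jElt L F₀ ≠ 0 := by
  intro h
  have := congrArg (fun z : laurentBaseChange L F₀ => (z : LaurentSeries L).coeff (-1)) h
  simp [coe_jElt] at this

theorem order_jElt : (jElt L F₀ : LaurentSeries L).order = -1 := by
  refine le_antisymm (HahnSeries.order_le_of_coeff_ne_zero (by simp [coe_jElt])) ?_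
  rw [← WithTop.coe_le_coe, HahnSeries.order_eq_orderTop_of_ne_zero
    (fun h => jElt_ne_zero (L := L) F₀ (Subtype.ext h))]
  refine HahnSeries.le_orderTop_iff_forall.mpr fun k hk => ?_
  rw [coe_jElt, coeffEmb_coeff, coeff_jq_of_lt (by exact_mod_cast hk), map_zero]

omit [Fact (jq ∈ F₀)] in
theorem algebraMap_mem_qVal (a : L) :
    algebraMap L (laurentBaseChange L F₀) a ∈
      Fermat.Agent.Modular.pullbackValuationSubring (qVal L)
        (algebraMap (laurentBaseChange L F₀) (LaurentSeries L)) := by
  rw [Fermat.Agent.Modular.mem_pullbackValuationSubring]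
  rcases eq_or_ne a 0 with rfl | ha
  · rw [map_zero, map_zero, AddValuation.map_zero]
    exact le_top
  · show 0 ≤ qVal L (algebraMap L (LaurentSeries L) a)
    rw [algebraMap_laurentSeries_eq_single, qVal_eq _ (HahnSeries.single_ne_zero ha),
      HahnSeries.order_single ha]
    rfl

variable (L) in
/-- The place at infinity: the `q`-adic place. -/
def cuspPlace : Place L (laurentBaseChange L F₀) :=
  Fermat.Agent.Modular.placeOfEmbedding (qVal L) (algebraMap (laurentBaseChange L F₀) (LaurentSeries L))
    (algebraMap_mem_qVal F₀) (fun h => by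
      have := (ValuationSubring.mem_top (jElt L F₀))
      rw [← h, Fermat.Agent.Modular.mem_pullbackValuationSubring] at this
      have h1 := qVal_eq (jElt L F₀ : LaurentSeries L) (fun h => jElt_ne_zero (L := L) F₀ (Subtype.ext h))
      rw [order_jElt] at h1
      rw [show (algebraMap (laurentBaseChange L F₀) (LaurentSeries L)) (jElt L F₀) = (jElt L F₀ : LaurentSeries L)
        from rfl, h1] at this
      exact absurd (WithTop.coe_nonneg.mp this) (by norm_num))

theorem mem_cuspPlace {x : laurentBaseChange L F₀} (hx : x ≠ 0) :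
    x ∈ (cuspPlace L F₀).toValuationSubring ↔ 0 ≤ (x : LaurentSeries L).order := by
  show 0 ≤ qVal L (x : LaurentSeries L) ↔ _
  rw [qVal_eq _ (fun h => hx (Subtype.ext h))]
  exact WithTop.coe_nonneg

theorem ord_cuspPlace {x : laurentBaseChange L F₀} (hx : x ≠ 0) :
    (cuspPlace L F₀).ord x = (x : LaurentSeries L).order := by
  set P := cuspPlace L F₀
  have hiff : ∀ y : laurentBaseChange L F₀, y ≠ 0 →
      (0 ≤ P.ord y ↔ 0 ≤ (y : LaurentSeries L).order) := fun y hy =>
    (Fermat.Agent.Modular.placeOrd_nonneg_iff P hy).trans (mem_cuspPlace F₀ hy)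
  set j := jElt L F₀
  have hj : j ≠ 0 := jElt_ne_zero F₀
  have hordpow : ∀ (y : laurentBaseChange L F₀) (m : ℤ), y ≠ 0 →
      ((y * j ^ m : laurentBaseChange L F₀) : LaurentSeries L).order
        = (y : LaurentSeries L).order - m := by
    intro y m hy
    have hjc : (j : LaurentSeries L) ≠ 0 := fun h => hj (Subtype.ext h)
    have h1 : ∀ m : ℕ, ((j : LaurentSeries L) ^ m).order = -(m : ℤ) := fun m => by
      rw [HahnSeries.order_pow, order_jElt]; simp
    have hyc : (y : LaurentSeries L) ≠ 0 := fun h => hy (Subtype.ext h)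
    show ((y : LaurentSeries L) * (j : LaurentSeries L) ^ m).order = _
    rw [HahnSeries.order_mul hyc (zpow_ne_zero m hjc)]
    have h2 : ((j : LaurentSeries L) ^ m).order = -m := by
      obtain ⟨n, rfl | rfl⟩ := Int.eq_nat_or_neg m
      · rw [zpow_natCast, h1]
      · have := HahnSeries.order_mul (zpow_ne_zero (n : ℤ) hjc) (zpow_ne_zero (-(n : ℤ)) hjc)
        rw [← zpow_add₀ hjc, add_neg_cancel, zpow_zero, HahnSeries.order_one, zpow_natCast, h1]
          at this
        linarith
    rw [h2]
    ring
  -- `x j^m` is integral for both valuations for the same `m`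
  have key : ∀ m : ℤ, 0 ≤ P.ord x + m * P.ord j ↔ m ≤ (x : LaurentSeries L).order := by
    intro m
    have hxm : x * j ^ m ≠ 0 := mul_ne_zero hx (zpow_ne_zero m hj)
    have := hiff _ hxm
    rw [P.ord_mul hx (zpow_ne_zero m hj), P.ord_zpow, hordpow x m hx] at this
    rw [this]
    omega
  obtain ⟨t, ht⟩ := IsDiscreteValuationRing.exists_irreducible P.toValuationSubring
  have ht0 : (t : laurentBaseChange L F₀) ≠ 0 := by
    simpa [ZeroMemClass.coe_eq_zero] using ht.ne_zero
  have hjneg : P.ord j = -1 := by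
    have hj1 : P.ord j < 0 := by
      by_contra h
      have := (hiff j hj).mp (not_lt.mp h)
      rw [order_jElt] at this
      omega
    set o := (t : laurentBaseChange L F₀).1.order with ho
    have htord : P.ord (t : laurentBaseChange L F₀) = 1 := P.ord_coe_irreducible ht
    -- `t j^o` is a unit
    have hto : (t : laurentBaseChange L F₀) * j ^ o ≠ 0 := mul_ne_zero ht0 (zpow_ne_zero _ hj)
    have e1 := hiff _ hto
    have e2 := hiff _ (inv_ne_zero hto)
    have hinv : (((t : laurentBaseChange L F₀) * j ^ o)⁻¹ : laurentBaseChange L F₀)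
        = (t : laurentBaseChange L F₀)⁻¹ * j ^ (-o) := by rw [mul_inv, zpow_neg]
    have hinvord : ((t : laurentBaseChange L F₀)⁻¹ : laurentBaseChange L F₀).1.order = -o := by
      have hc : ((t : laurentBaseChange L F₀) : LaurentSeries L) ≠ 0 := fun h => ht0 (Subtype.ext h)
      have := HahnSeries.order_mul hc (inv_ne_zero hc)
      rw [mul_inv_cancel₀ hc, HahnSeries.order_one] at this
      show ((t : laurentBaseChange L F₀) : LaurentSeries L)⁻¹.order = -o
      linarith
    rw [P.ord_mul ht0 (zpow_ne_zero _ hj), P.ord_zpow, htord, hordpow _ _ ht0] at e1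
    rw [hinv, P.ord_mul (inv_ne_zero ht0) (zpow_ne_zero _ hj), P.ord_zpow, P.ord_inv, htord,
      hordpow _ _ (inv_ne_zero ht0), hinvord] at e2
    have h3 : 0 ≤ 1 + o * P.ord j := e1.mpr (by omega)
    have h4 : 0 ≤ -1 + -o * P.ord j := e2.mpr (by omega)
    have h5 : o * P.ord j = -1 := by linarith
    rcases Int.eq_one_or_neg_one_of_mul_eq_neg_one h5 with h | h <;> rw [h] at h5 <;> omega
  set m := (x : LaurentSeries L).order
  have k1 := (key m).mpr le_rfl
  have k2 := mt (key (m + 1)).mp (by omega)
  rw [hjneg] at k1 k2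
  omega

theorem deg_cuspPlace : (cuspPlace L F₀).deg = 1 ∧ HasRationalResidue (cuspPlace L F₀) := by
  set P := cuspPlace L F₀
  have hres : ∀ f : laurentBaseChange L F₀, f ≠ 0 → P.ord f = 0 →
      ∃ c : L, f - algebraMap L _ c = 0 ∨ 0 < P.ord (f - algebraMap L _ c) := by
    intro f hf h0
    refine ⟨(f : LaurentSeries L).coeff 0, or_iff_not_imp_left.mpr fun hne => ?_⟩
    rw [ord_cuspPlace F₀ hne]
    rw [ord_cuspPlace F₀ hf] at h0
    set c := (f : LaurentSeries L).coeff 0
    have hne' : (f : LaurentSeries L) - algebraMap L (LaurentSeries L) c ≠ 0 :=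
      fun h => hne (Subtype.ext h)
    show 0 < ((f : LaurentSeries L) - algebraMap L (LaurentSeries L) c).order
    rw [algebraMap_laurentSeries_eq_single] at hne' ⊢
    refine lt_of_not_ge fun hle => HahnSeries.coeff_order_eq_zero.not.mpr hne' ?_
    rcases hle.lt_or_eq with h | h
    · rw [HahnSeries.coeff_sub, HahnSeries.coeff_single_of_ne h.ne,
        HahnSeries.coeff_eq_zero_of_lt_order (by omega), sub_zero]
    · rw [h, HahnSeries.coeff_sub, HahnSeries.coeff_single_same, sub_self]
  have hdeg : P.deg = 1 := by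
    have hsurj : Function.Surjective (algebraMap L P.ResidueField) := by
      intro r
      obtain ⟨a, rfl⟩ := IsLocalRing.residue_surjective r
      by_cases ha : IsUnit a
      · obtain ⟨c, hc⟩ := hres (a : laurentBaseChange L F₀)
          (fun h => ha.ne_zero (Subtype.ext h)) (by rw [← ha.unit_spec]; exact P.ord_coe_unit _)
        refine ⟨c, Eq.symm ?_⟩
        show IsLocalRing.residue _ a = IsLocalRing.residue _ (algebraMap L P.toValuationSubring c)
        rw [← sub_eq_zero, ← map_sub, IsLocalRing.residue_eq_zero_iff,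
          IsLocalRing.mem_maximalIdeal, mem_nonunits_iff]
        intro hu
        have := P.ord_coe_unit hu.unit
        rw [IsUnit.unit_spec] at this
        rcases hc with hc | hc
        · exact hu.ne_zero (Subtype.ext hc)
        · exact hc.ne' this
      · exact ⟨0, by rw [map_zero, Eq.comm, IsLocalRing.residue_eq_zero_iff]; exact ha⟩
    have hbij : Function.Bijective (Algebra.ofId L P.ResidueField) :=
      ⟨(algebraMap L P.ResidueField).injective, hsurj⟩
    show Module.finrank L P.ResidueField = 1
    rw [← (AlgEquiv.ofBijective _ hbij).toLinearEquiv.finrank_eq, Module.finrank_self]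
  exact ⟨hdeg, by omega, hres⟩

theorem smul_cuspPlace (σ : L ≃ₐ[ℚ] L) :
    arithmeticGalois F₀ σ • cuspPlace L F₀ = cuspPlace L F₀ := by
  refine Place.ext (SetLike.ext fun x => ?_)
  rw [SemilinearAut.smul_toValuationSubring, ValuationSubring.mem_pointwise_smul_iff_inv_smul_mem,
    ← map_inv]
  rcases eq_or_ne x 0 with rfl | hx
  · simp
  · have hne : arithmeticGalois F₀ σ⁻¹ • x ≠ 0 := by
      rw [SemilinearAut.smul_def]
      exact fun h => hx ((map_eq_zero_iff _ (SemilinearAut.toRingAut _).injective).mp h)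
    rw [mem_cuspPlace F₀ hne, mem_cuspPlace F₀ hx, coe_arithmeticGalois_smul]
    set τ : L →+* L := ((σ⁻¹ : L ≃ₐ[ℚ] L) : L →+* L)
    have hxc : (x : LaurentSeries L) ≠ 0 := fun h => hx (Subtype.ext h)
    have heq : (coeffMap τ (x : LaurentSeries L)).order = (x : LaurentSeries L).order := by
      refine le_antisymm (HahnSeries.order_le_of_coeff_ne_zero ?_)
        (HahnSeries.order_le_of_coeff_ne_zero ?_)
      · rw [coeffMap_coeff, Ne, map_eq_zero_iff τ τ.injective]
        exact HahnSeries.coeff_order_eq_zero.not.mpr hxc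
      · have := HahnSeries.coeff_order_eq_zero.not.mpr ((map_ne_zero (coeffMap τ)).mpr hxc)
        intro h
        rw [coeffMap_coeff, h, map_zero] at this
        exact this rfl
    rw [heq]

end Cusp

end Fermat.Agent.EichlerShimura
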