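import Fermat.Agent.EichlerShimura.Interface
import Fermat.Agent.EichlerShimura.GaloisHecke

/-!
# The congruence relation on torsion from a specialization

From `SpecializationExists` (injective on `p`-power torsion, Frobenius satisfying
`F² - T_ℓ F + ℓ = 0` on the special fibre) to `FrobeniusOnTorsion`.
-/

set_option autoImplicit false

noncomputable section

namespace Fermat.Agent.EichlerShimura

open ModularCurve

theorem frobeniusOnTorsion_of_specializationExists {N p : ℕ} [NeZero N]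
    (hcomm : HeckeOperatorsCommuteBar N)
    (h : letI := heckeModuleBar N
      ∀ (_ : SMulCommClass (AlgebraicClosure ℚ ≃ₐ[ℚ] AlgebraicClosure ℚ) HeckeAlg (JZero N)),
        SpecializationExists (K := ℚ) (L := AlgebraicClosure ℚ) N p (JZero N)) :
    FrobeniusOnTorsion N p := by
  letI := heckeModuleBar N
  haveI := smulCommClass_galois_heckeAlg N
  intro ℓ hℓ hℓN A hA
  obtain ⟨J', _, _, sp, F, hsp, hrel⟩ := h inferInstance ℓ hℓ hℓN A hA
  have galois : ∀ (g : AlgebraicClosure ℚ ≃ₐ[ℚ] AlgebraicClosure ℚ) {x : JZero N} {k : ℕ},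
      p ^ k • x = 0 → p ^ k • (g • x) = 0 := fun g x k hk =>
    (map_nsmul (DistribSMul.toAddMonoidHom (JZero N) g) (p ^ k) x).symm.trans
      ((congrArg (DistribSMul.toAddMonoidHom (JZero N) g) hk).trans (map_zero _))
  have galois' : ∀ (g : AlgebraicClosure ℚ ≃ₐ[ℚ] AlgebraicClosure ℚ) {x : JZero N} {k : ℕ},
      p ^ k • x = 0 → p ^ k • (heckeOperatorBar N ⟨ℓ, hℓ⟩ (g • x)) = 0 := fun g x k hk => by
    exact (map_nsmul (heckeOperatorBar N ⟨ℓ, hℓ⟩) (p ^ k) (g • x)).symm.trans
      ((congrArg (heckeOperatorBar N ⟨ℓ, hℓ⟩) (galois g hk)).trans (map_zero _))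
  refine ⟨fun σ hσ x hx => ?_, fun σ hσ x hx => ?_⟩
  · obtain ⟨k, hk⟩ := hx
    refine sub_eq_zero.mp (hsp.injective_torsion _ ⟨k, ?_⟩ ?_)
    · rw [nsmul_sub, galois σ hk, hk, sub_zero]
    · rw [map_sub, hsp.inertia_comm σ hσ, sub_self]
  · obtain ⟨k, hk⟩ := hx
    refine hsp.injective_torsion _ ⟨k, ?_⟩ ?_
    · rw [nsmul_add, nsmul_sub, galois σ (galois σ hk), galois' σ hk, ← mul_nsmul, mul_comm,
        mul_nsmul, hk, nsmul_zero, sub_zero, add_zero]
    · rw [← heckeModuleBar_heckeGen_smul hcomm, map_add, map_sub, map_nsmul,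
        hsp.frobenius_comm σ hσ, hsp.frobenius_comm σ hσ, hsp.hecke_comm,
        hsp.frobenius_comm σ hσ]
      exact hrel (sp x)

end Fermat.Agent.EichlerShimura

end
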