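import Fermat.Agent.EichlerShimura.KummerIso
import Fermat.Agent.EichlerShimura.FiniteLevelX0
import Fermat.Agent.EichlerShimura.Commute
import Fermat.Agent.EichlerShimura.FrobTorsion
import Fermat.Agent.Reduction.S37Assembly

/-!
# Team GAL: the three inputs of the Eichler–Shimura construction

The Kummer isomorphism (`KummerIso`), the congruence relation on torsion (S37 through `FrobTorsion`)
and the finite level of every point (`FiniteLevelX0`).
-/

set_option autoImplicit false

noncomputable section

namespace Fermat.Agent.EichlerShimura

theorem kummerIso_modular (N : ℕ) [NeZero N] : HasKummerIso N :=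
  hasKummerIso N

theorem frobeniusOnTorsion_modular (N : ℕ) [NeZero N] (p : ℕ) [Fact p.Prime] :
    FrobeniusOnTorsion N p :=
  frobeniusOnTorsion_of_specializationExists (heckeOperatorsCommuteBar N)
    (Reduction.specializationExists_JZero N p (heckeOperatorsCommuteBar N))

theorem galoisFiniteLevel_modular (N : ℕ) [NeZero N] : GaloisFiniteLevel N :=
  galoisFiniteLevel_x0 N

end Fermat.Agent.EichlerShimura
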