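import Mathlib.RingTheory.Norm.Transitivity
import Mathlib.FieldTheory.IntermediateField.Adjoin.Algebra
import Mathlib.LinearAlgebra.FiniteDimensional.Basic
import Mathlib.LinearAlgebra.Dimension.OrzechProperty

/-!
# Base change of the norm along a compositum of the expected degree

If `G` is generated as a field by `F₁` and `F₂`, two finite-type legs over `F₀`, and
`[G : F₁] = [F₂ : F₀]`, then the norm from `G` to `F₁` extends the norm from `F₂` to `F₀`.
-/

set_option autoImplicit false

noncomputable section

namespace Fermat.Agent.EichlerShimura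

theorem norm_compositum {F₀ F₁ F₂ G : Type*} [Field F₀] [Field F₁] [Field F₂] [Field G]
    [Algebra F₀ F₁] [Algebra F₀ F₂] [Algebra F₁ G] [Algebra F₀ G] [IsScalarTower F₀ F₁ G]
    [Module.Finite F₀ F₂] [Module.Finite F₁ G] (b : F₂ →ₐ[F₀] G)
    (hdeg : Module.finrank F₁ G = Module.finrank F₀ F₂)
    (hgen : Subfield.closure (Set.range (algebraMap F₁ G) ∪ Set.range b) = ⊤) (y : F₂) :
    algebraMap F₀ F₁ (Algebra.norm F₀ y) = Algebra.norm F₁ (b y) := by
  classical
  let e := Module.finBasis F₀ F₂
  let v : Fin (Module.finrank F₀ F₂) → G := fun i => b (e i)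
  have hb : ∀ z, b z ∈ Submodule.span F₁ (Set.range v) := by
    intro z
    rw [← e.sum_repr z, map_sum]
    refine Submodule.sum_mem _ fun i _ => ?_
    rw [map_smul, ← algebraMap_smul F₁ (e.repr z i)]
    exact Submodule.smul_mem _ _ (Submodule.subset_span ⟨i, rfl⟩)
  have hmul : ∀ x ∈ Submodule.span F₁ (Set.range v), ∀ x' ∈ Submodule.span F₁ (Set.range v),
      x * x' ∈ Submodule.span F₁ (Set.range v) := by
    intro x hx x' hx'
    induction hx using Submodule.span_induction with
    | mem x h =>
      obtain ⟨i, rfl⟩ := h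
      induction hx' using Submodule.span_induction with
      | mem x' h =>
        obtain ⟨j, rfl⟩ := h
        rw [← map_mul]
        exact hb _
      | zero => simp
      | add p q _ _ hp hq => rw [mul_add]; exact add_mem hp hq
      | smul c p _ hp => rw [mul_smul_comm]; exact Submodule.smul_mem _ c hp
    | zero => simp
    | add p q _ _ hp hq => rw [add_mul]; exact add_mem hp hq
    | smul c p _ hp => rw [smul_mul_assoc]; exact Submodule.smul_mem _ c hp
  have hone : (1 : G) ∈ Submodule.span F₁ (Set.range v) := map_one b ▸ hb 1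
  let S : Subalgebra F₁ G := (Submodule.span F₁ (Set.range v)).toSubalgebra hone
    (fun x y hx hy => hmul x hx y hy)
  let T : IntermediateField F₁ G := S.toIntermediateField' (S.isField_of_algebraic)
  have hT : (⊤ : Subfield G) ≤ T.toSubfield := by
    rw [← hgen, Subfield.closure_le]
    rintro x (⟨c, rfl⟩ | ⟨z, rfl⟩)
    · exact S.algebraMap_mem c
    · exact hb z
  have hspan : ⊤ ≤ Submodule.span F₁ (Set.range v) := fun x _ => hT (Subfield.mem_top x)
  let B := basisOfTopLeSpanOfCardEqFinrank v hspan (by simp [hdeg])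
  rw [Algebra.norm_eq_matrix_det e y, Algebra.norm_eq_matrix_det B, RingHom.map_det]
  congr 1
  ext i j
  rw [RingHom.mapMatrix_apply, Matrix.map_apply, Algebra.leftMulMatrix_eq_repr_mul,
    Algebra.leftMulMatrix_eq_repr_mul, coe_basisOfTopLeSpanOfCardEqFinrank]
  have h1 : b y * v j = ∑ k, algebraMap F₀ F₁ (e.repr (y * e j) k) • v k := by
    rw [← map_mul]
    conv_lhs => rw [← e.sum_repr (y * e j)]
    rw [map_sum]
    refine Finset.sum_congr rfl fun k _ => ?_
    rw [map_smul, algebraMap_smul]
  rw [h1, map_sum, Finset.sum_apply', Finset.sum_eq_single i]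
  · rw [map_smul, show v i = B i from (congrFun (coe_basisOfTopLeSpanOfCardEqFinrank ..) i).symm,
      B.repr_self, Finsupp.smul_apply, Finsupp.single_eq_same, smul_eq_mul, mul_one]
  · intro k _ hk
    rw [map_smul, show v k = B k from (congrFun (coe_basisOfTopLeSpanOfCardEqFinrank ..) k).symm,
      B.repr_self, Finsupp.smul_apply, Finsupp.single_eq_of_ne (Ne.symm hk), smul_zero]
  · simp

end Fermat.Agent.EichlerShimura

end
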