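import Fermat.Agent.EichlerShimura.MeroMaps
import Fermat.Agent.EichlerShimura.Fricke
import Fermat.Agent.EichlerShimura.NormBaseChange
import Fermat.Agent.EichlerShimura.CorrespondenceComm
import Fermat.Agent.Modular.Index
import Fermat.Agent.Curve.Basic
import Mathlib.Data.Nat.Choose.Basic

/-!
# Degrees in the tower of levels and commutation of the Hecke norms

Everything is stated from the two facts `hdeg` (`[F_L(M) : L(j)] = ψ(M)`) and `hgen`
(`FunctionFieldGeneration M`).  For distinct primes `ℓ, ℓ'` the composed norms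
`N_ℓ β_ℓ N_ℓ' β_ℓ'` and `N_ℓ' β_ℓ' N_ℓ β_ℓ` agree on `F_L(N)`.
-/

set_option autoImplicit false
set_option linter.style.haveILetI false

noncomputable section

open CongruenceSubgroup ModularCurve AlgebraicCurve IntermediateField Fermat.Agent.Modular
open scoped MatrixGroups

namespace Fermat.Agent.EichlerShimura

/-- Shortcut for a slow instance search; reducibly the instance that search finds. -/
local instance (priority := high) algebraLaurentShortcutLevelDegree (K : Type*) [Field K]
    (S : IntermediateField K (LaurentSeries K)) : Algebra K S :=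
  inferInstance

section Tower

variable {L F F' : Type*} [Field L] [Field F] [Field F'] [Algebra L F] [Algebra L F']

theorem finrank_adjoin_mul_finrankAlong (φ : F →ₐ[L] F') (x : F) :
    Module.finrank L⟮x⟯ F * finrankAlong L φ = Module.finrank L⟮φ x⟯ F' := by
  letI := algebraAlong φ
  haveI := isScalarTower_along φ
  show Module.finrank L⟮x⟯ F * Module.finrank F F' = _
  rw [Module.finrank_mul_finrank L⟮x⟯ F F']
  let e : L⟮x⟯ ≃ₐ[L] L⟮φ x⟯ :=
    (IntermediateField.equivMap L⟮x⟯ φ).trans (IntermediateField.equivOfEq (by simp [adjoin_map]))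
  refine Algebra.finrank_eq_of_equiv_equiv e.toRingEquiv (RingEquiv.refl F') ?_
  exact RingHom.ext fun _ => rfl

end Tower

section Index

variable (N ℓ : ℕ) [NeZero N] [NeZero ℓ]

theorem dedekindPsi_mul_index :
    (levelSubgroup N ℓ).index * dedekindPsi N = dedekindPsi (N * ℓ) := by
  haveI : NeZero (N * ℓ) := ⟨Nat.mul_ne_zero (NeZero.ne N) (NeZero.ne ℓ)⟩
  have hle : Gamma0 (N * ℓ) ≤ Gamma0 N := by
    intro g hg
    rw [Gamma0_mem, ZMod.intCast_zmod_eq_zero_iff_dvd] at hg ⊢
    exact (Int.natCast_dvd_natCast.mpr (dvd_mul_right N ℓ)).trans hg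
  rw [← index_Gamma0 N, ← index_Gamma0 (N * ℓ), levelSubgroup]
  exact Subgroup.relIndex_mul_index hle

theorem dedekindPsi_pos : 0 < dedekindPsi N := by
  rw [← index_Gamma0 N]
  exact Nat.pos_of_ne_zero Subgroup.FiniteIndex.index_ne_zero

end Index

theorem index_levelSubgroup_eq_card (N : ℕ) [NeZero N] {p : ℕ} [NeZero p] (hp : p.Prime) :
    (levelSubgroup N p).index = Nat.card (Periods.HeckeIdx N p) :=
  (Nat.card_eq_of_bijective _ (repCoset_bijective hp)).symm

/-- `ψ(Nℓℓ') ψ(N) = ψ(Nℓ) ψ(Nℓ')` for distinct primes. -/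
theorem dedekindPsi_mul_mul (N : ℕ) [NeZero N] {p q : ℕ} [NeZero p] [NeZero q]
    (hp : p.Prime) (hq : q.Prime) (hpq : p ≠ q) :
    dedekindPsi (N * p * q) * dedekindPsi N = dedekindPsi (N * p) * dedekindPsi (N * q) := by
  haveI : NeZero (N * p) := ⟨Nat.mul_ne_zero (NeZero.ne N) (NeZero.ne p)⟩
  have hcard : (levelSubgroup (N * p) q).index = (levelSubgroup N q).index := by
    rw [index_levelSubgroup_eq_card (N * p) hq, index_levelSubgroup_eq_card N hq]
    refine Nat.card_congr (Equiv.subtypeEquivRight fun i => imp_congr_right fun _ => ?_)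
    rw [hq.dvd_mul]
    exact not_congr (or_iff_left fun h => hpq ((Nat.prime_dvd_prime_iff_eq hq hp).mp h).symm)
  rw [← dedekindPsi_mul_index (N * p) q, ← dedekindPsi_mul_index N q, hcard]
  ring

section Maps

variable {L : Type*} [Field L] [Algebra ℚ L]

/-- The inclusion `F_L(N) → F_L(M)` for `N ∣ M`. -/
def levelIncl {N M : ℕ} [NeZero N] [NeZero M] (h : N ∣ M) : FL N L →ₐ[L] FL M L :=
  IntermediateField.inclusion (by
    rw [FL, laurentBaseChange, IntermediateField.adjoin_le_iff]
    rintro _ ⟨y, hy, rfl⟩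
    exact coeffEmb_mem_laurentBaseChange L (full_degeneracy_le h hy))

@[simp]
theorem coe_levelIncl {N M : ℕ} [NeZero N] [NeZero M] (h : N ∣ M) (x : FL N L) :
    (levelIncl h x : LaurentSeries L) = (x : LaurentSeries L) :=
  IntermediateField.coe_inclusion _ x

/-- The map `f ↦ f(q^ℓ)` from `F_L(N)` to `F_L(M)` for `Nℓ ∣ M`. -/
def levelScale {N M : ℕ} (ℓ : ℕ) [NeZero N] [NeZero ℓ] [NeZero M] (h : N * ℓ ∣ M) :
    FL N L →ₐ[L] FL M L :=
  haveI : NeZero (N * ℓ) := ⟨Nat.mul_ne_zero (NeZero.ne N) (NeZero.ne ℓ)⟩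
  (levelIncl h).comp (heckeBetaBar L N ℓ)

@[simp]
theorem coe_levelScale {N M : ℕ} (ℓ : ℕ) [NeZero N] [NeZero ℓ] [NeZero M] (h : N * ℓ ∣ M)
    (x : FL N L) : (levelScale ℓ h x : LaurentSeries L) = qExpand L ℓ (x : LaurentSeries L) := by
  haveI : NeZero (N * ℓ) := ⟨Nat.mul_ne_zero (NeZero.ne N) (NeZero.ne ℓ)⟩
  rw [levelScale, AlgHom.comp_apply, coe_levelIncl, coe_heckeBetaBar]

theorem heckeAlphaBar_eq_levelIncl (N ℓ : ℕ) [NeZero N] [NeZero ℓ] [NeZero (N * ℓ)] :
    heckeAlphaBar L N ℓ = levelIncl (dvd_mul_right N ℓ) :=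
  AlgHom.ext fun x => Subtype.ext (by rw [coe_heckeAlphaBar, coe_levelIncl])

theorem levelIncl_jL {N M : ℕ} [NeZero N] [NeZero M] (h : N ∣ M) :
    levelIncl h (jL N L) = jL M L :=
  Subtype.ext (coe_levelIncl h _)

variable (hdeg : ∀ (M : ℕ) [NeZero M], Module.finrank L⟮jL M L⟯ (FL M L) = dedekindPsi M)
include hdeg

theorem finrankAlong_levelIncl_mul {N M : ℕ} [NeZero N] [NeZero M] (h : N ∣ M) :
    dedekindPsi N * finrankAlong L (levelIncl (L := L) h) = dedekindPsi M := by
  rw [← hdeg N, finrank_adjoin_mul_finrankAlong (levelIncl h) (jL N L), levelIncl_jL h, hdeg M]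

theorem finiteAlong_levelIncl {N M : ℕ} [NeZero N] [NeZero M] (h : N ∣ M) :
    FiniteAlong L (levelIncl (L := L) h) := by
  letI := algebraAlong (levelIncl (L := L) h)
  refine Module.finite_of_finrank_pos ?_
  have h1 := finrankAlong_levelIncl_mul hdeg h
  rcases Nat.eq_zero_or_pos (finrankAlong L (levelIncl (L := L) h)) with h0 | h0
  · rw [h0, mul_zero] at h1
    exact absurd h1 (dedekindPsi_pos M).ne
  · exact h0

end Maps

section Norms

variable {L : Type*} [Field L] [Algebra ℚ L]

theorem normAlong_comp {K A B C : Type*} [Field K] [Field A] [Field B] [Field C] [Algebra K A]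
    [Algebra K B] [Algebra K C] (φ : A →ₐ[K] B) (ψ : B →ₐ[K] C) (hφ : FiniteAlong K φ)
    (hψ : FiniteAlong K ψ) (z : C) :
    normAlong φ (normAlong ψ z) = normAlong (ψ.comp φ) z := by
  letI := algebraAlong φ
  letI := algebraAlong ψ
  letI := algebraAlong (ψ.comp φ)
  haveI : Module.Finite A B := hφ
  haveI : Module.Finite B C := hψ
  haveI : IsScalarTower A B C := IsScalarTower.of_algebraMap_eq fun _ => rfl
  exact Algebra.norm_norm

theorem map_normAlong_of_compositum {K F₀ F₁ F₂ G : Type*} [Field K] [Field F₀] [Field F₁]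
    [Field F₂] [Field G] [Algebra K F₀] [Algebra K F₁] [Algebra K F₂] [Algebra K G]
    (f : F₀ →ₐ[K] F₁) (ψ : F₀ →ₐ[K] F₂) (a : F₁ →ₐ[K] G) (b : F₂ →ₐ[K] G)
    (hsq : ∀ x, a (f x) = b (ψ x)) (hψ : FiniteAlong K ψ) (ha : FiniteAlong K a)
    (hdeg : finrankAlong K a = finrankAlong K ψ)
    (hgen : Subfield.closure (Set.range a ∪ Set.range b) = ⊤) (y : F₂) :
    f (normAlong ψ y) = normAlong a (b y) := by
  letI := algebraAlong f
  letI := algebraAlong ψ
  letI := algebraAlong a
  letI := algebraAlong (a.comp f)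
  haveI : IsScalarTower F₀ F₁ G := IsScalarTower.of_algebraMap_eq fun _ => rfl
  haveI : Module.Finite F₀ F₂ := hψ
  haveI : Module.Finite F₁ G := ha
  let b' : F₂ →ₐ[F₀] G := { b.toRingHom with commutes' := fun x => (hsq x).symm }
  exact norm_compositum b' hdeg hgen y

variable (hdeg : ∀ (M : ℕ) [NeZero M], Module.finrank L⟮jL M L⟯ (FL M L) = dedekindPsi M)
variable (hgen : ∀ (M : ℕ) [NeZero M], FunctionFieldGeneration M)

omit hdeg hgen in
theorem coeffEmb_mem_of_mem_adjoin {S : Set (LaurentSeries ℚ)} (E : Subfield (LaurentSeries L))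
    (hc : ∀ c : L, algebraMap L (LaurentSeries L) c ∈ E) (hS : ∀ s ∈ S, coeffEmb L s ∈ E)
    {z : LaurentSeries ℚ} (hz : z ∈ IntermediateField.adjoin ℚ S) : coeffEmb L z ∈ E := by
  induction hz using IntermediateField.adjoin_induction with
  | mem s hs => exact hS s hs
  | algebraMap c =>
    rw [algebraMap_apply_eq_single, coeffEmb, coeffMap_single,
      ← algebraMap_laurentSeries_eq_single]
    exact hc _
  | add x y _ _ hx hy => rw [map_add]; exact E.add_mem hx hy
  | inv x _ hx => rw [map_inv₀]; exact E.inv_mem hx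
  | mul x y _ _ hx hy => rw [map_mul]; exact E.mul_mem hx hy

include hgen in
theorem closure_range_levelIncl_levelScale {A B M : ℕ} [NeZero A] [NeZero B] [NeZero M] (ℓ : ℕ)
    [NeZero ℓ] (hA : A ∣ M) (hB : B * ℓ ∣ M) (hM : M = B * ℓ) :
    Subfield.closure (Set.range (levelIncl (L := L) hA) ∪ Set.range (levelScale (L := L) ℓ hB))
      = ⊤ := by
  let G : Set (FL M L) := Set.range (levelIncl (L := L) hA) ∪ Set.range (levelScale (L := L) ℓ hB)
  let E' : Subfield (LaurentSeries L) := (Subfield.closure G).map (FL M L).val.toRingHom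
  have hmem : ∀ y ∈ G, (y : LaurentSeries L) ∈ E' := fun y hy =>
    ⟨y, Subfield.subset_closure hy, rfl⟩
  have hc : ∀ c : L, algebraMap L (LaurentSeries L) c ∈ E' := fun c => by
    have h := hmem (levelIncl hA (algebraMap L (FL A L) c)) (.inl ⟨_, rfl⟩)
    rwa [AlgHom.commutes] at h
  have h1 : ∀ w ∈ ({jq, qExpand ℚ M jq} : Set (LaurentSeries ℚ)), coeffEmb L w ∈ E' := by
    rintro w (rfl | rfl)
    · have h := hmem (levelIncl hA (jL A L)) (.inl ⟨_, rfl⟩)
      rwa [coe_levelIncl] at h
    · have h := hmem (levelScale ℓ hB (jdL B L dvd_rfl)) (.inr ⟨_, rfl⟩)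
      rw [coe_levelScale] at h
      have e : qExpand L ℓ ((jdL B L dvd_rfl : FL B L) : LaurentSeries L) =
          coeffEmb L (qExpand ℚ M jq) := by
        show qExpand L ℓ (coeffEmb L (qExpand ℚ B jq)) = _
        haveI : NeZero (ℓ * B) := ⟨Nat.mul_ne_zero (NeZero.ne ℓ) (NeZero.ne B)⟩
        rw [coeffEmb, ← coeffMap_qExpand_comm, qExpand_qExpand,
          qExpand_congr (K := M) (by rw [hM, mul_comm])]
      rwa [e] at h
  have h2 : ∀ z ∈ modularFunctionFieldFull M, coeffEmb L z ∈ E' := fun z hz =>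
    coeffEmb_mem_of_mem_adjoin E' hc (fun w hw => by
      obtain ⟨d, hne, hd, rfl⟩ := hw
      exact coeffEmb_mem_of_mem_adjoin E' hc h1 (hgen M d hd hne)) hz
  refine eq_top_iff.mpr fun x _ => ?_
  have hx : (x : LaurentSeries L) ∈ E' := by
    have hx := x.2
    rw [mem_laurentBaseChange_iff] at hx
    refine (Subfield.closure_le (t := E')).mpr ?_ hx
    rintro y (⟨c, rfl⟩ | ⟨z, hz, rfl⟩)
    · exact hc c
    · exact h2 z hz
  obtain ⟨y, hy, hyx⟩ := hx
  rwa [show x = y from Subtype.ext hyx.symm]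

include hdeg hgen in
/-- The two composites `N β N β` agree. -/
theorem normAlong_heckeBeta_comm (N : ℕ) [NeZero N] {p q : ℕ} [NeZero p] [NeZero q]
    (hp : p.Prime) (hq : q.Prime) (hpq : p ≠ q) (f : FL N L) :
    normAlong (heckeAlphaBar L N p) (heckeBetaBar L N p
        (normAlong (heckeAlphaBar L N q) (heckeBetaBar L N q f))) =
      normAlong (heckeAlphaBar L N q) (heckeBetaBar L N q
        (normAlong (heckeAlphaBar L N p) (heckeBetaBar L N p f))) := by
  haveI : NeZero (N * p) := ⟨Nat.mul_ne_zero (NeZero.ne N) (NeZero.ne p)⟩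
  haveI : NeZero (N * q) := ⟨Nat.mul_ne_zero (NeZero.ne N) (NeZero.ne q)⟩
  haveI : NeZero (N * p * q) := ⟨Nat.mul_ne_zero (NeZero.ne _) (NeZero.ne q)⟩
  haveI : NeZero (p * q) := ⟨Nat.mul_ne_zero (NeZero.ne p) (NeZero.ne q)⟩
  have hN : N ∣ N * p * q := (dvd_mul_right N p).trans (dvd_mul_right _ q)
  have key : ∀ (a b : ℕ) [NeZero a] [NeZero b], a.Prime → b.Prime → a ≠ b →
      N * a * b = N * p * q → a * b = p * q → ∀ [NeZero (N * a)] [NeZero (N * b)],
      normAlong (heckeAlphaBar L N a) (heckeBetaBar L N a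
        (normAlong (heckeAlphaBar L N b) (heckeBetaBar L N b f))) =
      normAlong (levelIncl hN) (levelScale (p * q) (by rw [mul_assoc]) f) := by
    intro a b _ _ ha hb hab hMab hprod _ _
    have h1 : N * a ∣ N * p * q := hMab ▸ dvd_mul_right _ b
    have h2 : N * b * a ∣ N * p * q := by rw [← hMab, mul_right_comm]
    have hd1 := finrankAlong_levelIncl_mul hdeg h1
    have hd2 := finrankAlong_levelIncl_mul hdeg (dvd_mul_right N b)
    have hdeq : finrankAlong L (levelIncl (L := L) h1) =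
        finrankAlong L (levelIncl (L := L) (dvd_mul_right N b)) := by
      have h3 := dedekindPsi_mul_mul N ha hb hab
      have h4 : dedekindPsi (N * a * b) = dedekindPsi (N * p * q) := congrArg dedekindPsi hMab
      refine Nat.eq_of_mul_eq_mul_left (Nat.mul_pos (dedekindPsi_pos (N * a)) (dedekindPsi_pos N)) ?_
      calc dedekindPsi (N * a) * dedekindPsi N * finrankAlong L (levelIncl (L := L) h1)
          = dedekindPsi (N * p * q) * dedekindPsi N := by rw [← hd1]; ring
        _ = dedekindPsi (N * a) * dedekindPsi (N * b) := by rw [← h4, h3]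
        _ = _ := by rw [← hd2]; ring
    have hbc := map_normAlong_of_compositum (heckeBetaBar L N a)
      (levelIncl (L := L) (dvd_mul_right N b)) (levelIncl h1) (levelScale a h2)
      (fun x => Subtype.ext (by simp)) (finiteAlong_levelIncl hdeg _)
      (finiteAlong_levelIncl hdeg _) hdeq
      (closure_range_levelIncl_levelScale hgen a h1 h2 (by rw [← hMab, mul_right_comm]))
      (heckeBetaBar L N b f)
    rw [heckeAlphaBar_eq_levelIncl N a, heckeAlphaBar_eq_levelIncl N b, hbc,
      normAlong_comp _ _ (finiteAlong_levelIncl hdeg _) (finiteAlong_levelIncl hdeg _)]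
    have hcomp : (levelIncl (L := L) h1).comp (levelIncl (dvd_mul_right N a)) = levelIncl hN :=
      AlgHom.ext fun x => Subtype.ext (by simp)
    rw [hcomp]
    refine congrArg _ (Subtype.ext ?_)
    haveI : NeZero (a * b) := ⟨Nat.mul_ne_zero (NeZero.ne a) (NeZero.ne b)⟩
    rw [coe_levelScale, coe_heckeBetaBar, coe_levelScale, qExpand_qExpand]
    exact qExpand_congr hprod _
  rw [key p q hp hq hpq rfl rfl, key q p hq hp (Ne.symm hpq) (mul_right_comm N q p) (mul_comm q p)]

end Norms

end Fermat.Agent.EichlerShimura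

end
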