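import Mathlib.Analysis.Complex.CauchyIntegral
import Mathlib.Analysis.Complex.HasPrimitives
import Mathlib.Analysis.Analytic.IsolatedZeros
import Mathlib.Analysis.Analytic.Uniqueness
import Mathlib.Analysis.Analytic.Order
import Mathlib.Analysis.Complex.UpperHalfPlane.Topology
import Mathlib.Analysis.SpecialFunctions.Complex.Analytic
import Mathlib.Analysis.Normed.Module.Convex
import Mathlib.Analysis.Complex.Polynomial.Basic

/-!
An analytic function on the upper half plane whose orders of vanishing are all divisible by `n`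
has an analytic `n`-th root.
-/

set_option autoImplicit false

noncomputable section

open Complex Filter Set Metric
open scoped Topology

namespace Fermat.Agent.EichlerShimura

/-- A zero-free analytic function on a disc has an `n`-th root. -/
theorem exists_root_ball_of_ne_zero {c : ℂ} {R : ℝ} {u : ℂ → ℂ}
    (hu : DifferentiableOn ℂ u (ball c R)) (h0 : ∀ z ∈ ball c R, u z ≠ 0) {n : ℕ} (hn : n ≠ 0) :
    ∃ r : ℂ → ℂ, DifferentiableOn ℂ r (ball c R) ∧ ∀ z ∈ ball c R, r z ^ n = u z := by
  rcases le_or_gt R 0 with hR | hR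
  · exact ⟨fun _ => 0, differentiableOn_const _, by simp [ball_eq_empty.mpr hR]⟩
  have hlog : DifferentiableOn ℂ (fun z => deriv u z / u z) (ball c R) :=
    (hu.deriv isOpen_ball).div hu h0
  obtain ⟨g, hgc, hg⟩ := hlog.isExactOn_ball.with_val_at c (Complex.log (u c))
  refine ⟨fun z => Complex.exp (g z / n),
    ((fun z hz => ((hg z hz).differentiableAt.div_const _).cexp.differentiableWithinAt)),
    fun z hz => ?_⟩
  rw [← Complex.exp_nat_mul, mul_div_cancel₀ _ (by exact_mod_cast hn)]
  have hconst : ∀ w ∈ ball c R, HasDerivAt (fun w => Complex.exp (g w) / u w) 0 w := by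
    intro w hw
    have h1 : HasDerivAt u (deriv u w) w :=
      (hu.differentiableAt (isOpen_ball.mem_nhds hw)).hasDerivAt
    have h2 := ((hg w hw).cexp).div h1 (h0 w hw)
    have hne := h0 w hw
    rw [mul_assoc, div_mul_cancel₀ _ hne, sub_self, zero_div] at h2
    exact h2
  have hd : DifferentiableOn ℂ (fun w => Complex.exp (g w) / u w) (ball c R) := fun w hw =>
    (hconst w hw).differentiableAt.differentiableWithinAt
  have := (convex_ball c R).is_const_of_fderivWithin_eq_zero hd (fun w hw => by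
    rw [fderivWithin_of_isOpen isOpen_ball hw]
    simpa using (hconst w hw).hasFDerivAt.fderiv) hz (mem_ball_self hR)
  rw [hgc, Complex.exp_log (h0 c (mem_ball_self hR)), div_self (h0 c (mem_ball_self hR))] at this
  exact (div_eq_one_iff_eq (h0 z hz)).mp this

/-- The upper half plane as a subset of `ℂ`. -/
def upperHalf : Set ℂ := {z : ℂ | 0 < z.im}

theorem isOpen_upperHalf : IsOpen upperHalf := isOpen_lt continuous_const Complex.continuous_im

theorem isPreconnected_upperHalf : IsPreconnected upperHalf :=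
  (convex_halfSpace_im_gt 0).isPreconnected

theorem analyticAt_of_differentiableOn {f : ℂ → ℂ} (hf : DifferentiableOn ℂ f upperHalf) {z : ℂ}
    (hz : z ∈ upperHalf) : AnalyticAt ℂ f z :=
  hf.analyticAt (isOpen_upperHalf.mem_nhds hz)

/-- Orders of a non-zero function are finite. -/
theorem analyticOrderAt_ne_top_of_ne_zero {f : ℂ → ℂ} (hf : DifferentiableOn ℂ f upperHalf)
    {z₀ : ℂ} (hz₀ : z₀ ∈ upperHalf) (hne : f z₀ ≠ 0) {z : ℂ} (hz : z ∈ upperHalf) :
    analyticOrderAt f z ≠ ⊤ := by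
  intro h
  rw [analyticOrderAt_eq_top] at h
  exact hne ((hf.analyticOnNhd isOpen_upperHalf).eqOn_zero_of_preconnected_of_eventuallyEq_zero
    isPreconnected_upperHalf hz h hz₀)

theorem finite_zeros_closedBall {f : ℂ → ℂ} (hf : DifferentiableOn ℂ f upperHalf)
    {z₀ : ℂ} (hz₀ : z₀ ∈ upperHalf) (hne : f z₀ ≠ 0) {c : ℂ} {R : ℝ}
    (hsub : closedBall c R ⊆ upperHalf) : ({z | f z = 0} ∩ closedBall c R).Finite := by
  by_contra hinf
  obtain ⟨x, hx, hacc⟩ := Set.Infinite.exists_accPt_of_subset_isCompact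
    (Set.not_finite.mp hinf)
    (isCompact_closedBall c R) (Set.inter_subset_right)
  rcases (analyticAt_of_differentiableOn hf (hsub hx)).eventually_eq_zero_or_eventually_ne_zero
    with h | h
  · exact hne ((hf.analyticOnNhd isOpen_upperHalf).eqOn_zero_of_preconnected_of_eventuallyEq_zero
      isPreconnected_upperHalf (hsub hx) h hz₀)
  · have h2 : ∃ᶠ y in 𝓝[≠] x, f y = 0 :=
      (accPt_iff_frequently_nhdsNE.mp hacc).mono fun y hy => hy.1
    exact h2 h

/-- An `n`-th root on a disc whose closure lies in the upper half plane. -/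
theorem exists_root_ball {c : ℂ} {R : ℝ} (hsub : closedBall c R ⊆ upperHalf) {n : ℕ}
    (hn : n ≠ 0) {f : ℂ → ℂ} (hf : DifferentiableOn ℂ f upperHalf) {z₀ : ℂ}
    (hz₀ : z₀ ∈ upperHalf) (hne : f z₀ ≠ 0)
    (hord : ∀ z ∈ upperHalf, n ∣ analyticOrderNatAt f z) :
    ∃ r : ℂ → ℂ, DifferentiableOn ℂ r (ball c R) ∧ ∀ z ∈ ball c R, r z ^ n = f z := by
  suffices H : ∀ s : Finset ℂ, ∀ u : ℂ → ℂ, DifferentiableOn ℂ u upperHalf →
      (∃ w ∈ upperHalf, u w ≠ 0) → (∀ z ∈ upperHalf, n ∣ analyticOrderNatAt u z) →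
      (∀ z ∈ ball c R, u z = 0 → z ∈ s) →
      ∃ r : ℂ → ℂ, DifferentiableOn ℂ r (ball c R) ∧ ∀ z ∈ ball c R, r z ^ n = u z by
    exact H (finite_zeros_closedBall hf hz₀ hne hsub).toFinset f hf ⟨z₀, hz₀, hne⟩ hord
      (fun z hz h => by simp [h, (ball_subset_closedBall hz)])
  intro s
  induction s using Finset.induction_on with
  | empty =>
    intro u hu _ _ hs
    exact exists_root_ball_of_ne_zero (hu.mono (ball_subset_closedBall.trans hsub))
      (fun z hz h => by simpa using hs z hz h) hn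
  | @insert a s has ih =>
    intro u hu hw hdvd hs
    by_cases ha : a ∈ ball c R ∧ u a = 0
    swap
    · exact ih u hu hw hdvd fun z hz h =>
        (Finset.mem_insert.mp (hs z hz h)).resolve_left (fun hza => ha ⟨hza ▸ hz, hza ▸ h⟩)
    obtain ⟨haR, hua⟩ := ha
    have haH : a ∈ upperHalf := hsub (ball_subset_closedBall haR)
    obtain ⟨w, hwH, hw0⟩ := hw
    have htop := analyticOrderAt_ne_top_of_ne_zero hu hwH hw0 haH
    obtain ⟨g, hg, hg0, hug⟩ :=
      ((analyticAt_of_differentiableOn hu haH).analyticOrderAt_eq_natCast).mp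
        (Nat.cast_analyticOrderNatAt htop).symm
    obtain ⟨k, hk⟩ := hdvd a haH
    set m := analyticOrderNatAt u a with hm
    classical
    let v : ℂ → ℂ := Function.update (fun z => u z / (z - a) ^ m) a (g a)
    have hva : v =ᶠ[𝓝 a] g := by
      filter_upwards [hug] with z hz
      rcases eq_or_ne z a with rfl | hza
      · simp [v]
      · simp [v, Function.update_of_ne hza, hz, smul_eq_mul, sub_ne_zero.mpr hza]
    have hvne : ∀ z, z ≠ a → v =ᶠ[𝓝 z] fun y => u y / (y - a) ^ m := fun z hz => by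
      filter_upwards [isOpen_ne.mem_nhds hz] with y hy using Function.update_of_ne hy _ _
    have hv : DifferentiableOn ℂ v upperHalf := by
      intro z hz
      refine DifferentiableAt.differentiableWithinAt ?_
      rcases eq_or_ne z a with rfl | hza
      · exact (hva.differentiableAt_iff).mpr hg.differentiableAt
      · refine ((hvne z hza).differentiableAt_iff).mpr ?_
        exact (hu.differentiableAt (isOpen_upperHalf.mem_nhds hz)).div (by fun_prop)
          (pow_ne_zero _ (sub_ne_zero.mpr hza))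
    have hvord : ∀ z ∈ upperHalf, n ∣ analyticOrderNatAt v z := by
      intro z hz
      rcases eq_or_ne z a with rfl | hza
      · rw [analyticOrderNatAt, analyticOrderAt_congr hva,
          hg.analyticOrderAt_eq_zero.mpr hg0]
        simp
      · have heq : u =ᶠ[𝓝 z] (fun y => (y - a) ^ m) * v := by
          filter_upwards [isOpen_ne.mem_nhds hza] with y hy
          simp [v, Function.update_of_ne hy, mul_div_cancel₀,
            pow_ne_zero _ (sub_ne_zero.mpr hy)]
        have h1 : AnalyticAt ℂ (fun y => (y - a) ^ m) z := by fun_prop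
        have h2 : analyticOrderAt (fun y => (y - a) ^ m) z = 0 :=
          h1.analyticOrderAt_eq_zero.mpr (pow_ne_zero _ (sub_ne_zero.mpr hza))
        have h3 := hdvd z hz
        rwa [analyticOrderNatAt, analyticOrderAt_congr heq,
          analyticOrderAt_mul h1 (analyticAt_of_differentiableOn hv hz), h2, zero_add] at h3
    obtain ⟨r, hr, hrn⟩ := ih v hv ⟨a, haH, by simpa [v] using hg0⟩ hvord (fun z hz h => by
      have hza : z ≠ a := fun e => hg0 (by subst e; simpa [v] using h)
      have : u z = 0 := by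
        simpa [v, Function.update_of_ne hza, pow_eq_zero_iff', sub_ne_zero.mpr hza] using h
      exact (Finset.mem_insert.mp (hs z hz this)).resolve_left hza)
    refine ⟨fun z => (z - a) ^ k * r z, ((differentiableOn_id.sub_const a).pow k).mul hr,
      fun z hz => ?_⟩
    rw [mul_pow, hrn z hz, ← pow_mul, mul_comm k n, ← hk]
    rcases eq_or_ne z a with rfl | hza
    · have hmpos : m ≠ 0 := fun h0 => hg0 (by
        have := hug.self_of_nhds
        simp_all)
      simp [hua, hmpos]
    · simp [v, Function.update_of_ne hza, mul_div_cancel₀, pow_ne_zero _ (sub_ne_zero.mpr hza)]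

/-- Two continuous roots of the same function on a preconnected open set agreeing at a point
where it does not vanish agree everywhere. -/
theorem roots_eqOn {U : Set ℂ} (hU : IsOpen U) (hUc : IsPreconnected U) {n : ℕ} (hn : n ≠ 0)
    {r s : ℂ → ℂ} (hr : DifferentiableOn ℂ r U) (hs : DifferentiableOn ℂ s U)
    (hrs : ∀ z ∈ U, r z ^ n = s z ^ n) {z₁ : ℂ} (hz₁ : z₁ ∈ U) (h1 : r z₁ = s z₁)
    (h0 : s z₁ ≠ 0) : EqOn r s U := by
  refine (hr.analyticOnNhd hU).eqOn_of_preconnected_of_eventuallyEq (hs.analyticOnNhd hU) hUc hz₁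
    ?_
  classical
  let Z : Finset ℂ := (Polynomial.nthRoots n (1 : ℂ)).toFinset.erase 1
  have hq : Tendsto (fun z => r z / s z) (𝓝 z₁) (𝓝 1) := by
    have := (hr.differentiableAt (hU.mem_nhds hz₁)).continuousAt.div
      (hs.differentiableAt (hU.mem_nhds hz₁)).continuousAt h0
    have hc := this.tendsto
    rwa [Pi.div_apply, h1, div_self h0] at hc
  filter_upwards [hq.eventually ((Z.finite_toSet.isClosed.isOpen_compl).mem_nhds
      (by simp [Z])), hU.mem_nhds hz₁,
    (hs.differentiableAt (hU.mem_nhds hz₁)).continuousAt.eventually_ne h0] with z hz hzU hsz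
  have hpow : (r z / s z) ^ n = 1 := by rw [div_pow, hrs z hzU, div_self (pow_ne_zero _ hsz)]
  by_contra hne
  refine hz (Finset.mem_coe.mpr (Finset.mem_erase.mpr ⟨?_, ?_⟩))
  · exact fun h => hne ((div_eq_one_iff_eq hsz).mp h)
  · exact Multiset.mem_toFinset.mpr ((Polynomial.mem_nthRoots (Nat.pos_of_ne_zero hn)).mpr hpow)

/-- Exhausting family of discs of the upper half plane. -/
def exhaustingBall (m : ℕ) : Set ℂ := ball (((m : ℝ) + 2 : ℝ) * I) ((m : ℝ) + 2 - 1 / ((m : ℝ) + 2))

theorem exhaustingBall_mono {m m' : ℕ} (h : m ≤ m') : exhaustingBall m ⊆ exhaustingBall m' := by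
  refine ball_subset_ball' ?_
  have hm : (m : ℝ) ≤ m' := by exact_mod_cast h
  have hdiv : 1 / ((m' : ℝ) + 2) ≤ 1 / ((m : ℝ) + 2) := by gcongr
  have : dist (((m : ℝ) + 2 : ℝ) * I) ((((m' : ℝ) + 2 : ℝ)) * I) = (m' : ℝ) - m := by
    rw [dist_eq_norm, ← sub_mul, ← Complex.ofReal_sub, norm_mul, Complex.norm_I, mul_one,
      Complex.norm_real, Real.norm_eq_abs, abs_of_nonpos (by linarith)]
    ring
  rw [this]
  linarith

theorem closure_exhaustingBall_subset (m : ℕ) :
    closedBall ((((m : ℝ) + 2 : ℝ)) * I) ((m : ℝ) + 2 - 1 / ((m : ℝ) + 2)) ⊆ upperHalf := by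
  intro z hz
  rw [mem_closedBall, dist_eq_norm] at hz
  have := (Complex.abs_im_le_norm _).trans hz
  simp only [Complex.sub_im, Complex.mul_im, Complex.I_im, Complex.I_re, Complex.ofReal_re,
    Complex.ofReal_im, mul_one, mul_zero, add_zero] at this
  have h2 := (abs_le.mp this).1
  have hpos : 0 < 1 / ((m : ℝ) + 2) := by positivity
  show 0 < z.im
  linarith

theorem exists_mem_exhaustingBall {z : ℂ} (hz : z ∈ upperHalf) : ∃ m, z ∈ exhaustingBall m := by
  change 0 < z.im at hz
  obtain ⟨m, hm⟩ := exists_nat_gt ((z.re ^ 2 + z.im ^ 2 + 2) / (2 * z.im))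
  refine ⟨m, ?_⟩
  rw [exhaustingBall, mem_ball, dist_eq_norm]
  rw [div_lt_iff₀ (by positivity)] at hm
  set M : ℝ := (m : ℝ) + 2 with hM
  have hMpos : (2 : ℝ) ≤ M := by rw [hM]; linarith [(Nat.cast_nonneg m : (0 : ℝ) ≤ m)]
  have hrad : 0 < M - 1 / M := by
    have : 1 / M ≤ 1 := by rw [div_le_one (by linarith)]; linarith
    linarith
  rw [← sq_lt_sq₀ (norm_nonneg _) hrad.le, Complex.sq_norm, Complex.normSq_apply]
  simp only [Complex.sub_im, Complex.sub_re, Complex.mul_im, Complex.mul_re, Complex.I_im,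
    Complex.I_re, Complex.ofReal_re, Complex.ofReal_im, mul_one, mul_zero, add_zero,
    sub_zero]
  have h1 : M * (1 / M) = 1 := by field_simp
  nlinarith [sq_nonneg (1 / M)]

/-- Main theorem: holomorphic `n`-th roots on the upper half plane. -/
theorem exists_nthRoot {n : ℕ} (hn : n ≠ 0) {f : ℂ → ℂ} (hf : DifferentiableOn ℂ f upperHalf)
    (hne : ∃ z ∈ upperHalf, f z ≠ 0) (hord : ∀ z ∈ upperHalf, n ∣ analyticOrderNatAt f z) :
    ∃ r : ℂ → ℂ, DifferentiableOn ℂ r upperHalf ∧ ∀ z ∈ upperHalf, r z ^ n = f z := by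
  obtain ⟨z₁, hz₁H, hz₁⟩ := hne
  obtain ⟨m₀, hm₀⟩ := exists_mem_exhaustingBall hz₁H
  obtain ⟨w₀, hw₀⟩ := IsAlgClosed.exists_pow_nat_eq (f z₁) (Nat.pos_of_ne_zero hn)
  have hw₀0 : w₀ ≠ 0 := fun h => hz₁ (by rw [← hw₀, h, zero_pow hn])
  have hmem : ∀ m, z₁ ∈ exhaustingBall (m₀ + m) := fun m =>
    exhaustingBall_mono (Nat.le_add_right _ _) hm₀
  have key : ∀ m, ∃ r : ℂ → ℂ, DifferentiableOn ℂ r (exhaustingBall (m₀ + m)) ∧
      (∀ z ∈ exhaustingBall (m₀ + m), r z ^ n = f z) ∧ r z₁ = w₀ := by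
    intro m
    obtain ⟨r, hr, hrn⟩ := exists_root_ball (closure_exhaustingBall_subset (m₀ + m)) hn hf hz₁H
      hz₁ hord
    have hr1 : r z₁ ≠ 0 := fun h => hz₁ (by rw [← hrn z₁ (hmem m), h, zero_pow hn])
    refine ⟨fun z => (w₀ / r z₁) * r z, hr.const_mul _, fun z hz => ?_, div_mul_cancel₀ _ hr1⟩
    rw [mul_pow, div_pow, hw₀, hrn z₁ (hmem m), div_self hz₁, one_mul, hrn z hz]
  choose r hr hrn hr1 using key
  have hagree : ∀ a b, a ≤ b → EqOn (r a) (r b) (exhaustingBall (m₀ + a)) := by
    intro a b hab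
    have hsub := exhaustingBall_mono (Nat.add_le_add_left hab m₀)
    exact roots_eqOn isOpen_ball (convex_ball _ _).isPreconnected hn (hr a) ((hr b).mono hsub)
      (fun z hz => by rw [hrn a z hz, hrn b z (hsub hz)]) (hmem a) (by rw [hr1, hr1])
      (by rw [hr1]; exact hw₀0)
  have hex : ∀ z ∈ upperHalf, ∃ m, z ∈ exhaustingBall (m₀ + m) := fun z hz => by
    obtain ⟨m, hm⟩ := exists_mem_exhaustingBall hz
    exact ⟨m, exhaustingBall_mono (Nat.le_add_left _ _) hm⟩
  classical
  let R : ℂ → ℂ := fun z => if h : ∃ m, z ∈ exhaustingBall (m₀ + m) then r (Nat.find h) z else 0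
  have hR : ∀ m, EqOn R (r m) (exhaustingBall (m₀ + m)) := by
    intro m z hz
    have h : ∃ m, z ∈ exhaustingBall (m₀ + m) := ⟨m, hz⟩
    simp only [R, dif_pos h]
    exact hagree _ _ (Nat.find_min' h hz) (Nat.find_spec h)
  refine ⟨R, fun z hz => ?_, fun z hz => ?_⟩
  · obtain ⟨m, hm⟩ := hex z hz
    exact (((hr m).congr (hR m)).differentiableAt
      (isOpen_ball.mem_nhds hm)).differentiableWithinAt
  · obtain ⟨m, hm⟩ := hex z hz
    rw [hR m hm, hrn m z hm]

end Fermat.Agent.EichlerShimura
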