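import Fermat.Agent.EichlerShimura.PlaceDivisibility
import Fermat.Agent.EichlerShimura.Interface
import Fermat.Agent.Modular.DegreeC

/-!
# Surjectivity input of the Abel–Jacobi–Kummer description

Every `φ ∈ cuspidalHoms (Γ₀ N) (ℚ/ℤ)` killed by `n` comes from a modular function `f` all of whose
orders are divisible by `n`.
-/

set_option autoImplicit false

noncomputable section

open UpperHalfPlane hiding I
open AlgebraicCurve CongruenceSubgroup Fermat.Agent.Modular Fermat.Agent.Curve
open scoped MatrixGroups IntermediateField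

namespace Fermat.Agent.EichlerShimura

theorem qzExp_zero_aux : qzExp (0 : QZ) = 1 := by
  rw [show (0 : QZ) = ((0 : ℚ) : QZ) from rfl, qzExp_coe]
  simp

/-- The character `γ ↦ exp (-2πi φ γ)`. -/
def qzChar {Γ : Subgroup SL(2, ℤ)} (φ : Additive Γ →+ QZ) : Γ →* ℂˣ where
  toFun γ := ⟨qzExp (-φ (Additive.ofMul γ)), qzExp (φ (Additive.ofMul γ)),
    by rw [← qzExp_add, neg_add_cancel, qzExp_zero_aux],
    by rw [← qzExp_add, add_neg_cancel, qzExp_zero_aux]⟩
  map_one' := Units.ext (by simp [qzExp_zero_aux])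
  map_mul' a b := Units.ext (by
    simp only [ofMul_mul, map_add, neg_add_rev, qzExp_add, Units.val_mul]
    exact mul_comm _ _)

theorem qzChar_apply {Γ : Subgroup SL(2, ℤ)} (φ : Additive Γ →+ QZ) (γ : Γ) :
    (qzChar φ γ : ℂ) = qzExp (-φ (Additive.ofMul γ)) := rfl

theorem qzExp_nsmul_aux (n : ℕ) (t : QZ) : qzExp (n • t) = qzExp t ^ n := by
  induction n with
  | zero => rw [zero_smul, pow_zero, qzExp_zero_aux]
  | succ n ih => rw [succ_nsmul, qzExp_add, ih, pow_succ]

variable (N : ℕ) [NeZero N]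

/-- A function with admissible multiplier and exponential growth has finite order at the cusps. -/
theorem hasFiniteOrderAtCusps_algebraMap {G : Hol} (hadm : IsAdmissibleInvariant N G)
    (hgrow : ∀ α : SL(2, ℤ),
      IsBoundedAtImInfty fun z : ℍ => G.1 (α • z) * ModularForm.discriminant z ^ 13) (n : ℕ) :
    HasFiniteOrderAtCusps N (algebraMap Hol Mero (G ^ n)) := by
  intro g
  refine ⟨g • G ^ n, 1, Filter.Eventually.of_forall fun τ => one_ne_zero, ?_, ?_⟩
  · rw [translate_algebraMap, map_one, mul_one]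
  · obtain ⟨x, hx⟩ : g • G ^ n ∈ HolExp N := by
      rw [smul_pow']
      exact (HolExp N).pow_mem (hadm.smul_mem_holExp hgrow g) n
    obtain ⟨M, hM⟩ : ∃ M : ℕ, -x.order ≤ M := ⟨(-x.order).toNat, Int.self_le_toNat _⟩
    have ht := hx.tendsto (Nat.cast_pos.mpr (NeZero.pos N)) (m := -(M : ℤ))
      fun k hk => HahnSeries.coeff_eq_zero_of_lt_order (by omega)
    refine ⟨M, (ht.congr fun τ => ?_).isBigO_one ℝ⟩
    rw [zpow_neg, inv_inv, zpow_natCast, mul_comm]
    exact congrArg _ (div_one _).symm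

/-- **Surjectivity input.** A cuspidal homomorphism `φ` killed by `n` is the character of an
`n`-th root `G` of a modular function `f` all whose orders are divisible by `n`. -/
theorem exists_function_of_cuspidalHom {φ : Additive (Gamma0 N) →+ QZ}
    (hφ : φ ∈ Periods.cuspidalHoms ℤ (Gamma0 N) QZ) {n : ℕ} (hn : n ≠ 0) (hnφ : n • φ = 0) :
    ∃ (f : FC N) (G : Hol), f ≠ 0 ∧ G ≠ 0 ∧
      evalMero N f = algebraMap Hol Mero G ^ n ∧
      (∀ (γ : Gamma0 N) (z : ℍ),
        G.1 ((γ : SL(2, ℤ)) • z) = qzExp (φ (Additive.ofMul γ)) * G.1 z) ∧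
      (∀ γ : Gamma0 N,
        (γ : SL(2, ℤ)) • G = algebraMap ℂ Hol (qzExp (-φ (Additive.ofMul γ))) * G) ∧
      ∀ P : Place ℂ (FC N), (n : ℤ) ∣ P.ord f := by
  have hpow : ∀ γ, qzChar φ γ ^ n = 1 := fun γ => Units.ext (by
    rw [Units.val_pow_eq_pow_val, qzChar_apply, ← qzExp_nsmul_aux, Units.val_one, smul_neg,
      ← AddMonoidHom.nsmul_apply, hnφ, AddMonoidHom.zero_apply, neg_zero, qzExp_zero_aux])
  have hkill : ∀ γ : Gamma0 N,
      ((γ : SL(2, ℤ)) : Matrix (Fin 2) (Fin 2) ℤ).trace ^ 2 ≤ 4 → qzChar φ γ = 1 := fun γ hγ =>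
    Units.ext (by rw [qzChar_apply, hφ γ hγ, neg_zero, qzExp_zero_aux, Units.val_one])
  obtain ⟨G, hG0, hG, hgrow⟩ := Poincare.exists_hol_of_character (Gamma0 N) (qzChar φ) hn hpow
    fun γ hγ => hkill γ (by
      rw [hγ, Matrix.SpecialLinearGroup.coe_neg, Matrix.SpecialLinearGroup.coe_one, Matrix.trace_neg,
        Matrix.trace_one]
      norm_num)
  have hadm : IsAdmissibleInvariant N G := fun γ hγ htr => by
    rw [show γ = ((⟨γ, hγ⟩ : Gamma0 N) : SL(2, ℤ)) from rfl, hG, hkill _ htr]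
    simp
  have hinvn : ∀ g ∈ Gamma0 N, translate g (algebraMap Hol Mero (G ^ n)) =
      algebraMap Hol Mero (G ^ n) := fun g hg => by
    rw [translate_algebraMap]
    exact congrArg _ (Poincare.smul_pow_eq_of_multiplier hG hpow ⟨g, hg⟩)
  obtain ⟨f, hf⟩ := exists_evalMero_eq hinvn (hasFiniteOrderAtCusps_algebraMap N hadm hgrow n)
  rw [map_pow] at hf
  have hne : algebraMap Hol Mero G ^ n ≠ 0 :=
    pow_ne_zero _ ((map_ne_zero_iff _ (IsFractionRing.injective Hol Mero)).mpr hG0)
  have hf0 : f ≠ 0 := fun h => hne (by rw [← hf, h, map_zero])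
  refine ⟨f, G, hf0, hG0, hf, fun γ z => ?_, hG, fun P => ?_⟩
  · have h := congrArg (fun F : Hol => F.1 z) (hG γ⁻¹)
    simp only [Subgroup.coe_inv, smul_hol_apply, inv_inv] at h
    rw [h]
    change (qzChar φ γ⁻¹ : ℂ) * G.1 z = _
    rw [qzChar_apply, ofMul_inv, map_neg, neg_neg]
  · have := isFunctionField1_FC N
    refine dvd_ord_of_multiplier (N := N) (RingHom.id ℂ) (evalMero N).toRingHom
      (fun a => (evalMero N).commutes a) (fun γ hγ x => translate_evalMero N hγ x)
      {jdC N (one_dvd N), jdC N (dvd_refl N)} (adjoin_jdC_pair N) ?_ ?_ (evalMero_jdC N (one_dvd N))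
      (transcendental_jdC_one N) (finrank_FC N) hG0 hadm hgrow hf0 hf P
    · rintro s (rfl | rfl)
      · exact ⟨1, inferInstance, one_dvd N, evalMero_jdC N (one_dvd N)⟩
      · exact ⟨N, inferInstance, dvd_rfl, evalMero_jdC N dvd_rfl⟩
    · intro g h hgh
      have h1 := hgh (jdC N (dvd_refl N))
      change translate g (evalMero N _) = translate h (evalMero N _) at h1
      rw [evalMero_jdC, translate_algebraMap, translate_algebraMap] at h1
      have h2 : g • jHol N = h • jHol N := IsFractionRing.injective Hol Mero h1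
      rw [← QuotientGroup.eq]
      refine conjAt_jLevel_injective N (funext fun z => ?_)
      simp only [(isModFun_jLevel N dvd_rfl).conjAt_mk]
      exact congrFun (congrArg Subtype.val h2) z

end Fermat.Agent.EichlerShimura
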