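import Fermat.Agent.EichlerShimura.KummerChar
import Fermat.Agent.EichlerShimura.NthRoot
import Fermat.Agent.EichlerShimura.Surjective
import Fermat.Agent.Periods.Group
import Fermat.Agent.Curve.Transport

/-!
# The Kummer character over `ℂ` is bijective

Owner: helper57 (delegated by helper55).
-/

set_option autoImplicit false

noncomputable section

open CongruenceSubgroup AlgebraicCurve ModularCurve
open Fermat.Agent.Modular
open UpperHalfPlane hiding I
open Filter
open scoped MatrixGroups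

namespace Fermat.Agent.EichlerShimura

variable {N : ℕ} [NeZero N]

/-- A meromorphic function with a holomorphic `n`-th power is holomorphic. -/
theorem exists_hol_of_pow_eq {n : ℕ} (hn : n ≠ 0) {P : Mero} (hP : P ≠ 0) {A : Hol}
    (h : P ^ n = algebraMap Hol Mero A) : ∃ H : Hol, algebraMap Hol Mero H = P := by
  have hA : A ≠ 0 := by
    rintro rfl
    exact pow_ne_zero n hP (by rw [h, map_zero])
  obtain ⟨z, hz⟩ : ∃ z : ℍ, A.1 z ≠ 0 := by
    by_contra! h'
    exact hA (Subtype.ext (funext h'))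
  have hord : ∀ w : ℍ, n ∣ holOrd w A := fun w => by
    have hpow : ∀ k : ℕ, ordPt w (P ^ k) = k * ordPt w P := by
      intro k
      induction k with
      | zero => simp [ordPt]
      | succ k ih => rw [pow_succ, ordPt_mul (pow_ne_zero k hP) hP, ih]; push_cast; ring
    have := hpow n
    rw [h, ordPt_algebraMap hA] at this
    exact Int.natCast_dvd_natCast.mp ⟨ordPt w P, this⟩
  obtain ⟨r, hr, hrn⟩ := exists_nthRoot hn (f := (A : ℍ → ℂ) ∘ ofComplex)
    (UpperHalfPlane.mdifferentiable_iff.mp A.2)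
    ⟨(z : ℂ), z.im_pos, by simpa using hz⟩ (fun w hw => hord ⟨w, hw⟩)
  let G₀ : Hol := ⟨fun w => r (w : ℂ), UpperHalfPlane.mdifferentiable_iff.mpr
    (hr.congr fun w hw => by simp [ofComplex_apply_of_im_pos hw])⟩
  have hG₀ : G₀ ^ n = A := Subtype.ext (funext fun w => by
    rw [SubmonoidClass.coe_pow, Pi.pow_apply]
    show r (w : ℂ) ^ n = _
    rw [hrn _ w.im_pos]
    simp)
  have hG₀0 : algebraMap Hol Mero G₀ ≠ 0 := (map_ne_zero_iff _
    (IsFractionRing.injective Hol Mero)).mpr fun h0 => hA (by rw [← hG₀, h0, zero_pow hn])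
  obtain ⟨d, hd⟩ := eq_algebraMap_mul_of_pow hn hG₀0 (c := 1) (P := P)
    (by rw [h, ← hG₀, map_pow, map_one, one_mul])
  exact ⟨algebraMap ℂ Hol d * G₀, by rw [map_mul, ← IsScalarTower.algebraMap_apply, hd]⟩

theorem toFC_id_apply (x : FL N ℂ) :
    (toFC N (RingHom.id ℂ) x : LaurentSeries ℂ) = (x : LaurentSeries ℂ) := by
  rw [coe_toFC]
  ext k
  simp

theorem evalL_id_equivFC_symm (y : FC N) :
    evalL (RingHom.id ℂ) N ((equivFC N).symm y) = evalMero N y := by
  rw [evalL_apply]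
  exact congrArg _ (Subtype.ext (toFC_id_apply _))

/-- An expansion of the `n`-th power gives finite order at the cusps. -/
theorem hasFiniteOrderAtCusps_of_pow_mem_holExp {n : ℕ} (hn : n ≠ 0) {H : Hol}
    (h : ∀ g : SL(2, ℤ), g • (H ^ n) ∈ HolExp N) :
    HasFiniteOrderAtCusps N (algebraMap Hol Mero H) := by
  intro g
  refine ⟨g • H, 1, Eventually.of_forall fun τ => one_ne_zero, ?_, ?_⟩
  · rw [translate_algebraMap, map_one, mul_one]
  obtain ⟨x, hx⟩ := h g
  obtain ⟨M, hM⟩ : ∃ M : ℕ, -x.order ≤ M := ⟨(-x.order).toNat, Int.self_le_toNat _⟩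
  have hN : (0 : ℝ) < N := Nat.cast_pos.mpr (NeZero.pos N)
  have ht := (hx.tendsto hN (m := -(M : ℤ))
    fun k hk => HahnSeries.coeff_eq_zero_of_lt_order (by omega)).norm
  refine ⟨M, Asymptotics.IsBigO.of_bound (max 1 (‖x.coeff (-(M : ℤ))‖ + 1)) ?_⟩
  filter_upwards [ht.eventually_le_const (lt_add_one _),
    (UpperHalfPlane.qParam_tendsto_atImInfty hN).eventually
      (Metric.ball_mem_nhds (0 : ℂ) one_pos)] with τ hτ hq
  rw [show (1 : Hol).1 τ = 1 from rfl, div_one, Pi.one_apply, norm_one, mul_one]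
  set q := Function.Periodic.qParam (N : ℝ) (τ : ℂ)
  set y := ‖q ^ M * (g • H).1 τ‖ with hy
  have hq1 : ‖q‖ ≤ 1 := by
    have := Metric.mem_ball.mp hq
    rw [dist_zero_right] at this
    exact this.le
  have hyn : y ^ n ≤ ‖x.coeff (-(M : ℤ))‖ + 1 := by
    refine le_trans ?_ hτ
    rw [hy, ← norm_pow, zpow_neg, inv_inv, zpow_natCast, mul_pow, ← pow_mul,
      show (g • (H ^ n)).1 τ = (g • H).1 τ ^ n from rfl, norm_mul, norm_mul, norm_pow,
      norm_pow, mul_comm (‖(g • H).1 τ‖ ^ n), norm_pow]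
    refine mul_le_mul_of_nonneg_right (pow_le_pow_of_le_one (norm_nonneg q) hq1 ?_) (by positivity)
    exact Nat.le_mul_of_pos_right M (Nat.pos_of_ne_zero hn)
  rcases le_or_gt y 1 with h1 | h1
  · exact le_trans h1 (le_max_left _ _)
  · exact le_trans ((le_self_pow₀ h1.le hn).trans hyn) (le_max_right _ _)

theorem smul_evalHol_mem_holExp (g : SL(2, ℤ)) (a : RC N) : g • evalHol N a ∈ HolExp N := by
  obtain ⟨a, ha⟩ := a
  induction ha using Algebra.adjoin_induction with
  | mem y hy =>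
    obtain ⟨d, _, hd, rfl⟩ := hy
    rw [evalHol_gen N hd]
    exact smul_jHol_mem N g hd
  | algebraMap c =>
    rw [show (⟨algebraMap ℂ (LaurentSeries ℂ) c, _⟩ : RC N) = algebraMap ℂ (RC N) c from rfl,
      AlgHom.commutes, smul_algebraMap_hol]
    exact (HolExp N).algebraMap_mem c
  | add x y hx hy ihx ihy =>
    rw [show (⟨x + y, _⟩ : RC N) = ⟨x, hx⟩ + ⟨y, hy⟩ from rfl, map_add, smul_add]
    exact add_mem ihx ihy
  | mul x y hx hy ihx ihy =>
    rw [show (⟨x * y, _⟩ : RC N) = ⟨x, hx⟩ * ⟨y, hy⟩ from rfl, map_mul, smul_mul']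
    exact mul_mem ihx ihy

/-- A class with trivial character is trivial (GAGA). -/
theorem eq_zero_of_isKummerCharOver_zero {x : Pic0 ℂ (FL N ℂ)}
    (h : IsKummerCharOver (RingHom.id ℂ) x 0) : x = 0 := by
  obtain ⟨n, D, f, G, rfl, hD, hG⟩ := h
  have hGinv : ∀ γ ∈ Gamma0 N, translate γ G = G := fun γ hγ => by
    have := hG (⟨γ, hγ⟩⁻¹ : Gamma0 N)
    simpa [qzExp_zero'] using this
  obtain ⟨a, b, hb, hab⟩ := IsFractionRing.div_surjective (A := RC N) (toFC N (RingHom.id ℂ) f)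
  have hbne : b ≠ 0 := nonZeroDivisors.ne_zero hb
  have hb0 : evalMero N (algebraMap (RC N) (FC N) b) ≠ 0 :=
    (map_ne_zero _).mpr ((map_ne_zero_iff _ (IsFractionRing.injective (RC N) (FC N))).mpr hbne)
  have hroot : (G * evalMero N (algebraMap (RC N) (FC N) b)) ^ n =
      algebraMap Hol Mero (evalHol N (a * b ^ (n - 1))) := by
    rw [mul_pow, hD.root, evalL_apply, ← hab, ← evalMero_algebraMap, ← map_pow, ← map_mul]
    congr 1
    have hb' : algebraMap (RC N) (FC N) b ≠ 0 :=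
      (map_ne_zero_iff _ (IsFractionRing.injective (RC N) (FC N))).mpr hbne
    rw [map_mul, map_pow, div_mul_eq_mul_div, div_eq_iff hb', mul_assoc, ← pow_succ,
      Nat.sub_add_cancel (Nat.pos_of_ne_zero hD.n_ne)]
  obtain ⟨H, hH⟩ := exists_hol_of_pow_eq hD.n_ne (mul_ne_zero hD.root_ne_zero hb0) hroot
  have hHn : H ^ n = evalHol N (a * b ^ (n - 1)) :=
    IsFractionRing.injective Hol Mero (by rw [map_pow, hH, hroot])
  obtain ⟨y, hy⟩ := exists_evalMero_eq (N := N) (φ := algebraMap Hol Mero H)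
    (fun γ hγ => by rw [hH, map_mul, hGinv γ hγ, translate_evalMero N hγ])
    (hasFiniteOrderAtCusps_of_pow_mem_holExp hD.n_ne
      fun g => by rw [hHn]; exact smul_evalHol_mem_holExp g _)
  set e := (equivFC N).symm (y / algebraMap (RC N) (FC N) b) with he
  have hev : evalL (RingHom.id ℂ) N e = G := by
    rw [he, evalL_id_equivFC_symm, map_div₀, hy, hH, mul_div_cancel_right₀ _ hb0]
  have he0 : e ≠ 0 := fun h0 => hD.root_ne_zero (by rw [← hev, h0, map_zero])
  have hfe : f = e ^ n := (evalL (RingHom.id ℂ) N).injective (by rw [map_pow, hev, hD.root])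
  rw [Pic0.mk, QuotientAddGroup.eq_zero_iff, AddSubgroup.mem_addSubgroupOf]
  refine ⟨e, he0, fun v => ?_⟩
  have hv := hD.divisor v
  rw [hfe, Curve.ord_pow] at hv
  exact mul_left_cancel₀ (by exact_mod_cast hD.n_ne) hv

theorem isOfFinAddOrder_qz (t : QZ) : IsOfFinAddOrder t := by
  induction t using QuotientAddGroup.induction_on with
  | _ q =>
    refine isOfFinAddOrder_iff_nsmul_eq_zero.mpr ⟨q.den, q.pos, ?_⟩
    rw [← QuotientAddGroup.mk_nsmul, QuotientAddGroup.eq_zero_iff,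
      AddSubgroup.mem_zmultiples_iff]
    exact ⟨q.num, by simp [nsmul_eq_mul, Rat.den_mul_eq_num]⟩

theorem exists_gen_ext (N : ℕ) [NeZero N] : ∃ S : Finset (Additive (Gamma0 N)),
    ∀ φ ψ : Additive (Gamma0 N) →+ QZ, (∀ g ∈ S, φ g = ψ g) → φ = ψ := by
  have : Group.FG (Gamma0 N) := Periods.group_fg_gamma0 N
  have : AddGroup.FG (Additive (Gamma0 N)) := GroupFG.iff_add_fg.mp inferInstance
  obtain ⟨S, hS⟩ := AddGroup.fg_def.mp this
  exact ⟨S, fun φ ψ h => AddMonoidHom.eq_of_eqOn_dense hS h⟩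

theorem exists_nsmul_eq_zero (φ : Additive (Gamma0 N) →+ QZ) : ∃ n : ℕ, n ≠ 0 ∧ n • φ = 0 := by
  obtain ⟨S, hS⟩ := exists_gen_ext N
  refine ⟨∏ g ∈ S, addOrderOf (φ g), Finset.prod_ne_zero_iff.mpr fun g _ =>
    (isOfFinAddOrder_qz _).addOrderOf_pos.ne', hS _ _ fun g hg => ?_⟩
  obtain ⟨c, hc⟩ := Finset.dvd_prod_of_mem (fun g => addOrderOf (φ g)) hg
  rw [AddMonoidHom.nsmul_apply, hc, mul_nsmul, addOrderOf_nsmul_eq_zero, nsmul_zero,
    AddMonoidHom.zero_apply]

/-- Every cuspidal character is the character of a class over `ℂ` (Riemann existence). -/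
theorem exists_isKummerCharOver_complex {φ : Additive (Gamma0 N) →+ QZ}
    (hφ : φ ∈ Periods.cuspidalHoms ℤ (Gamma0 N) QZ) :
    ∃ x : Pic0 ℂ (FL N ℂ), IsKummerCharOver (RingHom.id ℂ) x φ := by
  obtain ⟨n, hn, hnφ⟩ := exists_nsmul_eq_zero φ
  obtain ⟨f, G, hf0, -, hev, -, hG, hdvd⟩ := exists_function_of_cuspidalHom N hφ hn hnφ
  have := isFunctionField1_FL N (RingHom.id ℂ)
  have := isFunctionField1_FC N
  set f' := (equivFC N).symm f with hf'
  have hf'0 : f' ≠ 0 := (map_ne_zero (equivFC N).symm).mpr hf0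
  obtain ⟨E, hE, hE0⟩ := HasPrincipalDivisors.exists_divisor (K := ℂ) f' hf'0
  have hdvd' : ∀ v : Place ℂ (FL N ℂ), (n : ℤ) ∣ v.ord f' := fun v => by
    rw [← Curve.ord_mapPlace (equivFC N) v f', hf', AlgEquiv.apply_symm_apply]
    exact hdvd _
  let D : Divisor ℂ (FL N ℂ) := E.mapRange (fun k => k / (n : ℤ)) (by simp)
  have hDv : ∀ v, (n : ℤ) * D v = v.ord f' := fun v => by
    show (n : ℤ) * (E v / n) = _
    rw [hE, Int.mul_ediv_cancel' (hdvd' v)]
  have hDE : (n : ℕ) • D = E := Finsupp.ext fun v => by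
    rw [Finsupp.smul_apply, nsmul_eq_mul, hE, hDv]
  have hD0 : Divisor.degree D = 0 := by
    have := congrArg (Divisor.degree (K := ℂ) (F := FL N ℂ)) hDE
    rw [map_nsmul, hE0, smul_eq_zero] at this
    exact this.resolve_left hn
  refine ⟨Pic0.mk ⟨D, hD0⟩, n, ⟨D, hD0⟩, f', algebraMap Hol Mero G, rfl,
    ⟨hn, hf'0, hDv, by rw [hf', evalL_id_equivFC_symm, hev]⟩, fun γ => ?_⟩
  have := hG γ⁻¹
  rw [ofMul_inv, map_neg, neg_neg, Subgroup.coe_inv] at this
  rw [translate_algebraMap, this, map_mul, ← IsScalarTower.algebraMap_apply]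

/-- There are finitely many characters killed by `n`. -/
theorem finite_setOf_nsmul_eq_zero {n : ℕ} (hn : n ≠ 0) :
    {φ : Additive (Gamma0 N) →+ QZ | n • φ = 0}.Finite := by
  obtain ⟨S, hS⟩ := exists_gen_ext N
  have : Finite {t : QZ // n • t = 0} :=
    Finite.of_injective
      (fun t => (⟨qzExp t.1, by
        rw [Finset.mem_coe, Multiset.mem_toFinset, Polynomial.mem_nthRoots (Nat.pos_of_ne_zero hn),
          ← qzExp_nsmul', t.2, qzExp_zero']⟩ : ((Polynomial.nthRoots n (1 : ℂ)).toFinset : Set ℂ)))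
      (fun s t h => Subtype.ext (qzExp_injective' (congrArg Subtype.val h)))
  refine Set.finite_coe_iff.mp (Finite.of_injective
    (fun φ => fun g : S => (⟨(φ.1 : Additive (Gamma0 N) →+ QZ) g, by
      rw [← AddMonoidHom.nsmul_apply, φ.2, AddMonoidHom.zero_apply]⟩ : {t : QZ // n • t = 0})) ?_)
  intro φ ψ h
  exact Subtype.ext (hS _ _ fun g hg => congrArg Subtype.val (congrFun h ⟨g, hg⟩))

end Fermat.Agent.EichlerShimura
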