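import Mathlib.GroupTheory.Transfer
import Mathlib.NumberTheory.ModularForms.CongruenceSubgroups

/-!
# The transfer of characters attached to a Hecke leg

For `θ : H →* G` with `H` of finite index in `G`, a character of `G` gives the transfer of its
pullback along `θ`.  The functional equation below says that this is the automorphy character of
`∏ t_q • S F`, where `g • F = ψ g • F` and `S` intertwines `H` with its image under `θ`.
-/

set_option autoImplicit false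

noncomputable section

open scoped MatrixGroups

namespace Fermat.Agent.EichlerShimura

section Generic

variable {G : Type*} [Group G] {H : Subgroup G} [H.FiniteIndex]

open Subgroup Subgroup.leftTransversals in
/-- Transfer computed with arbitrary coset representatives. -/
theorem transfer_eq_prod_reps {A : Type*} [CommGroup A] [inst : Fintype (G ⧸ H)] (ϕ : H →* A)
    (t : G ⧸ H → G) (ht : ∀ q, (t q : G ⧸ H) = q) (g : G)
    (hmem : ∀ q, (t (g • q))⁻¹ * g * t q ∈ H) :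
    MonoidHom.transfer ϕ g = ∏ q : G ⧸ H, ϕ ⟨(t (g • q))⁻¹ * g * t q, hmem q⟩ := by
  obtain rfl : inst = H.fintypeQuotientOfFiniteIndex := Subsingleton.elim _ _
  letI := H.fintypeQuotientOfFiniteIndex
  let T : H.LeftTransversal := ⟨Set.range t, isComplement_range_left ht⟩
  have hT : ∀ q, (T.2.leftQuotientEquiv q : G) = t q :=
    fun q => IsComplement.leftQuotientEquiv_apply ht q
  rw [MonoidHom.transfer_def ϕ T g]
  refine Fintype.prod_equiv (MulAction.toPerm g).symm _ _ fun q => ?_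
  refine congrArg ϕ (Subtype.ext ?_)
  show (T.2.leftQuotientEquiv q : G)⁻¹ * ((g • T).2.leftQuotientEquiv q : G) =
    (t (g • g⁻¹ • q))⁻¹ * g * t (g⁻¹ • q)
  rw [smul_apply_eq_smul_apply_inv_smul, hT, hT, smul_eq_mul, smul_inv_smul, mul_assoc]

theorem rep_mul_rep_mem (t : G ⧸ H → G) (ht : ∀ q, (t q : G ⧸ H) = q) (g : G) (q : G ⧸ H) :
    (t (g • q))⁻¹ * g * t q ∈ H := by
  rw [mul_assoc, ← QuotientGroup.eq, ← smul_eq_mul g (t q), ← MulAction.Quotient.smul_coe, ht, ht]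

/-- Functoriality of the transfer in the coefficient group. -/
theorem map_transfer {A B : Type*} [CommGroup A] [CommGroup B] (f : A →* B) (ϕ : H →* A) (g : G) :
    f (MonoidHom.transfer ϕ g) = MonoidHom.transfer (f.comp ϕ) g := by
  haveI : Fintype (G ⧸ H) := H.fintypeQuotientOfFiniteIndex
  rw [transfer_eq_prod_reps ϕ Quotient.out (fun q => q.out_eq') g (rep_mul_rep_mem _ (fun q => q.out_eq') g),
    transfer_eq_prod_reps (f.comp ϕ) Quotient.out (fun q => q.out_eq') g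
      (rep_mul_rep_mem _ (fun q => q.out_eq') g), map_prod]
  rfl

variable {M : Type*} [CommMonoid M] [MulDistribMulAction G M]

/-- If `g • F = c (ψ g) * F` and `h • S F' = S (θ h • F')`, the product of the translates of `S F`
over the cosets transforms by the transfer of `ψ ∘ θ`. -/
theorem smul_prod_translates {A : Type*} [CommGroup A] [Fintype (G ⧸ H)]
    (θ : H →* G) (S : M →* M) (hS : ∀ (h : H) (x : M), (h : G) • S x = S (θ h • x))
    (c : A →* M) (hcS : ∀ a, S (c a) = c a) (hcG : ∀ (g : G) (a : A), g • c a = c a)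
    (ψ : G →* A) {F : M} (hF : ∀ g : G, g • F = c (ψ g) * F)
    (t : G ⧸ H → G) (ht : ∀ q, (t q : G ⧸ H) = q) (g : G) :
    g • (∏ q : G ⧸ H, t q • S F) =
      c (MonoidHom.transfer (ψ.comp θ) g) * ∏ q : G ⧸ H, t q • S F := by
  rw [transfer_eq_prod_reps (ψ.comp θ) t ht g (rep_mul_rep_mem t ht g), map_prod, Finset.smul_prod']
  set k : G ⧸ H → H := fun q => ⟨(t (g • q))⁻¹ * g * t q, rep_mul_rep_mem t ht g q⟩ with hk
  have key : ∀ q, g • t q • S F = c ((ψ.comp θ) (k q)) * t (g • q) • S F := by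
    intro q
    have h1 : g * t q = t (g • q) * (k q : G) := by
      simp [hk, mul_assoc]
    rw [smul_smul, h1, ← smul_smul, hS, hF, map_mul, hcS, smul_mul', hcG]
    rfl
  simp_rw [key]
  rw [Finset.prod_mul_distrib]
  congr 1
  exact Equiv.prod_comp (MulAction.toPerm g : Equiv.Perm (G ⧸ H)) fun q => t q • S F

end Generic

section Gamma0

open CongruenceSubgroup

variable (N ℓ : ℕ) [NeZero ℓ]

/-- `Γ₀(Nℓ)` as a subgroup of `Γ₀(N)`. -/
def levelSubgroup : Subgroup (Gamma0 N) := (Gamma0 (N * ℓ)).subgroupOf (Gamma0 N)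

omit [NeZero ℓ] in
theorem levelSubgroup_dvd (γ : levelSubgroup N ℓ) :
    ((N * ℓ : ℕ) : ℤ) ∣ ((γ : Gamma0 N) : SL(2, ℤ)) 1 0 := by
  have h : (((γ : Gamma0 N) : SL(2, ℤ)) : SL(2, ℤ)) ∈ Gamma0 (N * ℓ) := Subgroup.mem_subgroupOf.mp γ.2
  exact (ZMod.intCast_zmod_eq_zero_iff_dvd _ _).mp (Gamma0_mem.mp h)

instance [NeZero N] : (levelSubgroup N ℓ).FiniteIndex := by
  haveI : NeZero (N * ℓ) := ⟨Nat.mul_ne_zero (NeZero.ne N) (NeZero.ne ℓ)⟩
  unfold levelSubgroup
  infer_instance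

/-- Conjugation by `diag(ℓ, 1)` on integral matrices whose lower left entry is divisible by `ℓ`. -/
def scaleConjMat (A : Matrix (Fin 2) (Fin 2) ℤ) : Matrix (Fin 2) (Fin 2) ℤ :=
  !![A 0 0, (ℓ : ℤ) * A 0 1; A 1 0 / (ℓ : ℤ), A 1 1]

theorem scaleConjMat_spec {A : Matrix (Fin 2) (Fin 2) ℤ} (h : (ℓ : ℤ) ∣ A 1 0) :
    scaleConjMat ℓ A * !![(ℓ : ℤ), 0; 0, 1] = !![(ℓ : ℤ), 0; 0, 1] * A := by
  ext i j
  fin_cases i <;> fin_cases j <;>
    simp [scaleConjMat, Matrix.mul_apply, Fin.sum_univ_two, Int.ediv_mul_cancel h, mul_comm]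

theorem scaleConjMat_det {A : Matrix (Fin 2) (Fin 2) ℤ} (h : (ℓ : ℤ) ∣ A 1 0) :
    (scaleConjMat ℓ A).det = A.det := by
  have h1 := congrArg Matrix.det (scaleConjMat_spec ℓ h)
  rw [Matrix.det_mul, Matrix.det_mul, mul_comm] at h1
  exact mul_left_cancel₀ (by simp [Matrix.det_fin_two, NeZero.ne ℓ]) h1

omit [NeZero ℓ] in
theorem ell_dvd_lower_left (γ : levelSubgroup N ℓ) :
    (ℓ : ℤ) ∣ ((γ : Gamma0 N) : SL(2, ℤ)) 1 0 :=
  (Dvd.intro_left (N : ℤ) (by push_cast; rfl)).trans (levelSubgroup_dvd N ℓ γ)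

/-- The image of `γ ∈ Γ₀(Nℓ)` under conjugation by `diag(ℓ, 1)`. -/
def scaleConjSL (γ : levelSubgroup N ℓ) : SL(2, ℤ) :=
  ⟨scaleConjMat ℓ ((γ : Gamma0 N) : SL(2, ℤ)).1, by
    rw [scaleConjMat_det ℓ (ell_dvd_lower_left N ℓ γ)]
    exact ((γ : Gamma0 N) : SL(2, ℤ)).2⟩

theorem scaleConjSL_mem (γ : levelSubgroup N ℓ) : scaleConjSL N ℓ γ ∈ Gamma0 N := by
  rw [Gamma0_mem, ZMod.intCast_zmod_eq_zero_iff_dvd]
  show (N : ℤ) ∣ scaleConjMat ℓ ((γ : Gamma0 N) : SL(2, ℤ)).1 1 0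
  obtain ⟨k, hk⟩ := levelSubgroup_dvd N ℓ γ
  simp only [scaleConjMat, Matrix.of_apply, Matrix.cons_val', Matrix.cons_val_zero,
    Matrix.cons_val_one, Matrix.cons_val_fin_one]
  refine ⟨k, ?_⟩
  rw [hk, show ((N * ℓ : ℕ) : ℤ) * k = ((N : ℤ) * k) * ℓ by push_cast; ring,
    Int.mul_ediv_cancel _ (by exact_mod_cast NeZero.ne ℓ)]

/-- Conjugation by `diag(ℓ, 1)`, as a homomorphism `Γ₀(Nℓ) →* Γ₀(N)`. -/
def scaleConj : levelSubgroup N ℓ →* Gamma0 N where
  toFun γ := ⟨scaleConjSL N ℓ γ, scaleConjSL_mem N ℓ γ⟩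
  map_one' := by
    refine Subtype.ext (Subtype.ext ?_)
    show scaleConjMat ℓ (1 : Matrix (Fin 2) (Fin 2) ℤ) = 1
    ext i j
    fin_cases i <;> fin_cases j <;> simp [scaleConjMat]
  map_mul' γ δ := by
    refine Subtype.ext (Subtype.ext ?_)
    show scaleConjMat ℓ (((γ : Gamma0 N) : SL(2, ℤ)).1 * ((δ : Gamma0 N) : SL(2, ℤ)).1) =
      scaleConjMat ℓ ((γ : Gamma0 N) : SL(2, ℤ)).1 * scaleConjMat ℓ ((δ : Gamma0 N) : SL(2, ℤ)).1
    have hA := ell_dvd_lower_left N ℓ γ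
    have hB := ell_dvd_lower_left N ℓ δ
    have hAB : (ℓ : ℤ) ∣ (((γ : Gamma0 N) : SL(2, ℤ)).1 * ((δ : Gamma0 N) : SL(2, ℤ)).1) 1 0 :=
      ell_dvd_lower_left N ℓ (γ * δ)
    have key : (scaleConjMat ℓ (((γ : Gamma0 N) : SL(2, ℤ)).1 * ((δ : Gamma0 N) : SL(2, ℤ)).1)) *
          !![(ℓ : ℤ), 0; 0, 1] =
        (scaleConjMat ℓ ((γ : Gamma0 N) : SL(2, ℤ)).1 * scaleConjMat ℓ ((δ : Gamma0 N) : SL(2, ℤ)).1) *
          !![(ℓ : ℤ), 0; 0, 1] := by
      rw [scaleConjMat_spec ℓ hAB, Matrix.mul_assoc (scaleConjMat ℓ _), scaleConjMat_spec ℓ hB,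
        ← Matrix.mul_assoc, ← Matrix.mul_assoc, scaleConjMat_spec ℓ hA]
    ext i j
    have h := congrFun (congrFun key i) j
    fin_cases j <;> simp [Matrix.mul_apply, Fin.sum_univ_two, NeZero.ne ℓ] at h ⊢ <;> exact h

theorem coe_scaleConj (γ : levelSubgroup N ℓ) :
    ((scaleConj N ℓ γ : Gamma0 N) : SL(2, ℤ)).1 = scaleConjMat ℓ ((γ : Gamma0 N) : SL(2, ℤ)).1 :=
  rfl

variable [NeZero N] (A : Type*) [AddCommGroup A]

/-- The operator on `Hom(Γ₀(N), A)` induced by the correspondence `α_* β^*`: transfer of the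
pullback along conjugation by `diag(ℓ, 1)`. -/
def jacTransfer : (Additive (Gamma0 N) →+ A) →+ (Additive (Gamma0 N) →+ A) where
  toFun χ := MonoidHom.toAdditiveLeft
    (MonoidHom.transfer ((AddMonoidHom.toMultiplicativeRight χ).comp (scaleConj N ℓ)))
  map_zero' := by
    haveI : Fintype (Gamma0 N ⧸ levelSubgroup N ℓ) := Subgroup.fintypeQuotientOfFiniteIndex
    refine AddMonoidHom.ext fun g => ?_
    show Multiplicative.toAdd (MonoidHom.transfer ((AddMonoidHom.toMultiplicativeRight (0 : Additive (Gamma0 N) →+ A)).comp (scaleConj N ℓ)) (Additive.toMul g)) = 0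
    rw [transfer_eq_prod_reps _ Quotient.out (fun q => q.out_eq') _
      (rep_mul_rep_mem _ (fun q => q.out_eq') _), toAdd_prod]
    simp
  map_add' χ χ' := by
    haveI : Fintype (Gamma0 N ⧸ levelSubgroup N ℓ) := Subgroup.fintypeQuotientOfFiniteIndex
    refine AddMonoidHom.ext fun g => ?_
    show Multiplicative.toAdd (MonoidHom.transfer ((AddMonoidHom.toMultiplicativeRight (χ + χ')).comp (scaleConj N ℓ)) (Additive.toMul g)) =
      Multiplicative.toAdd (MonoidHom.transfer ((AddMonoidHom.toMultiplicativeRight χ).comp (scaleConj N ℓ)) (Additive.toMul g)) +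
      Multiplicative.toAdd (MonoidHom.transfer ((AddMonoidHom.toMultiplicativeRight χ').comp (scaleConj N ℓ)) (Additive.toMul g))
    simp only [transfer_eq_prod_reps _ Quotient.out (fun q => q.out_eq') _
      (rep_mul_rep_mem _ (fun q => q.out_eq') _), toAdd_prod]
    rw [← Finset.sum_add_distrib]
    rfl

/-- The defining formula of `jacTransfer`. -/
theorem jacTransfer_apply [Fintype (Gamma0 N ⧸ levelSubgroup N ℓ)]
    (χ : Additive (Gamma0 N) →+ A) (t : Gamma0 N ⧸ levelSubgroup N ℓ → Gamma0 N)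
    (ht : ∀ q, (t q : Gamma0 N ⧸ levelSubgroup N ℓ) = q) (g : Gamma0 N) :
    jacTransfer N ℓ A χ (Additive.ofMul g) = ∑ q : Gamma0 N ⧸ levelSubgroup N ℓ,
      χ (Additive.ofMul (scaleConj N ℓ ⟨(t (g • q))⁻¹ * g * t q, rep_mul_rep_mem t ht g q⟩)) := by
  show Multiplicative.toAdd (MonoidHom.transfer ((AddMonoidHom.toMultiplicativeRight χ).comp (scaleConj N ℓ)) g) = _
  rw [transfer_eq_prod_reps _ t ht g (rep_mul_rep_mem t ht g), toAdd_prod]
  rfl

/-- Naturality of `jacTransfer` in the coefficient group. -/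
theorem jacTransfer_natural {B : Type*} [AddCommGroup B] (f : A →+ B) (χ : Additive (Gamma0 N) →+ A) :
    jacTransfer N ℓ B (f.comp χ) = f.comp (jacTransfer N ℓ A χ) := by
  haveI : Fintype (Gamma0 N ⧸ levelSubgroup N ℓ) := Subgroup.fintypeQuotientOfFiniteIndex
  refine AddMonoidHom.ext fun g => ?_
  rw [← ofMul_toMul g, AddMonoidHom.comp_apply,
    jacTransfer_apply N ℓ B _ Quotient.out (fun q => q.out_eq'),
    jacTransfer_apply N ℓ A _ Quotient.out (fun q => q.out_eq'), map_sum]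
  rfl

end Gamma0

end Fermat.Agent.EichlerShimura

end
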