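import Fermat.Agent.Modular.Eval
import Fermat.Agent.Modular.Conjugates
import Fermat.Agent.EichlerShimura.CharTransfer
import Fermat.Agent.EichlerShimura.GaloisHecke
import Fermat.Prelude.Def_ModularCurve_PeriodHomPair
import Fermat.Prelude.Def_ModularCurve_HeckeOperator
import Fermat.Prelude.Def_GaloisRep_ComplexConjugation
import Mathlib.Analysis.Calculus.Deriv.Star

/-!
# Dilation and complex conjugation of meromorphic functions on `ℍ`

`scaleMero ℓ : F ↦ F (ℓ z)` and `conjMero : F ↦ conj (F (-z̄))`, their commutation with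
translations, and their compatibility with `heckeBetaBar`, `heckeAlphaBar` and the action of
complex conjugation on the modular function field.
-/

set_option autoImplicit false

noncomputable section

open scoped Manifold MatrixGroups ComplexConjugate
open UpperHalfPlane CongruenceSubgroup ModularCurve ModularCurve.Period Fermat.Agent.Modular

namespace Fermat.Agent.EichlerShimura

section Scale

variable (ℓ : ℕ) [NeZero ℓ]

/-- `F ↦ (z ↦ F (ℓ z))` on holomorphic functions. -/
def scaleHol : Hol →+* Hol where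
  toFun F := ⟨fun z => F.1 (mulH ℓ z), F.2.comp (mdifferentiable_affineH ℓ 0 1)⟩
  map_one' := rfl
  map_mul' _ _ := rfl
  map_zero' := rfl
  map_add' _ _ := rfl

@[simp]
theorem scaleHol_apply (F : Hol) (z : ℍ) : (scaleHol ℓ F).1 z = F.1 (mulH ℓ z) := rfl

theorem scaleHol_injective : Function.Injective (scaleHol ℓ) := by
  intro F G h
  refine Subtype.ext (funext fun z => ?_)
  have hz : mulH ℓ (affineH 1 0 ℓ z) = z := by
    ext1
    rw [coe_mulH, coe_affineH]
    push_cast
    rw [one_mul, add_zero, mul_div_cancel₀ _ (Nat.cast_ne_zero.mpr (NeZero.ne ℓ))]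
  have := congrFun (congrArg Subtype.val h) (affineH 1 0 ℓ z)
  rwa [scaleHol_apply, scaleHol_apply, hz] at this

theorem scaleMero_aux : Function.Injective ((algebraMap Hol Mero).comp (scaleHol ℓ)) :=
  (IsFractionRing.injective Hol Mero).comp (scaleHol_injective ℓ)

/-- `F ↦ (z ↦ F (ℓ z))` on meromorphic functions. -/
def scaleMero : Mero →+* Mero := IsFractionRing.lift (scaleMero_aux ℓ)

@[simp]
theorem scaleMero_algebraMap (F : Hol) :
    scaleMero ℓ (algebraMap Hol Mero F) = algebraMap Hol Mero (scaleHol ℓ F) :=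
  IsFractionRing.lift_algebraMap _ _

@[simp]
theorem scaleMero_const (c : ℂ) : scaleMero ℓ (algebraMap ℂ Mero c) = algebraMap ℂ Mero c := by
  rw [IsScalarTower.algebraMap_apply ℂ Hol Mero, scaleMero_algebraMap]
  rfl

variable {N : ℕ}

theorem mulH_scaleConj (k : levelSubgroup N ℓ) (z : ℍ) :
    mulH ℓ (((k : Gamma0 N) : SL(2, ℤ)) • z) =
      ((scaleConj N ℓ k : Gamma0 N) : SL(2, ℤ)) • mulH ℓ z := by
  refine mulH_smul ℓ ℓ 1 0 ((k : Gamma0 N) : SL(2, ℤ)) _ ?_ z
  rw [coe_scaleConj, Nat.cast_one, levelMat]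
  exact scaleConjMat_spec ℓ (ell_dvd_lower_left N ℓ k)

theorem smul_scaleHol (h : levelSubgroup N ℓ) (F : Hol) :
    ((h : Gamma0 N) : SL(2, ℤ)) • scaleHol ℓ F =
      scaleHol ℓ (((scaleConj N ℓ h : Gamma0 N) : SL(2, ℤ)) • F) := by
  refine Subtype.ext (funext fun z => ?_)
  rw [smul_hol_apply, scaleHol_apply, scaleHol_apply, smul_hol_apply]
  have := mulH_scaleConj ℓ (h⁻¹) z
  rw [map_inv, Subgroup.coe_inv, Subgroup.coe_inv, Subgroup.coe_inv] at this
  rw [this]

theorem translate_scaleMero (h : levelSubgroup N ℓ) (φ : Mero) :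
    translate ((h : Gamma0 N) : SL(2, ℤ)) (scaleMero ℓ φ) =
      scaleMero ℓ (translate ((scaleConj N ℓ h : Gamma0 N) : SL(2, ℤ)) φ) := by
  obtain ⟨a, b, -, rfl⟩ := IsFractionRing.div_surjective (A := Hol) φ
  simp [smul_scaleHol ℓ h]

end Scale

section Conj

/-- The reflection `z ↦ -z̄` of `ℍ`. -/
def reflectH (z : ℍ) : ℍ := ⟨-conj (z : ℂ), by simpa using z.im_pos⟩

@[simp]
theorem coe_reflectH (z : ℍ) : (reflectH z : ℂ) = -conj (z : ℂ) := rfl

@[simp]
theorem reflectH_reflectH (z : ℍ) : reflectH (reflectH z) = z := by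
  ext1
  simp

theorem mdifferentiable_conj_reflect {F : ℍ → ℂ} (hF : MDiff F) :
    MDiff fun z => conj (F (reflectH z)) := by
  rw [UpperHalfPlane.mdifferentiable_iff] at hF ⊢
  intro z hz
  have hz' : 0 < (-conj z).im := by simpa using hz
  have h1 : DifferentiableAt ℂ (fun w => (F ∘ ofComplex) (-w)) (conj z) :=
    ((hF _ hz').differentiableAt (isOpen_upperHalfPlaneSet.mem_nhds hz')).comp _
      differentiableAt_id.neg
  have h2 : DifferentiableAt ℂ (conj ∘ (fun w => (F ∘ ofComplex) (-w)) ∘ conj) z := by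
    simpa using h1.conj_conj
  refine (h2.congr_of_eventuallyEq ?_).differentiableWithinAt
  filter_upwards [isOpen_upperHalfPlaneSet.mem_nhds hz] with w hw
  have hw' : 0 < (-conj w).im := by simpa using hw
  simp only [Function.comp_apply]
  rw [ofComplex_apply_of_im_pos hw, ofComplex_apply_of_im_pos hw']
  congr 2

/-- `F ↦ (z ↦ conj (F (-z̄)))` on holomorphic functions. -/
def conjHol : Hol →+* Hol where
  toFun F := ⟨fun z => conj (F.1 (reflectH z)), mdifferentiable_conj_reflect F.2⟩
  map_one' := Subtype.ext (funext fun _ => map_one (starRingEnd ℂ))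
  map_mul' _ _ := Subtype.ext (funext fun _ => map_mul (starRingEnd ℂ) _ _)
  map_zero' := Subtype.ext (funext fun _ => map_zero (starRingEnd ℂ))
  map_add' _ _ := Subtype.ext (funext fun _ => map_add (starRingEnd ℂ) _ _)

@[simp]
theorem conjHol_apply (F : Hol) (z : ℍ) : (conjHol F).1 z = conj (F.1 (reflectH z)) := rfl

theorem conjHol_injective : Function.Injective conjHol := by
  intro F G h
  refine Subtype.ext (funext fun z => ?_)
  have := congrFun (congrArg Subtype.val h) (reflectH z)
  exact star_injective (by simpa using this)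

theorem conjMero_aux : Function.Injective ((algebraMap Hol Mero).comp conjHol) :=
  (IsFractionRing.injective Hol Mero).comp conjHol_injective

/-- `F ↦ (z ↦ conj (F (-z̄)))` on meromorphic functions. -/
def conjMero : Mero →+* Mero := IsFractionRing.lift conjMero_aux

@[simp]
theorem conjMero_algebraMap (F : Hol) :
    conjMero (algebraMap Hol Mero F) = algebraMap Hol Mero (conjHol F) :=
  IsFractionRing.lift_algebraMap _ _

@[simp]
theorem conjMero_const (c : ℂ) : conjMero (algebraMap ℂ Mero c) = algebraMap ℂ Mero (conj c) := by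
  rw [IsScalarTower.algebraMap_apply ℂ Hol Mero, conjMero_algebraMap]
  rfl

theorem reflectH_smul (g : SL(2, ℤ)) (z : ℍ) : reflectH (g • z) = jConjSL g • reflectH z := by
  ext1
  rw [coe_reflectH, coe_smul_SL, coe_smul_SL, coe_reflectH]
  rw [jConjSL_coe, jConjMat_apply_zero_zero, jConjMat_apply_zero_one, jConjMat_apply_one_zero,
    jConjMat_apply_one_one, map_div₀, ← neg_div]
  simp only [map_add, map_mul, map_intCast, Int.cast_neg]
  congr 1 <;> ring

theorem smul_conjHol (g : SL(2, ℤ)) (F : Hol) : g • conjHol F = conjHol (jConjSL g • F) := by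
  refine Subtype.ext (funext fun z => ?_)
  rw [smul_hol_apply, conjHol_apply, conjHol_apply, smul_hol_apply, reflectH_smul, map_inv]

theorem translate_conjMero (g : SL(2, ℤ)) (φ : Mero) :
    translate g (conjMero φ) = conjMero (translate (jConjSL g) φ) := by
  obtain ⟨a, b, -, rfl⟩ := IsFractionRing.div_surjective (A := Hol) φ
  simp [smul_conjHol]

theorem conj_qParam_one (z : ℂ) :
    conj (Function.Periodic.qParam 1 (-conj z)) = Function.Periodic.qParam 1 z := by
  rw [Function.Periodic.qParam, Function.Periodic.qParam, ← Complex.exp_conj]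
  congr 1
  simp [map_div₀, map_ofNat]

theorem hasQExp_conj {F : ℍ → ℂ} {x : LaurentSeries ℂ} (hF : HasQExp 1 F x) :
    HasQExp 1 (fun z => conj (F (reflectH z))) (coeffMap (starRingEnd ℂ) x) := by
  intro τ
  have := (hF (reflectH τ)).map (starRingEnd ℂ) Complex.continuous_conj
  refine this.congr_fun fun n => ?_
  simp only [Function.comp_apply, map_mul, map_zpow₀, coe_reflectH, conj_qParam_one, coeffMap_coeff]

end Conj

section Eval

variable {L : Type*} [Field L] [Algebra ℚ L] (ι : L →+* ℂ) (N : ℕ) [NeZero N]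

/-- The function on `ℍ` of an element of the modular function field. -/
def evalL : FL N L →+* Mero := (evalMero N).toRingHom.comp (toFC N ι)

theorem evalL_apply (f : FL N L) : evalL ι N f = evalMero N (toFC N ι f) := rfl

theorem evalL_eq_sigma : evalL ι N = sigma N ι 1 := by
  ext f
  rw [sigma_apply, evalL_apply, map_one]
  rfl

theorem translate_evalL {g : SL(2, ℤ)} (hg : g ∈ Gamma0 N) (f : FL N L) :
    translate g (evalL ι N f) = evalL ι N f :=
  translate_evalMero N hg _

@[simp]
theorem evalL_algebraMap (a : L) :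
    evalL ι N (algebraMap L (FL N L) a) = algebraMap ℂ Mero (ι a) := by
  rw [evalL_apply, toFC_algebraMap, AlgHom.commutes]

@[simp]
theorem evalL_jdL {d : ℕ} [NeZero d] (hd : d ∣ N) :
    evalL ι N (jdL N L hd) = algebraMap Hol Mero (jHol d) := by
  rw [evalL_apply, toFC_jdL, evalMero_jdC]

omit [NeZero N] in
/-- Ring homs out of `FL N L` are determined by the constants and the `j(q^d)`. -/
theorem flHom_ext {M : Type*} [Field M] {φ ψ : FL N L →+* M}
    (hc : ∀ a : L, φ (algebraMap L _ a) = ψ (algebraMap L _ a))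
    (hj : ∀ (d : ℕ) (_ : NeZero d) (hd : d ∣ N), φ (jdL N L hd) = ψ (jdL N L hd)) : φ = ψ := by
  let E : Subfield (LaurentSeries L) := (φ.eqLocusField ψ).map (FL N L).val.toRingHom
  have hmem : ∀ x : FL N L, (x : LaurentSeries L) ∈ E → φ x = ψ x := by
    rintro x ⟨y, hy, hyx⟩
    rwa [show x = y from Subtype.ext hyx.symm]
  refine RingHom.ext fun x => hmem x ?_
  have hx := x.2
  rw [mem_laurentBaseChange_iff] at hx
  refine (Subfield.closure_le (t := E)).mpr ?_ hx
  rintro y (⟨a, rfl⟩ | ⟨z, hz, rfl⟩)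
  · exact ⟨algebraMap L _ a, hc a, rfl⟩
  · induction hz using IntermediateField.adjoin_induction with
    | mem w hw =>
      obtain ⟨d, hne, hd, rfl⟩ := hw
      exact ⟨jdL N L hd, hj d hne hd, rfl⟩
    | algebraMap c =>
      refine ⟨algebraMap L _ (algebraMap ℚ L c), hc _, ?_⟩
      show algebraMap L (LaurentSeries L) (algebraMap ℚ L c) =
        coeffEmb L (algebraMap ℚ (LaurentSeries ℚ) c)
      rw [algebraMap_apply_eq_single, coeffEmb, coeffMap_single, algebraMap_laurentSeries_eq_single]
    | add x y _ _ hx hy => rw [map_add]; exact add_mem hx hy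
    | inv x _ hx => rw [map_inv₀]; exact inv_mem hx
    | mul x y _ _ hx hy => rw [map_mul]; exact mul_mem hx hy

variable (ℓ : ℕ) [NeZero ℓ]

theorem evalL_heckeAlphaBar (f : FL N L) :
    evalL ι (N * ℓ) (heckeAlphaBar L N ℓ f) = evalL ι N f := by
  have key : (evalL ι (N * ℓ)).comp (heckeAlphaBar L N ℓ).toRingHom = evalL ι N := by
    refine flHom_ext N (fun a => ?_) (fun d _ hd => ?_)
    · simp
    · have e : heckeAlphaBar L N ℓ (jdL N L hd) = jdL (N * ℓ) L (hd.trans (dvd_mul_right N ℓ)) :=
        Subtype.ext (coe_heckeAlphaBar N ℓ _)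
      simp [e]
  exact RingHom.congr_fun key f

theorem evalL_heckeBetaBar (f : FL N L) :
    evalL ι (N * ℓ) (heckeBetaBar L N ℓ f) = scaleMero ℓ (evalL ι N f) := by
  have key : (evalL ι (N * ℓ)).comp (heckeBetaBar L N ℓ).toRingHom =
      (scaleMero ℓ).comp (evalL ι N) := by
    refine flHom_ext N (fun a => ?_) (fun d _ hd => ?_)
    · simp
    · haveI : NeZero (ℓ * d) := ⟨Nat.mul_ne_zero (NeZero.ne ℓ) (NeZero.ne d)⟩
      have hd' : ℓ * d ∣ N * ℓ := (mul_dvd_mul_left ℓ hd).trans (dvd_of_eq (mul_comm ℓ N))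
      have e : heckeBetaBar L N ℓ (jdL N L hd) = jdL (N * ℓ) L hd' := by
        refine Subtype.ext ?_
        rw [coe_heckeBetaBar]
        show qExpand L ℓ (coeffEmb L (qExpand ℚ d jq)) = coeffEmb L (qExpand ℚ (ℓ * d) jq)
        rw [coeffEmb, ← coeffMap_qExpand_comm, qExpand_qExpand]
      have e2 : scaleHol ℓ (jHol d) = jHol (ℓ * d) := by
        refine Subtype.ext (funext fun z => ?_)
        rw [scaleHol_apply, jHol_apply, jHol_apply]
        congr 1
        ext1
        simp only [coe_mulH, Nat.cast_mul]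
        ring
      simp [e, e2]
  exact RingHom.congr_fun key f

theorem evalL_arithmeticGalois_conj (σ : L ≃ₐ[ℚ] L) (hσ : ∀ a, ι (σ a) = conj (ι a))
    (f : FL N L) :
    evalL ι N (arithmeticGalois (modularFunctionFieldFull N) σ • f) = conjMero (evalL ι N f) := by
  have key : (evalL ι N).comp (arithmeticRingAut (modularFunctionFieldFull N) σ).toRingHom =
      conjMero.comp (evalL ι N) := by
    refine flHom_ext N (fun a => ?_) (fun d _ hd => ?_)
    · have e := arithmeticRingAut_algebraMap (modularFunctionFieldFull N) σ a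
      simp [e, hσ]
    · have e : arithmeticRingAut (modularFunctionFieldFull N) σ (jdL N L hd) = jdL N L hd :=
        Subtype.ext (coeffMap_coeffEmb σ _)
      have e2 : conjHol (jHol d) = jHol d := by
        refine Subtype.ext ?_
        have h1 := hasQExp_conj (hasQExp_jHol d)
        have h2 : coeffMap (starRingEnd ℂ) (qExpand ℂ d (jqModC ℂ)) = qExpand ℂ d (jqModC ℂ) := by
          rw [coeffMap_qExpand_comm, coeffMap_jqModC]
        rw [h2] at h1
        exact h1.eq (hasQExp_jHol d)
      simp [e, e2]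
  exact RingHom.congr_fun key f

end Eval

end Fermat.Agent.EichlerShimura

end
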