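import Fermat.Agent.EichlerShimura.BaseChangeDegree
import Fermat.Agent.Curve.Degree

/-!
Places of a function field and of its extension of (algebraically closed) constants.
-/

set_option autoImplicit false

noncomputable section

open HahnSeries ModularCurve AlgebraicCurve IntermediateField
open Fermat.Agent.Curve

namespace Fermat.Agent.EichlerShimura

variable {k L : Type*} [Field k] [Field L] [Algebra ℚ k] [Algebra ℚ L]
variable {F₀ : IntermediateField ℚ (LaurentSeries ℚ)} {ι : k →ₐ[ℚ] L}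

local notation "F_k" => laurentBaseChange k F₀
local notation "F_L" => laurentBaseChange L F₀

theorem mem_range_of_isAlgebraic {K M : Type*} [Field K] [Field M] [Algebra K M] [IsAlgClosed K]
    {x : M} (h : IsAlgebraic K x) : ∃ a : K, algebraMap K M a = x :=
  minpoly.mem_range_of_degree_eq_one (A := K) (x := x)
    (IsAlgClosed.degree_eq_one_of_irreducible K (minpoly.irreducible h.isIntegral))

variable (ι) in
/-- `v` lies above `w` with ramification index one. -/
def LiesAbove (v : Place L F_L) (w : Place k F_k) : Prop :=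
  ∀ f : F_k, v.ord (bcHom F₀ ι f) = w.ord f

theorem exists_sum_of_mem_span {K M α : Type*} [CommRing K] [CommRing M] [Algebra K M] (f : α → M)
    {s : Set α} {x : M} (hx : x ∈ Submodule.span K (f '' s)) :
    ∃ (n : ℕ) (c : Fin n → K) (z : Fin n → α), (∀ i, z i ∈ s) ∧
      x = ∑ i, algebraMap K M (c i) * f (z i) := by
  obtain ⟨n, c, g, hg⟩ := Submodule.mem_span_set'.mp hx
  choose z hz hzg using fun i => (g i).2
  refine ⟨n, c, z, hz, hg.symm.trans (Finset.sum_congr rfl fun i _ => ?_)⟩
  rw [Algebra.smul_def, hzg]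

/-- Elements of the span of the image of a valuation ring, times a non-unit, avoid `1`. -/
theorem uniformizer_mul_ne_one (w : Place k F_k) {t : F_k} (ht : 0 < w.ord t) {x : F_L}
    (hx : x ∈ Submodule.span L (bcHom F₀ ι '' (w.toValuationSubring : Set F_k))) :
    bcHom F₀ ι t * x ≠ 1 := by
  obtain ⟨φ, hφ, hφ1⟩ := exists_functional ι (one_ne_zero (α := L))
  obtain ⟨n, c, z, hz, hxeq⟩ := exists_sum_of_mem_span _ hx
  intro h1
  have h2 : algebraMap L F_L 1 * bcHom F₀ ι 1
      = ∑ i, algebraMap L F_L (c i) * bcHom F₀ ι (t * z i) := by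
    rw [map_one, map_one, one_mul, ← h1, hxeq, Finset.mul_sum]
    refine Finset.sum_congr rfl fun i _ => ?_
    rw [map_mul (bcHom F₀ ι)]
    exact mul_left_comm _ _ _
  have h3 := congrArg (coeffFunctional F₀ φ) h2
  rw [map_sum, coeffFunctional_mul_bcHom F₀ ι hφ, hφ1, map_one, one_mul] at h3
  simp only [coeffFunctional_mul_bcHom F₀ ι hφ] at h3
  set Z : F_k := ∑ i, algebraMap k F_k (φ (c i)) * z i
  have h4 : (1 : F_k) = t * Z := by
    refine Subtype.ext (h3.trans ?_)
    show _ = (t : LaurentSeries k) * (Z : LaurentSeries k)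
    rw [AddSubmonoidClass.coe_finsetSum, Finset.mul_sum]
    exact Finset.sum_congr rfl fun i _ => mul_left_comm _ _ _
  have hZmem : Z ∈ w.toValuationSubring :=
    sum_mem fun i _ => mul_mem (w.algebraMap_mem' _) (hz i)
  have ht0 : t ≠ 0 := fun h => by simp [h] at ht
  have hZ0 : Z ≠ 0 := fun h => one_ne_zero (α := F_k) (by rw [h4, h, mul_zero])
  have h5 := congrArg w.ord h4
  rw [w.ord_one, w.ord_mul ht0 hZ0] at h5
  have := ord_nonneg_of_mem w hZmem
  omega

variable [IsFunctionField1 k (laurentBaseChange k F₀)] [IsFunctionField1 L (laurentBaseChange L F₀)]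

omit [IsFunctionField1 L (laurentBaseChange L F₀)] in
theorem exists_restriction (v : Place L F_L) {y : F_k} (hy : v.ord (bcHom F₀ ι y) ≠ 0) :
    ∃ (w : Place k F_k) (e : ℤ), 0 < e ∧ ∀ f : F_k, v.ord (bcHom F₀ ι f) = e * w.ord f := by
  let A : ValuationSubring F_k := v.toValuationSubring.comap (bcHom F₀ ι)
  have hK : ∀ a : k, algebraMap k F_k a ∈ A := fun a => by
    show bcHom F₀ ι (algebraMap k F_k a) ∈ v.toValuationSubring
    rw [bcHom_algebraMap]
    exact v.algebraMap_mem' _
  have hne : A ≠ ⊤ := by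
    intro h
    have h1 : bcHom F₀ ι y ∈ v.toValuationSubring :=
      (h ▸ ValuationSubring.mem_top y : y ∈ A)
    have h2 : bcHom F₀ ι y⁻¹ ∈ v.toValuationSubring :=
      (h ▸ ValuationSubring.mem_top y⁻¹ : y⁻¹ ∈ A)
    have h3 := ord_nonneg_of_mem v h1
    have h4 := ord_nonneg_of_mem v h2
    rw [map_inv₀, v.ord_inv] at h4
    omega
  set w := placeOfValuationSubring A hK hne
  have hmem : ∀ f : F_k, f ∈ w.toValuationSubring ↔ bcHom F₀ ι f ∈ v.toValuationSubring :=
    fun f => Iff.rfl
  have hzero : ∀ f : F_k, w.ord f = 0 → v.ord (bcHom F₀ ι f) = 0 := by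
    intro f hf
    have h1 := (hmem f).mp (mem_of_ord_nonneg w (by omega))
    have h2 := (hmem f⁻¹).mp (mem_of_ord_nonneg w (by rw [w.ord_inv]; omega))
    have h3 := ord_nonneg_of_mem v h1
    have h4 := ord_nonneg_of_mem v h2
    rw [map_inv₀, v.ord_inv] at h4
    omega
  obtain ⟨t, ht0, ht⟩ := exists_uniformizer w
  refine ⟨w, v.ord (bcHom F₀ ι t), ?_, fun f => ?_⟩
  · by_contra hle
    have h := (hmem t⁻¹).mpr (mem_of_ord_nonneg v (by rw [map_inv₀, v.ord_inv]; omega))
    have := ord_nonneg_of_mem w h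
    rw [w.ord_inv] at this
    omega
  · rcases eq_or_ne f 0 with rfl | hf
    · simp
    have hu : w.ord (f * t ^ (-w.ord f)) = 0 := by
      rw [w.ord_mul hf (zpow_ne_zero _ ht0), w.ord_zpow, ht]
      ring
    have h := hzero _ hu
    rw [map_mul, v.ord_mul ((map_ne_zero _).mpr hf) ((map_ne_zero _).mpr (zpow_ne_zero _ ht0)),
      map_zpow₀, v.ord_zpow] at h
    linarith

/-- Every place has a place above it. -/
theorem exists_over (w : Place k F_k) :
    ∃ (v : Place L F_L) (e : ℤ), 0 < e ∧ ∀ f : F_k, v.ord (bcHom F₀ ι f) = e * w.ord f := by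
  classical
  obtain ⟨t, ht0, ht⟩ := exists_uniformizer w
  let s : Set F_L := bcHom F₀ ι '' (w.toValuationSubring : Set F_k)
  let R : Subalgebra L F_L := Algebra.adjoin L s
  have hR : ∀ x ∈ R, x ∈ Submodule.span L s := by
    intro x hx
    have h : x ∈ Subalgebra.toSubmodule R := hx
    rw [Algebra.adjoin_eq_span] at h
    refine Submodule.span_mono ?_ h
    intro y hy
    exact Submonoid.closure_le
      (S := (w.toValuationSubring.toSubring.toSubmonoid.map (bcHom F₀ ι).toMonoidHom)).mpr
      (fun z hz => hz) hy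
  have htR : bcHom F₀ ι t ∈ R := Algebra.subset_adjoin ⟨t, mem_of_ord_nonneg w (by omega), rfl⟩
  have hne : Ideal.span {(⟨bcHom F₀ ι t, htR⟩ : R.toSubring)} ≠ ⊤ := by
    intro h
    obtain ⟨g, hg⟩ := isUnit_iff_exists_inv.mp (Ideal.span_singleton_eq_top.mp h)
    exact uniformizer_mul_ne_one w (by omega) (hR g.1 g.2) (congrArg Subtype.val hg)
  obtain ⟨B, hB, hI⟩ := Ideal.image_subset_nonunits_valuationSubring _ hne
  have htB : bcHom F₀ ι t ∈ B.nonunits := hI ⟨⟨_, htR⟩, Ideal.subset_span rfl, rfl⟩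
  have hbt : bcHom F₀ ι t ≠ 0 := (map_ne_zero _).mpr ht0
  have htinv : (bcHom F₀ ι t)⁻¹ ∉ B := fun h => by
    have h2 := (B.valuation_le_one_iff _).mpr h
    rw [map_inv₀, inv_le_one₀ (zero_lt_iff.mpr ((Valuation.ne_zero_iff _).mpr hbt))] at h2
    exact not_le.mpr (B.mem_nonunits_iff.mp htB) h2
  have htop : B ≠ ⊤ := fun h => htinv (h ▸ ValuationSubring.mem_top _)
  set v := placeOfValuationSubring B (fun a => hB (R.algebraMap_mem a)) htop
  have hvt : 0 < v.ord (bcHom F₀ ι t) := by
    by_contra hle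
    exact htinv (mem_of_ord_nonneg v (by rw [v.ord_inv]; omega))
  obtain ⟨w', e, he, hw'⟩ := exists_restriction v hvt.ne'
  refine ⟨v, e, he, ?_⟩
  suffices w = w' by rw [this]; exact hw'
  refine place_ext_ord fun f hf => ?_
  have hmem : bcHom F₀ ι f ∈ v.toValuationSubring :=
    hB (Algebra.subset_adjoin ⟨f, mem_of_ord_nonneg w hf, rfl⟩)
  have := ord_nonneg_of_mem v hmem
  rw [hw'] at this
  by_contra hneg
  have : e * w'.ord f < 0 := mul_neg_of_pos_of_neg he (not_le.mp hneg)
  omega

omit [IsFunctionField1 L (laurentBaseChange L F₀)] in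
theorem sum_zeros_eq_finrank [IsAlgClosed k] {y : F_k} (hy : Transcendental k y) :
    ∃ S : Finset (Place k F_k), (∀ P, P ∈ S ↔ 0 < P.ord y) ∧
      ∑ P ∈ S, P.ord y = (Module.finrank k⟮y⟯ F_k : ℤ) := by
  have hyi : Transcendental k y⁻¹ := fun h => hy (by simpa using h.inv)
  have hfield : k⟮y⁻¹⟯ = k⟮y⟯ := by
    refine le_antisymm ?_ ?_
    · exact IntermediateField.adjoin_simple_le_iff.mpr
        (inv_mem (IntermediateField.mem_adjoin_simple_self k y))
    · exact IntermediateField.adjoin_simple_le_iff.mpr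
        (by simpa using inv_mem (IntermediateField.mem_adjoin_simple_self k y⁻¹))
  refine ⟨(poleDivisor (K := k) y⁻¹).support, fun P => ?_, ?_⟩
  · rw [Finsupp.mem_support_iff, poleDivisor_apply, Place.ord_inv]
    omega
  · have h := degree_poleDivisor hyi
    rw [hfield] at h
    rw [← h, Divisor.degree, Finsupp.liftAddHom_apply, Finsupp.sum]
    refine Finset.sum_congr rfl fun P hP => ?_
    rw [Finsupp.mem_support_iff, poleDivisor_apply, Place.ord_inv] at hP
    simp only [AddMonoidHom.coe_mulRight, deg_eq_one, Nat.cast_one, mul_one, poleDivisor_apply,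
      Place.ord_inv]
    omega

variable [IsAlgClosed k] [IsAlgClosed L]

/-- The place above `w` is unique and unramified. -/
theorem existsUnique_liesAbove (w : Place k F_k) : ∃! v : Place L F_L, LiesAbove ι v w := by
  classical
  have : Nonempty (Place k F_k) := ⟨w⟩
  obtain ⟨y, hy0, hwy⟩ := exists_uniformizer w
  have hy : Transcendental k y := transcendental_uniformizer w hwy
  have := finiteDimensional_adjoin hy
  obtain ⟨T, hT, hTsum⟩ := sum_zeros_eq_finrank hy
  obtain ⟨S, hS, hSsum⟩ := sum_zeros_eq_finrank (transcendental_bcHom F₀ ι hy)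
  rw [(finrank_bcHom F₀ ι hy).2, ← hTsum] at hSsum
  -- choose the restriction of every zero
  have hres : ∀ v ∈ S, ∃ (w' : Place k F_k) (e : ℤ), 0 < e ∧ w' ∈ T ∧
      ∀ f : F_k, v.ord (bcHom F₀ ι f) = e * w'.ord f := by
    intro v hv
    obtain ⟨w', e, he, h⟩ := exists_restriction v (ι := ι) ((hS v).mp hv).ne'
    refine ⟨w', e, he, (hT w').mpr ?_, h⟩
    have := (hS v).mp hv
    rw [h] at this
    exact pos_of_mul_pos_right this he.le
  choose! r e he hrT hr using hres
  have hmap : ∀ v ∈ S, r v ∈ T := hrT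
  have hfib : ∑ v ∈ S, v.ord (bcHom F₀ ι y)
      = ∑ P ∈ T, (∑ v ∈ S.filter (fun v => r v = P), e v) * P.ord y := by
    rw [← Finset.sum_fiberwise_of_maps_to hmap (fun v => v.ord (bcHom F₀ ι y))]
    refine Finset.sum_congr rfl fun P _ => ?_
    rw [Finset.sum_mul]
    refine Finset.sum_congr rfl fun v hv => ?_
    obtain ⟨hv1, hv2⟩ := Finset.mem_filter.mp hv
    rw [hr v hv1, hv2]
  have hsurj : ∀ P ∈ T, ∃ v ∈ S, r v = P := by
    intro P hP
    obtain ⟨v, e', he', hv⟩ := exists_over (ι := ι) P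
    have hvS : v ∈ S := (hS v).mpr (by rw [hv]; exact mul_pos he' ((hT P).mp hP))
    refine ⟨v, hvS, place_ext_ord fun f hf => ?_⟩
    have h := hv f
    rw [hr v hvS f] at h
    have : 0 ≤ e' * P.ord f := by
      rw [← h]; exact mul_nonneg (he v hvS).le hf
    exact nonneg_of_mul_nonneg_right (by linarith : (0:ℤ) ≤ e' * P.ord f) he'
  have hone : ∀ P ∈ T, 1 ≤ ∑ v ∈ S.filter (fun v => r v = P), e v := by
    intro P hP
    obtain ⟨v, hvS, hvP⟩ := hsurj P hP
    have h1 : e v ≤ ∑ v ∈ S.filter (fun v => r v = P), e v :=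
      Finset.single_le_sum (fun u hu => (he u (Finset.mem_filter.mp hu).1).le)
        (Finset.mem_filter.mpr ⟨hvS, hvP⟩)
    have := he v hvS
    omega
  have hsum1 : ∀ P ∈ T, ∑ v ∈ S.filter (fun v => r v = P), e v = 1 := by
    intro P hP
    by_contra hne
    have hlt : ∑ Q ∈ T, Q.ord y < ∑ Q ∈ T, (∑ v ∈ S.filter (fun v => r v = Q), e v) * Q.ord y :=
      Finset.sum_lt_sum
        (fun Q hQ => le_mul_of_one_le_left ((hT Q).mp hQ).le (hone Q hQ))
        ⟨P, hP, lt_mul_of_one_lt_left ((hT P).mp hP) (lt_of_le_of_ne (hone P hP) (Ne.symm hne))⟩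
    rw [← hfib, hSsum] at hlt
    exact lt_irrefl _ hlt
  have hwT : w ∈ T := (hT w).mpr (by omega)
  obtain ⟨v, hvS, hvw⟩ := hsurj w hwT
  have hev : e v = 1 := by
    have h1 : e v ≤ ∑ u ∈ S.filter (fun u => r u = w), e u :=
      Finset.single_le_sum (fun u hu => (he u (Finset.mem_filter.mp hu).1).le)
        (Finset.mem_filter.mpr ⟨hvS, hvw⟩)
    have := he v hvS
    rw [hsum1 w hwT] at h1
    omega
  refine ⟨v, fun f => by rw [hr v hvS f, hev, one_mul, hvw], fun v' hv' => ?_⟩
  have hv'S : v' ∈ S := (hS v').mpr (by rw [hv' y]; omega)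
  have hv'w : r v' = w := place_ext_ord fun f hf => by
    rw [← hv' f, hr v' hv'S f]
    exact mul_nonneg (he v' hv'S).le hf
  by_contra hne
  have h2 : e v + e v' ≤ ∑ u ∈ S.filter (fun u => r u = w), e u := by
    rw [← Finset.sum_pair (Ne.symm hne)]
    refine Finset.sum_le_sum_of_subset_of_nonneg ?_ fun u hu _ => (he u (Finset.mem_filter.mp hu).1).le
    intro u hu
    rcases Finset.mem_insert.mp hu with rfl | hu
    · exact Finset.mem_filter.mpr ⟨hvS, hvw⟩
    · rw [Finset.mem_singleton.mp hu]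
      exact Finset.mem_filter.mpr ⟨hv'S, hv'w⟩
  rw [hsum1 w hwT] at h2
  have := he v' hv'S
  omega

variable (ι) in
/-- The place above a place of the smaller field. -/
def placeUp (w : Place k F_k) : Place L F_L :=
  (existsUnique_liesAbove (ι := ι) w).exists.choose

theorem ord_placeUp (w : Place k F_k) (f : F_k) :
    (placeUp ι w).ord (bcHom F₀ ι f) = w.ord f :=
  (existsUnique_liesAbove (ι := ι) w).exists.choose_spec f

theorem placeUp_injective : Function.Injective (placeUp (F₀ := F₀) ι) := fun w w' h =>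
  place_ext_ord fun f hf => by
    rwa [← ord_placeUp (ι := ι) w', ← h, ord_placeUp]

theorem eq_placeUp {v : Place L F_L} {w : Place k F_k} (h : LiesAbove ι v w) : v = placeUp ι w :=
  (existsUnique_liesAbove (ι := ι) w).unique h
    (existsUnique_liesAbove (ι := ι) w).exists.choose_spec

/-- A place seeing some function of the smaller field is a base change. -/
theorem mem_range_placeUp {v : Place L F_L} {y : F_k} (hy : v.ord (bcHom F₀ ι y) ≠ 0) :
    v ∈ Set.range (placeUp (F₀ := F₀) ι) := by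
  obtain ⟨w, e, he, hv⟩ := exists_restriction v hy
  have hmem : ∀ f : F_k, 0 ≤ w.ord f → 0 ≤ v.ord (bcHom F₀ ι f) := fun f hf => by
    rw [hv]; exact mul_nonneg he.le hf
  obtain ⟨t, ht0, ht⟩ := exists_uniformizer w
  have hvt : v.ord (bcHom F₀ ι t) = e := by rw [hv, ht, mul_one]
  -- uniqueness among the zeros of a uniformizer
  refine ⟨w, ?_⟩
  classical
  have hy : Transcendental k t := transcendental_uniformizer w ht
  have := finiteDimensional_adjoin hy
  obtain ⟨T, hT, hTsum⟩ := sum_zeros_eq_finrank hy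
  obtain ⟨S, hS, hSsum⟩ := sum_zeros_eq_finrank (transcendental_bcHom F₀ ι hy)
  rw [(finrank_bcHom F₀ ι hy).2, ← hTsum] at hSsum
  by_contra hne
  have hsub : insert v (T.image (placeUp ι)) ⊆ S := by
    intro u hu
    rcases Finset.mem_insert.mp hu with rfl | hu
    · exact (hS u).mpr (by omega)
    · obtain ⟨Q, hQ, rfl⟩ := Finset.mem_image.mp hu
      exact (hS _).mpr (by rw [ord_placeUp]; exact (hT Q).mp hQ)
  have hnot : v ∉ T.image (placeUp ι) := by
    intro h
    obtain ⟨Q, hQ, rfl⟩ := Finset.mem_image.mp h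
    refine hne (congrArg _ (place_ext_ord fun f hf => ?_))
    rw [← ord_placeUp (ι := ι) Q f]
    exact hmem f hf
  have h1 := Finset.sum_le_sum_of_subset_of_nonneg hsub
    (f := fun u => u.ord (bcHom F₀ ι t)) fun u hu _ => ((hS u).mp hu).le
  rw [Finset.sum_insert hnot, Finset.sum_image placeUp_injective.injOn, hSsum] at h1
  simp only [ord_placeUp] at h1
  omega

variable (ι) in
/-- Base change of divisors. -/
def bcDiv : Divisor k F_k →+ Divisor L F_L := Finsupp.mapDomain.addMonoidHom (placeUp ι)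

theorem bcDiv_apply_placeUp (D : Divisor k F_k) (w : Place k F_k) :
    bcDiv ι D (placeUp ι w) = D w :=
  Finsupp.mapDomain_apply placeUp_injective D w

theorem degree_bcDiv (D : Divisor k F_k) : Divisor.degree (bcDiv ι D) = Divisor.degree D := by
  induction D using Finsupp.induction with
  | zero => simp
  | single_add w n D _ _ ih =>
    rw [map_add, map_add, map_add, ih]
    congr 1
    show Divisor.degree (Finsupp.mapDomain (placeUp ι) (Finsupp.single w n)) = _
    rw [Finsupp.mapDomain_single, Divisor.degree_single, Divisor.degree_single, deg_eq_one,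
      deg_eq_one]

/-- Base change commutes with divisors of functions. -/
theorem bcDiv_eq_ord {D : Divisor k F_k} {f : F_k} (hD : ∀ w, D w = w.ord f) (v : Place L F_L) :
    bcDiv ι D v = v.ord (bcHom F₀ ι f) := by
  by_cases h : v ∈ Set.range (placeUp (F₀ := F₀) ι)
  · obtain ⟨w, rfl⟩ := h
    rw [bcDiv_apply_placeUp, ord_placeUp, hD]
  · rw [show bcDiv ι D v = 0 from Finsupp.mapDomain_of_notMem_range D v h]
    by_contra hne
    exact h (mem_range_placeUp (Ne.symm hne))


omit [Algebra ℚ L] [IsAlgClosed L] in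
theorem leadingCoeff_coeffMap (τ : L →+* L) {x : LaurentSeries L} (hx : x ≠ 0) :
    (coeffMap τ x).leadingCoeff = τ x.leadingCoeff := by
  have hτx : coeffMap τ x ≠ 0 := (map_ne_zero _).mpr hx
  have hlo : (coeffMap τ x).order = x.order := by
    refine le_antisymm (HahnSeries.order_le_of_coeff_ne_zero ?_)
      (HahnSeries.order_le_of_coeff_ne_zero ?_)
    · rw [coeffMap_coeff, Ne, map_eq_zero_iff τ τ.injective]
      exact HahnSeries.coeff_order_eq_zero.not.mpr hx
    · intro e
      exact HahnSeries.coeff_order_eq_zero.not.mpr hτx (by rw [coeffMap_coeff, e, map_zero])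
  rw [HahnSeries.leadingCoeff_eq, hlo, coeffMap_coeff, ← HahnSeries.leadingCoeff_eq]

theorem bcDiv_smul_apply {σ : L ≃ₐ[ℚ] L} (hσ : σ ∈ fixingAuts ι) (D : Divisor k F_k)
    (v : Place L F_L) : bcDiv ι D (arithmeticGalois F₀ σ • v) = bcDiv ι D v := by
  set g := arithmeticGalois F₀ σ
  have hfix : ∀ f : F_k, (g • v).ord (bcHom F₀ ι f) = v.ord (bcHom F₀ ι f) := fun f => by
    conv_lhs => rw [← arithmeticGalois_bcHom F₀ ι hσ f, SemilinearAut.ord_smul]
  by_cases hv : v ∈ Set.range (placeUp (F₀ := F₀) ι)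
  · obtain ⟨w, rfl⟩ := hv
    congr 1
    exact eq_placeUp fun f => (hfix f).trans (ord_placeUp w f)
  · rw [show bcDiv ι D v = 0 from Finsupp.mapDomain_of_notMem_range D v hv]
    refine Finsupp.mapDomain_of_notMem_range D _ fun hgv => hv ?_
    obtain ⟨w, hw⟩ := hgv
    exact ⟨w, (eq_placeUp fun f => by rw [← hfix f, ← hw, ord_placeUp]).symm⟩

theorem eq_of_leadingCoeff_eq {x y : F_L} (hx : x ≠ 0) (hy : y ≠ 0)
    (hord : ∀ v : Place L F_L, v.ord x = v.ord y)
    (hl : (x : LaurentSeries L).leadingCoeff = (y : LaurentSeries L).leadingCoeff) : x = y := by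
  obtain ⟨a, ha⟩ := mem_range_of_isAlgebraic (K := L) (x := x / y)
    (isAlgebraic_of_forall_ord_nonneg fun v => by rw [place_ord_div v hx hy, hord v, sub_self])
  rw [eq_div_iff hy] at ha
  have hxy : algebraMap L (LaurentSeries L) a * (y : LaurentSeries L) = (x : LaurentSeries L) :=
    congrArg Subtype.val ha
  refine Subtype.ext ?_
  have hyc : (y : LaurentSeries L) ≠ 0 := fun e => hy (Subtype.ext e)
  have h := congrArg HahnSeries.leadingCoeff hxy
  rw [HahnSeries.leadingCoeff_mul, hl, algebraMap_laurentSeries_eq_single,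
    HahnSeries.leadingCoeff_of_single, mul_left_eq_self₀] at h
  rcases h with h | h
  · rw [← hxy, h, map_one, one_mul]
  · exact absurd h (HahnSeries.leadingCoeff_ne_zero.mpr hyc)

/-- A divisor over `k` which becomes principal over `L` is principal. -/
theorem mem_principal_of_bcDiv_mem [CharZero k] {D : Divisor k F_k}
    (hD : bcDiv ι D ∈ Divisor.principal (K := L) (F := F_L)) :
    D ∈ Divisor.principal (K := k) (F := F_k) := by
  obtain ⟨h, hh, hdiv⟩ := hD
  set c := (h : LaurentSeries L).leadingCoeff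
  have hc : c ≠ 0 := HahnSeries.leadingCoeff_ne_zero.mpr fun e => hh (Subtype.ext e)
  set h' : F_L := algebraMap L F_L c⁻¹ * h
  have hh' : h' ≠ 0 := mul_ne_zero (by simpa using hc) hh
  have hdiv' : ∀ v, bcDiv ι D v = v.ord h' := fun v => by
    rw [hdiv v, place_ord_smul_const v (inv_ne_zero hc) hh]
  have hlead : (h' : LaurentSeries L).leadingCoeff = 1 := by
    show (algebraMap L (LaurentSeries L) c⁻¹ * (h : LaurentSeries L)).leadingCoeff = 1
    rw [HahnSeries.leadingCoeff_mul, algebraMap_laurentSeries_eq_single,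
      HahnSeries.leadingCoeff_of_single]
    exact inv_mul_cancel₀ hc
  have hfix : ∀ σ ∈ fixingAuts ι, arithmeticGalois F₀ σ • h' = h' := by
    intro σ hσ
    set g := arithmeticGalois F₀ σ
    have hgh : g • h' ≠ 0 := by
      rw [SemilinearAut.smul_def]
      exact fun e => hh' ((map_eq_zero_iff _ (SemilinearAut.toRingAut g).injective).mp e)
    refine eq_of_leadingCoeff_eq hgh hh' (fun v => ?_) ?_
    · obtain ⟨u, rfl⟩ : ∃ u, g • u = v := ⟨g⁻¹ • v, smul_inv_smul g v⟩
      rw [SemilinearAut.ord_smul, ← hdiv', ← hdiv', bcDiv_smul_apply hσ]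
    · rw [coe_arithmeticGalois_smul, leadingCoeff_coeffMap _ (fun e => hh' (Subtype.ext e)), hlead,
        map_one]
  obtain ⟨f, hf⟩ := mem_range_bcHom_of_fixed F₀ ι h' hfix
  refine ⟨f, fun e => hh' (by rw [← hf, e, map_zero]), fun w => ?_⟩
  rw [← bcDiv_apply_placeUp (ι := ι) D w, hdiv', ← hf, ord_placeUp]

end Fermat.Agent.EichlerShimura
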