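import Fermat.Agent.EichlerShimura.QZExp
import Fermat.Agent.EichlerShimura.MeroMaps
import Fermat.Agent.EichlerShimura.PlaceDescent
import Fermat.Agent.Modular.Genus
import Fermat.Agent.Periods.Defs

/-!
# The Kummer character of a torsion divisor class

For `L` with `ι : L →+* ℂ`: `x` in `Pic⁰(FL N L)` has character `φ` when for a representative `D`,
`n • D = div f`, some `G : Mero` has `G ^ n = f(z)` and `G (γ z) = qzExp (φ γ) * G z`.
-/

set_option autoImplicit false

noncomputable section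

open CongruenceSubgroup AlgebraicCurve ModularCurve
open Fermat.Agent.Modular
open scoped MatrixGroups

namespace Fermat.Agent.EichlerShimura

variable {L : Type*} [Field L] [Algebra ℚ L] {N : ℕ} [NeZero N] {ι : L →+* ℂ}

/-- `G` transforms by `φ`. -/
def HasMultiplier (G : Mero) (φ : Additive (Gamma0 N) →+ QZ) : Prop :=
  ∀ γ : Gamma0 N, translate (γ : SL(2, ℤ))⁻¹ G
    = algebraMap ℂ Mero (qzExp (φ (Additive.ofMul γ))) * G

variable (ι) in
/-- `n • D = div f` and `G ^ n` is the function of `f` on `ℍ`. -/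
structure IsKummerData (n : ℕ) (D : Divisor L (FL N L)) (f : FL N L) (G : Mero) : Prop where
  n_ne : n ≠ 0
  f_ne : f ≠ 0
  divisor : ∀ v : Place L (FL N L), (n : ℤ) * D v = v.ord f
  root : G ^ n = evalL ι N f

variable (ι) in
/-- `φ` is the Kummer character of `x`. -/
def IsKummerCharOver (x : Pic0 L (FL N L)) (φ : Additive (Gamma0 N) →+ QZ) : Prop :=
  ∃ (n : ℕ) (D : Divisor.degZero (K := L) (F := FL N L)) (f : FL N L) (G : Mero),
    Pic0.mk D = x ∧ IsKummerData ι n (D : Divisor L (FL N L)) f G ∧ HasMultiplier G φ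

variable (N) in
/-- The Kummer character of a point of `J₀(N)(ℚ̄)`, through `complexEmbedding`. -/
def IsKummerChar (x : JZero N) (φ : Additive (Gamma0 N) →+ QZ) : Prop :=
  IsKummerCharOver (complexEmbedding : AlgebraicClosure ℚ →+* ℂ) x φ

theorem IsKummerData.root_ne_zero {n : ℕ} {D : Divisor L (FL N L)} {f : FL N L} {G : Mero}
    (h : IsKummerData ι n D f G) : G ≠ 0 := by
  intro h0
  have := h.root
  rw [h0, zero_pow h.n_ne, eq_comm, map_eq_zero] at this
  exact h.f_ne this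

theorem IsKummerData.mul {n m : ℕ} {D E : Divisor L (FL N L)} {f g : FL N L} {G H : Mero}
    (h : IsKummerData ι n D f G) (k : IsKummerData ι m E g H) :
    IsKummerData ι (n * m) (D + E) (f ^ m * g ^ n) (G * H) where
  n_ne := mul_ne_zero h.n_ne k.n_ne
  f_ne := mul_ne_zero (pow_ne_zero _ h.f_ne) (pow_ne_zero _ k.f_ne)
  divisor v := by
    rw [v.ord_mul (pow_ne_zero _ h.f_ne) (pow_ne_zero _ k.f_ne), ← zpow_natCast f,
      ← zpow_natCast g, v.ord_zpow, v.ord_zpow, ← h.divisor, ← k.divisor, Finsupp.add_apply]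
    push_cast
    ring
  root := by
    rw [mul_pow, map_mul, map_pow, map_pow, ← h.root, ← k.root, ← pow_mul, ← pow_mul,
      mul_comm m n]

omit [NeZero N] in
theorem HasMultiplier.mul {G H : Mero} {φ ψ : Additive (Gamma0 N) →+ QZ} (hG : HasMultiplier G φ)
    (hH : HasMultiplier H ψ) : HasMultiplier (G * H) (φ + ψ) := fun γ => by
  rw [map_mul, hG γ, hH γ, AddMonoidHom.add_apply, qzExp_add, map_mul]
  ring

omit [NeZero N] in
theorem HasMultiplier.smul_const {G : Mero} {φ : Additive (Gamma0 N) →+ QZ}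
    (hG : HasMultiplier G φ) (c : ℂ) : HasMultiplier (algebraMap ℂ Mero c * G) φ := fun γ => by
  rw [map_mul, translate_const, hG γ]
  ring

theorem IsKummerCharOver.add {x y : Pic0 L (FL N L)} {φ ψ : Additive (Gamma0 N) →+ QZ}
    (hx : IsKummerCharOver ι x φ) (hy : IsKummerCharOver ι y ψ) :
    IsKummerCharOver ι (x + y) (φ + ψ) := by
  obtain ⟨n, D, f, G, rfl, hD, hG⟩ := hx
  obtain ⟨m, E, g, H, rfl, hE, hH⟩ := hy
  exact ⟨n * m, D + E, f ^ m * g ^ n, G * H, Pic0.mk_add D E, hD.mul hE, hG.mul hH⟩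

theorem IsKummerCharOver.isOfFinAddOrder {x : Pic0 L (FL N L)}
    {φ : Additive (Gamma0 N) →+ QZ} (hx : IsKummerCharOver ι x φ) : IsOfFinAddOrder x := by
  obtain ⟨n, D, f, G, rfl, hD, -⟩ := hx
  refine isOfFinAddOrder_iff_nsmul_eq_zero.mpr ⟨n, Nat.pos_of_ne_zero hD.n_ne, ?_⟩
  rw [Pic0.mk, ← QuotientAddGroup.mk_nsmul, QuotientAddGroup.eq_zero_iff,
    AddSubgroup.mem_addSubgroupOf]
  exact ⟨f, hD.f_ne, fun v => by
    rw [← hD.divisor v, AddSubgroupClass.coe_nsmul, Finsupp.smul_apply, nsmul_eq_mul]⟩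

theorem eq_algebraMap_mul_of_pow {n : ℕ} (hn : n ≠ 0) {P Q : Mero} (hQ : Q ≠ 0) {c : ℂ}
    (h : P ^ n = algebraMap ℂ Mero c * Q ^ n) : ∃ d : ℂ, P = algebraMap ℂ Mero d * Q := by
  have halg : IsAlgebraic ℂ (P / Q) := by
    refine ⟨Polynomial.X ^ n - Polynomial.C c, Polynomial.X_pow_sub_C_ne_zero
      (Nat.pos_of_ne_zero hn) c, ?_⟩
    simp [div_pow, h, hQ]
  obtain ⟨d, hd⟩ := mem_range_of_isAlgebraic halg
  exact ⟨d, by rw [hd, div_mul_cancel₀ _ hQ]⟩

variable [IsAlgClosed L]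

/-- The character of a class is unique. -/
theorem IsKummerCharOver.unique {x : Pic0 L (FL N L)} {φ ψ : Additive (Gamma0 N) →+ QZ}
    (hx : IsKummerCharOver ι x φ) (hy : IsKummerCharOver ι x ψ) : φ = ψ := by
  have := isFunctionField1_FL N ι
  obtain ⟨n, D, f, G, hDx, hD, hG⟩ := hx
  obtain ⟨m, E, g, H, hEx, hE, hH⟩ := hy
  have hdiff : -(D : Divisor.degZero (K := L) (F := FL N L)) + E ∈
      (Divisor.principal (K := L) (F := FL N L)).addSubgroupOf
        (Divisor.degZero (K := L) (F := FL N L)) := QuotientAddGroup.eq.mp (hDx.trans hEx.symm)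
  obtain ⟨h, hh0, hh⟩ := AddSubgroup.mem_addSubgroupOf.mp hdiff
  set q : FL N L := f ^ m * h ^ (n * m) / g ^ n
  have hnum : f ^ m * h ^ (n * m) ≠ 0 := mul_ne_zero (pow_ne_zero _ hD.f_ne) (pow_ne_zero _ hh0)
  have hq : ∀ v : Place L (FL N L), v.ord q = 0 := fun v => by
    rw [place_ord_div v hnum (pow_ne_zero _ hE.f_ne),
      v.ord_mul (pow_ne_zero _ hD.f_ne) (pow_ne_zero _ hh0), Curve.ord_pow, Curve.ord_pow,
      Curve.ord_pow, ← hD.divisor, ← hE.divisor, ← hh v, AddSubgroup.coe_add,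
      AddSubgroup.coe_neg, Finsupp.add_apply, Finsupp.neg_apply]
    push_cast
    ring
  obtain ⟨a, ha⟩ := mem_range_of_isAlgebraic (K := L)
    (Curve.isAlgebraic_of_forall_ord_nonneg fun v => (hq v).ge)
  rw [eq_div_iff (pow_ne_zero _ hE.f_ne)] at ha
  have hev := congrArg (evalL ι N) ha
  rw [map_mul, evalL_algebraMap, map_mul, map_pow, map_pow, map_pow, ← hD.root, ← hE.root,
    ← pow_mul, ← pow_mul, mul_comm m n, ← mul_pow] at hev
  obtain ⟨d, hd⟩ := eq_algebraMap_mul_of_pow (mul_ne_zero hD.n_ne hE.n_ne) hE.root_ne_zero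
    (P := G * evalL ι N h) hev.symm
  ext γ
  refine qzExp_injective' ((algebraMap ℂ Mero).injective
    (mul_right_cancel₀ (b := G * evalL ι N h)
      (mul_ne_zero hD.root_ne_zero ((map_ne_zero _).mpr hh0)) ?_))
  have e1 : translate (γ : SL(2, ℤ))⁻¹ (G * evalL ι N h)
      = algebraMap ℂ Mero (qzExp (φ (Additive.ofMul γ))) * (G * evalL ι N h) := by
    rw [map_mul, translate_evalL ι N (inv_mem γ.2), hG γ]
    ring
  have e2 : translate (γ : SL(2, ℤ))⁻¹ (G * evalL ι N h)
      = algebraMap ℂ Mero (qzExp (ψ (Additive.ofMul γ))) * (G * evalL ι N h) := by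
    rw [hd, map_mul, translate_const, hH γ]
    ring
  exact e1.symm.trans e2

end Fermat.Agent.EichlerShimura
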