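import Fermat.Agent.EichlerShimura.KummerDescent

/-!
# The Abel–Jacobi–Kummer isomorphism `J₀(N)(ℚ̄)_tors ≃ cuspidalHoms (Γ₀ N) (ℚ/ℤ)`
-/

set_option autoImplicit false

noncomputable section

open CongruenceSubgroup AlgebraicCurve ModularCurve
open Fermat.Agent.Modular
open scoped MatrixGroups

namespace Fermat.Agent.EichlerShimura

variable {N : ℕ} [NeZero N]

theorem exists_cuspidal_isKummerChar (x : torsionPts N) :
    ∃ φ : Periods.cuspidalHoms ℤ (Gamma0 N) QZ, IsKummerChar N x φ :=
  have ⟨φ, hφ, h⟩ := exists_isKummerCharOver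
    (ι := (complexEmbedding : AlgebraicClosure ℚ →+* ℂ)) x.2
  ⟨⟨φ, hφ⟩, h⟩

variable (N) in
/-- The character of a torsion point. -/
def kummerHom : torsionPts N →+ Periods.cuspidalHoms ℤ (Gamma0 N) QZ :=
  AddMonoidHom.mk' (fun x => (exists_cuspidal_isKummerChar x).choose) fun x y => Subtype.ext <|
    IsKummerCharOver.unique (exists_cuspidal_isKummerChar (x + y)).choose_spec
      ((exists_cuspidal_isKummerChar x).choose_spec.add (exists_cuspidal_isKummerChar y).choose_spec)

theorem isKummerChar_kummerHom (x : torsionPts N) : IsKummerChar N x (kummerHom N x) :=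
  (exists_cuspidal_isKummerChar x).choose_spec

theorem kummerHom_bijective : Function.Bijective (kummerHom N) := by
  refine ⟨(injective_iff_map_eq_zero _).mpr fun x hx => ?_, fun φ => ?_⟩
  · have h := isKummerChar_kummerHom x
    rw [hx] at h
    exact Subtype.ext (eq_zero_of_isKummerChar_zero h)
  · obtain ⟨z, hz⟩ := exists_isKummerCharOver_complex φ.2
    obtain ⟨y, hy⟩ := exists_isKummerChar_of_complex hz
    exact ⟨⟨y, IsKummerCharOver.isOfFinAddOrder hy⟩,
      Subtype.ext (IsKummerCharOver.unique (isKummerChar_kummerHom _) hy)⟩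

variable (N) in
/-- The Abel–Jacobi–Kummer isomorphism. -/
def kummerEquiv : torsionPts N ≃+ Periods.cuspidalHoms ℤ (Gamma0 N) QZ :=
  AddEquiv.ofBijective (kummerHom N) kummerHom_bijective

theorem isKummerChar_kummerEquiv (x : torsionPts N) : IsKummerChar N x (kummerEquiv N x) :=
  isKummerChar_kummerHom x

/-- Characterisation of the isomorphism. -/
theorem kummerEquiv_eq {x : torsionPts N} {φ : Periods.cuspidalHoms ℤ (Gamma0 N) QZ}
    (h : IsKummerChar N x φ) : kummerEquiv N x = φ :=
  Subtype.ext (IsKummerCharOver.unique (isKummerChar_kummerEquiv x) h)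

end Fermat.Agent.EichlerShimura
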