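import Fermat.Agent.EichlerShimura.PlaceDescent
import Mathlib.GroupTheory.GroupAction.CardCommute

/-!
# Divisor classes with finite orbit under the automorphisms over `k` are defined over `k`
-/

set_option autoImplicit false

noncomputable section

open HahnSeries ModularCurve AlgebraicCurve IntermediateField
open Fermat.Agent.Curve

namespace Fermat.Agent.EichlerShimura

variable {k L : Type*} [Field k] [Field L] [Algebra ℚ k] [Algebra ℚ L]
variable {F₀ : IntermediateField ℚ (LaurentSeries ℚ)} {ι : k →ₐ[ℚ] L}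
variable [IsAlgClosed k] [IsAlgClosed L]
variable [IsFunctionField1 k (laurentBaseChange k F₀)] [IsFunctionField1 L (laurentBaseChange L F₀)]

local notation "F_k" => laurentBaseChange k F₀
local notation "F_L" => laurentBaseChange L F₀

variable (ι) in
/-- Base change of degree zero divisors. -/
def bcDegZero : Divisor.degZero (K := k) (F := F_k) →+ Divisor.degZero (K := L) (F := F_L) :=
  ((bcDiv ι).comp (Divisor.degZero (K := k) (F := F_k)).subtype).codRestrict _ fun D =>
    Divisor.mem_degZero.mpr ((degree_bcDiv (ι := ι) (D : Divisor k F_k)).trans D.2)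

theorem bcDiv_mem_principal {D : Divisor k F_k} (hD : D ∈ Divisor.principal (K := k) (F := F_k)) :
    bcDiv ι D ∈ Divisor.principal (K := L) (F := F_L) := by
  obtain ⟨f, hf, hdiv⟩ := hD
  exact ⟨bcHom F₀ ι f, (map_ne_zero _).mpr hf, bcDiv_eq_ord hdiv⟩

variable (ι) in
/-- Base change of divisor classes. -/
def bcPic0 : Pic0 k F_k →+ Pic0 L F_L :=
  QuotientAddGroup.map _ _ (bcDegZero (F₀ := F₀) ι) fun D hD => by
    rw [AddSubgroup.mem_comap, AddSubgroup.mem_addSubgroupOf]
    exact bcDiv_mem_principal (AddSubgroup.mem_addSubgroupOf.mp hD)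

theorem bcPic0_mk (D : Divisor.degZero (K := k) (F := F_k)) :
    bcPic0 ι (Pic0.mk D) = Pic0.mk (bcDegZero (F₀ := F₀) ι D) := rfl

theorem bcPic0_injective [CharZero k] : Function.Injective (bcPic0 (F₀ := F₀) ι) := by
  rw [injective_iff_map_eq_zero]
  intro y hy
  obtain ⟨D, rfl⟩ := Pic0.mk_surjective y
  rw [bcPic0_mk] at hy
  refine (QuotientAddGroup.eq_zero_iff _).mpr (AddSubgroup.mem_addSubgroupOf.mpr ?_)
  exact mem_principal_of_bcDiv_mem
    (AddSubgroup.mem_addSubgroupOf.mp ((QuotientAddGroup.eq_zero_iff _).mp hy))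

/-- A divisor supported on base changed places is a base change. -/
theorem exists_bcDiv_eq {E : Divisor L F_L}
    (hE : ∀ v, E v ≠ 0 → v ∈ Set.range (placeUp (F₀ := F₀) ι)) : ∃ D, bcDiv ι D = E := by
  refine ⟨E.comapDomain (placeUp ι) placeUp_injective.injOn, ?_⟩
  exact Finsupp.mapDomain_comapDomain _ placeUp_injective _ fun v hv =>
    hE v (Finsupp.mem_support_iff.mp hv)

variable [Fact (jq ∈ F₀)]

omit [IsAlgClosed k] [IsAlgClosed L] [IsFunctionField1 k (laurentBaseChange k F₀)]
  [IsFunctionField1 L (laurentBaseChange L F₀)] in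
theorem bcHom_jElt : bcHom F₀ ι (jElt k F₀) = jElt L F₀ :=
  Subtype.ext (coeffMap_coeffEmb_base ι jq)

omit [IsAlgClosed L] [IsFunctionField1 L (laurentBaseChange L F₀)] in
theorem smul_jElt (σ : L ≃ₐ[ℚ] L) : arithmeticGalois F₀ σ • jElt L F₀ = jElt L F₀ := by
  refine Subtype.ext ?_
  rw [coe_arithmeticGalois_smul, coe_jElt, coeffMap_coeffEmb]

omit [IsAlgClosed L] [IsFunctionField1 L (laurentBaseChange L F₀)] [Fact (jq ∈ F₀)] in
theorem arithmeticGalois_smul_algebraMap (σ : L ≃ₐ[ℚ] L) (c : L) :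
    arithmeticGalois F₀ σ • algebraMap L F_L c = algebraMap L F_L (σ c) :=
  SemilinearAut.smul_algebraMap _ c

omit [IsAlgClosed L] in
theorem smul_poleDivisor_jElt (σ : L ≃ₐ[ℚ] L) :
    arithmeticGalois F₀ σ • poleDivisor (K := L) (jElt L F₀) = poleDivisor (jElt L F₀) := by
  refine Finsupp.ext fun v => ?_
  obtain ⟨u, rfl⟩ : ∃ u, arithmeticGalois F₀ σ • u = v :=
    ⟨(arithmeticGalois F₀ σ)⁻¹ • v, smul_inv_smul _ v⟩
  rw [SemilinearAut.divisor_smul_apply_smul, poleDivisor_apply, poleDivisor_apply]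
  conv_rhs => rw [← smul_jElt σ, SemilinearAut.ord_smul]

omit [IsAlgClosed L] [IsFunctionField1 L (laurentBaseChange L F₀)] in
theorem value_subsingleton (u : Place L F_L) :
    {c : L | 0 < u.ord (jElt L F₀ - algebraMap L F_L c)}.Subsingleton := by
  intro a ha b hb
  simp only [Set.mem_ofPred_eq] at ha hb
  by_contra hne
  have hne' : algebraMap L F_L a - algebraMap L F_L b ≠ 0 := by
    rw [← map_sub, map_ne_zero]; exact sub_ne_zero.mpr hne
  have hjb : jElt L F₀ - algebraMap L F_L b ≠ 0 := fun h => by simp [h] at hb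
  have hja : jElt L F₀ - algebraMap L F_L a ≠ 0 := fun h => by simp [h] at ha
  have heq : (jElt L F₀ - algebraMap L F_L b) + -(jElt L F₀ - algebraMap L F_L a)
      = algebraMap L F_L a - algebraMap L F_L b := by ring
  have h := place_min_ord_le_add u hjb (neg_ne_zero.mpr hja) (heq ▸ hne')
  rw [heq, Curve.ord_neg, ← map_sub, Curve.ord_algebraMap] at h
  omega

/-- A place in the support of a divisor fixed by a finite index subgroup is defined over `k`. -/
theorem mem_range_placeUp_of_fixed [CharZero k] {H : Subgroup (fixingAuts ι)} (hH : H.index ≠ 0)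
    {E : Divisor L F_L}
    (hE : ∀ σ ∈ H, arithmeticGalois F₀ ((σ : fixingAuts ι) : L ≃ₐ[ℚ] L) • E = E)
    {v : Place L F_L} (hv : E v ≠ 0) : v ∈ Set.range (placeUp (F₀ := F₀) ι) := by
  by_cases hjv : v.ord (jElt L F₀) = 0
  swap
  · exact mem_range_placeUp (y := jElt k F₀) (by rwa [bcHom_jElt])
  obtain ⟨c, hc⟩ := exists_sub_algebraMap_ord_pos v (mem_of_ord_nonneg v hjv.ge)
  rcases hc with hc | hc
  · exfalso
    rw [sub_eq_zero] at hc
    have h := congrArg (fun z : F_L => (z : LaurentSeries L).coeff (-1)) hc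
    simp only [coe_jElt, coeffEmb_coeff, coeff_jq_neg_one, map_one] at h
    rw [show ((algebraMap L F_L c : F_L) : LaurentSeries L) = algebraMap L (LaurentSeries L) c
      from rfl, algebraMap_laurentSeries_eq_single,
      HahnSeries.coeff_single_of_ne (by norm_num)] at h
    exact one_ne_zero h
  obtain ⟨a, rfl⟩ : c ∈ Set.range ι := by
    refine mem_range_of_finite_orbit ι hH (Set.Finite.subset
      (E.support.finite_toSet.biUnion fun u _ => (value_subsingleton u).finite) ?_)
    rintro _ ⟨σ, rfl⟩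
    set τ : L ≃ₐ[ℚ] L := ((σ : fixingAuts ι) : L ≃ₐ[ℚ] L)
    refine Set.mem_biUnion (x := arithmeticGalois F₀ τ • v) ?_ ?_
    · rw [Finset.mem_coe, Finsupp.mem_support_iff]
      conv_lhs => rw [← hE _ σ.2, SemilinearAut.divisor_smul_apply_smul]
      exact hv
    · show 0 < (arithmeticGalois F₀ τ • v).ord (jElt L F₀ - algebraMap L F_L (τ c))
      rw [← smul_jElt τ, ← arithmeticGalois_smul_algebraMap, ← smul_sub, SemilinearAut.ord_smul]
      exact hc
  refine mem_range_placeUp (y := jElt k F₀ - algebraMap k F_k a) ?_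
  rw [map_sub, bcHom_algebraMap, bcHom_jElt]
  exact hc.ne'

/-- Some multiple of the polar divisor of `j` makes a divisor effective up to equivalence. -/
theorem exists_inRiemannRoch_add_nsmul (D : Divisor L F_L) :
    ∃ (m : ℕ) (f : F_L), InRiemannRoch (D + m • poleDivisor (K := L) (jElt L F₀)) f := by
  classical
  have hc : ∀ v : Place L F_L, ∃ c : L, v.ord (jElt L F₀) < 0 ∨
      0 < v.ord (jElt L F₀ - algebraMap L F_L c) ∨ jElt L F₀ = algebraMap L F_L c := by
    intro v
    by_cases h : v.ord (jElt L F₀) < 0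
    · exact ⟨0, Or.inl h⟩
    · obtain ⟨c, hc⟩ := exists_sub_algebraMap_ord_pos v (mem_of_ord_nonneg v (not_lt.mp h))
      rcases hc with hc | hc
      · exact ⟨c, Or.inr (Or.inr (sub_eq_zero.mp hc))⟩
      · exact ⟨c, Or.inr (Or.inl hc)⟩
  choose c hc using hc
  have hj : ∀ a : L, jElt L F₀ - algebraMap L F_L a ≠ 0 := by
    intro a hc
    rw [sub_eq_zero] at hc
    have h := congrArg (fun z : F_L => (z : LaurentSeries L).coeff (-1)) hc
    simp only [coe_jElt, coeffEmb_coeff, coeff_jq_neg_one, map_one] at h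
    rw [show ((algebraMap L F_L a : F_L) : LaurentSeries L) = algebraMap L (LaurentSeries L) a
      from rfl, algebraMap_laurentSeries_eq_single,
      HahnSeries.coeff_single_of_ne (by norm_num)] at h
    exact one_ne_zero h
  set B : ℕ := ∑ v ∈ D.support, (D v).natAbs with hB
  set T := D.support with hT
  set f : F_L := ∏ v ∈ T, (jElt L F₀ - algebraMap L F_L (c v)) ^ B with hf
  have hfn : ∀ v ∈ T, (jElt L F₀ - algebraMap L F_L (c v)) ^ B ≠ 0 := fun v _ =>
    pow_ne_zero _ (hj _)
  refine ⟨T.card * B + B, f, Finset.prod_ne_zero_iff.mpr hfn, fun w => ?_⟩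
  rw [Finsupp.add_apply, Finsupp.smul_apply, poleDivisor_apply, hf, Curve.ord_prod w T _ hfn]
  simp only [Curve.ord_pow]
  have hDw : -(B : ℤ) ≤ D w := by
    by_cases hw : w ∈ T
    · have h1 : (D w).natAbs ≤ B :=
        Finset.single_le_sum (f := fun u => (D u).natAbs) (fun u _ => Nat.zero_le _) hw
      omega
    · rw [Finsupp.notMem_support_iff.mp hw]; omega
  rw [nsmul_eq_mul]
  by_cases hjw : w.ord (jElt L F₀) < 0
  · have hterm : ∀ a : L, w.ord (jElt L F₀ - algebraMap L F_L a) = w.ord (jElt L F₀) := by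
      intro a
      rw [sub_eq_add_neg, ← map_neg]
      exact ord_add_eq_of_lt w (jElt_ne_zero F₀) (by rwa [Curve.ord_algebraMap])
    simp only [hterm, Finset.sum_const, nsmul_eq_mul]
    rw [max_eq_left (by omega)]
    push_cast
    nlinarith [Int.natCast_nonneg B]
  · rw [max_eq_right (by omega), mul_zero, add_zero]
    have hterm : ∀ a : L, 0 ≤ w.ord (jElt L F₀ - algebraMap L F_L a) := by
      intro a
      exact ord_nonneg_of_mem w (sub_mem (mem_of_ord_nonneg w (not_lt.mp hjw)) (w.algebraMap_mem' a))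
    by_cases hw : w ∈ T
    · have h1 : (B : ℤ) * w.ord (jElt L F₀ - algebraMap L F_L (c w)) ≤
          ∑ u ∈ T, (B : ℤ) * w.ord (jElt L F₀ - algebraMap L F_L (c u)) :=
        Finset.single_le_sum (f := fun u => (B : ℤ) * w.ord (jElt L F₀ - algebraMap L F_L (c u)))
          (fun u _ => mul_nonneg (Int.natCast_nonneg B) (hterm _)) hw
      rcases hc w with h | h | h
      · exact absurd h hjw
      · nlinarith [Int.natCast_nonneg B]
      · exact absurd (sub_eq_zero.mpr h) (hj _)
    · rw [Finsupp.notMem_support_iff.mp hw, zero_add]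
      exact Finset.sum_nonneg fun u _ => mul_nonneg (Int.natCast_nonneg B) (hterm _)

variable (F₀ ι) in
/-- The automorphisms over `k`, acting semilinearly. -/
def fixingGalois : fixingAuts ι →* SemilinearAut L F_L :=
  (arithmeticGalois F₀).comp (fixingAuts ι).subtype

omit [IsAlgClosed L] [Fact (jq ∈ F₀)] in
theorem degree_eq_of_sub_mem_principal {D E : Divisor L F_L}
    (h : D - E ∈ Divisor.principal (K := L) (F := F_L)) : Divisor.degree D = Divisor.degree E := by
  obtain ⟨g, -, hg⟩ := h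
  have h1 : D - E = divisorOf g := Finsupp.ext fun v => by rw [hg v, divisorOf_apply]
  have h2 := congrArg Divisor.degree h1
  rw [map_sub, degree_divisorOf, sub_eq_zero] at h2
  exact h2

omit [IsAlgClosed L] [IsFunctionField1 L (laurentBaseChange L F₀)] [Fact (jq ∈ F₀)] in
theorem mk_eq_mk_of_sub_mem_principal {D E : Divisor.degZero (K := L) (F := F_L)}
    (h : (E : Divisor L F_L) - D ∈ Divisor.principal (K := L) (F := F_L)) :
    Pic0.mk D = Pic0.mk E :=
  QuotientAddGroup.eq.mpr (AddSubgroup.mem_addSubgroupOf.mpr (by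
    rwa [AddSubgroup.coe_add, AddSubgroup.coe_neg, neg_add_eq_sub]))

omit [IsAlgClosed L] [IsFunctionField1 L (laurentBaseChange L F₀)] [Fact (jq ∈ F₀)] in
theorem sub_mem_principal_of_smul_mk_eq {g : SemilinearAut L F_L}
    {D : Divisor.degZero (K := L) (F := F_L)} (h : g • Pic0.mk D = Pic0.mk D) :
    g • (D : Divisor L F_L) - D ∈ Divisor.principal (K := L) (F := F_L) := by
  rw [SemilinearAut.pic0_smul_mk] at h
  have h' := AddSubgroup.mem_addSubgroupOf.mp (QuotientAddGroup.eq.mp h.symm)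
  rw [AddSubgroup.coe_add, AddSubgroup.coe_neg, SemilinearAut.coe_degZeroSMulHom,
    neg_add_eq_sub] at h'
  exact h'

theorem exists_bcPic0_of_invariant [CharZero k] {H : Subgroup (fixingAuts ι)} (hidx : H.index ≠ 0)
    {D : Divisor.degZero (K := L) (F := F_L)}
    (hD : ∀ σ ∈ H, fixingGalois F₀ ι σ • Pic0.mk D = Pic0.mk D) :
    ∃ y : Pic0 k F_k, bcPic0 ι y = Pic0.mk D := by
  classical
  set A := poleDivisor (K := L) (jElt L F₀)
  obtain ⟨k₀, f₀, hf₀⟩ := exists_inRiemannRoch_add_nsmul (D : Divisor L F_L)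
  obtain ⟨m, E, -, hEfix, hEp⟩ := exists_invariant_effective (deg_cuspPlace (L := L) F₀).2 hf₀
    ((fun σ : fixingAuts ι => fixingGalois F₀ ι σ) '' (H : Set (fixingAuts ι)))
    (by rintro _ ⟨σ, -, rfl⟩; exact smul_cuspPlace F₀ _)
    (by
      rintro _ ⟨σ, hσ, rfl⟩
      have hAfix : fixingGalois F₀ ι σ • A = A := smul_poleDivisor_jElt _
      rw [smul_add, smul_comm, hAfix, add_sub_add_right_eq_sub]
      exact sub_mem_principal_of_smul_mk_eq (hD σ hσ))
  set P := cuspPlace L F₀
  set D' : Divisor L F_L := E - k₀ • A + Finsupp.single P (m : ℤ) with hD'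
  have hD'p : D' - (D : Divisor L F_L) ∈ Divisor.principal (K := L) (F := F_L) := by
    have : D' - (D : Divisor L F_L)
        = E - ((D : Divisor L F_L) + k₀ • A - Finsupp.single P (m : ℤ)) := by
      rw [hD']; abel
    rw [this]
    exact hEp
  obtain ⟨DQ, hDQ⟩ := exists_bcDiv_eq (ι := ι) (E := D') fun v hv => by
    by_cases hjv : v.ord (jElt L F₀) = 0
    swap
    · exact mem_range_placeUp (y := jElt k F₀) (by rwa [bcHom_jElt])
    have hPv : P ≠ v := by
      rintro rfl
      rw [ord_cuspPlace F₀ (jElt_ne_zero F₀), order_jElt] at hjv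
      omega
    have hEv : E v ≠ 0 := by
      rw [hD', Finsupp.add_apply, Finsupp.sub_apply, Finsupp.smul_apply, poleDivisor_apply, hjv,
        Finsupp.single_apply, if_neg hPv] at hv
      simpa using hv
    exact mem_range_placeUp_of_fixed hidx (fun σ hσ => hEfix _ ⟨σ, hσ, rfl⟩) hEv
  have hdeg : Divisor.degree DQ = 0 := by
    rw [← degree_bcDiv (ι := ι), hDQ, degree_eq_of_sub_mem_principal hD'p]
    exact D.2
  refine ⟨Pic0.mk ⟨DQ, hdeg⟩, ?_⟩
  rw [bcPic0_mk]
  refine mk_eq_mk_of_sub_mem_principal ?_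
  show (D : Divisor L F_L) - bcDiv ι DQ ∈ _
  rw [hDQ, ← neg_sub]
  exact neg_mem hD'p

/-- A class with finite orbit is a base change. -/
theorem exists_bcPic0_eq [CharZero k] {x : Pic0 L F_L}
    (hfin : (Set.range fun σ : fixingAuts ι => fixingGalois F₀ ι σ • x).Finite) :
    ∃ y : Pic0 k F_k, bcPic0 ι y = x := by
  obtain ⟨D, rfl⟩ := Pic0.mk_surjective x
  let _ : MulAction (fixingAuts ι) (Pic0 L F_L) := MulAction.compHom _ (fixingGalois F₀ ι)
  refine exists_bcPic0_of_invariant (H := MulAction.stabilizer (fixingAuts ι) (Pic0.mk D)) ?_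
    fun σ hσ => MulAction.mem_stabilizer_iff.mp hσ
  rw [MulAction.index_stabilizer]
  exact ((Set.ncard_pos hfin).mpr (Set.range_nonempty _)).ne'

end Fermat.Agent.EichlerShimura
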