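import Mathlib.FieldTheory.IsAlgClosed.Classification
import Mathlib.GroupTheory.Index
import Mathlib.GroupTheory.GroupAction.Quotient
import Mathlib.Algebra.CharZero.Infinite

/-!
Automorphisms of an algebraically closed field over an algebraically closed subfield:
an element with finite orbit under a subgroup of finite index lies in the subfield.
-/

set_option autoImplicit false

noncomputable section

namespace Fermat.Agent.EichlerShimura

variable {K L : Type*} [Field K] [Field L] [Algebra K L]

open MvPolynomial in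
/-- A transcendental element can be translated by an automorphism fixing the base. -/
theorem exists_algEquiv_apply_eq_add [IsAlgClosed L] {x : L} (hx : Transcendental K x)
    (c : K) : ∃ σ : L ≃ₐ[K] L, σ x = x + algebraMap K L c := by
  classical
  obtain ⟨t, hxt, ht⟩ := exists_isTranscendenceBasis_superset (R := K) (A := L) (s := {x})
    (algebraicIndependent_unique_type_iff.mpr hx)
  let i₀ : t := ⟨x, hxt rfl⟩
  let f : K → (MvPolynomial t K →ₐ[K] MvPolynomial t K) := fun d =>
    aeval fun i => X i + if i = i₀ then C d else 0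
  have hcomp : ∀ d, (f d).comp (f (-d)) = AlgHom.id K _ := fun d => by
    ext i
    by_cases h : i = i₀ <;> simp [f, h]
  let φ : MvPolynomial t K ≃ₐ[K] MvPolynomial t K :=
    AlgEquiv.ofAlgHom (f c) (f (-c)) (hcomp c) (by simpa using hcomp (-c))
  let A := Algebra.adjoin K (Set.range ((↑) : t → L))
  have : IsAlgClosure A L := IsAlgClosed.isAlgClosure_of_transcendence_basis _ ht
  let eA : A ≃ₐ[K] A := ht.1.aevalEquiv.symm.trans (φ.trans ht.1.aevalEquiv)
  let E : L ≃+* L := IsAlgClosure.equivOfEquiv L L eA.toRingEquiv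
  have hE : ∀ a : A, E (a : L) = ((eA a : A) : L) := fun a =>
    IsAlgClosure.equivOfEquiv_algebraMap L L eA.toRingEquiv a
  refine ⟨AlgEquiv.ofRingEquiv (f := E) (fun r => ?_), ?_⟩
  · have := hE (algebraMap K A r)
    rw [eA.commutes] at this
    simpa using this
  · have h0 : ((ht.1.aevalEquiv (X i₀) : A) : L) = x := by
      simp [i₀]
    have := hE (ht.1.aevalEquiv (X i₀))
    rw [h0] at this
    show E x = _
    rw [this]
    simp [eA, φ, f, i₀, h0]
    rw [← MvPolynomial.algebraMap_eq, AlgEquiv.commutes]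
    rfl

/-- The base field is the set of elements with finite orbit under any finite index subgroup of
the automorphism group. -/
theorem mem_range_algebraMap_of_finite_orbit [IsAlgClosed K] [IsAlgClosed L] [CharZero K]
    {H : Subgroup (L ≃ₐ[K] L)} (hH : H.index ≠ 0) {x : L}
    (hfin : (Set.range fun σ : H => (σ : L ≃ₐ[K] L) x).Finite) :
    x ∈ Set.range (algebraMap K L) := by
  by_contra hx
  have htr : Transcendental K x := by
    intro halg
    apply hx
    have hbot : IsAlgebraic K x := halg
    exact (minpoly.mem_range_of_degree_eq_one (A := K) (x := x)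
      (IsAlgClosed.degree_eq_one_of_irreducible K
        (minpoly.irreducible hbot.isIntegral)))
  have : H.FiniteIndex := ⟨hH⟩
  obtain ⟨R, hR⟩ : ∃ R : Finset (L ≃ₐ[K] L), ∀ σ : L ≃ₐ[K] L, ∃ r ∈ R, r⁻¹ * σ ∈ H := by
    classical
    have := Fintype.ofFinite ((L ≃ₐ[K] L) ⧸ H)
    refine ⟨Finset.univ.image fun q : (L ≃ₐ[K] L) ⧸ H => q.out, fun σ => ?_⟩
    refine ⟨(QuotientGroup.mk σ : (L ≃ₐ[K] L) ⧸ H).out,
      Finset.mem_image_of_mem _ (Finset.mem_univ _), ?_⟩
    exact QuotientGroup.eq.mp (QuotientGroup.out_eq' _)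
  have hall : (Set.range fun σ : L ≃ₐ[K] L => σ x).Finite := by
    refine Set.Finite.subset ((R.finite_toSet.image2 (fun r y => r y) hfin)) ?_
    rintro _ ⟨σ, rfl⟩
    obtain ⟨r, hr, hrH⟩ := hR σ
    exact ⟨r, hr, _, ⟨⟨r⁻¹ * σ, hrH⟩, rfl⟩, by simp⟩
  refine Set.infinite_range_of_injective (f := fun m : ℕ => x + algebraMap K L (m : K)) ?_
    (hall.subset ?_)
  · intro a b hab
    exact Nat.cast_injective ((algebraMap K L).injective (add_left_cancel hab))
  · rintro _ ⟨m, rfl⟩
    obtain ⟨σ, hσ⟩ := exists_algEquiv_apply_eq_add htr (m : K)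
    exact ⟨σ, hσ⟩

end Fermat.Agent.EichlerShimura
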