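import Fermat.Agent.EichlerShimura.PlaceDivisibility
import Fermat.Agent.EichlerShimura.Interface
import Fermat.Agent.EichlerShimura.NthRoot
import Fermat.Agent.Modular.DegreeC
import Fermat.Agent.Periods.EichlerIntegral

/-!
# The Kummer character of a modular function whose orders are divisible by `n`

If `f ∈ ℂ[j(q^d) : d ∣ N]` has all its orders (on the places of `FC N`) divisible by `n`, then its
function on `ℍ` is the `n`-th power of a holomorphic `G` and `G (γ z) = exp (2πi φ γ) G z` with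
`φ : Γ₀(N) → ℚ/ℤ` killed by `n` and vanishing on elliptic and parabolic elements.
-/

set_option autoImplicit false

noncomputable section

open UpperHalfPlane hiding I
open AlgebraicCurve CongruenceSubgroup Fermat.Agent.Modular Fermat.Agent.Curve Filter
open scoped MatrixGroups IntermediateField Topology

namespace Fermat.Agent.EichlerShimura

section Valuation

variable {K F Ω : Type*} [Field K] [Field F] [Algebra K F] [Field Ω]

/-- Pulling a valuation back to a function field whose places all have order divisible by `n`. -/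
theorem exists_uniformiser_mul (v : AddValuation Ω (WithTop ℤ)) (σ : F →+* Ω)
    (htriv : ∀ a : K, a ≠ 0 → v (σ (algebraMap K F a)) = 0)
    (hne : ∃ y : F, v (σ y) < 0) {f : F} (hf : f ≠ 0) {n : ℕ}
    (hdvd : ∀ P : Place K F, (n : ℤ) ∣ P.ord f) :
    ∃ (t : F) (r m : ℤ), t ≠ 0 ∧ v (σ t) = (r : WithTop ℤ) ∧
      v (σ f) = (((n : ℤ) * (m * r) : ℤ) : WithTop ℤ) := by
  have hK : ∀ a : K, algebraMap K F a ∈ pullbackValuationSubring v σ := fun a => by
    rw [mem_pullbackValuationSubring]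
    rcases eq_or_ne a 0 with rfl | ha
    · simp
    · rw [htriv a ha]
  have htop : pullbackValuationSubring v σ ≠ ⊤ := by
    obtain ⟨y, hy⟩ := hne
    intro h
    have : y ∈ pullbackValuationSubring v σ := h ▸ ValuationSubring.mem_top y
    rw [mem_pullbackValuationSubring] at this
    exact absurd this (not_le.mpr hy)
  let P : Place K F := placeOfEmbedding v σ hK htop
  obtain ⟨π, hπ⟩ := IsDiscreteValuationRing.exists_irreducible P.toValuationSubring
  obtain ⟨u, hu⟩ := P.exists_unit_mul_zpow hf hπ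
  have hπ0 : (π : F) ≠ 0 := fun h => hπ.ne_zero (Subtype.ext h)
  obtain ⟨r, hr⟩ := WithTop.ne_top_iff_exists.mp
    ((AddValuation.ne_top_iff v).mpr ((map_ne_zero σ).mpr hπ0))
  obtain ⟨m, hm⟩ := hdvd P
  refine ⟨(π : F), r, m, hπ0, hr.symm, ?_⟩
  have hu0 : v (σ ((u : P.toValuationSubring) : F)) = 0 := by
    have h1 : 0 ≤ v (σ ((u : P.toValuationSubring) : F)) := (u : P.toValuationSubring).2
    have h2 : 0 ≤ v (σ (((u⁻¹ : P.toValuationSubringˣ) : P.toValuationSubring) : F)) :=
      ((u⁻¹ : P.toValuationSubringˣ) : P.toValuationSubring).2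
    have h3 := congrArg (fun x : P.toValuationSubring => v (σ (x : F))) u.mul_inv
    simp only [MulMemClass.coe_mul, map_mul, AddValuation.map_mul, OneMemClass.coe_one, map_one,
      AddValuation.map_one] at h3
    refine le_antisymm ?_ h1
    calc _ ≤ _ + _ := le_add_of_nonneg_right h2
      _ = 0 := h3
  rw [hu, map_mul, AddValuation.map_mul, hu0, zero_add, hm, map_zpow₀]
  have hz : ∀ k : ℤ, v (σ (π : F) ^ k) = ((k * r : ℤ) : WithTop ℤ) := by
    intro k
    obtain ⟨l, rfl | rfl⟩ := Int.eq_nat_or_neg k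
    · rw [zpow_natCast, AddValuation.map_pow, ← hr, ← WithTop.coe_nsmul, nsmul_eq_mul]
      skip
    · rw [zpow_neg, zpow_natCast, AddValuation.map_inv, AddValuation.map_pow, ← hr,
        ← WithTop.coe_nsmul, ← WithTop.LinearOrderedAddCommGroup.coe_neg, nsmul_eq_mul]
      simp
  rw [hz, mul_assoc]

end Valuation

section Analysis

/-- A root of a function with a nonzero limit at `i∞` has no multiplier under a real period. -/
theorem eq_one_of_period_root {n : ℕ} (hn : n ≠ 0) {w : ℍ → ℂ} (hw : Continuous w) {L : ℂ}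
    (hL : L ≠ 0) (hlim : Tendsto (fun τ => w τ ^ n) atImInfty (𝓝 L)) {k : ℝ} {c : ℂ}
    (hcn : c ^ n = 1) (hper : ∀ τ : ℍ, w (k +ᵥ τ) = c * w τ) : c = 1 := by
  have hlim' : Tendsto (fun τ => w τ ^ n / L) atImInfty (𝓝 1) := by
    have := hlim.div_const L
    rwa [div_self hL] at this
  obtain ⟨Y, hY⟩ := (UpperHalfPlane.atImInfty_mem _).mp (hlim' (Metric.ball_mem_nhds 1 one_pos))
  let D : Set ℂ := {z : ℂ | max Y 1 < z.im}
  have hD : IsPreconnected D := (convex_halfSpace_im_gt _).isPreconnected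
  have hpos : ∀ z ∈ D, 0 < z.im := fun z hz => lt_of_lt_of_le one_pos
    ((le_max_right Y 1).trans (le_of_lt hz))
  let u : ℂ → ℂ := fun z => w (ofComplex z) ^ n / L
  have hofc : ContinuousOn ofComplex D := fun z hz =>
    (UpperHalfPlane.mdifferentiableAt_ofComplex (hpos z hz)).continuousAt.continuousWithinAt
  have hu1 : ∀ z ∈ D, u z ∈ Metric.ball (1 : ℂ) 1 := fun z hz => hY _ (by
    rw [ofComplex_apply_of_im_pos (hpos z hz)]
    exact (le_max_left Y 1).trans (le_of_lt hz))
  have hslit : ∀ z ∈ D, u z ∈ Complex.slitPlane := fun z hz =>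
    Complex.ball_one_subset_slitPlane (hu1 z hz)
  let v : ℂ → ℂ := fun z => w (ofComplex z) / u z ^ ((n : ℂ)⁻¹)
  have hucont : ContinuousOn u D := ((hw.comp_continuousOn hofc).pow n).div_const L
  have hu0 : ∀ z ∈ D, u z ≠ 0 := fun z hz => Complex.slitPlane_ne_zero (hslit z hz)
  have hvcont : ContinuousOn v D := by
    refine (hw.comp_continuousOn hofc).div ?_ fun z hz => ?_
    · exact hucont.cpow continuousOn_const hslit
    · rw [Ne, Complex.cpow_eq_zero_iff, not_and_or]
      exact Or.inl (hu0 z hz)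
  have hvn : ∀ z ∈ D, v z ^ n = L := fun z hz => by
    have hwn : w (ofComplex z) ^ n ≠ 0 := fun h => hu0 z hz (by simp [u, h])
    show (w (ofComplex z) / u z ^ ((n : ℂ)⁻¹)) ^ n = L
    rw [div_pow, Complex.cpow_nat_inv_pow _ hn]
    show w (ofComplex z) ^ n / (w (ofComplex z) ^ n / L) = L
    field_simp
  have himg : (v '' D).Subsingleton := by
    refine (Set.Finite.countable (Set.Finite.subset (Polynomial.nthRoots n L).toFinset.finite_toSet
      ?_)).isTotallyDisconnected _ subset_rfl (hD.image v hvcont)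
    rintro _ ⟨z, hz, rfl⟩
    rw [Finset.mem_coe, Multiset.mem_toFinset, Polynomial.mem_nthRoots (Nat.pos_of_ne_zero hn)]
    exact hvn z hz
  obtain ⟨τ, hτ⟩ : ∃ τ : ℍ, (τ : ℂ) ∈ D :=
    ⟨⟨((max Y 1 + 1 : ℝ) : ℂ) * Complex.I, by simp; positivity⟩, by
      show max Y 1 < (((max Y 1 + 1 : ℝ) : ℂ) * Complex.I).im
      simp⟩
  have hτ' : ((k +ᵥ τ : ℍ) : ℂ) ∈ D := by
    have : max Y 1 < (τ : ℂ).im := hτ
    show max Y 1 < ((k +ᵥ τ : ℍ) : ℂ).im
    rw [UpperHalfPlane.coe_vadd]
    simpa using this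
  have hv : v ((k +ᵥ τ : ℍ) : ℂ) = v (τ : ℂ) :=
    himg ⟨_, hτ', rfl⟩ ⟨_, hτ, rfl⟩
  simp only [v, u, ofComplex_apply, hper] at hv
  rw [mul_pow, hcn, one_mul, mul_div_assoc] at hv
  refine mul_right_cancel₀ (b := w τ / (w τ ^ n / L) ^ ((n : ℂ)⁻¹)) ?_ (hv.trans (one_mul _).symm)
  intro h0
  have := hvn (τ : ℂ) hτ
  simp only [v, u, ofComplex_apply, h0, zero_pow hn] at this
  exact hL this.symm

/-- The multiplier at an elliptic fixed point is a power of the derivative. -/
theorem eq_multiplier_pow_of_smul {γ : SL(2, ℤ)} {z : ℍ} (hγ : γ • z = z) {G : Hol} (hG : G ≠ 0)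
    {c : ℂ} (hc : γ⁻¹ • G = algebraMap ℂ Hol c * G) :
    c = (1 / denom (γ : GL (Fin 2) ℝ) z ^ 2) ^ holOrd z G := by
  obtain ⟨a, ha, hta⟩ := exists_leading z hG
  have h1 := tendsto_leading_smul hγ hta
  have h2 := hta.const_mul c
  have heq : (fun w : ℂ => ((γ⁻¹ • G : Hol) : ℍ → ℂ) (ofComplex w) / (w - z) ^ holOrd z G) =
      fun w : ℂ => c * ((G : ℍ → ℂ) (ofComplex w) / (w - z) ^ holOrd z G) := by
    funext w
    rw [hc, ← mul_div_assoc]
    rfl
  rw [heq] at h1
  refine mul_left_cancel₀ ha ?_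
  rw [mul_comm a c]
  exact tendsto_nhds_unique h2 h1

end Analysis

section Classify

/-- An element with `trace ^ 2 < 4` has a fixed point in `ℍ`. -/
theorem exists_fixed_of_trace_sq_lt {γ : SL(2, ℤ)}
    (h : (γ : Matrix (Fin 2) (Fin 2) ℤ).trace ^ 2 < 4) : ∃ z : ℍ, γ • z = z := by
  set a := γ 0 0 with ha
  set b := γ 0 1 with hb
  set c := γ 1 0 with hc
  set d := γ 1 1 with hd
  have hdet : a * d - b * c = 1 := by
    rw [ha, hb, hc, hd, ← Matrix.det_fin_two]
    exact γ.2
  rw [Matrix.trace_fin_two, ← ha, ← hd] at h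
  have hc0 : (c : ℂ) ≠ 0 := by
    intro h0
    have : c = 0 := by exact_mod_cast h0
    rw [this, mul_zero, sub_zero] at hdet
    rcases Int.eq_one_or_neg_one_of_mul_eq_one' hdet with ⟨e1, e2⟩ | ⟨e1, e2⟩ <;>
      rw [e1, e2] at h <;> norm_num at h
  set s : ℝ := Real.sqrt (4 - ((a + d : ℤ) : ℝ) ^ 2) with hs
  have hs2 : s ^ 2 = 4 - ((a + d : ℤ) : ℝ) ^ 2 := by
    refine Real.sq_sqrt ?_
    have : ((a + d : ℤ) : ℝ) ^ 2 ≤ 4 := by exact_mod_cast le_of_lt h
    linarith
  have hs0 : 0 < s := by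
    refine Real.sqrt_pos.mpr ?_
    have : ((a + d : ℤ) : ℝ) ^ 2 < 4 := by exact_mod_cast h
    linarith
  obtain ⟨e, he, hec⟩ : ∃ e : ℝ, e ^ 2 = 1 ∧ 0 < e * c := by
    rcases lt_or_gt_of_ne (show (c : ℝ) ≠ 0 by exact_mod_cast hc0) with hneg | hpos
    · exact ⟨-1, by norm_num, by linarith⟩
    · exact ⟨1, by norm_num, by linarith⟩
  let w : ℂ := ((a - d : ℤ) + (e * s : ℝ) * Complex.I) / (2 * c)
  have hw : (c : ℂ) * w ^ 2 + (d - a) * w - b = 0 := by
    have hsC : ((s : ℂ)) ^ 2 = 4 - ((a + d : ℤ) : ℂ) ^ 2 := by exact_mod_cast hs2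
    have heC : ((e : ℂ)) ^ 2 = 1 := by exact_mod_cast he
    have hdC : (a : ℂ) * d - b * c = 1 := by exact_mod_cast hdet
    simp only [w]
    field_simp
    push_cast at hsC ⊢
    linear_combination (e : ℂ) ^ 2 * (s : ℂ) ^ 2 * Complex.I_sq - hsC - (s : ℂ) ^ 2 * heC + 4 * hdC
  have him : 0 < w.im := by
    have : w.im = e * s / (2 * c) := by
      simp [w, Complex.div_im, Complex.normSq]
      field_simp
    rw [this]
    have h2 : e * s / (2 * (c : ℝ)) = (e * c) * s / (2 * (c : ℝ) ^ 2) := by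
      field_simp
    rw [h2]
    have : (c : ℝ) ≠ 0 := by exact_mod_cast hc0
    positivity
  refine ⟨⟨w, him⟩, UpperHalfPlane.ext ?_⟩
  rw [coe_specialLinearGroup_apply]
  simp only [algebraMap_int_eq, Int.coe_castRingHom, Complex.ofReal_intCast]
  have hne : (c : ℂ) * w + d ≠ 0 := by
    intro h0
    have := congrArg Complex.im h0
    simp at this
    rcases this with h1 | h1
    · exact hc0 (by exact_mod_cast h1)
    · exact him.ne' h1
  rw [div_eq_iff hne]
  linear_combination -hw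

end Classify

end Fermat.Agent.EichlerShimura
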