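import Fermat.Agent.EichlerShimura.KummerChar
import Fermat.Agent.EichlerShimura.KummerMultiplier
import Fermat.Agent.Modular.CuspForms

/-!
# Every torsion class has a Kummer character, and it is cuspidal

Owner: helper54 (delegated by helper55).

If `n • D = div f`, the function of `f` on `ℍ` has all orders divisible by `n`, in `ℍ` and at the
cusps, hence is `G ^ n` for a meromorphic `G`, whose multiplier kills elliptic and parabolic
elements.
-/

set_option autoImplicit false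

noncomputable section

open UpperHalfPlane hiding I
open CongruenceSubgroup AlgebraicCurve ModularCurve Filter
open Fermat.Agent.Modular
open scoped MatrixGroups Topology

namespace Fermat.Agent.EichlerShimura

section Valuation

variable {K F Ω : Type*} [Field K] [Field F] [Algebra K F] [Field Ω]

/-- Pulled back along `σ`, the valuation of `f` is `n` times a multiple of that of some `t`. -/
theorem exists_valuation_eq_mul (v : AddValuation Ω (WithTop ℤ)) (σ : F →+* Ω)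
    (htriv : ∀ a : K, a ≠ 0 → v (σ (algebraMap K F a)) = 0) {f : F} (hf : f ≠ 0) {n : ℕ}
    (hdvd : ∀ P : Place K F, (n : ℤ) ∣ P.ord f) :
    ∃ (t : F) (r m : ℤ), t ≠ 0 ∧ v (σ t) = (r : WithTop ℤ) ∧
      v (σ f) = (((n : ℤ) * (m * r) : ℤ) : WithTop ℤ) := by
  by_cases hne : ∃ y : F, v (σ y) < 0
  · exact exists_uniformiser_mul v σ htriv hne hf hdvd
  · have hge : ∀ y : F, 0 ≤ v (σ y) := fun y => not_lt.mp fun h => hne ⟨y, h⟩
    have h3 : v (σ f) + v (σ f⁻¹) = 0 := by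
      rw [← AddValuation.map_mul, ← map_mul, mul_inv_cancel₀ hf, map_one, AddValuation.map_one]
    have h0 : v (σ f) = 0 :=
      le_antisymm ((le_add_of_nonneg_right (hge f⁻¹)).trans h3.le) (hge f)
    exact ⟨1, 0, 0, one_ne_zero, by simp, by simp [h0]⟩

end Valuation

section Cusps

variable (N : ℕ) [NeZero N]

/-- The expansion at a cusp of an element of `FC N`. -/
def cuspEmb (g : SL(2, ℤ)) : FC N →+* LaurentSeries ℂ :=
  IsFractionRing.lift (A := RC N) (cuspEval_injective N g)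

theorem cuspEmb_algebraMap (g : SL(2, ℤ)) (x : RC N) :
    cuspEmb N g (algebraMap (RC N) (FC N) x) = cuspEval N g x :=
  IsFractionRing.lift_algebraMap _ _

theorem cuspEmb_const (g : SL(2, ℤ)) (c : ℂ) :
    cuspEmb N g (algebraMap ℂ (FC N) c) = algebraMap ℂ (LaurentSeries ℂ) c := by
  rw [IsScalarTower.algebraMap_apply ℂ (RC N) (FC N), cuspEmb_algebraMap, cuspEval_apply]
  refine qSeries_eq N ?_
  show HasQExp (N : ℝ) (g • evalHol N (algebraMap ℂ (RC N) c) : Hol).1 _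
  rw [AlgHom.commutes, smul_algebraMap_hol]
  exact HasQExp.const_algebraMap _ c

/-- If `γ ∈ Γ₀(N)` acts as `δ ∘ (· + k) ∘ δ⁻¹`, expansions at `δ • ∞` are fixed by the twist. -/
theorem twistSeries_cuspEval {γ δ : SL(2, ℤ)} (hγ : γ ∈ Gamma0 N) {k : ℤ}
    (hk : ∀ w : ℍ, γ • δ • w = δ • ((k : ℝ) +ᵥ w)) (x : RC N) :
    twistSeries (cuspRoot N k) (cuspEval N δ⁻¹ x) = cuspEval N δ⁻¹ x := by
  rw [cuspEval_apply]
  refine (hasQExp_comp_T N (hasQExp_qSeries N _) k).congr (fun τ => ?_) |>.unique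
    (hasQExp_qSeries N _) (natCast_real_pos N)
  rw [smul_hol_apply, smul_hol_apply, inv_inv, modular_T_zpow_smul, ← hk]
  have h := congrArg (fun F : Hol => F.1 (δ • τ)) (smul_evalHol N (inv_mem hγ) x)
  simpa [smul_hol_apply] using h

theorem twistSeries_cuspEmb {γ δ : SL(2, ℤ)} (hγ : γ ∈ Gamma0 N) {k : ℤ}
    (hk : ∀ w : ℍ, γ • δ • w = δ • ((k : ℝ) +ᵥ w)) (y : FC N) :
    twistSeries (cuspRoot N k) (cuspEmb N δ⁻¹ y) = cuspEmb N δ⁻¹ y := by
  obtain ⟨a, b, -, rfl⟩ := IsFractionRing.div_surjective (A := RC N) y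
  rw [map_div₀, map_div₀, cuspEmb_algebraMap, cuspEmb_algebraMap, twistSeries_cuspEval N hγ hk,
    twistSeries_cuspEval N hγ hk]

end Cusps

section Root

variable {L : Type*} [Field L] [Algebra ℚ L] {N : ℕ} [NeZero N] {ι : L →+* ℂ}
variable {n : ℕ} {f : FL N L}

theorem n_dvd_ordPt_evalL (hf : f ≠ 0) (hdvd : ∀ P : Place L (FL N L), (n : ℤ) ∣ P.ord f)
    (z : ℍ) : ∃ (t : FL N L) (r m : ℤ), evalL ι N t ≠ 0 ∧ ordPt z (evalL ι N t) = r ∧
      ordPt z (evalL ι N f) = (n : ℤ) * (m * r) := by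
  obtain ⟨t, r, m, ht, hr, hm⟩ := exists_valuation_eq_mul (K := L) (addOrd z) (evalL ι N)
    (fun a ha => by rw [evalL_algebraMap]; exact addOrd_const z ((map_ne_zero ι).mpr ha)) hf hdvd
  exact ⟨t, r, m, (map_ne_zero _).mpr ht, (ordPt_eq_of_addOrd hr).2, (ordPt_eq_of_addOrd hm).2⟩

theorem ordPt_pow_hol {z : ℍ} {R : Hol} (hR : R ≠ 0) (n : ℕ) :
    (holOrd z (R ^ n) : ℤ) = n * holOrd z R := by
  have h1 : holOrd z (1 : Hol) = 0 := by
    have h := holOrd_mul (z := z) (one_ne_zero' Hol) (one_ne_zero' Hol)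
    rw [mul_one] at h
    omega
  induction n with
  | zero => simp [h1]
  | succ k ih =>
    rw [pow_succ, holOrd_mul (pow_ne_zero k hR) hR]
    push_cast
    rw [ih]
    ring

/-- A holomorphic `n`-th root of a function on `ℍ` with all orders divisible by `n`. -/
theorem exists_hol_root {n : ℕ} (hn : n ≠ 0) {H : Hol} (hH : H ≠ 0)
    (hdvd : ∀ z : ℍ, n ∣ holOrd z H) : ∃ R : Hol, R ^ n = H := by
  obtain ⟨z₀, hz₀⟩ : ∃ z₀ : ℍ, H.1 z₀ ≠ 0 := by
    by_contra h
    exact hH (Subtype.ext (funext fun z => not_not.mp fun hz => h ⟨z, hz⟩))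
  obtain ⟨r, hr, hrn⟩ := exists_nthRoot hn (f := (H : ℍ → ℂ) ∘ ofComplex)
    (UpperHalfPlane.mdifferentiable_iff.mp H.2)
    ⟨(z₀ : ℂ), z₀.im_pos, by simpa using hz₀⟩
    (fun z hz => by simpa [holOrd] using hdvd ⟨z, hz⟩)
  refine ⟨⟨fun z => r z, UpperHalfPlane.mdifferentiable_iff.mpr (hr.congr fun z hz => ?_)⟩,
    Subtype.ext (funext fun z => ?_)⟩
  · show r ((ofComplex z : ℍ) : ℂ) = r z
    rw [ofComplex_apply_of_im_pos hz]
  · show r z ^ n = H.1 z
    rw [hrn _ z.im_pos]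
    simp

/-- `evalL f` is the `n`-th power of `R / B`, with `B` and `R ^ n` from `ℂ[j(q^d)]`. -/
theorem exists_root_data (hn : n ≠ 0) (hf : f ≠ 0)
    (hdvd : ∀ P : Place L (FL N L), (n : ℤ) ∣ P.ord f) :
    ∃ (a b : RC N) (R : Hol), b ≠ 0 ∧ R ≠ 0 ∧
      toFC N ι f = algebraMap (RC N) (FC N) a / algebraMap (RC N) (FC N) b ∧
      R ^ n = evalHol N (a * b ^ (n - 1)) ∧
      (algebraMap Hol Mero R / algebraMap Hol Mero (evalHol N b)) ^ n = evalL ι N f := by
  obtain ⟨a, b, hb, hab⟩ := IsFractionRing.div_surjective (A := RC N) (toFC N ι f)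
  have hb0 : b ≠ 0 := nonZeroDivisors.ne_zero hb
  have hev : evalL ι N f =
      algebraMap Hol Mero (evalHol N a) / algebraMap Hol Mero (evalHol N b) := by
    rw [evalL_apply, ← hab, map_div₀, evalMero_algebraMap, evalMero_algebraMap]
  have hev0 : evalL ι N f ≠ 0 := (map_ne_zero _).mpr hf
  have hA : evalHol N a ≠ 0 := fun h => hev0 (by rw [hev, h, map_zero, zero_div])
  have hB : evalHol N b ≠ 0 := (map_ne_zero_iff _ (evalHol_injective N)).mpr hb0
  have hB' : algebraMap Hol Mero (evalHol N b) ≠ 0 :=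
    (map_ne_zero_iff _ (IsFractionRing.injective Hol Mero)).mpr hB
  have hH0 : evalHol N (a * b ^ (n - 1)) ≠ 0 := by
    rw [map_mul, map_pow]; exact mul_ne_zero hA (pow_ne_zero _ hB)
  have hH : algebraMap Hol Mero (evalHol N (a * b ^ (n - 1))) =
      evalL ι N f * algebraMap Hol Mero (evalHol N b) ^ n := by
    rw [hev, map_mul, map_pow, map_mul, map_pow, div_mul_eq_mul_div, eq_div_iff hB', mul_assoc,
      ← pow_succ, Nat.sub_add_cancel (Nat.one_le_iff_ne_zero.mpr hn)]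
  obtain ⟨R, hR⟩ := exists_hol_root hn hH0 fun z => by
    obtain ⟨t, r, m, -, -, hm⟩ := n_dvd_ordPt_evalL (ι := ι) hf hdvd z
    have h := congrArg (ordPt z) hH
    rw [ordPt_algebraMap hH0, ordPt_mul hev0 (pow_ne_zero _ hB'), hm, ← map_pow,
      ordPt_algebraMap (pow_ne_zero _ hB), ordPt_pow_hol hB] at h
    exact Int.natCast_dvd_natCast.mp ⟨m * r + holOrd z (evalHol N b), by rw [h]; ring⟩
  have hR0 : R ≠ 0 := fun h => hH0 (by rw [← hR, h, zero_pow hn])
  refine ⟨a, b, R, hb0, hR0, hab.symm, hR, ?_⟩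
  rw [div_pow, ← map_pow, hR, hH, mul_div_assoc, div_self (pow_ne_zero _ hB'), mul_one]

variable {G : Mero} {R B : Hol} {γ : SL(2, ℤ)} {c : ℂ}

/-- The multiplier of `R / B` is that of `R` when `B` is invariant. -/
theorem smul_eq_of_translate_div (hB : B ≠ 0) (hBinv : γ⁻¹ • B = B)
    (h : translate γ⁻¹ (algebraMap Hol Mero R / algebraMap Hol Mero B) =
      algebraMap ℂ Mero c * (algebraMap Hol Mero R / algebraMap Hol Mero B)) :
    γ⁻¹ • R = algebraMap ℂ Hol c * R := by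
  have hB' : algebraMap Hol Mero B ≠ 0 :=
    (map_ne_zero_iff _ (IsFractionRing.injective Hol Mero)).mpr hB
  rw [map_div₀, translate_algebraMap, translate_algebraMap, hBinv, ← mul_div_assoc,
    div_left_inj' hB', IsScalarTower.algebraMap_apply ℂ Hol Mero, ← map_mul] at h
  exact IsFractionRing.injective Hol Mero h

/-- The multiplier of an elliptic element is trivial. -/
theorem multiplier_eq_one_of_elliptic {f : FL N L}
    (hdvd : ∀ P : Place L (FL N L), (n : ℤ) ∣ P.ord f) (hn : n ≠ 0) (hf : f ≠ 0)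
    {b : RC N} (hb : b ≠ 0) (hR : R ≠ 0)
    (hG : (algebraMap Hol Mero R / algebraMap Hol Mero (evalHol N b)) ^ n = evalL ι N f)
    (hγ : γ ∈ Gamma0 N) (hc : γ⁻¹ • R = algebraMap ℂ Hol c * R)
    {z : ℍ} (hz : γ • z = z) : c = 1 := by
  set ζ : ℂ := 1 / denom (γ : GL (Fin 2) ℝ) z ^ 2
  have hζ : ζ ≠ 0 := multiplier_ne_zero γ z
  have hB : evalHol N b ≠ 0 := (map_ne_zero_iff _ (evalHol_injective N)).mpr hb
  have hB' : algebraMap Hol Mero (evalHol N b) ≠ 0 :=
    (map_ne_zero_iff _ (IsFractionRing.injective Hol Mero)).mpr hB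
  have hR' : algebraMap Hol Mero R ≠ 0 :=
    (map_ne_zero_iff _ (IsFractionRing.injective Hol Mero)).mpr hR
  have hBord : ζ ^ holOrd z (evalHol N b) = 1 :=
    (eq_multiplier_pow_of_smul hz hB (c := 1) (by
      rw [smul_evalHol N (inv_mem hγ), map_one, one_mul])).symm
  obtain ⟨t, r, m, ht, hr, hm⟩ := n_dvd_ordPt_evalL (ι := ι) hf hdvd z
  have hζr : ζ ^ r = 1 := hr ▸ multiplier_zpow_ordPt hz ht (translate_evalL ι N hγ t)
  have hordR : (holOrd z R : ℤ) = m * r + holOrd z (evalHol N b) := by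
    have h2 : algebraMap Hol Mero R ^ n =
        evalL ι N f * algebraMap Hol Mero (evalHol N b) ^ n := by
      rw [← hG, div_pow, div_mul_cancel₀ _ (pow_ne_zero _ hB')]
    replace h2 := congrArg (ordPt z) h2
    rw [ordPt_mul ((map_ne_zero _).mpr hf) (pow_ne_zero _ hB'), hm, ← map_pow, ← map_pow,
      ordPt_algebraMap (pow_ne_zero _ hR), ordPt_algebraMap (pow_ne_zero _ hB), ordPt_pow_hol hR,
      ordPt_pow_hol hB, ← mul_add] at h2
    exact mul_left_cancel₀ (Nat.cast_ne_zero.mpr hn) h2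
  rw [eq_multiplier_pow_of_smul hz hR hc, ← zpow_natCast, hordR, zpow_add₀ hζ, zpow_natCast, hBord,
    mul_comm m, zpow_mul, hζr, one_zpow, one_mul]

/-- The multiplier of an element of trace `±2` is trivial. -/
theorem multiplier_eq_one_of_parabolic {f : FL N L}
    (hdvd : ∀ P : Place L (FL N L), (n : ℤ) ∣ P.ord f) (hn : n ≠ 0) (hf : f ≠ 0)
    {a b : RC N} (hb : b ≠ 0)
    (hab : toFC N ι f = algebraMap (RC N) (FC N) a / algebraMap (RC N) (FC N) b)
    (hR : R ^ n = evalHol N (a * b ^ (n - 1))) (hγ : γ ∈ Gamma0 N)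
    (hc : γ⁻¹ • R = algebraMap ℂ Hol c * R) (hcn : c ^ n = 1)
    (htr : (γ : Matrix (Fin 2) (Fin 2) ℤ).trace ^ 2 = 4) : c = 1 := by
  obtain ⟨δ, k, hk⟩ := Periods.exists_conj_translation γ htr
  let v := HahnSeries.addVal ℤ ℂ
  obtain ⟨t, r, m, ht, hr, hm⟩ := exists_valuation_eq_mul (K := L) v
    ((cuspEmb N δ⁻¹).comp (toFC N ι)) (fun x hx => by
      rw [RingHom.comp_apply, toFC_algebraMap, cuspEmb_const, algebraMap_laurentSeries_eq_single,
        HahnSeries.addVal_apply, HahnSeries.orderTop_single ((map_ne_zero ι).mpr hx)]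
      rfl) hf hdvd
  have hbs : cuspEval N δ⁻¹ b ≠ 0 := (map_ne_zero_iff _ (cuspEval_injective N _)).mpr hb
  obtain ⟨sb, hsb⟩ := WithTop.ne_top_iff_exists.mp
    ((AddValuation.ne_top_iff v).mpr hbs)
  have hkr : (N : ℤ) ∣ k * r :=
    dvd_mul_of_twistSeries_eq N (twistSeries_cuspEmb N hγ hk _) hr
  have hksb : (N : ℤ) ∣ k * sb :=
    dvd_mul_of_twistSeries_eq N (twistSeries_cuspEval N hγ hk b) hsb.symm
  obtain ⟨s, hs⟩ : ∃ s : ℤ, s = m * r + sb := ⟨_, rfl⟩
  have hks : (N : ℤ) ∣ k * s := by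
    rw [hs, mul_add, mul_left_comm]
    exact dvd_add (Dvd.dvd.mul_left hkr m) hksb
  -- the order of `R ^ n` at the cusp
  have hord : v (cuspEval N δ⁻¹ (a * b ^ (n - 1))) = (((n : ℤ) * s : ℤ) : WithTop ℤ) := by
    have he : cuspEval N δ⁻¹ (a * b ^ (n - 1)) =
        cuspEmb N δ⁻¹ (toFC N ι f) * cuspEval N δ⁻¹ b ^ n := by
      rw [hab, map_div₀, cuspEmb_algebraMap, cuspEmb_algebraMap, map_mul, map_pow,
        div_mul_eq_mul_div, eq_div_iff hbs, mul_assoc, ← pow_succ,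
        Nat.sub_add_cancel (Nat.one_le_iff_ne_zero.mpr hn)]
    rw [RingHom.comp_apply] at hm
    rw [he, AddValuation.map_mul, AddValuation.map_pow, hm, ← hsb, ← WithTop.coe_nsmul,
      ← WithTop.coe_add, hs, mul_add, nsmul_eq_mul]
  rw [HahnSeries.addVal_apply] at hord
  have hne : cuspEval N δ⁻¹ (a * b ^ (n - 1)) ≠ 0 := fun h => by
    rw [h, HahnSeries.orderTop_zero] at hord
    exact WithTop.top_ne_coe hord
  rw [← HahnSeries.order_eq_orderTop_of_ne_zero hne, WithTop.coe_eq_coe] at hord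
  have hlim := (hasQExp_qSeries N ⟨δ⁻¹ • evalHol N (a * b ^ (n - 1)),
    smul_evalHol_mem_holExp N _ _⟩).tendsto (natCast_real_pos N) (m := (n : ℤ) * s)
    fun i hi => HahnSeries.coeff_eq_zero_of_lt_order (by rw [← hord] at hi; exact hi)
  let q : ℍ → ℂ := fun τ => (Function.Periodic.qParam (N : ℝ) τ) ^ s
  refine eq_one_of_period_root hn (w := fun τ : ℍ => (δ⁻¹ • R : Hol).1 τ * (q τ)⁻¹) ?_
    (L := (qSeries N ⟨δ⁻¹ • evalHol N (a * b ^ (n - 1)),
      smul_evalHol_mem_holExp N _ _⟩).coeff ((n : ℤ) * s)) ?_ ?_ hcn (k := (k : ℝ)) ?_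
  · refine (δ⁻¹ • R : Hol).2.continuous.mul (Continuous.inv₀ ?_ fun τ =>
      zpow_ne_zero _ (Function.Periodic.qParam_ne_zero _))
    exact ((Function.Periodic.differentiable_qParam).continuous.comp
      UpperHalfPlane.continuous_coe).zpow₀ s fun τ =>
        Or.inl (Function.Periodic.qParam_ne_zero _)
  · rw [← cuspEval_apply, ← hord]
    exact HahnSeries.coeff_order_eq_zero.not.mpr hne
  · refine hlim.congr fun τ => ?_
    show (δ⁻¹ • evalHol N (a * b ^ (n - 1)) : Hol).1 τ * _ = ((δ⁻¹ • R : Hol).1 τ * (q τ)⁻¹) ^ n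
    rw [mul_pow, inv_pow, ← hR, smul_pow', SubmonoidClass.coe_pow, Pi.pow_apply]
    congr 2
    rw [← zpow_natCast (q τ), ← zpow_mul, mul_comm]
  · intro τ
    have h1 : (δ⁻¹ • R : Hol).1 ((k : ℝ) +ᵥ τ) = c * (δ⁻¹ • R : Hol).1 τ := by
      rw [smul_hol_apply, smul_hol_apply, inv_inv, ← hk]
      have h := congrArg (fun F : Hol => F.1 (δ • τ)) hc
      simp only [smul_hol_apply, inv_inv] at h
      exact h
    have h2 : q ((k : ℝ) +ᵥ τ) = q τ := by
      show Function.Periodic.qParam (N : ℝ) _ ^ s = _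
      rw [← modular_T_zpow_smul, qParam_T_zpow_smul, mul_zpow, ← Units.val_zpow_eq_zpow_val,
        (cuspRoot_zpow_eq_one_iff N k s).mpr hks, one_mul]
    rw [h1, h2, mul_assoc]

end Root

variable {L : Type*} [Field L] [Algebra ℚ L] [IsAlgClosed L] {N : ℕ} [NeZero N] {ι : L →+* ℂ}

omit [IsAlgClosed L] in
/-- Every torsion class has a Kummer character killing parabolic and elliptic elements. -/
theorem exists_isKummerCharOver {x : Pic0 L (FL N L)} (hx : IsOfFinAddOrder x) :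
    ∃ φ ∈ Periods.cuspidalHoms ℤ (Gamma0 N) QZ, IsKummerCharOver ι x φ := by
  obtain ⟨n, hnpos, hnx⟩ := isOfFinAddOrder_iff_nsmul_eq_zero.mp hx
  have hn : n ≠ 0 := hnpos.ne'
  obtain ⟨D, rfl⟩ := Pic0.mk_surjective x
  rw [Pic0.mk, ← QuotientAddGroup.mk_nsmul, QuotientAddGroup.eq_zero_iff,
    AddSubgroup.mem_addSubgroupOf] at hnx
  obtain ⟨f, hf, hfD⟩ := hnx
  have hdiv : ∀ v : Place L (FL N L), (n : ℤ) * (D : Divisor L (FL N L)) v = v.ord f := fun v => by
    rw [← hfD v, AddSubgroupClass.coe_nsmul, Finsupp.smul_apply, nsmul_eq_mul]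
  have hdvd : ∀ P : Place L (FL N L), (n : ℤ) ∣ P.ord f := fun P => ⟨_, (hdiv P).symm⟩
  obtain ⟨a, b, R, hb, hR, hab, hRn, hG⟩ := exists_root_data (ι := ι) hn hf hdvd
  set G := algebraMap Hol Mero R / algebraMap Hol Mero (evalHol N b)
  have hev0 : evalL ι N f ≠ 0 := (map_ne_zero _).mpr hf
  have hG0 : G ≠ 0 := fun h => hev0 (by rw [← hG, h, zero_pow hn])
  have key : ∀ γ : Gamma0 N, ∃ t : QZ,
      translate (γ : SL(2, ℤ))⁻¹ G = algebraMap ℂ Mero (qzExp t) * G ∧ qzExp t ^ n = 1 := by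
    intro γ
    have hp : translate (γ : SL(2, ℤ))⁻¹ G ^ n = G ^ n := by
      rw [← map_pow, hG, translate_evalL ι N (inv_mem γ.2)]
    obtain ⟨d, hd⟩ := eq_algebraMap_mul_of_pow hn hG0 (P := translate (γ : SL(2, ℤ))⁻¹ G) (c := 1)
      (by rw [hp, map_one, one_mul])
    have hdn : d ^ n = 1 := by
      rw [hd, mul_pow, mul_eq_right₀ (pow_ne_zero _ hG0), ← map_pow,
        map_eq_one_iff _ (algebraMap ℂ Mero).injective] at hp
      exact hp
    obtain ⟨t, -, ht⟩ := exists_qzExp_eq' hn hdn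
    exact ⟨t, by rw [ht, hd], by rw [ht, hdn]⟩
  choose φ hφ hφn using key
  have hadd : ∀ γ δ : Gamma0 N, φ (γ * δ) = φ γ + φ δ := fun γ δ => by
    refine qzExp_injective' ((algebraMap ℂ Mero).injective (mul_right_cancel₀ hG0 ?_))
    rw [← hφ, Subgroup.coe_mul, mul_inv_rev, translate_mul, hφ γ, map_mul, translate_const, hφ δ,
      qzExp_add, map_mul, mul_assoc]
  let Φ : Additive (Gamma0 N) →+ QZ :=
    AddMonoidHom.mk' (fun γ => φ (Additive.toMul γ)) fun γ δ => hadd _ _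
  refine ⟨Φ, fun γ htr => ?_, n, D, f, G, rfl, ⟨hn, hf, hdiv, hG⟩, fun γ => hφ γ⟩
  show φ γ = 0
  rw [← qzExp_eq_one_iff']
  have hc := smul_eq_of_translate_div ((map_ne_zero_iff _ (evalHol_injective N)).mpr hb)
    (smul_evalHol N (inv_mem γ.2) b) (hφ γ)
  rcases eq_or_lt_of_le htr with h4 | h4
  · exact multiplier_eq_one_of_parabolic hdvd hn hf hb hab hRn γ.2 hc (hφn γ) h4
  · obtain ⟨z, hz⟩ := exists_fixed_of_trace_sq_lt h4
    exact multiplier_eq_one_of_elliptic hdvd hn hf hb hR hG γ.2 hc hz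

end Fermat.Agent.EichlerShimura

end
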