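import Fermat.Agent.EichlerShimura.ClassDescent
import Fermat.Agent.EichlerShimura.KummerExists
import Fermat.Agent.EichlerShimura.KummerComplex

/-!
# Descent of torsion classes from `ℂ` to `ℚ̄`
-/

set_option autoImplicit false

noncomputable section

open CongruenceSubgroup AlgebraicCurve ModularCurve
open Fermat.Agent.Modular
open scoped MatrixGroups

namespace Fermat.Agent.EichlerShimura

variable {N : ℕ} [NeZero N]

local notation "Qb" => AlgebraicClosure ℚ

instance factJqMemModularFunctionFieldFull : Fact (jq ∈ modularFunctionFieldFull N) :=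
  ⟨modularFunctionField_le_full N (jq_mem N)⟩

theorem evalL_bcHom {k : Type*} [Field k] [Algebra ℚ k] (ι : k →ₐ[ℚ] ℂ) (f : FL N k) :
    evalL (RingHom.id ℂ) N (bcHom (modularFunctionFieldFull N) ι f) = evalL (ι : k →+* ℂ) N f := by
  rw [evalL_apply, evalL_apply]
  congr 1


theorem isKummerCharOver_zero {L : Type*} [Field L] [Algebra ℚ L] {ι : L →+* ℂ} :
    IsKummerCharOver ι (0 : Pic0 L (FL N L)) (0 : Additive (Gamma0 N) →+ QZ) :=
  ⟨1, 0, 1, 1, Pic0.mk_zero, ⟨one_ne_zero, one_ne_zero, fun v => by simp,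
    by rw [one_pow, map_one]⟩, fun γ => by
      rw [AddMonoidHom.zero_apply, qzExp_zero', map_one, map_one, one_mul]⟩

theorem IsKummerCharOver.nsmul {L : Type*} [Field L] [Algebra ℚ L] {ι : L →+* ℂ}
    {x : Pic0 L (FL N L)} {φ : Additive (Gamma0 N) →+ QZ} (hx : IsKummerCharOver ι x φ) (m : ℕ) :
    IsKummerCharOver ι (m • x) (m • φ) := by
  induction m with
  | zero => simpa using isKummerCharOver_zero
  | succ m ih => rw [succ_nsmul, succ_nsmul]; exact ih.add hx

theorem finite_setOf_nsmul_pic0_eq_zero {n : ℕ} (hn : n ≠ 0) :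
    {x : Pic0 ℂ (FL N ℂ) | n • x = 0}.Finite := by
  classical
  have hex : ∀ x : {x : Pic0 ℂ (FL N ℂ) | n • x = 0},
      ∃ φ : {φ : Additive (Gamma0 N) →+ QZ | n • φ = 0},
        IsKummerCharOver (RingHom.id ℂ) (x : Pic0 ℂ (FL N ℂ)) φ := by
    rintro ⟨x, hx⟩
    obtain ⟨φ, -, h⟩ := exists_isKummerCharOver (ι := RingHom.id ℂ)
      (isOfFinAddOrder_iff_nsmul_eq_zero.mpr ⟨n, Nat.pos_of_ne_zero hn, hx⟩)
    refine ⟨⟨φ, IsKummerCharOver.unique (h.nsmul n) ?_⟩, h⟩
    rw [show n • x = 0 from hx]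
    exact isKummerCharOver_zero
  choose F hF using hex
  have := (finite_setOf_nsmul_eq_zero (N := N) hn).to_subtype
  refine Set.finite_coe_iff.mp (Finite.of_injective F fun a b hab => Subtype.ext ?_)
  have h1 := hF a
  rw [hab] at h1
  obtain ⟨ψ, -, hψ⟩ := exists_isKummerCharOver (ι := RingHom.id ℂ)
    (x := (a : Pic0 ℂ (FL N ℂ)) - (b : Pic0 ℂ (FL N ℂ))) (isOfFinAddOrder_iff_nsmul_eq_zero.mpr
      ⟨n, Nat.pos_of_ne_zero hn, by
        rw [nsmul_sub, show n • (a : Pic0 ℂ (FL N ℂ)) = 0 from a.2,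
          show n • (b : Pic0 ℂ (FL N ℂ)) = 0 from b.2, sub_zero]⟩)
  have h2 := hψ.add (hF b)
  rw [sub_add_cancel] at h2
  have h3 : ψ = 0 := add_right_cancel ((IsKummerCharOver.unique h2 h1).trans (zero_add _).symm)
  exact sub_eq_zero.mp (eq_zero_of_isKummerCharOver_zero (h3 ▸ hψ))

section

variable [Curve.IsFunctionField1 Qb (laurentBaseChange Qb (modularFunctionFieldFull N))]
  [Curve.IsFunctionField1 ℂ (laurentBaseChange ℂ (modularFunctionFieldFull N))]

theorem IsKummerChar.bcPic0 {y : JZero N} {φ : Additive (Gamma0 N) →+ QZ}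
    (hy : IsKummerChar N y φ) :
    IsKummerCharOver (RingHom.id ℂ)
      (EichlerShimura.bcPic0 (F₀ := modularFunctionFieldFull N) complexEmbedding y) φ := by
  obtain ⟨n, D, f, G, rfl, hD, hG⟩ := hy
  refine ⟨n, bcDegZero complexEmbedding D, bcHom _ complexEmbedding f, G, (bcPic0_mk D).symm,
    ⟨hD.n_ne, (map_ne_zero _).mpr hD.f_ne, fun v => ?_, by rw [evalL_bcHom]; exact hD.root⟩, hG⟩
  rw [← bcDiv_eq_ord (D := n • (D : Divisor Qb (FL N Qb))) (fun w => by
    rw [Finsupp.smul_apply, nsmul_eq_mul]; exact hD.divisor w) v, map_nsmul, Finsupp.smul_apply,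
    nsmul_eq_mul]
  rfl

theorem exists_bcPic0_eq_of_torsion {x : Pic0 ℂ (FL N ℂ)} (hx : IsOfFinAddOrder x) :
    ∃ y : JZero N,
      EichlerShimura.bcPic0 (F₀ := modularFunctionFieldFull N) complexEmbedding y = x := by
  obtain ⟨n, hn, hnx⟩ := isOfFinAddOrder_iff_nsmul_eq_zero.mp hx
  refine exists_bcPic0_eq ((finite_setOf_nsmul_pic0_eq_zero hn.ne').subset ?_)
  rintro _ ⟨σ, rfl⟩
  show n • (fixingGalois (modularFunctionFieldFull N) complexEmbedding σ • x) = 0
  have h := map_nsmul (DistribSMul.toAddMonoidHom (Pic0 ℂ (FL N ℂ))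
    (fixingGalois (modularFunctionFieldFull N) complexEmbedding σ)) n x
  rw [hnx, map_zero] at h
  exact h.symm

omit [NeZero N] in
theorem bcPic0_complex_injective : Function.Injective
    (EichlerShimura.bcPic0 (F₀ := modularFunctionFieldFull N) complexEmbedding) :=
  EichlerShimura.bcPic0_injective

theorem isOfFinAddOrder_of_bcPic0 {y : JZero N}
    (h : IsOfFinAddOrder
      (EichlerShimura.bcPic0 (F₀ := modularFunctionFieldFull N) complexEmbedding y)) :
    IsOfFinAddOrder y := by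
  obtain ⟨n, hn, h0⟩ := isOfFinAddOrder_iff_nsmul_eq_zero.mp h
  refine isOfFinAddOrder_iff_nsmul_eq_zero.mpr ⟨n, hn, bcPic0_complex_injective ?_⟩
  rw [map_nsmul, h0, map_zero]

end

/-- A character of a class over `ℂ` is the character of a point of `J₀(N)(ℚ̄)`. -/
theorem exists_isKummerChar_of_complex {x : Pic0 ℂ (FL N ℂ)} {φ : Additive (Gamma0 N) →+ QZ}
    (hx : IsKummerCharOver (RingHom.id ℂ) x φ) : ∃ y : JZero N, IsKummerChar N y φ := by
  have := isFunctionField1_FL N (complexEmbedding : Qb →+* ℂ)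
  have := isFunctionField1_FL N (RingHom.id ℂ)
  obtain ⟨y, rfl⟩ := exists_bcPic0_eq_of_torsion hx.isOfFinAddOrder
  have hy : IsOfFinAddOrder y :=
    isOfFinAddOrder_of_bcPic0 hx.isOfFinAddOrder
  obtain ⟨ψ, -, hψ⟩ := exists_isKummerCharOver (ι := (complexEmbedding : Qb →+* ℂ)) hy
  exact ⟨y, IsKummerCharOver.unique (IsKummerChar.bcPic0 hψ) hx ▸ hψ⟩

/-- A point of `J₀(N)(ℚ̄)` with trivial character is trivial. -/
theorem eq_zero_of_isKummerChar_zero {y : JZero N} (h : IsKummerChar N y 0) : y = 0 := by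
  have := isFunctionField1_FL N (complexEmbedding : Qb →+* ℂ)
  have := isFunctionField1_FL N (RingHom.id ℂ)
  refine bcPic0_complex_injective ?_
  rw [map_zero]
  exact eq_zero_of_isKummerCharOver_zero h.bcPic0

end Fermat.Agent.EichlerShimura
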