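import Fermat.Agent.EichlerShimura.Poincare
import Fermat.Agent.Modular.Hol
import Fermat.Agent.Modular.QExp
import Mathlib.Analysis.Analytic.Order

/-!
# The multiplier function inside `Hol`, and its local behaviour

`exists_hol_of_character` is Riemann existence in the language of `Hol`.
`two_dvd_holOrd`, `three_dvd_holOrd` give the divisibility of orders at elliptic points, and
`exists_hasQExp_translate` the Laurent expansion at a cusp.
-/

set_option autoImplicit false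

noncomputable section

open UpperHalfPlane hiding I
open Complex Filter Fermat.Agent.Modular
open scoped MatrixGroups Topology Manifold

namespace Fermat.Agent.EichlerShimura.Poincare

/-- **Riemann existence in `Hol`.** -/
theorem exists_hol_of_character (Γ : Subgroup SL(2, ℤ)) [Γ.FiniteIndex]
    (χ : Γ →* ℂˣ) {n : ℕ} (hn : n ≠ 0) (hχ : ∀ g, χ g ^ n = 1)
    (hneg : ∀ γ : Γ, (γ : SL(2, ℤ)) = -1 → χ γ = 1) :
    ∃ g : Hol, g ≠ 0 ∧
      (∀ γ : Γ, (γ : SL(2, ℤ)) • g = algebraMap ℂ Hol (χ γ) * g) ∧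
      (∀ α : SL(2, ℤ),
        IsBoundedAtImInfty fun z : ℍ => g.1 (α • z) * ModularForm.discriminant z ^ 13) := by
  obtain ⟨f, hd, hne, hf, hb⟩ := exists_holomorphic_of_character Γ χ⁻¹ hn
    (fun g => by simp [hχ g]) (fun γ hγ => by simp [hneg γ hγ])
  refine ⟨⟨f, hd⟩, fun h => hne (congrArg Subtype.val h), fun γ => ?_, hb⟩
  ext z
  rw [smul_hol_apply]
  change f _ = (χ γ : ℂ) * f z
  simpa using hf γ⁻¹ z

variable {Γ : Subgroup SL(2, ℤ)} {χ : Γ →* ℂˣ} {g : Hol}

/-- If `g` has multiplier `χ` then `g ^ n` is invariant. -/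
theorem smul_pow_eq_of_multiplier (hg : ∀ γ : Γ, (γ : SL(2, ℤ)) • g = algebraMap ℂ Hol (χ γ) * g)
    {n : ℕ} (hχ : ∀ γ, χ γ ^ n = 1) (γ : Γ) : (γ : SL(2, ℤ)) • g ^ n = g ^ n := by
  rw [smul_pow', hg γ, mul_pow, ← map_pow, ← Units.val_pow_eq_pow_val, hχ γ, Units.val_one,
    map_one, one_mul]

/-- `c z + d` is an eigenvalue of the matrix at a fixed point. -/
lemma fac_sq_of_fixed (γ : SL(2, ℤ)) {z : ℍ} (hz : γ • z = z) :
    fac γ z ^ 2 - ((γ 0 0 + γ 1 1 : ℤ) : ℂ) * fac γ z + 1 = 0 := by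
  have h := congrArg (fun w : ℍ => (w : ℂ)) hz
  simp only [smul_eq, div_eq_iff (fac_ne_zero γ z)] at h
  have hdet : ((γ 0 0 : ℤ) : ℂ) * (γ 1 1 : ℤ) - (γ 0 1 : ℤ) * (γ 1 0 : ℤ) = 1 := by
    exact_mod_cast det_eq γ
  simp only [fac] at h ⊢
  push_cast
  linear_combination (-(γ 1 0 : ℤ) : ℂ) * h - hdet

/-- The order of an invariant function at a fixed point. -/
theorem fac_pow_eq_one_of_smul_eq_self (hg0 : g ≠ 0) {γ : SL(2, ℤ)} {z : ℍ} (hz : γ • z = z)
    (hinv : ∀ w : ℍ, g.1 (γ • w) = g.1 w) : fac γ z ^ (2 * holOrd z g) = 1 := by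
  set F : ℂ → ℂ := g.1 ∘ ofComplex
  set m := holOrd z g
  obtain ⟨h, hh, hh0, hF⟩ :=
    ((Hol.analyticAt g z).analyticOrderAt_eq_natCast (n := m)).mp (analyticOrderAt_hol hg0)
  set φ : ℂ → ℂ := fun w => ((γ 0 0 : ℤ) * w + (γ 0 1 : ℤ)) / fac γ w
  have hfac : ContinuousAt (fac γ) (z : ℂ) := by unfold fac; fun_prop
  have hfne := fac_ne_zero γ z
  have hφz : φ z = z := by
    change _ / _ = _
    rw [← smul_eq, hz]
  have hφc : ContinuousAt φ (z : ℂ) :=
    ContinuousAt.div (by fun_prop) hfac hfne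
  have key : ∀ᶠ w in 𝓝[≠] (z : ℂ),
      ((fac γ w * fac γ z)⁻¹) ^ m * h (φ w) = h w := by
    have h1 : ∀ᶠ w in 𝓝 (z : ℂ), F (φ w) = (φ w - z) ^ m • h (φ w) := by
      have := hφc.tendsto
      rw [hφz] at this
      exact this.eventually hF
    filter_upwards [eventually_nhdsWithin_of_eventually_nhds h1,
      eventually_nhdsWithin_of_eventually_nhds hF,
      eventually_nhdsWithin_of_eventually_nhds (isOpen_upperHalfPlaneSet.mem_nhds z.im_pos),
      self_mem_nhdsWithin] with w hw1 hw2 him hne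
    have hfw := fac_ne_zero γ ⟨w, him⟩
    have hval : F (φ w) = F w := by
      have : φ w = ((γ • (⟨w, him⟩ : ℍ) : ℍ) : ℂ) := (smul_eq γ ⟨w, him⟩).symm
      simp only [F, Function.comp_apply, this, ofComplex_apply, hinv,
        ofComplex_apply_of_im_pos him]
    have hdiff : φ w - z = (w - z) * (fac γ w * fac γ z)⁻¹ := by
      conv_lhs => rw [← hφz]
      have hdet : ((γ 0 0 : ℤ) : ℂ) * (γ 1 1 : ℤ) - (γ 0 1 : ℤ) * (γ 1 0 : ℤ) = 1 := by
        exact_mod_cast det_eq γ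
      simp only [φ]
      rw [div_sub_div _ _ hfw hfne, ← div_eq_mul_inv]
      congr 1
      simp only [fac]
      linear_combination (w - (z : ℂ)) * hdet
    change F w = (w - z) ^ m • h w at hw2
    rw [hval, hw2, hdiff, smul_eq_mul, smul_eq_mul, mul_pow, mul_assoc] at hw1
    exact (mul_left_cancel₀ (pow_ne_zero _ (sub_ne_zero.mpr hne)) hw1).symm
  have hlim : Tendsto (fun w => ((fac γ w * fac γ z)⁻¹) ^ m * h (φ w)) (𝓝[≠] (z : ℂ))
      (𝓝 (((fac γ z * fac γ z)⁻¹) ^ m * h z)) := by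
    have hc : ContinuousAt (fun w => ((fac γ w * fac γ z)⁻¹) ^ m * h (φ w)) (z : ℂ) :=
      (((hfac.mul continuousAt_const).inv₀ (mul_ne_zero hfne hfne)).pow m).mul
        (ContinuousAt.comp (by rw [hφz]; exact hh.continuousAt) hφc)
    simpa [hφz] using hc.mono_left nhdsWithin_le_nhds
  have := tendsto_nhds_unique (hlim.congr' key) (hh.continuousAt.mono_left nhdsWithin_le_nhds)
  rw [mul_eq_right₀ hh0, inv_pow, inv_eq_one] at this
  rwa [pow_mul, sq]

/-- At a fixed point of a matrix of trace `0` an invariant function has even order. -/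
theorem two_dvd_holOrd (hg0 : g ≠ 0) {γ : SL(2, ℤ)} {z : ℍ} (hz : γ • z = z)
    (ht : γ 0 0 + γ 1 1 = 0) (hinv : ∀ w : ℍ, g.1 (γ • w) = g.1 w) : 2 ∣ holOrd z g := by
  have h := fac_pow_eq_one_of_smul_eq_self hg0 hz hinv
  have h2 := fac_sq_of_fixed γ hz
  rw [ht] at h2
  rw [pow_mul, show fac γ z ^ 2 = -1 by simpa [add_eq_zero_iff_eq_neg] using h2] at h
  rw [← even_iff_two_dvd, ← Nat.not_odd_iff_even]
  intro ho
  rw [ho.neg_one_pow] at h
  norm_num at h

/-- At a fixed point of a matrix of trace `±1` an invariant function has order divisible by `3`. -/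
theorem three_dvd_holOrd (hg0 : g ≠ 0) {γ : SL(2, ℤ)} {z : ℍ} (hz : γ • z = z)
    (ht : (γ 0 0 + γ 1 1) ^ 2 = 1) (hinv : ∀ w : ℍ, g.1 (γ • w) = g.1 w) : 3 ∣ holOrd z g := by
  have h := fac_pow_eq_one_of_smul_eq_self hg0 hz hinv
  have h2 := fac_sq_of_fixed γ hz
  rw [pow_mul] at h
  set ω := fac γ z ^ 2
  have ht' : ((γ 0 0 + γ 1 1 : ℤ) : ℂ) ^ 2 = 1 := by exact_mod_cast ht
  have h3 : ω ^ 2 + ω + 1 = 0 := by
    linear_combination (ω + 1 + ((γ 0 0 + γ 1 1 : ℤ) : ℂ) * fac γ z) * h2 + fac γ z ^ 2 * ht'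
  have h1 : ω ≠ 1 := by
    intro h1
    rw [h1] at h3
    norm_num at h3
  have hord : orderOf ω = 3 :=
    orderOf_eq_prime (by linear_combination (ω - 1) * h3) h1
  exact hord ▸ orderOf_dvd_of_pow_eq_one h

/-- The Laurent expansion at the cusp `α ∞`, in `exp (2 π i z / h)`. -/
theorem exists_hasQExp_translate (α : SL(2, ℤ)) {h : ℕ} (hh : 0 < h)
    (hb : IsBoundedAtImInfty fun z : ℍ => g.1 (α • z) * ModularForm.discriminant z ^ 13)
    (hinv : ∀ w : ℍ, g.1 ((α * ModularGroup.T ^ (h : ℤ) * α⁻¹) • w) = g.1 w) :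
    ∃ x : LaurentSeries ℂ, HasQExp (h : ℝ) (α⁻¹ • g : Hol).1 x := by
  have hhr : (0 : ℝ) < h := by exact_mod_cast hh
  have hf : ∀ z : ℍ, (α⁻¹ • g : Hol).1 z = g.1 (α • z) := fun z => by simp
  have hper : Function.Periodic ((α⁻¹ • g : Hol).1 ∘ ofComplex) ((h : ℝ) : ℂ) := by
    intro w
    simp only [Function.comp_apply, hf]
    by_cases hw : 0 < w.im
    · have hw' : 0 < (w + ((h : ℝ) : ℂ)).im := by simpa using hw
      rw [ofComplex_apply_of_im_pos hw, ofComplex_apply_of_im_pos hw']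
      have := hinv (α • (⟨w, hw⟩ : ℍ))
      rw [mul_smul, mul_smul, inv_smul_smul] at this
      rw [← this]
      rw [modular_T_zpow_smul]
      refine congrArg (fun x => g.1 (α • x)) ?_
      apply UpperHalfPlane.ext
      simp [add_comm]
    · have hw' : (w + ((h : ℝ) : ℂ)).im ≤ 0 := by simpa using not_lt.1 hw
      rw [ofComplex_apply_of_im_nonpos (not_lt.1 hw), ofComplex_apply_of_im_nonpos hw']
  suffices hbd : IsBoundedAtImInfty fun τ : ℍ =>
      Function.Periodic.qParam (h : ℝ) τ ^ (13 * (h : ℤ)) * (α⁻¹ • g : Hol).1 τ from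
    (HasQExp.exists_of_isBoundedAtImInfty_mul hhr hper (α⁻¹ • g : Hol).2 _ hbd).imp
      fun x hx => hx.1
  refine Asymptotics.IsBigO.trans ?_ hb
  have h13 : (fun τ : ℍ => Function.Periodic.qParam (h : ℝ) τ ^ (13 * (h : ℤ)))
      =O[atImInfty] fun τ => ModularForm.discriminant τ ^ 13 := by
    refine Asymptotics.IsBigO.trans ?_ (ModularForm.exp_isBigO_discriminant.pow 13)
    refine Asymptotics.IsBigO.of_bound 1 (Eventually.of_forall fun τ => le_of_eq ?_)
    rw [one_mul, norm_zpow, Function.Periodic.norm_qParam,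
      Real.norm_of_nonneg (pow_nonneg (Real.exp_pos _).le _), mul_comm (13 : ℤ), zpow_mul,
      zpow_natCast, ← Real.exp_nat_mul, zpow_ofNat, coe_im]
    congr 2
    field_simp
  refine ((Asymptotics.isBigO_refl (fun τ : ℍ => g.1 (α • τ)) atImInfty).mul h13).congr'
    (Eventually.of_forall fun τ => ?_) EventuallyEq.rfl
  simp only [hf, mul_comm]

end Fermat.Agent.EichlerShimura.Poincare
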