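import Fermat.Agent.Modular.Eval
import Fermat.Agent.Modular.EllipticPlaces
import Fermat.Agent.Modular.GAGA
import Fermat.Agent.Modular.CuspPlaces
import Fermat.Agent.EichlerShimura.PoincareMero

/-!
# Divisibility at places of the power of a function with a multiplier

If `G` has a multiplier of order dividing `n` which is trivial on elliptic and parabolic
elements and `Gⁿ` is the modular function `f`, then `n` divides the order of `f` at every place.
-/

set_option autoImplicit false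

noncomputable section

open UpperHalfPlane hiding I
open AlgebraicCurve CongruenceSubgroup Fermat.Agent.Modular Fermat.Agent.Curve
open scoped MatrixGroups IntermediateField

namespace Fermat.Agent.EichlerShimura

section Abstract

variable {K F Ω : Type*} [Field K] [Field F] [Algebra K F] [Field Ω]

/-- A valuation pulled back from a place is proportional to the order at that place. -/
theorem ord_mul_eq_of_valuationSubring (v : AddValuation Ω (WithTop ℤ)) (σ : F →+* Ω)
    (P : Place K F) (hP : ∀ f, f ∈ P.toValuationSubring ↔ 0 ≤ v (σ f)) {y : F} (hy : y ≠ 0)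
    {e : ℤ} (hvy : v (σ y) = e) {f : F} (hf : f ≠ 0) {m : ℤ} (hm : v (σ f) = m) :
    e * P.ord f = P.ord y * m := by
  obtain ⟨π, hπ⟩ := IsDiscreteValuationRing.exists_irreducible P.toValuationSubring
  have hπ0 : (π : F) ≠ 0 := fun h => hπ.ne_zero (Subtype.ext h)
  obtain ⟨a, ha⟩ := WithTop.ne_top_iff_exists.mp
    ((AddValuation.ne_top_iff v).mpr ((map_ne_zero σ).mpr hπ0))
  have hu : ∀ u : P.toValuationSubringˣ, v (σ ((u : P.toValuationSubring) : F)) = 0 := by
    intro u
    have h1 := (hP _).mp (u : P.toValuationSubring).2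
    have h2 := (hP _).mp ((u⁻¹ : P.toValuationSubringˣ) : P.toValuationSubring).2
    have h3 : v (σ ((u : P.toValuationSubring) : F)) +
        v (σ (((u⁻¹ : P.toValuationSubringˣ) : P.toValuationSubring) : F)) = 0 := by
      rw [← AddValuation.map_mul, ← map_mul, ← MulMemClass.coe_mul, ← Units.val_mul,
        mul_inv_cancel, Units.val_one]
      simp
    exact le_antisymm ((le_add_of_nonneg_right h2).trans h3.le) h1
  have hpow : ∀ d : ℤ, v (σ ((π : F) ^ d)) = ((d * a : ℤ) : WithTop ℤ) := by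
    intro d
    cases d with
    | ofNat k =>
      rw [Int.ofNat_eq_natCast, zpow_natCast, map_pow, AddValuation.map_pow, ← ha]
      simp [← WithTop.coe_nsmul]
    | negSucc k =>
      rw [zpow_negSucc, map_inv₀, map_pow, AddValuation.map_inv, AddValuation.map_pow, ← ha,
        ← WithTop.coe_nsmul, ← WithTop.LinearOrderedAddCommGroup.coe_neg]
      exact congrArg _ (by simp [Int.negSucc_eq]; ring)
  have key : ∀ {x : F}, x ≠ 0 → v (σ x) = ((P.ord x * a : ℤ) : WithTop ℤ) := by
    intro x hx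
    obtain ⟨u, hxu⟩ := P.exists_unit_mul_zpow hx hπ
    conv_lhs => rw [hxu]
    rw [map_mul, AddValuation.map_mul, hu, zero_add, hpow]
  have h1 := (key hy).symm.trans hvy
  have h2 := (key hf).symm.trans hm
  rw [WithTop.coe_eq_coe] at h1 h2
  rw [← h1, ← h2]; ring

/-- Divisibility at a place from a root of the conjugate. -/
theorem dvd_ord_of_root (v : AddValuation Ω (WithTop ℤ)) (σ : F →+* Ω)
    (P : Place K F) (hP : ∀ f, f ∈ P.toValuationSubring ↔ 0 ≤ v (σ f)) {y : F} (hy : y ≠ 0)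
    {e : ℤ} (he : e ≠ 0) (hvy : v (σ y) = e) {f : F} (hf : f ≠ 0) {r : Ω} {n : ℕ}
    (hr : σ f = r ^ n) {k : ℤ} (hk : v r = k) (hdvd : e ∣ P.ord y * k) : (n : ℤ) ∣ P.ord f := by
  have hm : v (σ f) = ((n * k : ℤ) : WithTop ℤ) := by
    rw [hr, AddValuation.map_pow, hk, ← WithTop.coe_nsmul, nsmul_eq_mul]
  have h := ord_mul_eq_of_valuationSubring v σ P hP hy hvy hf hm
  obtain ⟨t, ht⟩ := hdvd
  refine ⟨t, mul_left_cancel₀ he ?_⟩
  rw [h, mul_left_comm, ht]; ring

end Abstract

section Multiplier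

variable {N : ℕ}

/-- `G` is invariant under the elliptic and the parabolic elements of `Γ₀(N)`. -/
def IsAdmissibleInvariant (N : ℕ) (G : Hol) : Prop :=
  ∀ γ ∈ Gamma0 N, (γ : Matrix (Fin 2) (Fin 2) ℤ).trace ^ 2 ≤ 4 → γ • G = G

theorem trace_conj_SL (g γ : SL(2, ℤ)) :
    ((g⁻¹ * γ * g : SL(2, ℤ)) : Matrix (Fin 2) (Fin 2) ℤ).trace
      = (γ : Matrix (Fin 2) (Fin 2) ℤ).trace := by
  rw [Matrix.SpecialLinearGroup.coe_mul, Matrix.SpecialLinearGroup.coe_mul, Matrix.trace_mul_cycle,
    ← Matrix.SpecialLinearGroup.coe_mul, mul_inv_cancel, Matrix.SpecialLinearGroup.coe_one,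
    one_mul]

/-- A translate is invariant under the small elements fixing the coset. -/
theorem IsAdmissibleInvariant.smul_translate {G : Hol} (hG : IsAdmissibleInvariant N G)
    {γ g : SL(2, ℤ)} (htr : (γ : Matrix (Fin 2) (Fin 2) ℤ).trace ^ 2 ≤ 4)
    (hfix : γ • (g : SL(2, ℤ) ⧸ Gamma0 N) = (g : SL(2, ℤ) ⧸ Gamma0 N)) :
    γ • (g • G) = g • G := by
  have hmem : g⁻¹ * γ * g ∈ Gamma0 N := by
    rw [MulAction.Quotient.smul_coe, smul_eq_mul] at hfix
    simpa [mul_assoc] using QuotientGroup.eq.mp hfix.symm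
  have h := hG _ hmem (by rwa [trace_conj_SL])
  calc γ • (g • G) = g • ((g⁻¹ * γ * g) • G) := by
        rw [← mul_smul, ← mul_smul]; simp [mul_assoc]
    _ = g • G := by rw [h]

end Multiplier

section Elliptic

/-- Elements of `SL(2, ℤ)` with a fixed point in `ℍ` have `trace ^ 2 ≤ 4`. -/
theorem trace_sq_le_four_of_fixed {γ : SL(2, ℤ)} {z : ℍ} (hz : γ • z = z) :
    (γ : Matrix (Fin 2) (Fin 2) ℤ).trace ^ 2 ≤ 4 := by
  have h := Poincare.fac_sq_of_fixed γ hz
  rw [Matrix.trace_fin_two]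
  by_cases hc : γ 1 0 = 0
  · have hdet := Poincare.det_eq γ
    rw [hc, mul_zero, sub_zero] at hdet
    rcases Int.eq_one_or_neg_one_of_mul_eq_one' hdet with ⟨ha, hd⟩ | ⟨ha, hd⟩ <;>
      simp [ha, hd]
  · have hre := congrArg Complex.re h
    have him := congrArg Complex.im h
    simp [Poincare.fac, pow_two] at hre him
    have hne : ((γ 1 0 : ℤ) : ℝ) * z.im ≠ 0 := mul_ne_zero (by exact_mod_cast hc) z.im_ne_zero
    have hμ : ((γ 0 0 + γ 1 1 : ℤ) : ℝ) = 2 * ((γ 1 0 : ℤ) * z.re + (γ 1 1 : ℤ)) :=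
      mul_right_cancel₀ hne (by push_cast; linarith)
    push_cast at hμ
    have : ((γ 0 0 + γ 1 1 : ℤ) : ℝ) ^ 2 ≤ 4 := by
      push_cast
      nlinarith [sq_nonneg (((γ 1 0 : ℤ) : ℝ) * z.im)]
    exact_mod_cast this

/-- The divisibility needed at `z`: it holds at `i`, at `ρ` and at the generic points. -/
def EllipticDvd (N : ℕ) (z : ℍ) : Prop :=
  ∀ (q : SL(2, ℤ) ⧸ Gamma0 N) (φ : Mero), φ ≠ 0 →
    (∀ γ : SL(2, ℤ), γ • z = z → γ • q = q → translate γ φ = φ) →
    (jDegree z : ℤ) ∣ (Nat.card {q' // stabClass N z q' = stabClass N z q} : ℤ) * ordPt z φ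

theorem ellipticDvd_pointRho (N : ℕ) : EllipticDvd N pointRho := by
  intro q φ hφ hfix
  rw [jDegree_pointRho]
  by_cases hq : (ModularGroup.S * ModularGroup.T) • q = q
  · exact Dvd.dvd.mul_left (three_dvd_ordPt_pointRho hφ
      (hfix _ ((stabilizer_pointRho_iff _).2 (by tauto)) hq)) _
  · rw [natCard_stabClass_pointRho hq]
    exact dvd_mul_right _ _

theorem ellipticDvd_I (N : ℕ) : EllipticDvd N UpperHalfPlane.I := by
  intro q φ hφ hfix
  rw [jDegree_I]
  by_cases hq : ModularGroup.S • q = q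
  · exact Dvd.dvd.mul_left (two_dvd_ordPt_I hφ (hfix _ ((stabilizer_I_iff _).2 (by tauto)) hq)) _
  · rw [natCard_stabClass_I hq]
    exact dvd_mul_right _ _

theorem ellipticDvd_generic (N : ℕ) {z : ℍ} (h0 : kleinJ z ≠ 0) (h1 : kleinJ z ≠ 1728) :
    EllipticDvd N z := fun q φ _ _ => by
  rw [jDegree_eq_one h0 h1]
  exact one_dvd _

/-- Every complex number is the value of `j` at a point where `EllipticDvd` holds. -/
theorem exists_ellipticDvd (N : ℕ) (c : ℂ) : ∃ z : ℍ, kleinJ z = c ∧ EllipticDvd N z := by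
  by_cases h0 : c = 0
  · exact ⟨pointRho, h0 ▸ (kleinJ_eq_zero_iff _).2 E4_pointRho, ellipticDvd_pointRho N⟩
  by_cases h1 : c = 1728
  · exact ⟨UpperHalfPlane.I, h1 ▸ (kleinJ_eq_1728_iff _).2 E6_I, ellipticDvd_I N⟩
  obtain ⟨z, rfl⟩ := kleinJ_surjective c
  exact ⟨z, rfl, ellipticDvd_generic N h0 h1⟩

end Elliptic

section Places

variable {K F : Type*} [Field K] [Field F] [Algebra K F] [IsAlgClosed K] [CharZero K]
  [IsFunctionField1 K F]
variable {N : ℕ} [NeZero N] (ι : K →+* ℂ) (ev : F →+* Mero)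
  (hevK : ∀ a, ev (algebraMap K F a) = algebraMap ℂ Mero (ι a)) {j : F} (hjt : Transcendental K j)
  (hj : ev j = algebraMap Hol Mero kleinJHol)
  (hinv : ∀ γ ∈ Gamma0 N, ∀ f, translate γ (ev f) = ev f)
  (hdist : ∀ g h : SL(2, ℤ), (∀ f, translate g (ev f) = translate h (ev f)) → g⁻¹ * h ∈ Gamma0 N)
  (hdeg : Module.finrank K⟮j⟯ F = ModularCurve.dedekindPsi N)

include hevK hjt hj hinv hdist hdeg

/-- Divisibility at the places where `j = j(z)`. -/
theorem dvd_ord_of_finite_value {G : Hol} (hG0 : G ≠ 0) {n : ℕ} {f : F} (hf : f ≠ 0)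
    (hfG : ev f = algebraMap Hol Mero G ^ n) {c : K} {z : ℍ} (hz : kleinJ z = ι c)
    (hdiv : EllipticDvd N z) (hadm : IsAdmissibleInvariant N G)
    (P : Place K F) (hP : 0 < P.ord (j - algebraMap K F c)) : (n : ℤ) ∣ P.ord f := by
  classical
  let _ : Fintype (SL(2, ℤ) ⧸ Gamma0 N) := Fintype.ofFinite _
  let _ : Fintype (StabOrbit N z) := Fintype.ofFinite _
  let σ : SL(2, ℤ) ⧸ Gamma0 N → F →+* Mero := fun q => (translate q.out).toRingHom.comp ev
  have hσ : ∀ (g : SL(2, ℤ)) (f : F), σ (g : SL(2, ℤ) ⧸ Gamma0 N) f = translate g (ev f) := by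
    intro g f
    obtain ⟨γ, hγ⟩ := QuotientGroup.mk_out_eq_mul (Gamma0 N) g
    show translate _ (ev f) = _
    rw [hγ, translate_mul, hinv _ γ.2]
  have hσm : ∀ (γ : SL(2, ℤ)) q f, translate γ (σ q f) = σ (γ • q) f := by
    intro γ q f
    induction q using QuotientGroup.induction_on with
    | H g => rw [MulAction.Quotient.smul_coe, smul_eq_mul, hσ, hσ, translate_mul]
  set y := j - algebraMap K F c with hy
  have hyt : Transcendental K y := fun h => hjt (by
    have := h.add (isAlgebraic_algebraMap c)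
    simpa [hy] using this)
  have hy0 : y ≠ 0 := fun h => hyt (h ▸ isAlgebraic_zero)
  have hevy : ev y = algebraMap Hol Mero (kleinJHol - algebraMap ℂ Hol (kleinJ z)) := by
    rw [hy, map_sub, map_sub, hj, hevK, hz, ← IsScalarTower.algebraMap_apply]
  have hσy : ∀ q, σ q y = ev y := by
    intro q
    show translate _ (ev y) = ev y
    rw [hevy, map_sub, map_sub, translate_kleinJHol, ← IsScalarTower.algebraMap_apply,
      translate_const]
  have hvy : ∀ q, addOrd z (σ q y) = ((jDegree z : ℤ) : WithTop ℤ) := fun q => by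
    rw [hσy, hevy, addOrd_apply _ (fun h0 => kleinJHol_sub_const_ne_zero (kleinJ z)
      (IsFractionRing.injective Hol Mero (h0.trans (map_zero _).symm))),
      ordPt_algebraMap (kleinJHol_sub_const_ne_zero _), holOrd_kleinJHol_sub]
  have hde : (jDegree z : ℤ) ≠ 0 := by unfold jDegree; split_ifs <;> norm_num
  have hcard : Fintype.card (SL(2, ℤ) ⧸ Gamma0 N) = Module.finrank K⟮y⟯ F := by
    rw [← Nat.card_eq_fintype_card, hy, Modular.adjoin_sub_algebraMap j c, hdeg, ← index_Gamma0 N]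
    rfl
  obtain ⟨Φ, hΦ, hmem⟩ := exists_equiv_places_above (addOrd z) (stabClass N z)
    (stabClass_surjective N z) y hyt σ
    (fun q q' h => by
      induction q using QuotientGroup.induction_on with
      | H g =>
        induction q' using QuotientGroup.induction_on with
        | H g' =>
          rw [QuotientGroup.eq]
          exact hdist g g' fun f => by rw [← hσ, ← hσ, h])
    hcard
    (fun q q' a => by
      show translate _ (ev _) = translate _ (ev _)
      rw [hevK, translate_const, translate_const])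
    (fun q q' => by rw [hσy, hσy])
    (fun q a ha => by
      show addOrd z (translate _ (ev _)) = 0
      rw [hevK, translate_const]
      exact addOrd_const z (by simpa using ha))
    (jDegree z : ℤ) (by omega) hvy
    (fun q q' h f => by
      obtain ⟨γ, hγ, rfl⟩ := (stabClass_eq_iff N z q q').1 h
      rw [← hσm, addOrd_translate, inv_smul_eq_iff.mpr hγ.symm])
    (fun q f m h => by
      obtain ⟨hne, rfl⟩ := ordPt_eq_of_addOrd h
      exact hdiv q _ hne fun γ _ hγ => by rw [hσm, hγ])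
  obtain ⟨o, ho⟩ := Φ.surjective ⟨P, hP⟩
  obtain ⟨q, rfl⟩ := stabClass_surjective N z o
  induction q using QuotientGroup.induction_on with
  | H g =>
    have hPo : (Φ (stabClass N z (g : SL(2, ℤ) ⧸ Gamma0 N))).1 = P := congrArg Subtype.val ho
    have hr0 : algebraMap Hol Mero (g • G) ≠ 0 :=
      (map_ne_zero_iff _ (IsFractionRing.injective Hol Mero)).mpr ((smul_ne_zero_iff_ne g).mpr hG0)
    refine dvd_ord_of_root (addOrd z) (σ g) P
      (fun x => by rw [← hPo]; exact hmem _ x) hy0 hde (hvy _) hf (r := algebraMap Hol Mero (g • G))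
      ?_ (addOrd_apply z hr0) ?_
    · rw [hσ, hfG, map_pow, translate_algebraMap]
    · rw [← hPo, hΦ]
      refine hdiv g _ hr0 fun γ hγz hγq => ?_
      rw [translate_algebraMap, hadm.smul_translate (trace_sq_le_four_of_fixed hγz) hγq]

end Places

section Cusps

variable {N : ℕ} [NeZero N]

omit [NeZero N] in
theorem conj_T_zpow_level_mem (g : SL(2, ℤ)) :
    g * ModularGroup.T ^ (N : ℤ) * g⁻¹ ∈ Gamma0 N := by
  have hT : (ModularGroup.T ^ (N : ℤ)) ∈ CongruenceSubgroup.Gamma N :=
    ModularGroup_T_pow_mem_Gamma N N dvd_rfl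
  refine Gamma0_mem.mpr ?_
  have := (CongruenceSubgroup.Gamma_normal N).conj_mem _ hT g
  rw [CongruenceSubgroup.Gamma_mem] at this
  exact this.2.2.1

theorem trace_T_zpow (k : ℤ) :
    ((ModularGroup.T ^ k : SL(2, ℤ)) : Matrix (Fin 2) (Fin 2) ℤ).trace = 2 := by
  rw [ModularGroup.coe_T_zpow, Matrix.trace_fin_two_of]
  norm_num

/-- Every translate has an expansion in `exp (2πiτ/N)`. -/
theorem IsAdmissibleInvariant.smul_mem_holExp {G : Hol} (hG : IsAdmissibleInvariant N G)
    (hgrow : ∀ α : SL(2, ℤ),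
      IsBoundedAtImInfty fun z : ℍ => G.1 (α • z) * ModularForm.discriminant z ^ 13)
    (g : SL(2, ℤ)) : g • G ∈ HolExp N := by
  have hinv : ∀ w : ℍ,
      G.1 ((g⁻¹ * ModularGroup.T ^ (N : ℤ) * g⁻¹⁻¹) • w) = G.1 w := by
    intro w
    have hmem := conj_T_zpow_level_mem (N := N) g⁻¹
    have htr : ((g⁻¹ * ModularGroup.T ^ (N : ℤ) * g⁻¹⁻¹ : SL(2, ℤ)) :
        Matrix (Fin 2) (Fin 2) ℤ).trace ^ 2 ≤ 4 := by
      rw [inv_inv, trace_conj_SL, trace_T_zpow]; norm_num
    have h := congrArg (fun F : Hol => F.1 ((g⁻¹ * ModularGroup.T ^ (N : ℤ) * g⁻¹⁻¹) • w))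
      (hG _ hmem htr)
    simp only [smul_hol_apply, inv_smul_smul] at h
    exact h.symm
  obtain ⟨x, hx⟩ := Poincare.exists_hasQExp_translate g⁻¹ (NeZero.pos N) (hgrow g⁻¹) hinv
  rw [inv_inv] at hx
  exact ⟨x, hx⟩

variable {K F : Type*} [Field K] [Field F] [Algebra K F] [IsAlgClosed K] [CharZero K]
  [IsFunctionField1 K F]
variable (ι : K →+* ℂ) (Λ : F →+* Mero)
  (hconst : ∀ a : K, Λ (algebraMap K F a) = algebraMap ℂ Mero (ι a))
  (hinv : ∀ γ ∈ Gamma0 N, ∀ f : F, translate γ (Λ f) = Λ f)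
  (S : Set F) (hgen : IntermediateField.adjoin K S = ⊤)
  (hS : ∀ s ∈ S, ∃ (d : ℕ) (_ : NeZero d), d ∣ N ∧ Λ s = algebraMap Hol Mero (jHol d))
  (hdist : ∀ g h : SL(2, ℤ), (∀ f, translate g (Λ f) = translate h (Λ f)) → g⁻¹ * h ∈ Gamma0 N)
  {j : F} (hj : Λ j = algebraMap Hol Mero (jHol 1)) (hjt : Transcendental K j)
  (hdeg : Module.finrank K⟮j⟯ F = ModularCurve.dedekindPsi N)

include hconst hinv hgen hS hdist hj hjt hdeg

/-- Divisibility at the places above `j = ∞`. -/
theorem dvd_ord_of_pole {G : Hol} (hG0 : G ≠ 0) (hadm : IsAdmissibleInvariant N G)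
    (hgrow : ∀ α : SL(2, ℤ),
      IsBoundedAtImInfty fun z : ℍ => G.1 (α • z) * ModularForm.discriminant z ^ 13)
    {n : ℕ} {f : F} (hf : f ≠ 0) (hfG : Λ f = algebraMap Hol Mero G ^ n)
    (P : Place K F) (hP : P.ord j < 0) : (n : ℤ) ∣ P.ord f := by
  classical
  obtain ⟨σ, hσeq, -, hσ, hσT⟩ := exists_cusp_embeddings N ι Λ hconst hinv S hgen hS
  have hσinj : Function.Injective σ := by
    intro p q he
    induction p using QuotientGroup.induction_on with
    | _ g =>
    induction q using QuotientGroup.induction_on with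
    | _ h => exact QuotientGroup.eq.mpr (hdist g h (hσeq g h he))
  let _ : Fintype (Gamma0Coset N) := Fintype.ofFinite _
  let _ : Fintype (CuspOrbit N) := Fintype.ofFinite _
  have hj0 : j ≠ 0 := fun h => hjt (h ▸ isAlgebraic_zero)
  have hyt : Transcendental K j⁻¹ := fun h => hjt (by simpa using h.inv)
  have hfield : K⟮j⁻¹⟯ = K⟮j⟯ := by
    refine le_antisymm ?_ ?_
    · exact IntermediateField.adjoin_simple_le_iff.mpr
        (inv_mem (IntermediateField.mem_adjoin_simple_self K j))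
    · exact IntermediateField.adjoin_simple_le_iff.mpr
        (by simpa using inv_mem (IntermediateField.mem_adjoin_simple_self K j⁻¹))
  have h1 : jHol 1 ∈ HolExp N := by
    simpa using smul_jHol_mem N 1 (one_dvd N)
  have hσj : ∀ q, σ q j = ModularCurve.qExpand ℂ N (ModularCurve.jqModC ℂ) := by
    intro q
    induction q using QuotientGroup.induction_on with
    | _ g =>
      rw [hσ g j (jHol 1) h1 (by rw [hj, translate_algebraMap, smul_jHol_one]), qSeries_jHol_one]
  have hσc : ∀ q (a : K), σ q (algebraMap K F a) = algebraMap ℂ (LaurentSeries ℂ) (ι a) := by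
    intro q a
    induction q using QuotientGroup.induction_on with
    | _ g =>
      rw [hσ g _ _ ((HolExp N).algebraMap_mem (ι a))
        (by rw [hconst, translate_const, IsScalarTower.algebraMap_apply ℂ Hol Mero])]
      exact (qSeries N).commutes (ι a)
  have hcard : Fintype.card (Gamma0Coset N) = Module.finrank K⟮j⁻¹⟯ F := by
    rw [hfield, hdeg, ← Nat.card_eq_fintype_card, ← index_Gamma0 N]
    rfl
  have hvy : ∀ q, HahnSeries.addVal ℤ ℂ (σ q j⁻¹) = ((N : ℤ) : WithTop ℤ) := fun q => by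
    rw [map_inv₀, AddValuation.map_inv, hσj, addVal_qExpand_jqModC,
      ← WithTop.LinearOrderedAddCommGroup.coe_neg, neg_neg]
  have hN : (N : ℤ) ≠ 0 := by exact_mod_cast NeZero.ne N
  obtain ⟨Φ, hΦ, hmem⟩ := exists_equiv_places_above (HahnSeries.addVal ℤ ℂ)
    (fun q => (Quotient.mk'' q : CuspOrbit N)) Quotient.mk''_surjective j⁻¹ hyt σ hσinj hcard
    (fun p q a => by rw [hσc, hσc]) (fun p q => by rw [map_inv₀, map_inv₀, hσj, hσj])
    (fun q a ha => by
      rw [hσc, ModularCurve.algebraMap_laurentSeries_eq_single, HahnSeries.addVal_apply,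
        HahnSeries.orderTop_single (by simpa using ha)]
      rfl)
    (N : ℤ) (by omega) hvy
    (fun p q hpq f => by
      rw [Quotient.eq'', MulAction.orbitRel_apply] at hpq
      obtain ⟨⟨x, hx⟩, rfl⟩ := hpq
      obtain ⟨k, rfl⟩ := Subgroup.mem_zpowers_iff.mp hx
      show HahnSeries.addVal ℤ ℂ (σ (ModularGroup.T ^ k • q) f) = _
      rw [hσT, addVal_twistSeries])
    (fun q f m hm => by
      have h := hσT (Nat.card {p : Gamma0Coset N //
        (Quotient.mk'' p : CuspOrbit N) = Quotient.mk'' q} : ℤ) q f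
      rw [T_zpow_card_fibre_smul] at h
      have := dvd_mul_of_twistSeries_eq N h.symm hm
      rwa [neg_mul, dvd_neg] at this)
  have hP' : 0 < P.ord j⁻¹ := by rw [Place.ord_inv]; omega
  obtain ⟨o, ho⟩ := Φ.surjective ⟨P, hP'⟩
  obtain ⟨q, rfl⟩ := Quotient.mk''_surjective o
  induction q using QuotientGroup.induction_on with
  | H g =>
    have hPo : (Φ (Quotient.mk'' (g : Gamma0Coset N))).1 = P := congrArg Subtype.val ho
    have hmemG : g • G ∈ HolExp N := hadm.smul_mem_holExp hgrow g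
    set r : LaurentSeries ℂ := qSeries N ⟨g • G, hmemG⟩ with hr
    have hr0 : r ≠ 0 := (map_ne_zero_iff _ (qSeries_injective N)).mpr fun h =>
      (smul_ne_zero_iff_ne g).mpr hG0 (congrArg Subtype.val h)
    obtain ⟨k, hk⟩ := WithTop.ne_top_iff_exists.mp
      ((AddValuation.ne_top_iff (HahnSeries.addVal ℤ ℂ)).mpr hr0)
    refine dvd_ord_of_root (HahnSeries.addVal ℤ ℂ) (σ g) P
      (fun x => by rw [← hPo]; exact hmem _ x) (inv_ne_zero hj0) hN (hvy _) hf (r := r) ?_ hk.symm ?_
    · rw [hσ g f ((g • G) ^ n) ((HolExp N).pow_mem hmemG n)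
        (by rw [hfG, map_pow, translate_algebraMap, map_pow])]
      exact map_pow (qSeries N) ⟨g • G, hmemG⟩ n
    · rw [← hPo, hΦ]
      have hfix := hadm.smul_translate (N := N) (g := g) (γ := ModularGroup.T ^ (Nat.card
        {p : Gamma0Coset N // (Quotient.mk'' p : CuspOrbit N) = Quotient.mk'' (g : Gamma0Coset N)}
          : ℤ)) (by rw [trace_T_zpow]; norm_num) (T_zpow_card_fibre_smul N _)
      have htw := (qSeries_T_zpow_smul N ⟨g • G, hmemG⟩ _).symm.trans
        (congrArg (qSeries N) (Subtype.ext (a2 := (⟨g • G, hmemG⟩ : HolExp N)) hfix))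
      have := dvd_mul_of_twistSeries_eq N htw hk.symm
      rwa [neg_mul, dvd_neg] at this

/-- **Divisibility at every place.** -/
theorem dvd_ord_of_multiplier {G : Hol} (hG0 : G ≠ 0) (hadm : IsAdmissibleInvariant N G)
    (hgrow : ∀ α : SL(2, ℤ),
      IsBoundedAtImInfty fun z : ℍ => G.1 (α • z) * ModularForm.discriminant z ^ 13)
    {n : ℕ} {f : F} (hf : f ≠ 0) (hfG : Λ f = algebraMap Hol Mero G ^ n)
    (P : Place K F) : (n : ℤ) ∣ P.ord f := by
  rcases lt_or_ge (P.ord j) 0 with hlt | hge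
  · exact dvd_ord_of_pole ι Λ hconst hinv S hgen hS hdist hj hjt hdeg hG0 hadm hgrow hf hfG P hlt
  · obtain ⟨c, hc | hc⟩ := exists_sub_algebraMap_ord_pos P (mem_of_ord_nonneg P hge)
    · exact absurd (sub_eq_zero.mp hc) fun h => hjt (h ▸ isAlgebraic_algebraMap c)
    · obtain ⟨z, hz, hdiv⟩ := exists_ellipticDvd N (ι c)
      have hjk : Λ j = algebraMap Hol Mero kleinJHol := by
        rw [hj]
        exact congrArg _ (Subtype.ext (funext fun w => congrArg kleinJ
          (UpperHalfPlane.ext (by simp))))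
      exact dvd_ord_of_finite_value ι Λ hconst hjt hjk hinv hdist hdeg hG0 hf hfG hz hdiv hadm P hc

end Cusps

end Fermat.Agent.EichlerShimura
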