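import Mathlib.NumberTheory.ModularForms.Discriminant
import Mathlib.NumberTheory.ModularForms.LevelOne.GradedRing
import Mathlib.NumberTheory.ModularForms.EisensteinSeries.Summable
import Mathlib.Analysis.Meromorphic.Basic
import Mathlib.Analysis.Meromorphic.Order
import Mathlib.Analysis.Complex.LocallyUniformLimit
import Mathlib.Analysis.Complex.CauchyIntegral
import Mathlib.GroupTheory.Index

/-!
# Poincare series with poles

For a finite index subgroup `Γ` of `SL(2, ℤ)` and a character `χ` of finite order which is trivial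
at `-1`, we construct a non-zero meromorphic function `f` on the upper half plane with
`f (γ • z) = χ γ * f z` that is meromorphic at every cusp. It is the quotient by `Δ` of the weight
`12` series `∑ γ, χ(γ)⁻¹ ((a z + b) - 2 i (c z + d)) ^ (-12)`.
-/

set_option autoImplicit false

noncomputable section

open UpperHalfPlane hiding I
open Complex Filter Matrix.SpecialLinearGroup
open scoped MatrixGroups Topology Manifold

namespace Fermat.Agent.EichlerShimura.Poincare

/-- The linear form `(a z + b) - 2 i (c z + d)`. -/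
def linForm (g : SL(2, ℤ)) (z : ℂ) : ℂ :=
  ((g 0 0 : ℤ) * z + (g 0 1 : ℤ)) - 2 * I * ((g 1 0 : ℤ) * z + (g 1 1 : ℤ))

/-- The basic summand. -/
def term (g : SL(2, ℤ)) (z : ℂ) : ℂ := (linForm g z ^ 12)⁻¹

/-- The size `‖(a, b)‖ ‖(c, d)‖` of a matrix. -/
def size (g : SL(2, ℤ)) : ℝ := ‖![g 0 0, g 0 1]‖ * ‖![g 1 0, g 1 1]‖

lemma det_eq (g : SL(2, ℤ)) : g 0 0 * g 1 1 - g 0 1 * g 1 0 = 1 := by
  have h := g.2
  rwa [Matrix.det_fin_two] at h

lemma row_ne_zero (g : SL(2, ℤ)) (i : Fin 2) : ![g i 0, g i 1] ≠ 0 := by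
  intro h
  have h0 : g i 0 = 0 := congrFun h 0
  have h1 : g i 1 = 0 := congrFun h 1
  have := det_eq g
  fin_cases i <;> simp_all

lemma size_pos (g : SL(2, ℤ)) : 0 < size g :=
  mul_pos (norm_pos_iff.mpr (row_ne_zero g 0)) (norm_pos_iff.mpr (row_ne_zero g 1))

lemma summable_size : Summable fun g : SL(2, ℤ) => (size g ^ 6)⁻¹ := by
  have h6 : Summable fun x : Fin 2 → ℤ => (‖x‖ ^ 6)⁻¹ := by
    refine (EisensteinSeries.summable_one_div_norm_rpow (k := 6) (by norm_num)).congr fun x => ?_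
    rw [Real.rpow_neg (norm_nonneg _)]
    norm_cast
  have hinj : Function.Injective
      fun g : SL(2, ℤ) => ((![g 0 0, g 0 1] : Fin 2 → ℤ), (![g 1 0, g 1 1] : Fin 2 → ℤ)) := by
    intro g g' h
    simp only [Prod.mk.injEq] at h
    ext i j
    fin_cases i <;> fin_cases j
    · exact congrFun h.1 0
    · exact congrFun h.1 1
    · exact congrFun h.2 0
    · exact congrFun h.2 1
  refine ((h6.mul_of_nonneg h6 (fun x => by positivity) fun x => by positivity).comp_injective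
    hinj).congr fun g => ?_
  simp [size, mul_pow, mul_comm]

lemma finite_size_lt (C : ℝ) : {g : SL(2, ℤ) | size g < C}.Finite := by
  rcases le_or_gt C 0 with hC | hC
  · convert Set.finite_empty
    ext g
    simpa using hC.trans (size_pos g).le
  · have h := summable_size.tendsto_cofinite_zero.eventually
      (gt_mem_nhds (show (0:ℝ) < (C ^ 6)⁻¹ by positivity))
    refine (eventually_cofinite.mp h).subset fun g hg => ?_
    simp only [Set.mem_ofPred_eq, not_lt] at hg ⊢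
    exact inv_anti₀ (pow_pos (size_pos g) 6) (pow_le_pow_left₀ (size_pos g).le hg.le 6)

lemma norm_linForm_sq (g : SL(2, ℤ)) (z : ℂ) :
    ‖linForm g z‖ ^ 2 = ‖(g 0 0 : ℤ) * z + (g 0 1 : ℤ)‖ ^ 2 +
      4 * ‖(g 1 0 : ℤ) * z + (g 1 1 : ℤ)‖ ^ 2 - 4 * z.im := by
  have h : ((g 0 0 : ℤ) : ℝ) * (g 1 1 : ℤ) - (g 0 1 : ℤ) * (g 1 0 : ℤ) = 1 := by
    exact_mod_cast det_eq g
  simp only [linForm, ← normSq_eq_norm_sq, normSq_apply, add_re, add_im, sub_re, sub_im, mul_re,
    mul_im, Complex.I_re, Complex.I_im, intCast_re, intCast_im, re_ofNat, im_ofNat]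
  linear_combination (-4 * z.im) * h

lemma two_mul_size_le (g : SL(2, ℤ)) {z : ℍ} {r₀ : ℝ} (h0 : 0 ≤ r₀)
    (hr : r₀ ≤ EisensteinSeries.r z) :
    2 * r₀ ^ 2 * size g ≤ ‖(g 0 0 : ℤ) * (z : ℂ) + (g 0 1 : ℤ)‖ ^ 2 +
      4 * ‖(g 1 0 : ℤ) * (z : ℂ) + (g 1 1 : ℤ)‖ ^ 2 := by
  have ha : r₀ * ‖![g 0 0, g 0 1]‖ ≤ ‖(g 0 0 : ℤ) * (z : ℂ) + (g 0 1 : ℤ)‖ := by
    simpa using (mul_le_mul_of_nonneg_right hr (norm_nonneg _)).trans
      (EisensteinSeries.r_mul_max_le z (row_ne_zero g 0))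
  have hc : r₀ * ‖![g 1 0, g 1 1]‖ ≤ ‖(g 1 0 : ℤ) * (z : ℂ) + (g 1 1 : ℤ)‖ := by
    simpa using (mul_le_mul_of_nonneg_right hr (norm_nonneg _)).trans
      (EisensteinSeries.r_mul_max_le z (row_ne_zero g 1))
  unfold size
  nlinarith [mul_le_mul ha hc (by positivity) (norm_nonneg _),
    sq_nonneg (‖(g 0 0 : ℤ) * (z : ℂ) + (g 0 1 : ℤ)‖ - ‖(g 1 0 : ℤ) * (z : ℂ) + (g 1 1 : ℤ)‖),
    sq_nonneg ‖(g 1 0 : ℤ) * (z : ℂ) + (g 1 1 : ℤ)‖]

lemma norm_term_le_of (g : SL(2, ℤ)) (z : ℂ) {c : ℝ} (hc : 0 < c)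
    (h : c * size g ≤ ‖linForm g z‖ ^ 2) : ‖term g z‖ ≤ (c ^ 6)⁻¹ * (size g ^ 6)⁻¹ := by
  have hp := mul_pos hc (size_pos g)
  rw [term, norm_inv, norm_pow, ← mul_inv, ← mul_pow, pow_mul ‖_‖ 2 6]
  exact inv_anti₀ (pow_pos hp 6) (pow_le_pow_left₀ hp.le h 6)

/-- Uniform bound on a compact part of a strip, outside a finite set. -/
lemma exists_bound_on_strip (A B Y : ℝ) (hB : 0 < B) :
    ∃ (E : Set SL(2, ℤ)) (C : ℝ), E.Finite ∧ ∀ g ∉ E, ∀ z : ℂ,
      |z.re| ≤ A → B ≤ z.im → z.im ≤ Y →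
        linForm g z ≠ 0 ∧ ‖term g z‖ ≤ C * (size g ^ 6)⁻¹ := by
  set r₀ := EisensteinSeries.r ⟨⟨A, B⟩, hB⟩
  have h0 : 0 < r₀ := EisensteinSeries.r_pos _
  refine ⟨{g | size g < 4 * Y / r₀ ^ 2}, ((r₀ ^ 2) ^ 6)⁻¹, finite_size_lt _,
    fun g hg z hA hzB hY => ?_⟩
  suffices h : r₀ ^ 2 * size g ≤ ‖linForm g z‖ ^ 2 by
    refine ⟨fun h0' => ?_, norm_term_le_of g z (by positivity) h⟩
    rw [h0', norm_zero, zero_pow two_ne_zero] at h
    nlinarith [size_pos g, pow_pos h0 2]
  simp only [Set.mem_ofPred_eq, not_lt] at hg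
  rw [div_le_iff₀ (by positivity)] at hg
  have := two_mul_size_le g (z := ⟨z, hB.trans_le hzB⟩) h0.le
    (EisensteinSeries.r_lower_bound_on_verticalStrip _ hB ⟨hA, hzB⟩)
  rw [norm_linForm_sq]
  dsimp only at this ⊢
  linarith

lemma sq_im_le (g : SL(2, ℤ)) (z : ℂ) :
    z.im ^ 2 ≤ ‖(g 0 0 : ℤ) * z + (g 0 1 : ℤ)‖ ^ 2 +
      4 * ‖(g 1 0 : ℤ) * z + (g 1 1 : ℤ)‖ ^ 2 := by
  have key : ∀ a b : ℤ, a ≠ 0 → z.im ^ 2 ≤ ‖(a : ℂ) * z + b‖ ^ 2 := fun a b ha => by
    have h1 : (1 : ℝ) ≤ (a : ℝ) ^ 2 := by exact_mod_cast (Int.one_le_abs ha).trans (by nlinarith [abs_mul_abs_self a, Int.one_le_abs ha])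
    rw [← normSq_eq_norm_sq, normSq_apply]
    simp only [add_re, add_im, mul_re, mul_im, intCast_re, intCast_im]
    nlinarith [mul_le_mul_of_nonneg_right h1 (sq_nonneg z.im)]
  by_cases ha : g 0 0 = 0
  · have hc : g 1 0 ≠ 0 := fun hc => by simpa [ha, hc] using det_eq g
    nlinarith [key _ (g 1 1) hc, sq_nonneg ‖(g 0 0 : ℤ) * z + (g 0 1 : ℤ)‖]
  · nlinarith [key _ (g 0 1) ha, sq_nonneg ‖(g 1 0 : ℤ) * z + (g 1 1 : ℤ)‖]

/-- The summands have no poles high up. -/
lemma linForm_ne_zero_of_lt_im (g : SL(2, ℤ)) {z : ℂ} (hz : 4 < z.im) : linForm g z ≠ 0 := by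
  intro h
  have := norm_linForm_sq g z
  rw [h, norm_zero] at this
  nlinarith [sq_im_le g z]

/-- Uniform bound high in a strip. -/
lemma exists_bound_high (A : ℝ) :
    ∃ C : ℝ, ∀ g : SL(2, ℤ), ∀ z : ℂ,
      |z.re| ≤ A → 8 ≤ z.im → ‖term g z‖ ≤ C * (size g ^ 6)⁻¹ := by
  set r₀ := EisensteinSeries.r ⟨⟨A, 8⟩, by norm_num⟩
  have h0 : 0 < r₀ := EisensteinSeries.r_pos _
  refine ⟨((r₀ ^ 2) ^ 6)⁻¹, fun g z hA hy => norm_term_le_of g z (by positivity) ?_⟩
  have h := two_mul_size_le g (z := ⟨z, by linarith⟩) h0.le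
    (EisensteinSeries.r_lower_bound_on_verticalStrip _ (by norm_num) ⟨hA, hy⟩)
  rw [norm_linForm_sq]
  dsimp only at h ⊢
  nlinarith [sq_im_le g z]

lemma mem_box_of_mem_ball {z z₁ : ℂ} (hz : z ∈ Metric.ball z₁ (z₁.im / 2)) :
    |z.re| ≤ |z₁.re| + z₁.im / 2 ∧ z₁.im / 2 ≤ z.im ∧ z.im ≤ 3 * z₁.im / 2 := by
  rw [Metric.mem_ball, dist_eq_norm] at hz
  have h1 := (abs_re_le_norm (z - z₁)).trans hz.le
  have h2 := abs_le.mp ((abs_im_le_norm (z - z₁)).trans hz.le)
  have h3 := abs_add_le z₁.re (z.re - z₁.re)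
  rw [sub_re] at h1
  rw [sub_im] at h2
  rw [add_sub_cancel] at h3
  exact ⟨by linarith, by linarith, by linarith⟩

section Series

variable {ι : Type*} {e : ι → SL(2, ℤ)} {w : ι → ℂ}

/-- The weighted series of the summands. -/
def series (e : ι → SL(2, ℤ)) (w : ι → ℂ) (z : ℂ) : ℂ := ∑' i, w i * term (e i) z

variable (he : Function.Injective e) (hw : ∀ i, ‖w i‖ ≤ 1)
include he hw

lemma summable_series {z : ℂ} (hz : 0 < z.im) : Summable fun i => w i * term (e i) z := by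
  obtain ⟨E, C, hE, hC⟩ := exists_bound_on_strip |z.re| z.im z.im hz
  refine Summable.of_norm_bounded_eventually ((summable_size.comp_injective he).mul_left C) ?_
  filter_upwards [(hE.preimage he.injOn).compl_mem_cofinite] with i hi
  exact (norm_mul_le _ _).trans ((mul_le_of_le_one_left (norm_nonneg _) (hw i)).trans
    (hC _ hi z le_rfl le_rfl le_rfl).2)

lemma analyticAt_series {z₁ : ℂ} (hz : 0 < z₁.im) (h : ∀ i, linForm (e i) z₁ ≠ 0) :
    AnalyticAt ℂ (series e w) z₁ := by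
  obtain ⟨E, C, hE, hC⟩ := exists_bound_on_strip (|z₁.re| + z₁.im / 2) (z₁.im / 2)
    (3 * z₁.im / 2) (half_pos hz)
  have hF : (e ⁻¹' E).Finite := hE.preimage he.injOn
  have hball : ∀ z ∈ Metric.ball z₁ (z₁.im / 2), _ := fun z hz' => mem_box_of_mem_ball hz'
  have hanal : ∀ i, AnalyticAt ℂ (fun z => w i * term (e i) z) z₁ := fun i => by
    refine analyticAt_const.mul ((AnalyticAt.pow ?_ 12).inv (pow_ne_zero _ (h i)))
    unfold linForm
    fun_prop
  have htail : AnalyticAt ℂ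
      (fun z => ∑' i : {x // x ∉ hF.toFinset}, w i * term (e i) z) z₁ := by
    refine DifferentiableOn.analyticAt ?_ (Metric.ball_mem_nhds _ (half_pos hz))
    refine differentiableOn_tsum_of_summable_norm
      (((summable_size.comp_injective he).subtype {x | x ∉ hF.toFinset}).mul_left C)
      (fun i => ?_) Metric.isOpen_ball (fun i z hz' => ?_)
    · intro z hz'
      obtain ⟨hA, hB, hY⟩ := hball z hz'
      have hi : e i.1 ∉ E := fun hh => i.2 (hF.mem_toFinset.mpr hh)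
      have hne : linForm (e i.1) z ≠ 0 := (hC _ hi z hA hB hY).1
      have hd : DifferentiableAt ℂ (linForm (e i.1)) z := by unfold linForm; fun_prop
      exact ((differentiableAt_const _).mul ((hd.pow 12).inv
        (pow_ne_zero _ hne))).differentiableWithinAt
    · obtain ⟨hA, hB, hY⟩ := hball z hz'
      have hi : e i.1 ∉ E := fun hh => i.2 (hF.mem_toFinset.mpr hh)
      exact (norm_mul_le _ _).trans ((mul_le_of_le_one_left (norm_nonneg _) (hw i.1)).trans
        (hC _ hi z hA hB hY).2)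
  have hfin : AnalyticAt ℂ (fun z => ∑ i ∈ hF.toFinset, w i * term (e i) z) z₁ :=
    Finset.analyticAt_fun_sum _ fun i _ => hanal i
  refine (hfin.add htail).congr ?_
  filter_upwards [Metric.ball_mem_nhds z₁ (half_pos hz)] with z hz'
  have hz2 : 0 < z.im := (half_pos hz).trans_le (hball z hz').2.1
  simpa [series] using (summable_series he hw hz2).sum_add_tsum_subtype_compl hF.toFinset

end Series

/-- The automorphy factor `c z + d` as a function on `ℂ`. -/
def fac (g : SL(2, ℤ)) (z : ℂ) : ℂ := (g 1 0 : ℤ) * z + (g 1 1 : ℤ)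

lemma fac_ne_zero (g : SL(2, ℤ)) (z : ℍ) : fac g z ≠ 0 := by
  have h := EisensteinSeries.r_mul_max_le z (row_ne_zero g 1)
  intro h0
  simp only [Matrix.cons_val_zero, Matrix.cons_val_one] at h
  rw [fac] at h0
  rw [h0, norm_zero] at h
  exact absurd h (not_le.mpr (mul_pos (EisensteinSeries.r_pos z)
    (norm_pos_iff.mpr (row_ne_zero g 1))))

lemma smul_eq (g : SL(2, ℤ)) (z : ℍ) :
    ((g • z : ℍ) : ℂ) = ((g 0 0 : ℤ) * (z : ℂ) + (g 0 1 : ℤ)) / fac g z := by
  rw [coe_specialLinearGroup_apply]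
  simp [fac]

lemma linForm_mul (g δ : SL(2, ℤ)) (z : ℍ) :
    linForm (g * δ) z = fac δ z * linForm g ((δ • z : ℍ) : ℂ) := by
  have hne := fac_ne_zero δ z
  rw [smul_eq]
  simp only [linForm, Matrix.SpecialLinearGroup.coe_mul, Matrix.mul_apply, Fin.sum_univ_two]
  push_cast
  field_simp
  rw [fac]
  ring

lemma term_smul (g δ : SL(2, ℤ)) (z : ℍ) :
    term g ((δ • z : ℍ) : ℂ) = fac δ z ^ 12 * term (g * δ) z := by
  have hne := fac_ne_zero δ z
  rw [term, term, linForm_mul, mul_pow, mul_inv, ← mul_assoc,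
    mul_inv_cancel₀ (pow_ne_zero _ hne), one_mul]

lemma discriminant_smul (δ : SL(2, ℤ)) (z : ℍ) :
    ModularForm.discriminant (δ • z) = fac δ z ^ 12 * ModularForm.discriminant z := by
  have h := congrFun (SlashInvariantForm.slash_action_generators_SL2Z
    ModularForm.discriminant_S_invariant ModularForm.discriminant_T_invariant δ) z
  rw [ModularForm.SL_slash_apply, ModularGroup.denom_apply] at h
  change ModularForm.discriminant (δ • z) * (fac δ z) ^ (-(12 : ℤ)) = _ at h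
  rw [← h, zpow_neg, zpow_ofNat, mul_comm (fac δ z ^ 12),
    inv_mul_cancel_right₀ (pow_ne_zero _ (fac_ne_zero δ z))]

lemma linForm_eq_zero_iff (g : SL(2, ℤ)) : linForm g (2 * I) = 0 ↔ g = 1 ∨ g = -1 := by
  constructor
  · intro h
    have h' := norm_linForm_sq g (2 * I)
    rw [h, norm_zero] at h'
    have hre := congrArg Complex.re h
    have him := congrArg Complex.im h
    simp [linForm] at hre him
    have hb : g 0 1 = -4 * g 1 0 := by exact_mod_cast (by linarith : (g 0 1 : ℝ) = -4 * g 1 0)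
    have hd : g 1 1 = g 0 0 := by exact_mod_cast (by linarith : (g 1 1 : ℝ) = g 0 0)
    have hdet := det_eq g
    rw [hb, hd] at hdet
    have hc : g 1 0 = 0 := by nlinarith [mul_self_nonneg (g 0 0), mul_self_nonneg (g 1 0)]
    rw [hc, mul_zero] at hb
    rw [hc] at hdet
    rcases mul_self_eq_one_iff.mp (show g 0 0 * g 0 0 = 1 by linarith) with ha | ha
    · left; ext i j; fin_cases i <;> fin_cases j <;> simp [ha, hb, hc, hd]
    · right; ext i j; fin_cases i <;> fin_cases j <;> simp [ha, hb, hc, hd]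
  · rintro (rfl | rfl) <;> simp [linForm]

lemma linForm_one (z : ℂ) : linForm 1 z = z - 2 * I := by simp [linForm]

lemma term_neg (g : SL(2, ℤ)) (z : ℂ) : term (-g) z = term g z := by
  have : linForm (-g) z = -linForm g z := by simp [linForm]; ring
  simp [term, this, Even.neg_pow (show Even 12 by decide)]

lemma analyticAt_discriminant {z : ℂ} (hz : 0 < z.im) :
    AnalyticAt ℂ (ModularForm.discriminant ∘ ofComplex) z := by
  refine DifferentiableOn.analyticAt (s := upperHalfPlaneSet) ?_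
    (isOpen_upperHalfPlaneSet.mem_nhds hz)
  exact UpperHalfPlane.mdifferentiable_iff.mp CuspForm.discriminant.holo'

section Main

variable (Γ : Subgroup SL(2, ℤ)) (χ : Γ →* ℂˣ) {n : ℕ}

lemma norm_char_eq_one (hn : n ≠ 0) (hχ : ∀ g, χ g ^ n = 1) (g : Γ) : ‖(χ g : ℂ)‖ = 1 :=
  Complex.norm_eq_one_of_pow_eq_one (by rw [← Units.val_pow_eq_pow_val, hχ g, Units.val_one]) hn

/-- The Poincare series, translated by `α`. -/
def poincare (α : SL(2, ℤ)) : ℂ → ℂ :=
  series (fun g : Γ => (g : SL(2, ℤ)) * α) (fun g => ((χ g)⁻¹ : ℂˣ))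

lemma poincare_smul (α : SL(2, ℤ)) (z : ℍ) :
    poincare Γ χ 1 ((α • z : ℍ) : ℂ) = fac α z ^ 12 * poincare Γ χ α z := by
  simp only [poincare, series, ← tsum_mul_left, mul_one]
  exact tsum_congr fun g => by rw [term_smul]; ring

lemma poincare_mul (δ : Γ) (α : SL(2, ℤ)) (z : ℂ) :
    poincare Γ χ (δ * α) z = χ δ * poincare Γ χ α z := by
  simp only [poincare, series, ← tsum_mul_left]
  rw [← (Equiv.mulRight δ).tsum_eq fun g : Γ =>
    (χ δ : ℂ) * (((χ g)⁻¹ : ℂˣ) * term ((g : SL(2, ℤ)) * α) z)]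
  refine tsum_congr fun g => ?_
  simp only [Equiv.coe_mulRight, map_mul, Subgroup.coe_mul, mul_assoc, mul_inv_rev,
    Units.val_mul, ← mul_assoc (χ δ : ℂ), Units.mul_inv, one_mul]

/-- The candidate function. -/
def candidate (z : ℍ) : ℂ := poincare Γ χ 1 z / ModularForm.discriminant z

lemma candidate_smul (γ : Γ) (z : ℍ) :
    candidate Γ χ ((γ : SL(2, ℤ)) • z) = χ γ * candidate Γ χ z := by
  have h := poincare_smul Γ χ (γ : SL(2, ℤ)) z
  have h2 := poincare_mul Γ χ γ 1 (z : ℂ)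
  rw [mul_one] at h2
  rw [candidate, candidate, h, h2, discriminant_smul,
    mul_div_mul_left _ _ (pow_ne_zero _ (fac_ne_zero _ z)), mul_div_assoc]

lemma candidate_smul_mul_discriminant (α : SL(2, ℤ)) (z : ℍ) :
    candidate Γ χ (α • z) * ModularForm.discriminant z = poincare Γ χ α z := by
  rw [candidate, poincare_smul, discriminant_smul,
    mul_div_mul_left _ _ (pow_ne_zero _ (fac_ne_zero _ z)),
    div_mul_cancel₀ _ (ModularForm.discriminant_ne_zero z)]

variable {Γ χ}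

lemma meromorphicAt_series {ι : Type*} {e : ι → SL(2, ℤ)} {w : ι → ℂ}
    (he : Function.Injective e) (hw : ∀ i, ‖w i‖ ≤ 1) {z₁ : ℂ} (hz : 0 < z₁.im) :
    ∃ (S : Finset ι) (g : ℂ → ℂ), (∀ i, i ∈ S ↔ linForm (e i) z₁ = 0) ∧ AnalyticAt ℂ g z₁ ∧
      ∀ᶠ z in 𝓝 z₁, series e w z = ∑ i ∈ S, w i * term (e i) z + g z := by
  obtain ⟨E, C, hE, hC⟩ := exists_bound_on_strip |z₁.re| z₁.im z₁.im hz
  have hF : {i | linForm (e i) z₁ = 0}.Finite := (hE.preimage he.injOn).subset fun i hi => by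
    by_contra h
    exact (hC _ h z₁ le_rfl le_rfl le_rfl).1 hi
  refine ⟨hF.toFinset, series (fun i : {x // x ∉ hF.toFinset} => e i) (fun i => w i),
    fun i => hF.mem_toFinset, analyticAt_series (e := fun i : {x // x ∉ hF.toFinset} => e i) (w := fun i => w i)
      (he.comp Subtype.val_injective) (fun i => hw i) hz
      (fun (i : {x // x ∉ hF.toFinset}) h => i.2 (hF.mem_toFinset.mpr h)), ?_⟩
  filter_upwards [isOpen_upperHalfPlaneSet.mem_nhds hz] with z hz'
  exact ((summable_series he hw hz').sum_add_tsum_subtype_compl hF.toFinset).symm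

variable (hn : n ≠ 0) (hχ : ∀ g, χ g ^ n = 1)
include hn hχ

lemma norm_weight_le (g : Γ) : ‖(((χ g)⁻¹ : ℂˣ) : ℂ)‖ ≤ 1 := by
  simp [Units.val_inv_eq_inv_val, norm_char_eq_one Γ χ hn hχ g]

lemma meromorphicAt_poincare {z : ℂ} (hz : 0 < z.im) : MeromorphicAt (poincare Γ χ 1) z := by
  obtain ⟨S, g, -, hg, hev⟩ := meromorphicAt_series (e := fun g : Γ => (g : SL(2, ℤ)) * 1)
    (fun a b h => Subtype.ext (mul_right_cancel h)) (norm_weight_le hn hχ) hz
  refine (MeromorphicAt.congr ?_ (eventually_nhdsWithin_of_eventually_nhds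
    (hev.mono fun _ h => h.symm)))
  refine (MeromorphicAt.fun_sum fun i => ?_).fun_add hg.meromorphicAt
  unfold term linForm
  fun_prop

lemma meromorphicOn_candidate :
    MeromorphicOn (candidate Γ χ ∘ ofComplex) upperHalfPlaneSet := by
  intro z hz
  refine ((meromorphicAt_poincare hn hχ hz).fun_div
    (analyticAt_discriminant hz).meromorphicAt).congr (eventually_nhdsWithin_of_eventually_nhds ?_)
  filter_upwards [isOpen_upperHalfPlaneSet.mem_nhds hz] with w hw
  simp [candidate, ofComplex_apply_of_im_pos hw]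

lemma candidate_isBoundedAtImInfty [Γ.FiniteIndex] (α : SL(2, ℤ)) :
    IsBoundedAtImInfty fun z : ℍ => candidate Γ χ (α • z) * ModularForm.discriminant z := by
  simp only [candidate_smul_mul_discriminant]
  obtain ⟨m, hm, -, hmem⟩ := Subgroup.exists_pow_mem_of_index_ne_zero
    (Subgroup.FiniteIndex.index_ne_zero (H := Γ)) (α * ModularGroup.T * α⁻¹)
  let δ : Γ := ⟨_, hmem⟩ ^ n
  have hδ : (δ : SL(2, ℤ)) * α = α * ModularGroup.T ^ (m * n) := by
    simp only [δ, SubgroupClass.coe_pow, conj_pow, ← pow_mul, inv_mul_cancel_right]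
  have hper : ∀ (k : ℤ) (z : ℍ),
      poincare Γ χ α z = poincare Γ χ α ((ModularGroup.T ^ ((m * n : ℕ) * k : ℤ) • z : ℍ) : ℂ) := by
    intro k z
    have hδk : ((δ ^ k : Γ) : SL(2, ℤ)) * α = α * ModularGroup.T ^ ((m * n : ℕ) * k : ℤ) := by
      have : (δ : SL(2, ℤ)) = α * ModularGroup.T ^ (m * n) * α⁻¹ := eq_mul_inv_of_mul_eq hδ
      rw [SubgroupClass.coe_zpow, this, conj_zpow, zpow_mul, zpow_natCast, inv_mul_cancel_right]
    have hχ1 : χ (δ ^ k) = 1 := by simp only [δ, map_zpow, map_pow, hχ, one_zpow]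
    have h1 : poincare Γ χ (α * ModularGroup.T ^ ((m * n : ℕ) * k : ℤ)) z = poincare Γ χ α z := by
      rw [← hδk, poincare_mul, hχ1, Units.val_one, one_mul]
    rw [← h1]
    simp only [poincare, series]
    refine tsum_congr fun g => ?_
    rw [term_smul, ← mul_assoc]
    simp [fac, ModularGroup.coe_T_zpow, mul_assoc]
  obtain ⟨C, hC⟩ := exists_bound_high ((m * n : ℕ) : ℝ)
  rw [UpperHalfPlane.isBoundedAtImInfty_iff]
  refine ⟨∑' g : Γ, C * (size ((g : SL(2, ℤ)) * α) ^ 6)⁻¹, 8, fun z hz => ?_⟩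
  obtain ⟨k, hk⟩ := ModularGroup_T_zpow_mem_verticalStrip z (N := m * n)
    (Nat.mul_pos hm (Nat.pos_of_ne_zero hn))
  rw [hper k z]
  refine tsum_of_norm_bounded (((summable_size.comp_injective
    (fun a b h => Subtype.ext (mul_right_cancel h))).mul_left C).hasSum) fun g => ?_
  exact (norm_mul_le _ _).trans ((mul_le_of_le_one_left (norm_nonneg _)
    (norm_weight_le hn hχ g)).trans (hC _ _ hk.1 (hz.trans hk.2)))

lemma tendsto_poincare_polar (hneg : ∀ γ : Γ, (γ : SL(2, ℤ)) = -1 → χ γ = 1) :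
    ∃ c : ℂ, c ≠ 0 ∧
      Tendsto (fun z => (z - 2 * I) ^ 12 * poincare Γ χ 1 z) (𝓝[≠] (2 * I)) (𝓝 c) := by
  classical
  have hz : 0 < (2 * I).im := by simp
  obtain ⟨S, g, hS, hg, hev⟩ := meromorphicAt_series (e := fun g : Γ => (g : SL(2, ℤ)) * 1)
    (fun a b h => Subtype.ext (mul_right_cancel h)) (norm_weight_le hn hχ) hz
  refine ⟨(S.card : ℂ), Nat.cast_ne_zero.mpr ?_, ?_⟩
  · refine (Finset.card_pos.mpr ⟨1, (hS 1).mpr ?_⟩).ne'
    simp [linForm_one]
  · have hlim : Tendsto (fun z => (S.card : ℂ) + (z - 2 * I) ^ 12 * g z) (𝓝[≠] (2 * I))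
        (𝓝 (S.card : ℂ)) := by
      have h1 : ContinuousAt (fun z => (z - 2 * I) ^ 12 * g z) (2 * I) := by
        have := hg.continuousAt
        fun_prop
      simpa using tendsto_const_nhds.add (h1.mono_left nhdsWithin_le_nhds)
    refine hlim.congr' ?_
    filter_upwards [eventually_nhdsWithin_of_eventually_nhds hev, self_mem_nhdsWithin] with z hz' hne
    have hterm : ∀ i ∈ S, (((χ i)⁻¹ : ℂˣ) : ℂ) * term ((i : SL(2, ℤ)) * 1) z
        = ((z - 2 * I) ^ 12)⁻¹ := by
      intro i hi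
      rcases (linForm_eq_zero_iff _).mp ((hS i).mp hi) with h | h
      · have : i = 1 := Subtype.ext (by simpa using h)
        simp [this, term, linForm_one]
      · rw [h, hneg i (by simpa using h), term_neg]
        simp [term, linForm_one]
    rw [poincare, hz', Finset.sum_congr rfl hterm, Finset.sum_const, nsmul_eq_mul]
    have hp : (z - 2 * I) ^ 12 ≠ 0 := pow_ne_zero _ (sub_ne_zero.mpr hne)
    rw [mul_add, mul_left_comm, mul_inv_cancel₀ hp, mul_one]

lemma candidate_eventually_ne_zero (hneg : ∀ γ : Γ, (γ : SL(2, ℤ)) = -1 → χ γ = 1) :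
    ∀ᶠ z in 𝓝[≠] (2 * I), (candidate Γ χ ∘ ofComplex) z ≠ 0 := by
  obtain ⟨c, hc, hlim⟩ := tendsto_poincare_polar hn hχ hneg
  filter_upwards [hlim.eventually_ne hc, eventually_nhdsWithin_of_eventually_nhds
    (isOpen_upperHalfPlaneSet.mem_nhds (show (2 * I) ∈ upperHalfPlaneSet by simp))] with z hz him
  simp only [Function.comp_apply, candidate, ofComplex_apply_of_im_pos him]
  exact div_ne_zero (right_ne_zero_of_mul hz) (ModularForm.discriminant_ne_zero _)

omit hn hχ in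
/-- **Riemann existence for finite order characters.** A character of finite order of a finite
index subgroup of `SL(2, ℤ)` which is trivial at `-1` is the multiplier of a non-zero meromorphic
function on `ℍ` which is meromorphic at all cusps (`f ∘ α * Δ` is bounded at `i∞`). -/
theorem exists_meromorphic_of_character (Γ : Subgroup SL(2, ℤ)) [Γ.FiniteIndex]
    (χ : Γ →* ℂˣ) {n : ℕ} (hn : n ≠ 0) (hχ : ∀ g, χ g ^ n = 1)
    (hneg : ∀ γ : Γ, (γ : SL(2, ℤ)) = -1 → χ γ = 1) :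
    ∃ f : ℍ → ℂ,
      MeromorphicOn (f ∘ ofComplex) upperHalfPlaneSet ∧
      (∀ z ∈ upperHalfPlaneSet, meromorphicOrderAt (f ∘ ofComplex) z ≠ ⊤) ∧
      (∀ (γ : Γ) (z : ℍ), f ((γ : SL(2, ℤ)) • z) = χ γ * f z) ∧
      (∀ α : SL(2, ℤ),
        IsBoundedAtImInfty fun z : ℍ => f (α • z) * ModularForm.discriminant z) := by
  refine ⟨candidate Γ χ, meromorphicOn_candidate hn hχ, ?_, candidate_smul Γ χ,
    candidate_isBoundedAtImInfty hn hχ⟩
  have h2 : (2 * I) ∈ upperHalfPlaneSet := by simp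
  intro z hz
  refine (meromorphicOn_candidate hn hχ).meromorphicOrderAt_ne_top_of_isPreconnected
    (convex_halfSpace_im_gt 0).isPreconnected h2 hz ?_
  rw [meromorphicOrderAt_ne_top_iff_eventually_ne_zero (meromorphicOn_candidate hn hχ _ h2)]
  exact candidate_eventually_ne_zero hn hχ hneg

end Main

section Holomorphic

open ModularForm in
/-- A modular form of level one and weight `12` vanishing at `2 i`. -/
def killer : ModularForm 𝒮ℒ 12 :=
  ModularForm.mcast (by decide) (E₄.pow 3) -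
    (E₄ ⟨2 * I, by simp⟩ ^ 3 / ModularForm.discriminant ⟨2 * I, by simp⟩) •
      (CuspForm.toModularFormₗ CuspForm.discriminant)

open ModularForm in
lemma killer_apply (z : ℍ) : killer z = E₄ z ^ 3 -
    (E₄ ⟨2 * I, by simp⟩ ^ 3 / ModularForm.discriminant ⟨2 * I, by simp⟩) *
      ModularForm.discriminant z := by
  have hp : (E₄.pow 3) z = E₄ z ^ 3 := congrFun (ModularForm.coe_pow E₄ 3) z
  simp [killer, hp]

lemma killer_two_I : killer ⟨2 * I, by simp⟩ = 0 := by
  rw [killer_apply, div_mul_cancel₀ _ (ModularForm.discriminant_ne_zero _), sub_self]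

lemma killer_smul (δ : SL(2, ℤ)) (z : ℍ) : killer (δ • z) = fac δ z ^ 12 * killer z := by
  have h := SlashInvariantForm.slash_action_eqn'' killer
    (γ := (δ : GL (Fin 2) ℝ)) (by exact ⟨δ, rfl⟩) z
  rw [ModularGroup.denom_apply] at h
  exact h

open ModularForm in
lemma killer_not_eventually_zero : ∃ z : ℍ, killer z ≠ 0 := by
  by_contra! h
  set c := E₄ ⟨2 * I, by simp⟩ ^ 3 / ModularForm.discriminant ⟨2 * I, by simp⟩
  have h3 : IsZeroAtImInfty fun z : ℍ => E₄ z ^ 3 := by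
    have : (fun z : ℍ => E₄ z ^ 3) = fun z => c * ModularForm.discriminant z := by
      funext z
      have := h z
      rwa [killer_apply, sub_eq_zero] at this
    rw [this]
    have := discriminant_isZeroAtImInfty.const_mul c
    rw [mul_zero] at this
    exact this
  have h4 : IsZeroAtImInfty E₄ := by
    refine tendsto_zero_iff_norm_tendsto_zero.mpr ?_
    have := (tendsto_zero_iff_norm_tendsto_zero.mp h3).rpow_const
      (p := (1 / 3 : ℝ)) (Or.inr (by norm_num))
    rw [Real.zero_rpow (by norm_num)] at this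
    refine this.congr fun z => ?_
    rw [norm_pow, ← Real.rpow_natCast, ← Real.rpow_mul (norm_nonneg _)]
    norm_num
  have h1 : (UpperHalfPlane.qExpansion 1 E₄).coeff 0 = 1 := EisensteinSeries.E_qExpansion_coeff_zero _ ⟨2, rfl⟩
  rw [UpperHalfPlane.qExpansion_coeff_zero one_pos
    (ModularFormClass.analyticAt_cuspFunction_zero _ one_pos one_mem_strictPeriods_SL)
    (SlashInvariantFormClass.periodic_comp_ofComplex _ one_mem_strictPeriods_SL),
    h4.valueAtInfty_eq_zero] at h1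
  exact zero_ne_one h1

/-- The multiplier clearing the poles of `candidate`. -/
def clearing (z : ℍ) : ℂ := killer z ^ 12 / ModularForm.discriminant z ^ 12

lemma clearing_smul (δ : SL(2, ℤ)) (z : ℍ) : clearing (δ • z) = clearing z := by
  rw [clearing, clearing, killer_smul, discriminant_smul, mul_pow, mul_pow,
    mul_div_mul_left _ _ (pow_ne_zero _ (pow_ne_zero _ (fac_ne_zero δ z)))]

lemma analyticAt_killer {z : ℂ} (hz : 0 < z.im) : AnalyticAt ℂ (killer ∘ ofComplex) z :=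
  (UpperHalfPlane.mdifferentiable_iff.mp killer.holo').analyticAt
    (isOpen_upperHalfPlaneSet.mem_nhds hz)

/-- The points of the orbit of `2 i` on which `candidate` may have poles. -/
def IsPolar (z : ℂ) : Prop := ∃ g : SL(2, ℤ), linForm g z = 0

lemma killer_eq_zero_of_isPolar (z : ℍ) (h : IsPolar z) : killer z = 0 := by
  obtain ⟨g, hg⟩ := h
  have h2 : g • z = ⟨2 * I, by simp⟩ := by
    apply UpperHalfPlane.ext
    rw [smul_eq]
    change _ = 2 * I
    rw [div_eq_iff (fac_ne_zero g z)]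
    exact sub_eq_zero.mp hg
  have := killer_smul g z
  rw [h2, killer_two_I] at this
  exact (mul_eq_zero.mp this.symm).resolve_left (pow_ne_zero _ (fac_ne_zero g z))

/-- The derivative of `linForm`. -/
def linForm' (g : SL(2, ℤ)) : ℂ := (g 0 0 : ℤ) - 2 * I * (g 1 0 : ℤ)

lemma linForm'_ne_zero (g : SL(2, ℤ)) : linForm' g ≠ 0 := by
  intro h
  have h1 := congrArg Complex.re h
  have h2 := congrArg Complex.im h
  simp [linForm'] at h1 h2
  have := det_eq g
  simp [h1, h2] at this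

lemma linForm_sub (g : SL(2, ℤ)) (z w : ℂ) :
    linForm g z = linForm g w + linForm' g * (z - w) := by
  simp [linForm, linForm']; ring

variable (Γ : Subgroup SL(2, ℤ)) (χ : Γ →* ℂˣ) {n : ℕ}

/-- The product of `candidate` and `clearing` before removing the singularities. -/
def clearedRaw : ℂ → ℂ :=
  fun z => candidate Γ χ (ofComplex z) * clearing (ofComplex z)

/-- The holomorphic function with multiplier `χ`. -/
def cleared (z : ℍ) : ℂ := limUnder (𝓝[≠] (z : ℂ)) (clearedRaw Γ χ)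

variable {Γ χ} (hn : n ≠ 0) (hχ : ∀ g, χ g ^ n = 1)
include hn hχ

lemma exists_analytic_clearedRaw {z₁ : ℂ} (hz : 0 < z₁.im) :
    ∃ ψ : ℂ → ℂ, AnalyticAt ℂ ψ z₁ ∧ (∀ᶠ z in 𝓝[≠] z₁, clearedRaw Γ χ z = ψ z) ∧
      (¬ IsPolar z₁ → clearedRaw Γ χ z₁ = ψ z₁) := by
  obtain ⟨S, g, hS, hg, hev⟩ := meromorphicAt_series (e := fun g : Γ => (g : SL(2, ℤ)) * 1)
    (fun a b h => Subtype.ext (mul_right_cancel h)) (norm_weight_le hn hχ) hz
  have hP : ∀ᶠ z in 𝓝 z₁, clearedRaw Γ χ z =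
      (∑ i ∈ S, (((χ i)⁻¹ : ℂˣ) : ℂ) * term ((i : SL(2, ℤ)) * 1) z + g z) *
        (killer ∘ ofComplex) z ^ 12 / (ModularForm.discriminant ∘ ofComplex) z ^ 13 := by
    filter_upwards [hev, isOpen_upperHalfPlaneSet.mem_nhds hz] with z hz' him
    simp only [clearedRaw, candidate, clearing, poincare, Function.comp_apply,
      ofComplex_apply_of_im_pos him, hz']
    rw [div_mul_div_comm, ← pow_succ']
  have hD13 : AnalyticAt ℂ (fun z => ((ModularForm.discriminant ∘ ofComplex) z ^ 13)⁻¹) z₁ :=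
    ((analyticAt_discriminant hz).pow 13).inv (pow_ne_zero _ (ModularForm.discriminant_ne_zero _))
  rcases S.eq_empty_or_nonempty with rfl | ⟨i₀, hi₀⟩
  · simp only [Finset.sum_empty, zero_add] at hP
    refine ⟨_, (hg.mul ((analyticAt_killer hz).pow 12)).mul hD13,
      eventually_nhdsWithin_of_eventually_nhds (hP.mono fun z h => ?_), fun _ => ?_⟩
    · simpa [div_eq_mul_inv] using h
    · simpa [div_eq_mul_inv] using hP.self_of_nhds
  · have hpol : IsPolar z₁ := ⟨_, (hS i₀).mp hi₀⟩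
    have hk0 : (killer ∘ ofComplex) z₁ = 0 := by
      rw [Function.comp_apply, ofComplex_apply_of_im_pos hz]
      exact killer_eq_zero_of_isPolar ⟨z₁, hz⟩ hpol
    obtain ⟨q, hq, hkq⟩ : ∃ q : ℂ → ℂ, AnalyticAt ℂ q z₁ ∧
        ∀ z, (killer ∘ ofComplex) z = (z - z₁) * q z := by
      obtain ⟨p, hp⟩ := analyticAt_killer hz
      refine ⟨dslope (killer ∘ ofComplex) z₁, hp.has_fpower_series_dslope_fslope.analyticAt,
        fun z => ?_⟩
      have := sub_smul_dslope (killer ∘ ofComplex) z₁ z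
      rw [hk0, sub_zero, smul_eq_mul] at this
      exact this.symm
    refine ⟨fun z => ((∑ i ∈ S, (((χ i)⁻¹ : ℂˣ) : ℂ) * (linForm' ((i : SL(2, ℤ)) * 1) ^ 12)⁻¹) +
        (z - z₁) ^ 12 * g z) * q z ^ 12 * ((ModularForm.discriminant ∘ ofComplex) z ^ 13)⁻¹,
      ((analyticAt_const.add (((analyticAt_id.sub analyticAt_const).pow 12).mul hg)).mul
        (hq.pow 12)).mul hD13, ?_, fun h => absurd hpol h⟩
    filter_upwards [eventually_nhdsWithin_of_eventually_nhds hP, self_mem_nhdsWithin] with z hz' hne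
    have hp : (z - z₁) ^ 12 ≠ 0 := pow_ne_zero _ (sub_ne_zero.mpr hne)
    have hterm : ∀ i ∈ S, (((χ i)⁻¹ : ℂˣ) : ℂ) * term ((i : SL(2, ℤ)) * 1) z =
        (((χ i)⁻¹ : ℂˣ) : ℂ) * (linForm' ((i : SL(2, ℤ)) * 1) ^ 12)⁻¹ * ((z - z₁) ^ 12)⁻¹ := by
      intro i hi
      rw [term, linForm_sub _ z z₁, (hS i).mp hi, zero_add, mul_pow, mul_inv]
      ring
    rw [hz', hkq, Finset.sum_congr rfl hterm, ← Finset.sum_mul, mul_pow]
    set T := ∑ i ∈ S, (((χ i)⁻¹ : ℂˣ) : ℂ) * (linForm' ((i : SL(2, ℤ)) * 1) ^ 12)⁻¹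
    calc (T * ((z - z₁) ^ 12)⁻¹ + g z) * ((z - z₁) ^ 12 * q z ^ 12) /
          (ModularForm.discriminant ∘ ofComplex) z ^ 13
        = (T * (((z - z₁) ^ 12)⁻¹ * (z - z₁) ^ 12) + (z - z₁) ^ 12 * g z) * q z ^ 12 *
          ((ModularForm.discriminant ∘ ofComplex) z ^ 13)⁻¹ := by ring
      _ = _ := by rw [inv_mul_cancel₀ hp, mul_one]

lemma mdifferentiable_cleared_and_eq :
    MDiff (cleared Γ χ) ∧
      ∀ z : ℍ, ¬ IsPolar z → cleared Γ χ z = candidate Γ χ z * clearing z := by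
  constructor
  · rw [UpperHalfPlane.mdifferentiable_iff]
    intro z₁ hz
    obtain ⟨ψ, hψ, hev, -⟩ := exists_analytic_clearedRaw hn hχ hz
    refine (hψ.differentiableAt.congr_of_eventuallyEq ?_).differentiableWithinAt
    filter_upwards [eventually_nhdsWithin_iff.mp hev |>.eventually_nhds,
      hψ.eventually_analyticAt, isOpen_upperHalfPlaneSet.mem_nhds hz] with w hw hψw him
    simp only [Function.comp_apply, cleared, ofComplex_apply_of_im_pos him]
    refine Tendsto.limUnder_eq ((hψw.continuousAt.mono_left nhdsWithin_le_nhds).congr' ?_)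
    by_cases hwz : w = z₁
    · subst hwz; exact hev.mono fun x hx => hx.symm
    · filter_upwards [eventually_nhdsWithin_of_eventually_nhds hw,
        eventually_nhdsWithin_of_eventually_nhds (isOpen_ne.mem_nhds hwz)] with x hx hne
      exact (hx hne).symm
  · intro z hz
    obtain ⟨ψ, hψ, hev, hval⟩ := exists_analytic_clearedRaw hn hχ (z₁ := (z : ℂ)) z.im_pos
    rw [cleared, Tendsto.limUnder_eq ((hψ.continuousAt.mono_left nhdsWithin_le_nhds).congr'
      (hev.mono fun x hx => hx.symm)), ← hval hz]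
    simp [clearedRaw]

omit hn hχ in
lemma not_isPolar_smul (δ : SL(2, ℤ)) {z : ℍ} (hz : ¬ IsPolar z) :
    ¬ IsPolar ((δ • z : ℍ) : ℂ) := by
  rintro ⟨g, hg⟩
  exact hz ⟨g * δ, by rw [linForm_mul, hg, mul_zero]⟩

omit hn hχ in
lemma eventually_not_isPolar {z₁ : ℂ} (hz : 0 < z₁.im) :
    ∀ᶠ z in 𝓝[≠] z₁, 0 < z.im ∧ ¬ IsPolar z := by
  obtain ⟨E, C, hE, hC⟩ := exists_bound_on_strip (|z₁.re| + z₁.im / 2) (z₁.im / 2)
    (3 * z₁.im / 2) (half_pos hz)
  have hlim : ∀ᶠ z in 𝓝[≠] z₁, ∀ g ∈ E, linForm g z ≠ 0 := by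
    refine (eventually_all_finite hE).mpr fun g _ => ?_
    by_cases h0 : linForm g z₁ = 0
    · filter_upwards [self_mem_nhdsWithin] with z hne
      rw [linForm_sub g z z₁, h0, zero_add]
      exact mul_ne_zero (linForm'_ne_zero g) (sub_ne_zero.mpr hne)
    · refine eventually_nhdsWithin_of_eventually_nhds ?_
      have : ContinuousAt (linForm g) z₁ := by unfold linForm; fun_prop
      exact this.eventually_ne h0
  filter_upwards [hlim, eventually_nhdsWithin_of_eventually_nhds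
    (Metric.ball_mem_nhds z₁ (half_pos hz))] with z hz' hball
  obtain ⟨hA, hB, hY⟩ := mem_box_of_mem_ball hball
  refine ⟨(half_pos hz).trans_le hB, ?_⟩
  rintro ⟨g, hg⟩
  by_cases hgE : g ∈ E
  · exact hz' g hgE hg
  · exact (hC g hgE z hA hB hY).1 hg

lemma cleared_smul (γ : Γ) (z : ℍ) :
    cleared Γ χ ((γ : SL(2, ℤ)) • z) = χ γ * cleared Γ χ z := by
  obtain ⟨hd, heq⟩ := mdifferentiable_cleared_and_eq hn hχ
  have hc : Continuous (cleared Γ χ) := hd.continuous
  have hz : ContinuousAt (ofComplex : ℂ → ℍ) z :=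
    (mdifferentiableAt_ofComplex z.im_pos).continuousAt
  have h1 : Tendsto (fun w => cleared Γ χ ((γ : SL(2, ℤ)) • ofComplex w)) (𝓝[≠] (z : ℂ))
      (𝓝 (cleared Γ χ ((γ : SL(2, ℤ)) • z))) := by
    have := ((hc.comp (continuous_const_smul ((γ : SL(2, ℤ)) : GL (Fin 2) ℝ))).continuousAt.comp hz).tendsto
    simpa [Function.comp_def] using this.mono_left nhdsWithin_le_nhds
  have h2 : Tendsto (fun w => χ γ * cleared Γ χ (ofComplex w)) (𝓝[≠] (z : ℂ))
      (𝓝 (χ γ * cleared Γ χ z)) := by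
    have := ((hc.const_mul ((χ γ : ℂ))).continuousAt.comp hz).tendsto
    simpa [Function.comp_def] using this.mono_left nhdsWithin_le_nhds
  refine tendsto_nhds_unique h1 (h2.congr' ?_)
  filter_upwards [eventually_not_isPolar z.im_pos] with w ⟨hw, hwp⟩
  rw [ofComplex_apply_of_im_pos hw, heq _ hwp, heq _ (not_isPolar_smul _ (z := ⟨w, hw⟩) hwp),
    candidate_smul, clearing_smul, mul_assoc]

omit hn hχ in
/-- **Riemann existence, holomorphic form.** There is a non-zero holomorphic function on `ℍ` with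
multiplier `χ` and with at most exponential growth at every cusp. -/
theorem exists_holomorphic_of_character (Γ : Subgroup SL(2, ℤ)) [Γ.FiniteIndex]
    (χ : Γ →* ℂˣ) {n : ℕ} (hn : n ≠ 0) (hχ : ∀ g, χ g ^ n = 1)
    (hneg : ∀ γ : Γ, (γ : SL(2, ℤ)) = -1 → χ γ = 1) :
    ∃ f : ℍ → ℂ, MDiff f ∧ f ≠ 0 ∧
      (∀ (γ : Γ) (z : ℍ), f ((γ : SL(2, ℤ)) • z) = χ γ * f z) ∧
      (∀ α : SL(2, ℤ),
        IsBoundedAtImInfty fun z : ℍ => f (α • z) * ModularForm.discriminant z ^ 13) := by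
  obtain ⟨hd, heq⟩ := mdifferentiable_cleared_and_eq hn hχ
  refine ⟨cleared Γ χ, hd, ?_, cleared_smul hn hχ, fun α => ?_⟩
  · intro h0
    have h2 : (0:ℝ) < (2 * I).im := by simp
    have hk : ∀ᶠ z in 𝓝[≠] (2 * I), (killer ∘ ofComplex) z ≠ 0 := by
      rcases (analyticAt_killer h2).eventually_eq_zero_or_eventually_ne_zero with h | h
      · obtain ⟨z, hz⟩ := killer_not_eventually_zero
        have := AnalyticOnNhd.eqOn_zero_of_preconnected_of_eventuallyEq_zero
          (fun w hw => analyticAt_killer hw) (convex_halfSpace_im_gt 0).isPreconnected h2 h z.im_pos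
        simp [hz] at this
      · exact h
    obtain ⟨z, hz1, hz2, hz3, hz4⟩ := ((candidate_eventually_ne_zero hn hχ hneg).and
      (hk.and (eventually_not_isPolar h2))).exists
    simp only [Function.comp_apply, ofComplex_apply_of_im_pos hz3] at hz1 hz2
    have := congrFun h0 ⟨z, hz3⟩
    rw [heq _ hz4] at this
    exact mul_ne_zero hz1 (div_ne_zero (pow_ne_zero _ hz2)
      (pow_ne_zero _ (ModularForm.discriminant_ne_zero _))) this
  · have hk : IsBoundedAtImInfty (killer : ℍ → ℂ) := by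
      have := OnePoint.isBoundedAt_infty_iff.mp (killer.bdd_at_cusps'
        (Subgroup.isCusp_of_mem_strictPeriods one_pos one_mem_strictPeriods_SL))
      exact this
    have hb := (candidate_isBoundedAtImInfty hn hχ α).mul
      (hk.mul (hk.mul (hk.mul (hk.mul (hk.mul (hk.mul (hk.mul (hk.mul (hk.mul (hk.mul
        (hk.mul hk)))))))))))
    refine Asymptotics.IsBigO.congr' hb ?_ EventuallyEq.rfl
    rw [EventuallyEq, Filter.Eventually, UpperHalfPlane.atImInfty_mem]
    refine ⟨8, fun z hz => ?_⟩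
    have hp : ¬ IsPolar (z : ℂ) := fun ⟨g, hg⟩ =>
      linForm_ne_zero_of_lt_im g (lt_of_lt_of_le (by norm_num) hz) hg
    rw [Set.mem_ofPred_eq, heq _ (not_isPolar_smul α hp), clearing_smul, clearing]
    simp only [Pi.mul_apply]
    field_simp [ModularForm.discriminant_ne_zero z]

end Holomorphic

end Fermat.Agent.EichlerShimura.Poincare
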