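import Fermat.Agent.EichlerShimura.Interface
import Mathlib.RingTheory.RootsOfUnity.Complex

/-!
`qzExp : ℚ/ℤ → ℂ` is injective and hits all roots of unity.
-/

set_option autoImplicit false

noncomputable section

namespace Fermat.Agent.EichlerShimura

theorem qzExp_zero' : qzExp 0 = 1 := by
  have h := qzExp_coe 0
  rw [show ((0 : ℚ) : QZ) = 0 from rfl] at h
  simpa using h

theorem qzExp_eq_one_iff' {t : QZ} : qzExp t = 1 ↔ t = 0 := by
  refine ⟨fun h => ?_, fun h => h ▸ qzExp_zero'⟩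
  induction t using QuotientAddGroup.induction_on with
  | _ q =>
    rw [qzExp_coe, Complex.exp_eq_one_iff] at h
    obtain ⟨m, hm⟩ := h
    have h2 : ((q : ℚ) : ℂ) = (m : ℂ) :=
      mul_left_cancel₀ (a := 2 * (Real.pi : ℂ) * Complex.I) (by simp)
        (by rw [hm]; ring)
    have h3 : q = (m : ℚ) := by exact_mod_cast h2
    rw [QuotientAddGroup.eq_zero_iff, AddSubgroup.mem_zmultiples_iff]
    exact ⟨m, by rw [h3, zsmul_eq_mul, mul_one]⟩

theorem qzExp_ne_zero' (t : QZ) : qzExp t ≠ 0 := by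
  induction t using QuotientAddGroup.induction_on with
  | _ q => rw [qzExp_coe]; exact Complex.exp_ne_zero _

theorem qzExp_injective' : Function.Injective qzExp := fun s t h => by
  have h1 : qzExp (s - t) * qzExp t = qzExp s := by rw [← qzExp_add, sub_add_cancel]
  rw [h, mul_eq_right₀ (qzExp_ne_zero' t), qzExp_eq_one_iff'] at h1
  exact sub_eq_zero.mp h1

theorem qzExp_nsmul' (n : ℕ) (t : QZ) : qzExp (n • t) = qzExp t ^ n := by
  induction n with
  | zero => simp [qzExp_zero']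
  | succ n ih => rw [succ_nsmul, qzExp_add, ih, pow_succ]

theorem exists_qzExp_eq' {ζ : ℂ} {n : ℕ} (hn : n ≠ 0) (h : ζ ^ n = 1) :
    ∃ t : QZ, n • t = 0 ∧ qzExp t = ζ := by
  haveI : NeZero n := ⟨hn⟩
  obtain ⟨i, -, hi⟩ := (Complex.isPrimitiveRoot_exp n hn).eq_pow_of_pow_eq_one h
  refine ⟨(((i : ℚ) / n : ℚ) : QZ), ?_, ?_⟩
  · rw [← QuotientAddGroup.mk_nsmul, nsmul_eq_mul, mul_div_cancel₀ _ (by exact_mod_cast hn)]
    rw [QuotientAddGroup.eq_zero_iff, AddSubgroup.mem_zmultiples_iff]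
    exact ⟨i, by simp⟩
  · rw [qzExp_coe, ← hi, ← Complex.exp_nat_mul]
    congr 1
    push_cast
    ring

end Fermat.Agent.EichlerShimura
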