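import Mathlib
import Fermat.Prelude.Def_GaloisRep_Adic
import Fermat.Agent.Density.BrauerNesbitt

/-!
# Traces of adic representations modulo powers of the maximal ideal
-/

noncomputable section

set_option autoImplicit false

namespace Fermat.Agent.EichlerShimura

open Polynomial IsLocalRing

local notation "ℚ̄" => AlgebraicClosure ℚ
local notation "Γℚ" => (AlgebraicClosure ℚ ≃ₐ[ℚ] AlgebraicClosure ℚ)

/-- The trace of the `n`-th power of a rank two endomorphism with trace `t` and determinant `d`. -/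
def lucasTr {R : Type*} [CommRing R] (t d : R) : ℕ → R
  | 0 => 2
  | 1 => t
  | n + 2 => t * lucasTr t d (n + 1) - d * lucasTr t d n

theorem map_lucasTr {R R' : Type*} [CommRing R] [CommRing R'] (f : R →+* R') (t d : R) :
    ∀ n, f (lucasTr t d n) = lucasTr (f t) (f d) n
  | 0 => map_ofNat f 2
  | 1 => rfl
  | n + 2 => by
    rw [lucasTr, lucasTr, map_sub, map_mul, map_mul, map_lucasTr f t d (n + 1),
      map_lucasTr f t d n]

theorem trace_pow_matrix_eq_lucasTr {A : Type*} [CommRing A] (M : Matrix (Fin 2) (Fin 2) A) :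
    ∀ n, (M ^ n).trace = lucasTr M.trace M.det n
  | 0 => by simp [lucasTr, Matrix.trace_one]
  | 1 => by simp [lucasTr]
  | n + 2 => by
    rw [pow_succ M (n + 1), pow_succ M n, mul_assoc, Density.matrix_two_mul_self, mul_sub,
      mul_smul_comm, mul_smul_comm, mul_one, ← pow_succ, Matrix.trace_sub, Matrix.trace_smul,
      Matrix.trace_smul, smul_eq_mul, smul_eq_mul, trace_pow_matrix_eq_lucasTr M (n + 1),
      trace_pow_matrix_eq_lucasTr M n, lucasTr]

variable {A : Type} [CommRing A] [IsLocalRing A]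

/-- A chosen basis of an adic representation. -/
def adicBasis (ρ : GaloisRepAdic A) : Module.Basis (Fin 2) A ρ.V :=
  Module.finBasisOfFinrankEq A ρ.V ρ.finrank_eq

/-- The matrices of an adic representation in the chosen basis. -/
def adicMatrix (ρ : GaloisRepAdic A) : Γℚ →* Matrix (Fin 2) (Fin 2) A :=
  ((LinearMap.toMatrixAlgEquiv (adicBasis ρ)).toAlgHom :
    Module.End A ρ.V →* Matrix (Fin 2) (Fin 2) A).comp ρ.ρ

theorem adicMatrix_apply (ρ : GaloisRepAdic A) (g : Γℚ) :
    adicMatrix ρ g = LinearMap.toMatrixAlgEquiv (adicBasis ρ) (ρ.ρ g) := rfl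

theorem adicMatrix_eq_one_iff (ρ : GaloisRepAdic A) (g : Γℚ) :
    adicMatrix ρ g = 1 ↔ ρ.ρ g = 1 := by
  rw [adicMatrix_apply, ← (LinearMap.toMatrixAlgEquiv (adicBasis ρ)).map_one]
  exact (LinearMap.toMatrixAlgEquiv (adicBasis ρ)).injective.eq_iff

theorem trace_det_of_charpoly_eq (ρ : GaloisRepAdic A) (σ : Γℚ) {t d : A}
    (h : LinearMap.charpoly (ρ.ρ σ) = X ^ 2 - C t * X + C d) :
    (adicMatrix ρ σ).trace = t ∧ (adicMatrix ρ σ).det = d := by
  have h' : (adicMatrix ρ σ).charpoly = X ^ 2 - C t * X + C d := by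
    rw [← h, adicMatrix_apply, ← LinearMap.charpoly_toMatrix (ρ.ρ σ) (adicBasis ρ)]
    rfl
  rw [Density.charpoly_fin_two_eq] at h'
  refine ⟨?_, ?_⟩
  · have h1 := congrArg (fun q => Polynomial.coeff q 1) h'
    simpa [Polynomial.coeff_X_pow, Polynomial.coeff_C] using h1
  · have h0 := congrArg (fun q => Polynomial.coeff q 0) h'
    simpa [Polynomial.coeff_X_pow, Polynomial.coeff_C] using h0

/-- For every `n` there is a finite level on which the representation is trivial
modulo `𝔪 ^ n`. -/
theorem exists_level_adicMatrix (ρ : GaloisRepAdic A) (n : ℕ) :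
    ∃ L : IntermediateField ℚ ℚ̄, FiniteDimensional ℚ L ∧
      ∀ u : Γℚ, (∀ x ∈ L, u x = x) →
        ∀ i j, adicMatrix ρ u i j - (1 : Matrix (Fin 2) (Fin 2) A) i j ∈ maximalIdeal A ^ n := by
  obtain ⟨L, hL, h⟩ := ρ.isAdicContinuous n
  refine ⟨L, hL, fun u hu i j => ?_⟩
  have h1 : (adicBasis ρ).coord i (ρ.ρ u (adicBasis ρ j) - adicBasis ρ j) ∈
      maximalIdeal A ^ n := by
    have h2 := Submodule.mem_map_of_mem (f := (adicBasis ρ).coord i) (h u hu (adicBasis ρ j))
    rw [Submodule.map_smul''] at h2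
    exact Submodule.smul_le.mpr (fun r hr y _ => by
      rw [smul_eq_mul]; exact Ideal.mul_mem_right _ _ hr) h2
  rw [map_sub] at h1
  simpa [adicMatrix_apply, LinearMap.toMatrixAlgEquiv_apply, Module.Basis.coord_apply,
    Matrix.one_apply, Finsupp.single_apply, eq_comm] using h1

/-- If `g` agrees with the `b`-th power of `σ` on a sufficiently large level, its trace is
congruent to `lucasTr` of the trace and determinant at `σ`. -/
theorem trace_sub_lucasTr_mem (ρ : GaloisRepAdic A) (n : ℕ) {L : IntermediateField ℚ ℚ̄}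
    (hL : ∀ u : Γℚ, (∀ x ∈ L, u x = x) →
      ∀ i j, adicMatrix ρ u i j - (1 : Matrix (Fin 2) (Fin 2) A) i j ∈ maximalIdeal A ^ n)
    {g σ : Γℚ} {b : ℕ} (hg : ∀ x ∈ L, g x = (σ ^ b) x) {t d : A}
    (hc : LinearMap.charpoly (ρ.ρ σ) = X ^ 2 - C t * X + C d) :
    (adicMatrix ρ g).trace - lucasTr t d b ∈ maximalIdeal A ^ n := by
  obtain ⟨ht, hd⟩ := trace_det_of_charpoly_eq ρ σ hc
  let u : Γℚ := (σ ^ b)⁻¹ * g
  have hu : ∀ x ∈ L, u x = x := fun x hx => by
    rw [AlgEquiv.mul_apply, hg x hx, ← AlgEquiv.mul_apply, inv_mul_cancel, AlgEquiv.one_apply]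
  have hgu : adicMatrix ρ g = adicMatrix ρ σ ^ b * adicMatrix ρ u := by
    rw [← map_pow, ← map_mul, mul_inv_cancel_left]
  rw [hgu, ← ht, ← hd, ← trace_pow_matrix_eq_lucasTr, ← Matrix.trace_sub,
    show adicMatrix ρ σ ^ b * adicMatrix ρ u - adicMatrix ρ σ ^ b =
      adicMatrix ρ σ ^ b * (adicMatrix ρ u - 1) by rw [mul_sub, mul_one]]
  refine Ideal.sum_mem _ fun i _ => ?_
  rw [Matrix.diag_apply, Matrix.mul_apply]
  exact Ideal.sum_mem _ fun j _ => Ideal.mul_mem_left _ _ (hL u hu j i)

/-- Residually absolutely irreducible representations span the matrix algebra. -/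
theorem span_adicMatrix_eq_top (ρ : GaloisRepAdic A)
    (hirr : ρ.residual.IsAbsolutelyIrreducible) :
    Submodule.span A (Set.range (adicMatrix ρ)) = ⊤ := by
  have hnt : Nontrivial ρ.residual.V :=
    Module.nontrivial_of_finrank_pos (R := ResidueField A) (by rw [ρ.residual.finrank_eq]; omega)
  have h1 : Submodule.span (ResidueField A)
      (Set.range fun g : Γℚ => (ρ.ρ g).baseChange (ResidueField A)) = ⊤ :=
    Density.span_range_eq_top_of_absolutelyIrreducible (AlgebraicClosure (ResidueField A))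
      ρ.residual.ρ (fun W hW => hirr W hW)
  let bk := Algebra.TensorProduct.basis (ResidueField A) (adicBasis ρ)
  have h2 : Submodule.span (ResidueField A)
      (Set.range fun g => (adicMatrix ρ g).map (residue A)) = ⊤ := by
    have h3 := congrArg (Submodule.map (LinearMap.toMatrix bk bk).toLinearMap) h1
    rw [Submodule.map_span, Submodule.map_top, LinearEquiv.range, ← Set.range_comp] at h3
    rw [show (fun g => (adicMatrix ρ g).map (residue A)) =
      fun g => LinearMap.toMatrix bk bk ((ρ.ρ g).baseChange (ResidueField A)) from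
        funext fun g =>
          (LinearMap.toMatrix_baseChange (ResidueField A) (ρ.ρ g) (adicBasis ρ)
            (adicBasis ρ)).symm]
    exact h3
  refine top_le_iff.mp (Submodule.le_of_le_smul_of_le_jacobson_bot
    (I := maximalIdeal A) Module.Finite.fg_top (maximalIdeal_le_jacobson _) fun Z _ => ?_)
  have hlift : ∀ Z' ∈ Submodule.span (ResidueField A)
      (Set.range fun g => (adicMatrix ρ g).map (residue A)),
      ∃ Y ∈ Submodule.span A (Set.range (adicMatrix ρ)), Y.map (residue A) = Z' := by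
    intro Z' hZ'
    induction hZ' using Submodule.span_induction with
    | mem x hx =>
      obtain ⟨g, rfl⟩ := hx
      exact ⟨_, Submodule.subset_span ⟨g, rfl⟩, rfl⟩
    | zero => exact ⟨0, Submodule.zero_mem _, by ext; simp⟩
    | add x y _ _ hx hy =>
      obtain ⟨X₁, hX₁, rfl⟩ := hx
      obtain ⟨X₂, hX₂, rfl⟩ := hy
      exact ⟨X₁ + X₂, Submodule.add_mem _ hX₁ hX₂, by ext; simp⟩
    | smul c x _ hx =>
      obtain ⟨X₁, hX₁, rfl⟩ := hx
      obtain ⟨a, rfl⟩ := residue_surjective c
      exact ⟨a • X₁, Submodule.smul_mem _ a hX₁, by ext; simp⟩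
  obtain ⟨Y, hY, hYZ⟩ := hlift (Z.map (residue A)) (h2 ▸ Submodule.mem_top)
  refine Submodule.mem_sup.mpr ⟨Y, hY, Z - Y, ?_, add_sub_cancel Y Z⟩
  rw [Matrix.matrix_eq_sum_single (Z - Y)]
  refine Submodule.sum_mem _ fun i _ => Submodule.sum_mem _ fun j _ => ?_
  have hm : (Z - Y) i j ∈ maximalIdeal A := by
    rw [← residue_eq_zero_iff, Matrix.sub_apply, map_sub, sub_eq_zero]
    exact (congrFun (congrFun hYZ i) j).symm
  rw [show Matrix.single i j ((Z - Y) i j) = (Z - Y) i j • Matrix.single i j (1 : A) by simp]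
  exact Submodule.smul_mem_smul hm Submodule.mem_top

/-- An element whose left translation does not change any trace acts trivially. -/
theorem rho_eq_one_of_trace_mul (ρ : GaloisRepAdic A) (hirr : ρ.residual.IsAbsolutelyIrreducible)
    (τ : Γℚ) (h : ∀ g, (adicMatrix ρ (g * τ)).trace = (adicMatrix ρ g).trace) :
    ρ.ρ τ = 1 := by
  rw [← adicMatrix_eq_one_iff, Matrix.ext_iff_trace_mul_left]
  intro Y
  have hY : Y ∈ Submodule.span A (Set.range (adicMatrix ρ)) :=
    span_adicMatrix_eq_top ρ hirr ▸ Submodule.mem_top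
  induction hY using Submodule.span_induction with
  | mem x hx =>
    obtain ⟨g, rfl⟩ := hx
    rw [← map_mul, mul_one]
    exact h g
  | zero => simp
  | add x y _ _ hx hy => simp only [add_mul, Matrix.trace_add, hx, hy]
  | smul a x _ hx => simp only [smul_mul_assoc, Matrix.trace_smul, hx]

end Fermat.Agent.EichlerShimura
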