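import Mathlib
import Fermat.Prelude.Def_CuspForm_HeckeGaloisRepDatum
import Fermat.Agent.EichlerShimura.S30Of
import Fermat.Agent.EichlerShimura.Separation
import Fermat.Agent.EichlerShimura.TraceCongruence
import Fermat.Agent.Density.FrobeniusDensity
import Fermat.Agent.Hecke.GoodSemisimple
import Fermat.Agent.HeckeFinite.Finite

/-!
# Statement S31: representations of Hecke–Galois data are unramified outside `S`
-/

noncomputable section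

set_option autoImplicit false
set_option linter.style.haveILetI false

open Polynomial IsLocalRing TensorProduct

namespace Fermat.Agent.EichlerShimura

local notation "ℚ̄" => AlgebraicClosure ℚ
local notation "Γℚ" => (AlgebraicClosure ℚ ≃ₐ[ℚ] AlgebraicClosure ℚ)

/-- Congruences of values of a point to congruences modulo its kernel. -/
theorem exists_pow_bound (p : ℕ) [Fact p.Prime] (R : Type) [CommRing R] [Algebra ℤ_[p] R]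
    (A : Type) [CommRing A] [IsDomain A] [IsDiscreteValuationRing A] [CharZero A]
    [Algebra ℤ_[p] A] [Module.Finite ℤ_[p] A]
    (f : R →ₐ[ℤ_[p]] A) (j : ℕ) :
    ∃ k : ℕ, ∀ x : R, f x ∈ maximalIdeal A ^ k →
      x ∈ Ideal.span {(p : R) ^ j} ⊔ RingHom.ker f := by
  have hp0 : Ideal.span {(p : A)} ≠ ⊥ := by
    rw [Ne, Ideal.span_singleton_eq_bot, Nat.cast_eq_zero]
    exact (Fact.out : p.Prime).ne_zero
  obtain ⟨ϖ, hϖ⟩ := IsDiscreteValuationRing.exists_irreducible A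
  obtain ⟨e, he⟩ := IsDiscreteValuationRing.ideal_eq_span_pow_irreducible hp0 hϖ
  let Φ := Submodule.liftQ (LinearMap.ker f.toLinearMap) f.toLinearMap le_rfl
  have hΦ : Function.Injective Φ := LinearMap.ker_eq_bot.mp (Submodule.ker_liftQ_eq_bot' _ _ rfl)
  obtain ⟨k, hk⟩ := exists_pow_divisible_of_injective Φ hΦ (p : ℤ_[p]) j
  refine ⟨e * k, fun x hx => ?_⟩
  rw [hϖ.maximalIdeal_eq, Ideal.span_singleton_pow, pow_mul, ← Ideal.span_singleton_pow, ← he,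
    Ideal.span_singleton_pow, Ideal.mem_span_singleton] at hx
  obtain ⟨z, hz⟩ := hx
  obtain ⟨y, hy⟩ := hk (Submodule.Quotient.mk x) ⟨z, by
    rw [Submodule.liftQ_apply, Algebra.smul_def, map_pow, map_natCast]
    exact hz⟩
  obtain ⟨y₀, rfl⟩ := Submodule.Quotient.mk_surjective _ y
  rw [← Submodule.Quotient.mk_smul, Submodule.Quotient.eq] at hy
  refine Submodule.mem_sup.mpr ⟨(p : ℤ_[p]) ^ j • y₀, ?_, x - (p : ℤ_[p]) ^ j • y₀, hy,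
    add_sub_cancel _ _⟩
  rw [Ideal.mem_span_singleton, Algebra.smul_def, map_pow, map_natCast]
  exact dvd_mul_right _ _

/-- In a reduced finite `ℤ_[p]`-algebra, congruences modulo all minimal primes give
divisibility. -/
theorem exists_pow_divisible_of_minimalPrimes (p : ℕ) [Fact p.Prime] (R : Type) [CommRing R]
    [Algebra ℤ_[p] R] [Module.Finite ℤ_[p] R] [IsReduced R] (n : ℕ) :
    ∃ j : ℕ, ∀ x : R, (∀ Q ∈ minimalPrimes R, x ∈ Ideal.span {(p : R) ^ j} ⊔ Q) →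
      ∃ y, x = (p : ℤ_[p]) ^ n • y := by
  haveI : IsNoetherianRing R := IsNoetherianRing.of_finite ℤ_[p] R
  haveI : Finite (minimalPrimes R) :=
    (minimalPrimes.finite_of_isNoetherianRing R).to_subtype
  let Φ : R →ₗ[ℤ_[p]] ((Q : minimalPrimes R) → R ⧸ Q.1) :=
    LinearMap.pi fun Q => (Ideal.Quotient.mkₐ ℤ_[p] Q.1).toLinearMap
  have hΦ : Function.Injective Φ := by
    refine (injective_iff_map_eq_zero Φ).mpr fun x hx => ?_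
    have hmem : x ∈ sInf (minimalPrimes R) := Ideal.mem_sInf.mpr fun {Q} hQ =>
      Ideal.Quotient.eq_zero_iff_mem.mp (congrFun hx ⟨Q, hQ⟩)
    rw [show sInf (minimalPrimes R) = (⊥ : Ideal R).radical from Ideal.sInf_minimalPrimes,
      show (⊥ : Ideal R).radical = ⊥ from nilradical_eq_zero R, Ideal.mem_bot] at hmem
    exact hmem
  obtain ⟨j, hj⟩ := exists_pow_divisible_of_injective Φ hΦ (p : ℤ_[p]) n
  refine ⟨j, fun x hx => hj x ?_⟩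
  have hQ : ∀ Q : minimalPrimes R, ∃ z : R ⧸ Q.1,
      Ideal.Quotient.mk Q.1 x = (p : ℤ_[p]) ^ j • z := by
    intro Q
    obtain ⟨a, ha, b, hb, rfl⟩ := Submodule.mem_sup.mp (hx Q.1 Q.2)
    obtain ⟨c, rfl⟩ := Ideal.mem_span_singleton.mp ha
    refine ⟨Ideal.Quotient.mk Q.1 c, ?_⟩
    rw [map_add, Ideal.Quotient.eq_zero_iff_mem.mpr hb, add_zero, Algebra.smul_def, map_pow,
      map_natCast, map_mul, map_pow, map_natCast]
  choose z hz using hQ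
  exact ⟨z, funext hz⟩

variable {p N : ℕ} [Fact p.Prime] [NeZero N] {S : Finset ℕ}

/-- The element of the Hecke algebra whose points are the traces of the `b`-th power of Frobenius
at `ℓ`. -/
def frobTraceElt {ℓ : ℕ} (hℓ : ℓ.Prime) (hℓN : ¬ ℓ ∣ N) (hℓS : ℓ ∉ (↑S : Set ℕ)) (b : ℕ) :
    CuspForm.heckeAlgebra N 2 (↑S : Set ℕ) :=
  lucasTr (CuspForm.heckeAlgebra.T hℓ hℓN hℓS) (ℓ : CuspForm.heckeAlgebra N 2 (↑S : Set ℕ)) b

/-- At a prime `Q` of `ℤ_p ⊗ 𝕋` the Frobenius trace elements of two elements differing by an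
inertia element at a good prime `q` are congruent. -/
theorem exists_level_frobTraceElt (hK : HasKummerIso N) (hF : FrobeniusOnTorsion N p)
    (hL : GaloisFiniteLevel N) (hpS : p ∈ S)
    [Module.Finite ℤ (CuspForm.heckeAlgebra N 2 (↑S : Set ℕ))]
    [Module.Free ℤ (CuspForm.heckeAlgebra N 2 (↑S : Set ℕ))]
    (Q : Ideal (ℤ_[p] ⊗[ℤ] CuspForm.heckeAlgebra N 2 (↑S : Set ℕ)))
    (hQ : Q ∈ minimalPrimes (ℤ_[p] ⊗[ℤ] CuspForm.heckeAlgebra N 2 (↑S : Set ℕ))) (j : ℕ) :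
    ∃ L : IntermediateField ℚ ℚ̄, FiniteDimensional ℚ L ∧
      ∀ q : ℕ, q.Prime → ¬ q ∣ N → q ≠ p → ∀ P : ValuationSubring ℚ̄, P.LiesOverPrime q →
      ∀ τ ∈ P.inertiaSubgroupIn ℚ, ∀ g : Γℚ,
      ∀ (ℓ₁ : ℕ) (h₁ : ℓ₁.Prime) (h₁N : ¬ ℓ₁ ∣ N) (h₁S : ℓ₁ ∉ (↑S : Set ℕ)),
      ∀ A₁ : ValuationSubring ℚ̄, A₁.LiesOverPrime ℓ₁ → ∀ σ₁ : Γℚ, A₁.IsFrobeniusAt σ₁ ℓ₁ →
      ∀ b₁ : ℕ, (∀ x ∈ L, (g * τ) x = (σ₁ ^ b₁) x) →
      ∀ (ℓ₂ : ℕ) (h₂ : ℓ₂.Prime) (h₂N : ¬ ℓ₂ ∣ N) (h₂S : ℓ₂ ∉ (↑S : Set ℕ)),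
      ∀ A₂ : ValuationSubring ℚ̄, A₂.LiesOverPrime ℓ₂ → ∀ σ₂ : Γℚ, A₂.IsFrobeniusAt σ₂ ℓ₂ →
      ∀ b₂ : ℕ, (∀ x ∈ L, g x = (σ₂ ^ b₂) x) →
        ((1 : ℤ_[p]) ⊗ₜ[ℤ] (frobTraceElt h₁ h₁N h₁S b₁ - frobTraceElt h₂ h₂N h₂S b₂)) ∈
          Ideal.span {(p : ℤ_[p] ⊗[ℤ] CuspForm.heckeAlgebra N 2 (↑S : Set ℕ)) ^ j} ⊔ Q := by
  haveI : Q.IsPrime := hQ.1.1
  have hQ0 : ∀ a : ℤ_[p], algebraMap ℤ_[p] (ℤ_[p] ⊗[ℤ] (CuspForm.heckeAlgebra N 2 (↑S : Set ℕ))) a ∈ Q → a = 0 := by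
    intro a ha
    by_contra ha0
    refine Set.disjoint_left.mp (Ideal.disjoint_nonZeroDivisors_of_mem_minimalPrimes hQ) ha ?_
    refine mem_nonZeroDivisors_iff_right.mpr fun x hx => ?_
    rw [mul_comm, ← Algebra.smul_def] at hx
    exact (smul_eq_zero.mp hx).resolve_left ha0
  haveI : Finite (ResidueField ℤ_[p]) := Finite.of_equiv _ PadicInt.residueField.symm.toEquiv
  obtain ⟨O, _, _, _, _, _, _, _, _, _, -, f, hf⟩ :=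
    exists_finiteDVR_extension ℤ_[p] (ℤ_[p] ⊗[ℤ] (CuspForm.heckeAlgebra N 2 (↑S : Set ℕ))) Q hQ0
  have hpO : (p : O) ∈ maximalIdeal O := by
    rw [← map_natCast (algebraMap ℤ_[p] O) p]
    refine map_nonunit _ _ ?_
    rw [PadicInt.maximalIdeal_eq_span_p]
    exact Ideal.mem_span_singleton_self _
  let χ : (CuspForm.heckeAlgebra N 2 (↑S : Set ℕ)) →+* O := f.toRingHom.comp
    (Algebra.TensorProduct.includeRight : (CuspForm.heckeAlgebra N 2 (↑S : Set ℕ)) →ₐ[ℤ] ℤ_[p] ⊗[ℤ] (CuspForm.heckeAlgebra N 2 (↑S : Set ℕ))).toRingHom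
  obtain ⟨O', _, _, _, _, _, _, _, _, _, hinj, ρ, hρ, hur⟩ :=
    exists_galoisRep_of_point_of p N S hK hF hL hpS O hpO χ
  letI : Algebra ℤ_[p] O' := ((algebraMap O O').comp (algebraMap ℤ_[p] O)).toAlgebra
  haveI : IsScalarTower ℤ_[p] O O' := IsScalarTower.of_algebraMap_eq' rfl
  haveI : Module.Finite ℤ_[p] O' := Module.Finite.trans O O'
  let f' : (ℤ_[p] ⊗[ℤ] (CuspForm.heckeAlgebra N 2 (↑S : Set ℕ))) →ₐ[ℤ_[p]] O' := (IsScalarTower.toAlgHom ℤ_[p] O O').comp f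
  have hf' : RingHom.ker f' = Q := by
    ext x
    rw [← hf, RingHom.mem_ker, RingHom.mem_ker]
    exact map_eq_zero_iff (algebraMap O O') hinj
  obtain ⟨k, hk⟩ := exists_pow_bound p _ O' f' j
  obtain ⟨L, hLfin, hL'⟩ := exists_level_adicMatrix ρ k
  refine ⟨L, hLfin, fun q hq hqN hqp P hP τ hτ g ℓ₁ h₁ h₁N h₁S A₁ hA₁ σ₁ hσ₁ b₁ hb₁
    ℓ₂ h₂ h₂N h₂S A₂ hA₂ σ₂ hσ₂ b₂ hb₂ => ?_⟩
  rw [← hf']
  refine hk _ ?_
  have h1 := trace_sub_lucasTr_mem ρ k hL' hb₁ (hρ ℓ₁ h₁ h₁N h₁S A₁ hA₁ σ₁ hσ₁)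
  have h2 := trace_sub_lucasTr_mem ρ k hL' hb₂ (hρ ℓ₂ h₂ h₂N h₂S A₂ hA₂ σ₂ hσ₂)
  rw [map_mul, (adicMatrix_eq_one_iff ρ τ).mpr (hur q hq hqN hqp P hP τ hτ), mul_one] at h1
  have key : ∀ {ℓ : ℕ} (hℓ : ℓ.Prime) (hℓN : ¬ ℓ ∣ N) (hℓS : ℓ ∉ (↑S : Set ℕ)) (b : ℕ),
      f' ((1 : ℤ_[p]) ⊗ₜ[ℤ] frobTraceElt hℓ hℓN hℓS b) =
        lucasTr (algebraMap O O' (χ (CuspForm.heckeAlgebra.T hℓ hℓN hℓS))) (ℓ : O') b := by
    intro ℓ hℓ hℓN hℓS b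
    have := map_lucasTr ((algebraMap O O').comp χ)
      (CuspForm.heckeAlgebra.T hℓ hℓN hℓS) (ℓ : (CuspForm.heckeAlgebra N 2 (↑S : Set ℕ))) b
    rw [map_natCast] at this
    exact this
  rw [TensorProduct.tmul_sub, map_sub, key, key]
  convert sub_mem h2 h1 using 1
  ring

/-- Statement S31, given the three Eichler–Shimura inputs. -/
theorem isUnramifiedAt_of_notMem_of (hK : HasKummerIso N) (hF : FrobeniusOnTorsion N p)
    (hL : GaloisFiniteLevel N)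
    {𝒪 : Type} [CommRing 𝒪] [IsDomain 𝒪] [IsDiscreteValuationRing 𝒪]
    [IsAdicComplete (maximalIdeal 𝒪) 𝒪]
    {θ : CuspForm.heckeAlgebra N 2 (↑S : Set ℕ) →+* ResidueField 𝒪}
    {T : Type} [CommRing T] [IsLocalRing T] [IsNoetherianRing T]
    [IsAdicComplete (maximalIdeal T) T] [Algebra 𝒪 T] [IsLocalHom (algebraMap 𝒪 T)]
    [Module.Finite 𝒪 T] [Module.Free 𝒪 T]
    (hp𝒪 : (p : 𝒪) ∈ maximalIdeal 𝒪) (hpS : p ∈ S)
    (hNS : ∀ q : ℕ, q.Prime → q ∣ N → q ∈ S)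
    (H : CuspForm.HeckeGaloisRepDatum N (↑S : Set ℕ) 𝒪 θ T)
    (q : ℕ) (hq : q.Prime) (hqS : q ∉ S) :
    H.ρ.IsUnramifiedAt q := by
  have hqN : ¬ q ∣ N := fun h => hqS (hNS q hq h)
  have hqp : q ≠ p := fun h => hqS (h ▸ hpS)
  intro P hP τ hτ
  refine rho_eq_one_of_trace_mul H.ρ H.residual_absIrr τ fun g => ?_
  rw [← sub_eq_zero]
  refine IsHausdorff.haus' (I := maximalIdeal T) _ fun n => ?_
  rw [SModEq.zero, smul_eq_mul, Ideal.mul_top]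
  haveI := HeckeFinite.moduleFinite_heckeAlgebra N 2 (↑S : Set ℕ)
  haveI : Module.Free ℤ (CuspForm.heckeAlgebra N 2 (↑S : Set ℕ)) :=
    Module.free_of_finite_type_torsion_free'
  haveI : IsReduced (CuspForm.heckeAlgebra N 2 (↑S : Set ℕ)) :=
    Hecke.isReduced_heckeAlgebra N 2 (↑S : Set ℕ) hNS
  haveI := isReduced_padicInt_tensor p (CuspForm.heckeAlgebra N 2 (↑S : Set ℕ))
  obtain ⟨j, hj⟩ := exists_pow_divisible_of_minimalPrimes p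
    (ℤ_[p] ⊗[ℤ] CuspForm.heckeAlgebra N 2 (↑S : Set ℕ)) n
  choose LQ hLQfin hLQ using fun Q : minimalPrimes
      (ℤ_[p] ⊗[ℤ] CuspForm.heckeAlgebra N 2 (↑S : Set ℕ)) =>
    exists_level_frobTraceElt hK hF hL hpS Q.1 Q.2 j
  obtain ⟨LT, hLTfin, hLT⟩ := exists_level_adicMatrix H.ρ n
  haveI : IsNoetherianRing (ℤ_[p] ⊗[ℤ] CuspForm.heckeAlgebra N 2 (↑S : Set ℕ)) :=
    IsNoetherianRing.of_finite ℤ_[p] _
  haveI : Finite (minimalPrimes (ℤ_[p] ⊗[ℤ] CuspForm.heckeAlgebra N 2 (↑S : Set ℕ))) :=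
    (minimalPrimes.finite_of_isNoetherianRing _).to_subtype
  haveI := hLTfin
  haveI := hLQfin
  let L : IntermediateField ℚ ℚ̄ := LT ⊔ ⨆ Q, LQ Q
  haveI : FiniteDimensional ℚ (⨆ Q, LQ Q : IntermediateField ℚ ℚ̄) :=
    IntermediateField.finiteDimensional_iSup_of_finite
  haveI : FiniteDimensional ℚ L := IntermediateField.finiteDimensional_sup LT _
  obtain ⟨ℓ₁, h₁, h₁S, A₁, σ₁, hA₁, hσ₁, -, a₁, b₁, -, hb₁⟩ :=
    Density.exists_isFrobeniusAt_agree_pow L (g * τ) S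
  obtain ⟨ℓ₂, h₂, h₂S, A₂, σ₂, hA₂, hσ₂, -, a₂, b₂, -, hb₂⟩ :=
    Density.exists_isFrobeniusAt_agree_pow L g S
  have h₁N : ¬ ℓ₁ ∣ N := fun h => h₁S (hNS ℓ₁ h₁ h)
  have h₂N : ¬ ℓ₂ ∣ N := fun h => h₂S (hNS ℓ₂ h₂ h)
  have h₁S' : ℓ₁ ∉ (↑S : Set ℕ) := Finset.mem_coe.not.mpr h₁S
  have h₂S' : ℓ₂ ∉ (↑S : Set ℕ) := Finset.mem_coe.not.mpr h₂S
  obtain ⟨y, hy⟩ := hj _ fun Q hQ =>
    hLQ ⟨Q, hQ⟩ q hq hqN hqp P hP τ hτ g
      ℓ₁ h₁ h₁N h₁S' A₁ hA₁ σ₁ hσ₁ b₁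
      (fun x hx => hb₁ x ((le_sup_of_le_right (le_iSup LQ ⟨Q, hQ⟩) : LQ ⟨Q, hQ⟩ ≤ L) hx))
      ℓ₂ h₂ h₂N h₂S' A₂ hA₂ σ₂ hσ₂ b₂
      (fun x hx => hb₂ x ((le_sup_of_le_right (le_iSup LQ ⟨Q, hQ⟩) : LQ ⟨Q, hQ⟩ ≤ L) hx))
  obtain ⟨z, hz⟩ := exists_eq_zsmul_of_tmul_eq p n _ _ hy
  have hpT : (p : T) ∈ maximalIdeal T := by
    rw [← map_natCast (algebraMap 𝒪 T) p]
    exact map_nonunit (algebraMap 𝒪 T) _ hp𝒪
  have hdiff : H.π (frobTraceElt h₁ h₁N h₁S' b₁) - H.π (frobTraceElt h₂ h₂N h₂S' b₂) ∈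
      maximalIdeal T ^ n := by
    rw [← map_sub, hz, zsmul_eq_mul, map_mul, Int.cast_pow, map_pow, Int.cast_natCast, map_natCast]
    exact Ideal.mul_mem_right _ _ (Ideal.pow_mem_pow hpT n)
  rw [frobTraceElt, frobTraceElt, map_lucasTr, map_lucasTr, map_natCast, map_natCast] at hdiff
  have hle : LT ≤ L := le_sup_left
  have e1 := trace_sub_lucasTr_mem H.ρ n hLT (fun x hx => hb₁ x (hle hx))
    (H.charpoly_frob ℓ₁ h₁ h₁N h₁S' A₁ hA₁ σ₁ hσ₁)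
  have e2 := trace_sub_lucasTr_mem H.ρ n hLT (fun x hx => hb₂ x (hle hx))
    (H.charpoly_frob ℓ₂ h₂ h₂N h₂S' A₂ hA₂ σ₂ hσ₂)
  convert add_mem (sub_mem e1 e2) hdiff using 1
  ring

end Fermat.Agent.EichlerShimura
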