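import Mathlib
import Fermat.Prelude.Def_FreyPackage_EigenformResidualAttachment
import Fermat.Prelude.Def_GaloisRep_Residual
import Fermat.Agent.Density.BrauerNesbitt
import Fermat.Agent.EC.Torsion.Galois
import Fermat.Agent.Endgame.FreyCurve

/-!
# Statement S42 from residual representations attached to eigenforms
-/

noncomputable section

set_option autoImplicit false
set_option linter.style.haveILetI false

open Polynomial WeierstrassCurve.Affine.Point

namespace Fermat.Agent.EichlerShimura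

/-- Trace and determinant of a rank two endomorphism from its characteristic polynomial. -/
theorem trace_det_of_charpoly_finrank_two {k V : Type*} [Field k] [AddCommGroup V] [Module k V]
    (hV : Module.finrank k V = 2) [Module.Finite k V] (f : Module.End k V) {t d : k}
    (h : LinearMap.charpoly f = X ^ 2 - C t * X + C d) :
    LinearMap.trace k V f = t ∧ LinearMap.det f = d := by
  let b := Module.finBasisOfFinrankEq k V hV
  have h' : (LinearMap.toMatrix b b f).charpoly = X ^ 2 - C t * X + C d :=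
    (LinearMap.charpoly_toMatrix f b).trans h
  rw [Density.charpoly_fin_two_eq] at h'
  rw [LinearMap.trace_eq_matrix_trace k b f, ← LinearMap.det_toMatrix b]
  refine ⟨?_, ?_⟩
  · have h1 := congrArg (fun q => Polynomial.coeff q 1) h'
    simpa [Polynomial.coeff_X_pow, Polynomial.coeff_C] using h1
  · have h0 := congrArg (fun q => Polynomial.coeff q 0) h'
    simpa [Polynomial.coeff_X_pow, Polynomial.coeff_C] using h0

/-- A prime different from the characteristic is nonzero. -/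
theorem natCast_ne_zero_of_prime_ne {K : Type*} [Field K] {p ℓ : ℕ} [CharP K p] (hp : p.Prime)
    (hℓ : ℓ.Prime) (h : ℓ ≠ p) : (ℓ : K) ≠ 0 := fun h0 => h <| by
  rw [CharP.cast_eq_zero_iff K p] at h0
  exact ((Nat.prime_dvd_prime_iff_eq hp hℓ).mp h0).symm

/-- Statement S42, given statement S29 at level `M`. -/
theorem eigenformResidualAttachmentAt_of (P : FreyPackage) (M : ℕ)
    (hS29 : ∀ (g : CuspForm (CongruenceSubgroup.Gamma0 M) 2), g.IsNormalizedEigenform →
      ∀ {k : Type} [Field k] [CharP k P.p] (φ : integralClosure ℤ ℂ →+* k),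
        ∃ ρ : ResidualGaloisRep k, ρ.IsAttachedTo g φ) :
    P.EigenformResidualAttachmentAt M := by
  intro g hg 𝔪 h𝔪 hp𝔪
  haveI := h𝔪
  letI : Field (integralClosure ℤ ℂ ⧸ 𝔪) := Ideal.Quotient.field 𝔪
  have hp0 : (P.p : integralClosure ℤ ℂ ⧸ 𝔪) = 0 := by
    rw [← map_natCast (Ideal.Quotient.mk 𝔪), Ideal.Quotient.eq_zero_iff_mem]
    exact hp𝔪
  haveI : CharP (integralClosure ℤ ℂ ⧸ 𝔪) P.p :=
    (CharP.charP_iff_prime_eq_zero P.pp).mpr hp0
  letI : Algebra (ZMod P.p) (integralClosure ℤ ℂ ⧸ 𝔪) := ZMod.algebra _ _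
  obtain ⟨ρ, hρ⟩ := hS29 g hg (Ideal.Quotient.mk 𝔪)
  haveI : P.freyCurve.IsElliptic := Endgame.freyCurve_isElliptic P
  obtain ⟨L₁, hL₁, h₁⟩ := ρ.factorsThroughFiniteLevel
  obtain ⟨L₂, hL₂, h₂⟩ :=
    EC.galoisRepModuleEnd_factorsThroughFiniteLevel P.freyCurve P.pp.ne_zero
  haveI := hL₁
  haveI := hL₂
  let F := IntermediateField.normalClosure ℚ (L₁ ⊔ L₂ : IntermediateField ℚ (AlgebraicClosure ℚ))
    (AlgebraicClosure ℚ)
  have hle : L₁ ⊔ L₂ ≤ F := IntermediateField.le_normalClosure _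
  haveI : NumberField F := { }
  haveI : Algebra.IsAlgebraic ℚ (AlgebraicClosure ℚ) := AlgebraicClosure.isAlgebraic ℚ
  haveI : IsAlgClosure ℚ (AlgebraicClosure ℚ) := ⟨inferInstance, inferInstance⟩
  haveI : Normal ℚ (AlgebraicClosure ℚ) := IsAlgClosure.normal ℚ (AlgebraicClosure ℚ)
  haveI : Normal ℚ F := normalClosure.normal ℚ _ (AlgebraicClosure ℚ)
  haveI : IsGalois ℚ F := ⟨⟩
  refine ⟨_, inferInstance, inferInstance, ρ.V, inferInstance, inferInstance, ρ.ρ,
    Ideal.Quotient.mk 𝔪, F, inferInstance, inferInstance, inferInstance, inferInstance,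
    inferInstance, Ideal.mk_ker.ge, ρ.finrank_eq, fun σ hσ => ?_, ?_, ?_⟩
  · have hfix : ∀ x ∈ L₁ ⊔ L₂, σ x = x := fun x hx => by
      have := AlgEquiv.restrictNormal_commutes σ F ⟨x, hle hx⟩
      rw [show AlgEquiv.restrictNormal σ F = 1 from MonoidHom.mem_ker.mp hσ] at this
      exact this.symm
    refine Subgroup.mem_inf.mpr
      ⟨MonoidHom.mem_ker.mpr ?_, MonoidHom.mem_ker.mpr (h₁ σ fun x hx => hfix x (le_sup_left (a := L₁) hx))⟩
    convert h₂ σ fun x hx => hfix x (le_sup_right (b := L₂) hx)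
  · intro ℓ hℓ hℓM hℓp A hA τ hτ
    obtain ⟨a, ha, hc⟩ := hρ ℓ hℓ hℓM (natCast_ne_zero_of_prime_ne P.pp hℓ hℓp) A hA τ hτ
    exact ⟨a, ha, (trace_det_of_charpoly_finrank_two ρ.finrank_eq _ hc).1⟩
  · intro ℓ hℓ hℓM hℓp A hA τ hτ
    obtain ⟨a, -, hc⟩ := hρ ℓ hℓ hℓM (natCast_ne_zero_of_prime_ne P.pp hℓ hℓp) A hA τ hτ
    exact (trace_det_of_charpoly_finrank_two ρ.finrank_eq _ hc).2

end Fermat.Agent.EichlerShimura
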